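import Fermat.Agent.ModCurve.Fun.ModEq
import Fermat.Agent.ES.Series

/-!
# Laurent series with bounded pole order
-/

set_option autoImplicit false

noncomputable section

open Polynomial ModularCurve
open FermatAgent.ModFun

namespace FermatAgent.BadRed.Carayol.Instance

variable {R S : Type*} [CommRing R] [CommRing S]

/-- Pole order at most `n`. -/
def PoleLE (n : ℕ) (s : LaurentSeries R) : Prop := ∀ m : ℤ, m < -n → s.coeff m = 0

theorem poleLE_one : PoleLE 0 (1 : LaurentSeries R) := fun m hm => by
  rw [HahnSeries.coeff_one, if_neg (by omega)]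

theorem poleLE_zero (n : ℕ) : PoleLE n (0 : LaurentSeries R) := fun m _ => by simp

theorem PoleLE.mono {n k : ℕ} (h : n ≤ k) {s : LaurentSeries R} (hs : PoleLE n s) : PoleLE k s :=
  fun m hm => hs m (by omega)

theorem PoleLE.sub {n : ℕ} {s t : LaurentSeries R} (hs : PoleLE n s) (ht : PoleLE n t) :
    PoleLE n (s - t) := fun m hm => by simp [hs m hm, ht m hm]

theorem PoleLE.mul {n k : ℕ} {s t : LaurentSeries R} (hs : PoleLE n s) (ht : PoleLE k t) :
    PoleLE (n + k) (s * t) := fun m hm => by
  rw [HahnSeries.coeff_mul]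
  refine Finset.sum_eq_zero fun ij hij => ?_
  simp only [Finset.mem_antidiagonal, HahnSeries.mem_support] at hij
  rcases (by omega : ij.1 < -(n : ℤ) ∨ ij.2 < -(k : ℤ)) with h | h
  · rw [hs _ h, zero_mul]
  · rw [ht _ h, mul_zero]

theorem poleLE_single_mul (k : ℕ) (U : PowerSeries R) :
    PoleLE k (HahnSeries.single (-(k : ℤ)) (1 : R) * HahnSeries.ofPowerSeries ℤ R U) := fun m hm => by
  rw [HahnSeries.coeff_single_mul, one_mul]
  exact ofPowerSeries_coeff_of_neg _ (by omega)

/-- Coefficients of `∏ (X - s i)`. -/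
theorem poleLE_coeff_prod {ι : Type*} (t : Finset ι) (s : ι → LaurentSeries R) (n : ι → ℕ)
    (h : ∀ i ∈ t, PoleLE (n i) (s i)) (k : ℕ) :
    PoleLE (∑ i ∈ t, n i) ((∏ i ∈ t, (X - C (s i))).coeff k) := by
  classical
  induction t using Finset.induction_on generalizing k with
  | empty =>
    rw [Finset.prod_empty, Polynomial.coeff_one]
    split_ifs
    · exact poleLE_one
    · exact poleLE_zero _
  | insert a t ha ih =>
    rw [Finset.prod_insert ha, Finset.sum_insert ha, sub_mul, coeff_sub, coeff_C_mul]
    have h' := fun i hi => h i (Finset.mem_insert_of_mem hi)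
    refine PoleLE.sub ?_ ((h a (Finset.mem_insert_self _ _)).mul (ih h' k))
    cases k with
    | zero => rw [coeff_X_mul_zero]; exact poleLE_zero _
    | succ k => rw [coeff_X_mul]; exact (ih h' k).mono (Nat.le_add_left _ _)

theorem PoleLE.coeffMap {n : ℕ} {s : LaurentSeries R} (hs : PoleLE n s) (f : R →+* S) :
    PoleLE n (coeffMap f s) := fun m hm => by simp [hs m hm]

theorem PoleLE.qExpand {n : ℕ} {s : LaurentSeries R} (hs : PoleLE n s) (d : ℕ) [NeZero d] :
    PoleLE (d * n) (qExpand R d s) := fun m hm => by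
  by_cases hd : (d : ℤ) ∣ m
  · obtain ⟨k, rfl⟩ := hd
    rw [qExpand_coeff_mul]
    refine hs k (lt_of_mul_lt_mul_left (a := (d : ℤ)) ?_ (Int.natCast_nonneg d))
    push_cast at hm
    linarith
  · rw [qExpand_coeff_of_not_dvd d _ hd]

theorem PoleLE.twist {n : ℕ} {s : LaurentSeries R} (hs : PoleLE n s) (ζ : Rˣ) :
    PoleLE n (twist ζ s) := fun m hm => by simp [hs m hm]

theorem coeffMap_comm_qExpand (f : R →+* S) (d : ℕ) [NeZero d] (x : LaurentSeries R) :
    ModularCurve.coeffMap f (ModularCurve.qExpand R d x)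
      = ModularCurve.qExpand S d (ModularCurve.coeffMap f x) := by
  ext k
  by_cases hk : (d : ℤ) ∣ k
  · obtain ⟨m, rfl⟩ := hk
    simp only [coeffMap_coeff, qExpand_coeff_mul]
  · simp only [coeffMap_coeff, qExpand_coeff_of_not_dvd d _ hk, map_zero]

theorem coeffMap_twist (f : R →+* S) (ζ : Rˣ) (x : LaurentSeries R) :
    ModularCurve.coeffMap f (FermatAgent.ModFun.twist ζ x)
      = FermatAgent.ModFun.twist (Units.map f.toMonoidHom ζ) (ModularCurve.coeffMap f x) := by
  ext k
  simp [← map_zpow]

theorem twist_one (x : LaurentSeries R) : FermatAgent.ModFun.twist (1 : Rˣ) x = x := by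
  ext k
  simp

/-- A series with a simple pole with coefficient `1` satisfies no polynomial equation. -/
theorem eq_zero_of_aeval_pole {K : Type*} [Field K] {x : LaurentSeries K} {d : ℕ} (hd : 0 < d)
    (hx : PoleLE d x) (hlead : x.coeff (-d : ℤ) ≠ 0) {p : K[X]} (h : Polynomial.aeval x p = 0) :
    p = 0 := by
  have hpole : ∀ i : ℕ, PoleLE (d * i) (x ^ i) := fun i => by
    induction i with
    | zero => simpa using poleLE_one
    | succ i ih => rw [pow_succ, mul_add, mul_one]; exact ih.mul hx
  have htop : ∀ i : ℕ, (x ^ i).coeff (-(d * i : ℕ) : ℤ) = x.coeff (-d : ℤ) ^ i := fun i => by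
    induction i with
    | zero => simp
    | succ i ih =>
      rw [pow_succ, HahnSeries.coeff_mul,
        Finset.sum_eq_single ((-(d * i : ℕ) : ℤ), (-d : ℤ)), ih, ← pow_succ]
      · intro ij hij hne
        simp only [Finset.mem_antidiagonal, HahnSeries.mem_support] at hij
        rcases (by
          by_contra hh
          rw [not_or, not_lt, not_lt] at hh
          refine hne (Prod.ext ?_ ?_) <;> push_cast at hij hh ⊢ <;> linarith :
            ij.1 < -(d * i : ℕ) ∨ ij.2 < -(d : ℤ)) with h | h
        · exact absurd (hpole i _ h) hij.1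
        · exact absurd (hx _ h) hij.2.1
      · intro hni
        simp only [Finset.mem_antidiagonal, HahnSeries.mem_support, not_and_or, not_not] at hni
        rcases hni with h | h | h
        · rw [h, zero_mul]
        · rw [h, mul_zero]
        · exact absurd (by push_cast; ring) h
  by_contra hp
  have := congrArg (fun z : LaurentSeries K => z.coeff (-(d * p.natDegree : ℕ) : ℤ)) h
  simp only [Polynomial.aeval_eq_sum_range, HahnSeries.coeff_sum, HahnSeries.coeff_zero,
    Algebra.smul_def, algebraMap_laurentSeries_eq_single, HahnSeries.coeff_single_mul,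
    sub_zero] at this
  rw [Finset.sum_eq_single p.natDegree, htop] at this
  · exact mul_ne_zero (Polynomial.leadingCoeff_ne_zero.mpr hp) (pow_ne_zero _ hlead) this
  · intro i hi hne
    rw [Finset.mem_range] at hi
    rw [hpole i _ (neg_lt_neg (Int.ofNat_lt.mpr (Nat.mul_lt_mul_of_pos_left (by omega) hd))),
      mul_zero]
  · simp

/-- In characteristic `p`, a series with coefficients in the prime field. -/
theorem pow_eq_qExpand {K : Type*} [Field K] (p : ℕ) [Fact p.Prime] [CharP K p]
    (f : ℤ →+* K) (s : LaurentSeries ℤ) :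
    haveI : NeZero p := ⟨(Fact.out : p.Prime).ne_zero⟩
    (ModularCurve.coeffMap f s) ^ p = ModularCurve.qExpand K p (ModularCurve.coeffMap f s) := by
  have : NeZero p := ⟨(Fact.out : p.Prime).ne_zero⟩
  rw [FermatAgent.ES.pow_char_eq p, coeffMap_comm_qExpand, coeffMap_coeffMap,
    RingHom.ext_int ((frobenius K p).comp f) f]

end FermatAgent.BadRed.Carayol.Instance
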