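import Fermat.Agent.BadRed.Carayol.Instance.Psi
import Fermat.Agent.BadRed.Carayol.Instance.Laurent
import Fermat.Agent.ModCurve.Fun.Psi
import Fermat.Agent.ModCurve.Fun.AtkinLehner
import Fermat.Agent.ModCurve.Fun.Instances
import Fermat.Agent.BadRed.Carayol.Defs
import Fermat.Prelude.Def_ModularCurve_HeckeOperator

/-!
# The tower of levels `N`, `Nq`, `Nq²`
-/

set_option autoImplicit false

noncomputable section

open IntermediateField ModularCurve
open FermatAgent.ModFun

namespace FermatAgent.BadRed.Carayol.Instance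

/-- The function field of level `M` over `K`. -/
abbrev LevelField (K : Type*) [Field K] [Algebra ℚ K] (M : ℕ) : IntermediateField K (LaurentSeries K) :=
  laurentBaseChange K (modularFunctionFieldFull M)

section Degree

variable {K A B C : Type*} [Field K] [Field A] [Field B] [Field C] [Algebra K A] [Algebra K B]
  [Algebra K C]

/-- The degree of a field map. -/
def degreeAlong (φ : A →ₐ[K] B) : ℕ :=
  letI := φ.toRingHom.toAlgebra
  Module.finrank A B

theorem degreeAlong_eq_fieldRange (φ : A →ₐ[K] B) :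
    degreeAlong φ = Module.finrank φ.fieldRange B := by
  let := φ.toRingHom.toAlgebra
  exact Algebra.finrank_eq_of_equiv_equiv (AlgEquiv.ofInjectiveField φ).toRingEquiv (RingEquiv.refl B)
    (RingHom.ext fun a => rfl)

theorem degreeAlong_comp (f : A →ₐ[K] B) (g : B →ₐ[K] C) :
    degreeAlong (g.comp f) = degreeAlong f * degreeAlong g := by
  let := f.toRingHom.toAlgebra
  let := g.toRingHom.toAlgebra
  let := (g.comp f).toRingHom.toAlgebra
  have : IsScalarTower A B C := IsScalarTower.of_algebraMap_eq fun a => rfl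
  exact (Module.finrank_mul_finrank A B C).symm

theorem degreeAlong_equiv_comp (φ : A →ₐ[K] B) (e : B ≃ₐ[K] C) :
    degreeAlong (e.toAlgHom.comp φ) = degreeAlong φ := by
  let := φ.toRingHom.toAlgebra
  let := (e.toAlgHom.comp φ).toRingHom.toAlgebra
  exact (Algebra.finrank_eq_of_equiv_equiv (RingEquiv.refl A) e.toRingEquiv
    (RingHom.ext fun a => rfl)).symm

theorem finite_of_degreeAlong {φ : A →ₐ[K] B} (h : degreeAlong φ ≠ 0) :
    letI := φ.toRingHom.toAlgebra
    FiniteDimensional A B :=
  letI := φ.toRingHom.toAlgebra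
  Module.finite_of_finrank_pos (Nat.pos_of_ne_zero h)

end Degree

variable (K : Type*) [Field K] [Algebra ℚ K]

theorem heckeAlphaBar_jBar (M q : ℕ) [NeZero M] [NeZero q] :
    heckeAlphaBar K M q (jBar K M) = jBar K (M * q) :=
  Subtype.ext (coe_heckeAlphaBar M q _)

/-- The degree of the forgetful map is the ratio of the indices. -/
theorem degreeAlong_heckeAlphaBar (M q : ℕ) [NeZero M] [NeZero q] :
    degreeAlong (heckeAlphaBar K M q) * dedekindPsi M = dedekindPsi (M * q) := by
  set φ := heckeAlphaBar K M q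
  have hmap : (K⟮jBar K M⟯).map φ = K⟮jBar K (M * q)⟯ := by
    rw [adjoin_map, Set.image_singleton, heckeAlphaBar_jBar]
  have hle : K⟮jBar K (M * q)⟯ ≤ φ.fieldRange := by
    rw [← hmap]; exact fun x hx => by
      obtain ⟨y, -, rfl⟩ := IntermediateField.mem_map _ |>.mp hx
      exact ⟨y, rfl⟩
  have hrel : relfinrank K⟮jBar K (M * q)⟯ φ.fieldRange = dedekindPsi M := by
    rw [← hmap, φ.fieldRange_eq_map, relfinrank_map_map, relfinrank_top_right,
      finrank_adjoin_jBar_eq_dedekindPsi]
  rw [degreeAlong_eq_fieldRange, ← hrel, mul_comm, relfinrank_mul_finrank_top hle,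
    finrank_adjoin_jBar_eq_dedekindPsi]

variable {q : ℕ} [hq : Fact q.Prime] (N : ℕ) [NeZero N]

theorem dedekindPsi_pos (M : ℕ) [NeZero M] : 0 < dedekindPsi M := by
  rw [← ModCurveGroup.index_gamma0]; exact index_pos M

theorem degreeAlong_s (hqN : ¬ q ∣ N) : degreeAlong (heckeAlphaBar K N q) = q + 1 := by
  have h := degreeAlong_heckeAlphaBar K N q
  rw [dedekindPsi_mul_prime hq.out (NeZero.ne N) hqN] at h
  exact Nat.eq_of_mul_eq_mul_right (dedekindPsi_pos N) h

theorem degreeAlong_α : degreeAlong (heckeAlphaBar K (N * q) q) = q := by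
  have h := degreeAlong_heckeAlphaBar K (N * q) q
  rw [dedekindPsi_mul_dvd hq.out (NeZero.ne _) (dvd_mul_left q N)] at h
  exact Nat.eq_of_mul_eq_mul_right (dedekindPsi_pos (N * q)) h

omit hq in
theorem coeffEmb_qExpand_comm [NeZero q] (x : LaurentSeries ℚ) :
    coeffEmb K (qExpand ℚ q x) = qExpand K q (coeffEmb K x) :=
  coeffMap_comm_qExpand _ q x

theorem atkinLehner_eq_qExpand [NeZero (q * N)] (hco : q.Coprime N) {y : LaurentSeries ℚ}
    (hy : y ∈ modularFunctionFieldFull N) :
    (atkinLehner hco ⟨y, full_degeneracy_le (dvd_mul_left N q) hy⟩ : LaurentSeries ℚ)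
      = qExpand ℚ q y := by
  induction hy using IntermediateField.adjoin_induction with
  | mem x hx =>
    obtain ⟨d, hne, hd, rfl⟩ := hx
    rw [qExpand_qExpand]
    exact (atkinLehner_qExpand hco hd).1
  | algebraMap c =>
    have e : (⟨algebraMap ℚ (LaurentSeries ℚ) c, full_degeneracy_le (dvd_mul_left N q)
        ((modularFunctionFieldFull N).algebraMap_mem c)⟩ : modularFunctionFieldFull (q * N)) =
        (c : modularFunctionFieldFull (q * N)) := Subtype.ext (by simp)
    rw [e, map_ratCast, eq_ratCast, map_ratCast]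
    simp
  | add a b ha hb iha ihb =>
    show ((atkinLehner hco (⟨a, full_degeneracy_le (dvd_mul_left N q) ha⟩ +
      ⟨b, full_degeneracy_le (dvd_mul_left N q) hb⟩) : modularFunctionFieldFull (q * N)) :
        LaurentSeries ℚ) = _
    rw [map_add, AddMemClass.coe_add, iha, ihb, map_add]
  | inv a ha iha =>
    show ((atkinLehner hco (⟨a, full_degeneracy_le (dvd_mul_left N q) ha⟩⁻¹) :
      modularFunctionFieldFull (q * N)) : LaurentSeries ℚ) = _
    rw [map_inv₀, IntermediateField.coe_inv, iha, map_inv₀]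
  | mul a b ha hb iha ihb =>
    show ((atkinLehner hco (⟨a, full_degeneracy_le (dvd_mul_left N q) ha⟩ *
      ⟨b, full_degeneracy_le (dvd_mul_left N q) hb⟩) : modularFunctionFieldFull (q * N)) :
        LaurentSeries ℚ) = _
    rw [map_mul, MulMemClass.coe_mul, iha, ihb, map_mul]

/-- Levels that agree give the same field. -/
def castLevel {M M' : ℕ} (h : M = M') : LevelField K M ≃ₐ[K] LevelField K M' :=
  h ▸ AlgEquiv.refl

omit hq in
theorem coe_castLevel {M M' : ℕ} (h : M = M') (x : LevelField K M) :
    (castLevel K h x : LaurentSeries K) = x := by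
  subst h; rfl

/-- The Atkin-Lehner involution at `q` of level `Nq`. -/
def swapQ (hco : q.Coprime N) : LevelField K (N * q) ≃ₐ[K] LevelField K (N * q) :=
  haveI : NeZero (q * N) := ⟨Nat.mul_ne_zero hq.out.ne_zero (NeZero.ne N)⟩
  (castLevel K (mul_comm N q)).trans
    ((atkinLehnerBar hco K).trans (castLevel K (mul_comm q N)))

theorem coe_swapQ [NeZero (q * N)] (hco : q.Coprime N) (x : LevelField K (N * q))
    (z : LevelField K (q * N)) (h : (z : LaurentSeries K) = x) :
    (swapQ K N hco x : LaurentSeries K) = (atkinLehnerBar hco K z : LevelField K (q * N)) := by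
  rw [swapQ, AlgEquiv.trans_apply, AlgEquiv.trans_apply, coe_castLevel]
  have : castLevel K (mul_comm N q) x = z := Subtype.ext (by rw [coe_castLevel, h])
  rw [this]

theorem swapQ_comp_alpha (hco : q.Coprime N) :
    (swapQ K N hco).toAlgHom.comp (heckeAlphaBar K N q) = heckeBetaBar K N q := by
  have : NeZero (q * N) := ⟨Nat.mul_ne_zero hq.out.ne_zero (NeZero.ne N)⟩
  refine algHom_ext_toBaseChange K fun y => Subtype.ext ?_
  rw [coe_heckeBetaBar, coe_toBaseChange, ← coeffEmb_qExpand_comm, AlgHom.comp_apply,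
    AlgEquiv.coe_toAlgHom, coe_swapQ K N hco _ (toBaseChange K (modularFunctionFieldFull (q * N))
      ⟨y, full_degeneracy_le (dvd_mul_left N q) y.2⟩)
      (by rw [coe_toBaseChange, coe_heckeAlphaBar, coe_toBaseChange]),
    atkinLehnerBar_toBaseChange, coe_toBaseChange, atkinLehner_eq_qExpand N hco y.2]

theorem swapQ_swapQ (hco : q.Coprime N) (x : LevelField K (N * q)) :
    swapQ K N hco (swapQ K N hco x) = x := by
  have : NeZero (q * N) := ⟨Nat.mul_ne_zero hq.out.ne_zero (NeZero.ne N)⟩
  refine Subtype.ext ?_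
  rw [coe_swapQ K N hco _ (atkinLehnerBar hco K (castLevel K (mul_comm N q) x))
      (coe_swapQ K N hco x _ (coe_castLevel K _ x)).symm,
    atkinLehnerBar_atkinLehnerBar, coe_castLevel]

theorem swapQ_comp_beta (hco : q.Coprime N) :
    (swapQ K N hco).toAlgHom.comp (heckeBetaBar K N q) = heckeAlphaBar K N q := by
  rw [← swapQ_comp_alpha K N hco]
  ext x : 1
  exact swapQ_swapQ K N hco _

theorem degreeAlong_t (hqN : ¬ q ∣ N) : degreeAlong (heckeBetaBar K N q) = q + 1 := by
  rw [← swapQ_comp_alpha K N (hq.out.coprime_iff_not_dvd.mpr hqN), degreeAlong_equiv_comp,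
    degreeAlong_s K N hqN]

theorem middle :
    (heckeAlphaBar K (N * q) q).comp (heckeBetaBar K N q) =
      (heckeBetaBar K (N * q) q).comp (heckeAlphaBar K N q) := by
  refine AlgHom.ext fun x => Subtype.ext ?_
  simp

theorem degreeAlong_β (hqN : ¬ q ∣ N) : degreeAlong (heckeBetaBar K (N * q) q) = q := by
  have h := congrArg degreeAlong (middle K N (q := q))
  rw [degreeAlong_comp, degreeAlong_comp, degreeAlong_t K N hqN, degreeAlong_α K N,
    degreeAlong_s K N hqN] at h
  exact (Nat.eq_of_mul_eq_mul_left (Nat.succ_pos q) h).symm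

/-- The tower of levels `N`, `Nq`, `Nq²`. -/
def tower (hqN : ¬ q ∣ N) :
    QTower q K (LevelField K N) (LevelField K (N * q)) (LevelField K (N * q * q)) where
  s := heckeAlphaBar K N q
  t := heckeBetaBar K N q
  α := heckeAlphaBar K (N * q) q
  β := heckeBetaBar K (N * q) q
  middle := middle K N
  degree_s := degreeAlong_s K N hqN
  degree_t := degreeAlong_t K N hqN
  degree_α := degreeAlong_α K N
  degree_β := degreeAlong_β K N hqN

end FermatAgent.BadRed.Carayol.Instance
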