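import Fermat.Agent.MazurPrinciple.InertiaField
import Fermat.Agent.Igusa.GoodRed.Concrete
import Fermat.Agent.ModCurve.Fun.BaseChange
import Fermat.Agent.BadRed.Carayol.Instance.Tower
import Mathlib.RingTheory.DiscreteValuationRing.Basic

/-!
# The base ring: integers of an inertia field
-/

set_option autoImplicit false

noncomputable section

open Polynomial IsLocalRing

namespace FermatAgent.BadRed.Carayol.Instance

local notation "Qb" => AlgebraicClosure ℚ

open FermatAgent.MazurPrinciple (inertiaField)

variable (A : ValuationSubring Qb) {q : ℕ}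

/-- The integers of the inertia field of `A`. -/
def inertiaRing : ValuationSubring (inertiaField A) :=
  A.comap (inertiaField A).val.toRingHom

/-! The instances found by the standard search, as shortcuts: each search costs seconds. -/

instance (priority := 10000) inertiaRingFieldAlgebra : Algebra (inertiaRing A) (inertiaField A) :=
  (inertiaRing A).instAlgebraSubtypeMem

instance (priority := 10000) inertiaRingFieldModule : Module (inertiaRing A) (inertiaField A) :=
  Algebra.toModule

instance (priority := 10000) inertiaRingFieldFaithful :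
    FaithfulSMul (inertiaRing A) (inertiaField A) :=
  (faithfulSMul_iff_algebraMap_injective _ _).mpr Subtype.val_injective

instance (priority := 10000) inertiaFieldLevelAlgebra (M : ℕ) :
    Algebra (inertiaField A) (LevelField (inertiaField A) M) :=
  ModFun.laurentBaseChangeAlgebra _ _

instance (priority := 10000) inertiaRingLevelAlgebra (M : ℕ) :
    Algebra (inertiaRing A) (LevelField (inertiaField A) M) :=
  Algebra.ofSubsemiring (inertiaRing A)

instance (priority := 10000) inertiaRingLevelSMul (M : ℕ) :
    SMul (inertiaRing A) (LevelField (inertiaField A) M) :=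
  (Algebra.ofSubsemiring (inertiaRing A)).toSMul

instance (priority := 10000) inertiaRingLevelModule (M : ℕ) :
    Module (inertiaRing A) (LevelField (inertiaField A) M) :=
  Algebra.toModule

instance (priority := 10000) inertiaRingLevelFaithful (M : ℕ) :
    FaithfulSMul (inertiaRing A) (LevelField (inertiaField A) M) :=
  (faithfulSMul_iff_algebraMap_injective _ _).mpr fun _ _ h => Subtype.ext
    ((algebraMap (inertiaField A) (LevelField (inertiaField A) M)).injective h)

instance isScalarTower_inertiaRing (M : ℕ) :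
    IsScalarTower (inertiaRing A) (inertiaField A) (LevelField (inertiaField A) M) :=
  IsScalarTower.of_algebraMap_eq fun _ => rfl

/-- The inclusion in `A`. -/
def inertiaIncl : inertiaRing A →+* A where
  toFun x := ⟨((x : inertiaField A) : Qb), x.2⟩
  map_one' := rfl
  map_mul' _ _ := rfl
  map_zero' := rfl
  map_add' _ _ := rfl

/-- Reduction of the integers of the inertia field. -/
def inertiaRes : inertiaRing A →+* ResidueField A := (residue A).comp (inertiaIncl A)

/-- The embedding of the inertia field in `ℂ`. -/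
def inertiaToC : inertiaField A →ₐ[ℚ] ℂ := ModFun.qbarToC.comp (inertiaField A).val

variable {A}

theorem inertiaRes_surjective (hq : q.Prime) (hA : A.LiesOverPrime q) :
    Function.Surjective (inertiaRes A) := fun c => by
  obtain ⟨a, ha, rfl⟩ := MazurPrinciple.exists_lift_inertiaField hq hA (residue A)
    IsLocalRing.residue_surjective c
  exact ⟨⟨⟨(a : Qb), ha⟩, a.2⟩, rfl⟩

theorem natCast_ne_zero_inertiaRing (hq : q.Prime) : ((q : ℕ) : inertiaRing A) ≠ 0 := fun h =>
  hq.ne_zero (by
    have h' := (congrArg (inertiaRing A).subtype h).trans (map_zero _)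
    rw [map_natCast] at h'
    exact_mod_cast h')

theorem exists_eq_unit_mul_pow (hq : q.Prime) (hA : A.LiesOverPrime q) {x : inertiaRing A}
    (hx : x ≠ 0) : ∃ (n : ℕ) (u : (inertiaRing A)ˣ), x = (q : inertiaRing A) ^ n * u := by
  set z : inertiaField A := (x : inertiaField A) with hz
  have hz0 : (z : Qb) ≠ 0 := fun h => hx (Subtype.ext (Subtype.ext h))
  obtain ⟨k, hk⟩ := MazurPrinciple.val_inertiaField hq hA (z : Qb) z.2 hz0
  have hv1 := Local.val_natCast_lt_one hA
  have hv0 : A.valuation (q : Qb) ≠ 0 := (_root_.map_ne_zero _).2 (Nat.cast_ne_zero.mpr hq.ne_zero)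
  have hk0 : 0 ≤ k := by
    by_contra! hneg
    have h1 : A.valuation (q : Qb) ^ k ≤ 1 := hk ▸ (A.valuation_le_one_iff _).mpr x.2
    obtain ⟨m, rfl⟩ : ∃ m : ℕ, k = -((m + 1 : ℕ) : ℤ) := ⟨(-k).toNat - 1, by omega⟩
    rw [zpow_neg, zpow_natCast, inv_le_one₀ (zero_lt_iff.2 (pow_ne_zero _ hv0))] at h1
    exact absurd h1 (pow_lt_one₀ zero_le hv1 (Nat.succ_ne_zero m)).not_ge
  obtain ⟨n, rfl⟩ := Int.eq_ofNat_of_zero_le hk0
  rw [zpow_natCast] at hk
  set w : inertiaField A := z / (q : inertiaField A) ^ n with hw
  have hqn : (q : inertiaField A) ^ n ≠ 0 := pow_ne_zero _ (Nat.cast_ne_zero.mpr hq.ne_zero)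
  have hwv : A.valuation (w : Qb) = 1 := by
    rw [hw, IntermediateField.coe_div, SubmonoidClass.coe_pow, map_div₀, map_pow, hk]
    simp [hv0]
  have hmem : w ∈ inertiaRing A := (A.valuation_le_one_iff _).mp hwv.le
  have hinv : w⁻¹ ∈ inertiaRing A := (A.valuation_le_one_iff _).mp (by
    show A.valuation ((w⁻¹ : inertiaField A) : Qb) ≤ 1
    rw [IntermediateField.coe_inv, map_inv₀, hwv, inv_one])
  have hw0 : w ≠ 0 := div_ne_zero (fun h => hz0 (by rw [h]; rfl)) hqn
  refine ⟨n, ⟨⟨w, hmem⟩, ⟨w⁻¹, hinv⟩, Subtype.ext (mul_inv_cancel₀ hw0),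
    Subtype.ext (inv_mul_cancel₀ hw0)⟩, Subtype.ext ?_⟩
  show z = ((q : inertiaRing A) ^ n : inertiaRing A).1 * w
  rw [SubmonoidClass.coe_pow]
  show z = ((inertiaRing A).subtype (q : inertiaRing A)) ^ n * w
  rw [map_natCast, hw, mul_div_cancel₀ z hqn]

theorem natCast_not_isUnit (hA : A.LiesOverPrime q) : ¬ IsUnit ((q : ℕ) : inertiaRing A) := fun h => by
  have h2 := (h.map (inertiaIncl A))
  rw [map_natCast, A.valuation_eq_one_iff] at h2
  exact (Local.val_natCast_lt_one hA).ne (by simpa using h2)

theorem irreducible_natCast (hq : q.Prime) (hA : A.LiesOverPrime q) :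
    Irreducible ((q : ℕ) : inertiaRing A) := by
  refine irreducible_iff.mpr ⟨natCast_not_isUnit hA, fun a b h => ?_⟩
  have hab : a * b ≠ 0 := h ▸ natCast_ne_zero_inertiaRing hq
  obtain ⟨n, u, rfl⟩ := exists_eq_unit_mul_pow hq hA (left_ne_zero_of_mul hab)
  obtain ⟨m, v, rfl⟩ := exists_eq_unit_mul_pow hq hA (right_ne_zero_of_mul hab)
  rcases Nat.eq_zero_or_pos n with rfl | hn
  · exact Or.inl (by simp)
  rcases Nat.eq_zero_or_pos m with rfl | hm
  · exact Or.inr (by simp)
  exfalso
  obtain ⟨n, rfl⟩ := Nat.exists_eq_add_of_le hn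
  obtain ⟨m, rfl⟩ := Nat.exists_eq_add_of_le hm
  refine natCast_not_isUnit hA (IsUnit.of_mul_eq_one
    ((q : inertiaRing A) ^ (n + m) * (u * v : (inertiaRing A)ˣ)) ?_)
  refine mul_left_cancel₀ (natCast_ne_zero_inertiaRing hq) ?_
  rw [mul_one]
  conv_rhs => rw [h]
  push_cast
  ring

theorem isDiscreteValuationRing_inertiaRing (hq : q.Prime) (hA : A.LiesOverPrime q) :
    IsDiscreteValuationRing (inertiaRing A) :=
  IsDiscreteValuationRing.ofHasUnitMulPowIrreducibleFactorization
    ⟨q, irreducible_natCast hq hA, fun hx => by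
      obtain ⟨n, u, rfl⟩ := exists_eq_unit_mul_pow hq hA hx
      exact ⟨n, ⟨u, rfl⟩⟩⟩

theorem maximalIdeal_inertiaRing (hq : q.Prime) (hA : A.LiesOverPrime q) :
    maximalIdeal (inertiaRing A) = Ideal.span {((q : ℕ) : inertiaRing A)} := by
  have := isDiscreteValuationRing_inertiaRing hq hA
  exact (IsDiscreteValuationRing.irreducible_iff_uniformizer _).mp (irreducible_natCast hq hA)

theorem residue_natCast_inertiaRing (hA : A.LiesOverPrime q) :
    residue (inertiaRing A) ((q : ℕ) : inertiaRing A) = 0 :=
  (residue_eq_zero_iff _).mpr ((mem_maximalIdeal _).mpr (natCast_not_isUnit hA))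

theorem inertiaRes_natCast (hA : A.LiesOverPrime q) : inertiaRes A (q : inertiaRing A) = 0 := by
  rw [inertiaRes, RingHom.comp_apply, residue_eq_zero_iff, mem_maximalIdeal, mem_nonunits_iff,
    map_natCast, A.valuation_eq_one_iff]
  exact fun h => (Local.val_natCast_lt_one hA).ne (by simpa using h)

theorem exists_eq_mul_of_inertiaRes_eq_zero (hq : q.Prime) (hA : A.LiesOverPrime q)
    {a : inertiaRing A} (h : inertiaRes A a = 0) :
    ∃ b, a = (q : inertiaRing A) * b := by
  have hmem : a ∈ maximalIdeal (inertiaRing A) := (mem_maximalIdeal _).mpr fun hu =>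
    (hu.map (inertiaRes A)).ne_zero h
  rw [maximalIdeal_inertiaRing hq hA] at hmem
  exact Ideal.mem_span_singleton.mp hmem

/-- The residue field of the inertia field is that of `A`. -/
def residueEquiv (hq : q.Prime) (hA : A.LiesOverPrime q) :
    ResidueField (inertiaRing A) ≃+* ResidueField A :=
  (Ideal.quotEquivOfEq (IsLocalRing.eq_maximalIdeal
    (RingHom.ker_isMaximal_of_surjective _ (inertiaRes_surjective hq hA))).symm).trans
    (RingHom.quotientKerEquivOfSurjective (inertiaRes_surjective hq hA))

theorem residueEquiv_residue (hq : q.Prime) (hA : A.LiesOverPrime q) (a : inertiaRing A) :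
    residueEquiv hq hA (residue (inertiaRing A) a) = inertiaRes A a := rfl

theorem isAlgClosed_residue_inertiaRing (hq : q.Prime) (hA : A.LiesOverPrime q) :
    IsAlgClosed (ResidueField (inertiaRing A)) :=
  have := Igusa.Down.isAlgClosed_residueField A
  IsAlgClosed.of_ringEquiv _ _ (residueEquiv hq hA).symm

/-- Polynomials separable modulo `q` split in the inertia field. -/
theorem splits_inertiaRing (hq : q.Prime) (hA : A.LiesOverPrime q) {R : ℤ[X]} (hR : R.Monic)
    (hsep : (R.map (Int.castRingHom (ZMod q))).Separable) :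
    (R.map (Int.castRingHom (inertiaRing A))).Splits := by
  have : Fact q.Prime := ⟨hq⟩
  have := Igusa.Down.charP_residueField hq hA
  set RQ := R.map (Int.castRingHom Qb) with hRQ
  have hmemA : ∀ r ∈ RQ.roots, r ∈ A := fun r hr => by
    refine RT.mem_of_isIntegral_int A ⟨R, hR, ?_⟩
    rw [mem_roots (hR.map _).ne_zero, IsRoot.def, eval_map] at hr
    rwa [RingHom.ext_int (algebraMap ℤ Qb) (Int.castRingHom Qb)]
  have hsplitQ : RQ.Splits := IsAlgClosed.splits _
  set roots' : Multiset A := RQ.roots.attach.map fun r => ⟨r.1, hmemA _ r.2⟩ with hroots'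
  have hval : roots'.map (fun a : A => (a : Qb)) = RQ.roots := by
    rw [hroots', Multiset.map_map]
    exact Multiset.attach_map_val _
  clear_value roots'
  clear hroots'
  have hprodA : R.map (Int.castRingHom A) = (roots'.map fun a => X - C a).prod := by
    refine map_injective A.subtype A.subtype_injective ?_
    rw [map_map, RingHom.ext_int (A.subtype.comp (Int.castRingHom A)) (Int.castRingHom Qb), ← hRQ,
      Polynomial.map_multiset_prod, Multiset.map_map]
    conv_lhs => rw [hsplitQ.eq_prod_roots_of_monic (hR.map _), ← hval]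
    rw [Multiset.map_map]
    simp
  have hnod : (roots'.map (residue A)).Nodup := by
    have h := congrArg (Polynomial.map (residue A)) hprodA
    rw [map_map, Polynomial.map_multiset_prod, Multiset.map_map,
      RingHom.ext_int ((residue A).comp (Int.castRingHom A))
        ((ZMod.castHom dvd_rfl (ResidueField A)).comp (Int.castRingHom (ZMod q))), ← map_map] at h
    have h2 : ((R.map (Int.castRingHom (ZMod q))).map (ZMod.castHom dvd_rfl (ResidueField A))) =
        ((roots'.map (residue A)).map fun a => X - C a).prod := by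
      rw [h, Multiset.map_map]
      simp
    rw [← roots_multiset_prod_X_sub_C (roots'.map (residue A)), ← h2]
    exact nodup_roots hsep.map
  have hfix : ∀ a ∈ roots', (a : Qb) ∈ inertiaField A := fun a ha => by
    rw [MazurPrinciple.mem_inertiaField]
    intro σ hσ
    have hσa : σ (a : Qb) ∈ RQ.roots := by
      have har : (a : Qb) ∈ RQ.roots := hval ▸ Multiset.mem_map_of_mem _ ha
      rw [mem_roots (hR.map _).ne_zero, IsRoot.def, eval_map] at har ⊢
      have := congrArg (σ : Qb →+* Qb) har
      rwa [hom_eval₂, map_zero, RingHom.ext_int ((σ : Qb →+* Qb).comp (Int.castRingHom Qb))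
        (Int.castRingHom Qb)] at this
    obtain ⟨b, hb, hbe⟩ := Multiset.mem_map.mp (hval.symm ▸ hσa)
    have hres : residue A b = residue A a := by
      rw [← sub_eq_zero, ← map_sub, residue_eq_zero_iff]
      refine (A.valuation_lt_one_iff _).2 ?_
      show A.valuation ((b : Qb) - a) < 1
      rw [hbe]
      exact Local.inertia_val_sub_lt_one hσ a.2
    rw [← hbe, Multiset.inj_on_of_nodup_map hnod b hb a ha hres]
  set rootsW : Multiset (inertiaRing A) :=
    roots'.attach.map fun a => ⟨⟨(a.1 : Qb), hfix _ a.2⟩, a.1.2⟩ with hrootsW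
  suffices h : R.map (Int.castRingHom (inertiaRing A)) = (rootsW.map fun a => X - C a).prod by
    rw [h]
    exact Splits.multisetProd fun f hf => by
      obtain ⟨a, -, rfl⟩ := Multiset.mem_map.mp hf
      exact Splits.X_sub_C a
  have hinj : Function.Injective (inertiaIncl A) := fun a b h =>
    Subtype.ext (Subtype.ext (congrArg Subtype.val h :))
  refine map_injective _ hinj ?_
  rw [map_map, RingHom.ext_int ((inertiaIncl A).comp (Int.castRingHom _)) (Int.castRingHom A),
    hprodA, Polynomial.map_multiset_prod, hrootsW, Multiset.map_map, Multiset.map_map]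
  conv_lhs => rw [← Multiset.attach_map_val roots', Multiset.map_map]
  congr 1
  refine Multiset.map_congr rfl fun a _ => ?_
  simp [inertiaIncl]

end FermatAgent.BadRed.Carayol.Instance
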