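import Fermat.Agent.BadRed.Carayol.Instance.Etale
import Fermat.Agent.BadRed.Carayol.Assembly.Kill

/-!
# The chart data for bad reduction at `q ^ 2`
-/

set_option autoImplicit false

noncomputable section

open Polynomial
open FermatAgent.MazurPrinciple (inertiaField)

namespace FermatAgent.BadRed.Carayol.Instance

local notation "Qb" => AlgebraicClosure ℚ

variable {A : ValuationSubring Qb} {q : ℕ} [hq : Fact q.Prime] [NeZero q]
  [IsDiscreteValuationRing (inertiaRing A)]

/-- The two charts of a coordinate. -/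
theorem exists_chartData (hA : A.LiesOverPrime q) {L : ℕ} [NeZero L] (hqL : ¬ q ∣ L)
    (H : Hauptmodul q) (hH : H.IsCoord) {R : ℤ[X]} (hR : IsCuspPoly H R) (hR0 : R.coeff 0 = 0)
    (hL : H.L ∣ L)
    (he₀ : EtaleAway q (uElt (inertiaField A) H hL) (cuspSet R (inertiaRing A)))
    (he₁ : EtaleAway q (uElt (inertiaField A) H hL)⁻¹ (inertiaChartInv H hL hR hR0 hA).cusps) :
    ∃ u : LevelField (inertiaField A) L,
      Nonempty (ChartData (inertiaRing A) (tower (inertiaField A) L hqL) u) ∧
      Nonempty (ChartData (inertiaRing A) (tower (inertiaField A) L hqL) u⁻¹) :=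
  ⟨uElt (inertiaField A) H hL, ⟨uChartData hqL H hL hR hR0 hA hH he₀⟩,
    ⟨uInvChartData hqL H hL hR hR0 hA hH he₁⟩⟩

/-- The charts exist at every level divisible by the auxiliary level. -/
theorem chartInput (hA : A.LiesOverPrime q) : ChartInput q A := by
  intro L _ hqL hcL
  by_cases h2 : q = 2
  · subst h2
    have hc : (hauptmodul9 2 rfl).L ∣ L := by rw [coordLevel, if_pos rfl] at hcL; exact hcL
    have hR := hauptmodul9_isCuspPoly (q := 2) rfl
    have hH := hauptmodul9_isCoord 2 rfl
    exact exists_chartData hA hqL _ hH hR (by simp) hc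
      (etaleAway_uElt hA hqL _ hc hR (by simp) hH) (etaleAway_uInv hA hqL _ hc hR (by simp) hH)
  · have hodd : ¬ 2 ∣ q := fun h =>
      h2 ((Nat.prime_dvd_prime_iff_eq Nat.prime_two hq.out).mp h).symm
    have hc : (hauptmodul4 q hodd).L ∣ L := by rw [coordLevel, if_neg h2] at hcL; exact hcL
    have hR := hauptmodul4_isCuspPoly hodd
    have hH := hauptmodul4_isCoord q hodd
    exact exists_chartData hA hqL _ hH hR (by simp) hc
      (etaleAway_uElt hA hqL _ hc hR (by simp) hH) (etaleAway_uInv hA hqL _ hc hR (by simp) hH)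

end FermatAgent.BadRed.Carayol.Instance
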