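import Fermat.Agent.BadRed.Carayol.Defs
import Fermat.Agent.BadRed.Carayol.Instance.Tower
import Fermat.Agent.Igusa.Saturation
import Fermat.Agent.ModCurve.Fun.Descent

/-!
# Reduction of a chart

For a chart variable `v` the special fibre of `chartRing` is the image of reduction.
-/

set_option autoImplicit false
set_option linter.unusedSectionVars false

noncomputable section

open Function Polynomial
open FermatAgent.Igusa FermatAgent.ModFun
open ModularCurve (coeffMap modularFunctionFieldC)

namespace FermatAgent.BadRed.Carayol.Instance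

variable {L : Type*} [Field L] [Algebra ℚ L] (A : ValuationSubring L)
variable {k : Type*} [Field k] (π : A →+* k) [hπ : Fact (Surjective π)]
variable {N : ℕ} [NeZero N] (v : LevelField L N)
variable (ℓ : ℕ) [Fact ℓ.Prime] [CharP k ℓ] (hℓN : ¬ ℓ ∣ N)

theorem coe_algebraMap_level (a : A) :
    ((algebraMap A (LevelField L N) a : LevelField L N) : LaurentSeries L) = HahnSeries.C (a : L) := by
  rw [HahnSeries.C_apply, ← ModularCurve.algebraMap_laurentSeries_eq_single]
  rfl

theorem mem_fieldC_level (x : LevelField L N) :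
    (x : LaurentSeries L) ∈ modularFunctionFieldC L N := by
  rw [← laurentBaseChange_full_eq]; exact x.2

/-- Evaluation of `A`-polynomials at `v` in the function field. -/
def evalLevel : A[X] →+* LevelField L N := (aeval v).toRingHom

theorem coe_evalLevel :
    (LevelField L N).val.toRingHom.comp (evalLevel A v) = evalAtInt A (v : LaurentSeries L) := by
  refine Polynomial.ringHom_ext (fun a => ?_) ?_
  · simp [evalLevel, evalAtInt, evalAt, coe_algebraMap_level A]
  · simp [evalLevel, evalAtInt, evalAt]

theorem exists_monic_root {x : LevelField L N} (hx : x ∈ chartRing A v) :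
    ∃ p : A[X][X], p.Monic ∧
      p.eval₂ (evalAtInt A (v : LaurentSeries L)) (x : LaurentSeries L) = 0 := by
  obtain ⟨q, hqm, hq⟩ := hx
  have hl : q.map (algebraMap (Algebra.adjoin A {v}) (LevelField L N)) ∈ lifts (evalLevel A v) := by
    refine (lifts_iff_coeff_lifts _).mpr fun i => ?_
    rw [coeff_map]
    have h : (q.coeff i : LevelField L N) ∈ (aeval (R := A) v).range := by
      rw [← Algebra.adjoin_singleton_eq_range_aeval]
      exact (q.coeff i).2
    exact h
  obtain ⟨p, hp, -, hpm⟩ := lifts_and_natDegree_eq_and_monic hl (hqm.map _)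
  refine ⟨p, hpm, ?_⟩
  have h0 : p.eval₂ (evalLevel A v) x = 0 := by
    rw [eval₂_eq_eval_map, hp, eval_map]; exact hq
  have := congrArg (LevelField L N).val.toRingHom h0
  rw [hom_eval₂, coe_evalLevel, map_zero] at this
  exact this

theorem mem_chartRing_of_monic_root {x : LevelField L N} {p : A[X][X]} (hp : p.Monic)
    (hroot : p.eval₂ (evalAtInt A (v : LaurentSeries L)) (x : LaurentSeries L) = 0) :
    x ∈ chartRing A v := by
  have hmem : ∀ Q, evalLevel A v Q ∈ Algebra.adjoin A {v} := fun Q =>
    aeval_mem_adjoin_singleton A v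
  refine ⟨p.map ((evalLevel A v).codRestrict (Algebra.adjoin A {v}).toSubring hmem), hp.map _, ?_⟩
  rw [eval₂_map]
  refine (LevelField L N).val.toRingHom.injective ?_
  have h := hom_eval₂ p (evalLevel A v) (LevelField L N).val.toRingHom x
  rw [coe_evalLevel] at h
  rw [map_zero]
  exact h.trans hroot

variable {A}
variable (hv : IsChartVar A π N (v : LaurentSeries L))

theorem evalAtInt_mem_gaussRing (hv : IsChartVar A π N (v : LaurentSeries L)) (Q : A[X]) :
    evalAtInt A (v : LaurentSeries L) Q ∈ gaussRing A π N := by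
  induction Q using Polynomial.induction_on' with
  | add a b ha hb => rw [map_add]; exact add_mem ha hb
  | monomial n a =>
    rw [evalAtInt, RingHom.comp_apply, coe_mapRingHom, map_monomial, evalAt, coe_eval₂RingHom,
      eval₂_monomial]
    exact mul_mem (C_mem_gaussRing _ _ N a) (pow_mem hv.mem _)

include hℓN hv in
theorem mem_gauss_of_mem_chartRing (x : chartRing A v) :
    ((x : LevelField L N) : LaurentSeries L) ∈ gaussRing A π N := by
  obtain ⟨p, hp, hroot⟩ := exists_monic_root A v x.2
  exact mem_gaussRing_of_isIntegral A π N ℓ hℓN (mem_fieldC_level _)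
    (evalAtInt A (v : LaurentSeries L)) (evalAtInt_mem_gaussRing π v hv) hp hroot

/-- Reduction of a chart. -/
def chartRed : chartRing A v →+* LaurentSeries k :=
  (gaussRed A π N).comp
    (((LevelField L N).val.toRingHom.comp (chartRing A v).val.toRingHom).codRestrict
      _ (mem_gauss_of_mem_chartRing π v ℓ hℓN hv))

theorem chartRed_apply (x : chartRing A v) :
    chartRed π v ℓ hℓN hv x =
      gaussRed A π N ⟨_, mem_gauss_of_mem_chartRing π v ℓ hℓN hv x⟩ := rfl

theorem chartRed_algebraMap (a : A) :
    chartRed π v ℓ hℓN hv (algebraMap A (chartRing A v) a) = HahnSeries.C (π a) := by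
  rw [← gaussRed_C A π N a, chartRed_apply]
  exact congrArg (gaussRed A π N) (Subtype.ext (coe_algebraMap_level (N := N) A a))

/-- The variable in its chart. -/
def chartVar : chartRing A v :=
  ⟨v, isIntegral_algebraMap (A := LevelField L N)
    (x := (⟨v, Algebra.self_mem_adjoin_singleton A v⟩ : Algebra.adjoin A {v}))⟩

/-- The reduction of the variable. -/
def varRed : LaurentSeries k := gaussRed A π N ⟨(v : LaurentSeries L), hv.mem⟩

theorem chartRed_chartVar : chartRed π v ℓ hℓN hv (chartVar v) = varRed π v hv := rfl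

/-- Evaluation at the reduction of the variable. -/
def evalRed : k[X] →+* LaurentSeries k := eval₂RingHom HahnSeries.C (varRed π v hv)

theorem chartRed_aeval (P : A[X]) :
    chartRed π v ℓ hℓN hv (aeval (chartVar v) P) = evalRed π v hv (P.map π) := by
  rw [aeval_def, hom_eval₂, evalRed, coe_eval₂RingHom, eval₂_map]
  refine eval₂_congr (RingHom.ext fun a => chartRed_algebraMap π v ℓ hℓN hv a) ?_ rfl
  exact chartRed_chartVar π v ℓ hℓN hv

variable {π}

include hℓN hv in
/-- The kernel of reduction on a chart is generated by a uniformiser. -/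
theorem exists_eq_mul_of_chartRed_eq_zero {ϖ : A} (hϖ : ϖ ≠ 0)
    (hker : ∀ a, π a = 0 → ∃ b, a = ϖ * b) {x : chartRing A v}
    (hx : chartRed π v ℓ hℓN hv x = 0) :
    ∃ y : chartRing A v, x = algebraMap A (chartRing A v) ϖ * y := by
  set X₀ : LaurentSeries L := ((x : LevelField L N) : LaurentSeries L) with hX₀
  rcases eq_or_ne X₀ 0 with h0 | h0
  · exact ⟨0, Subtype.ext (Subtype.ext (by rw [mul_zero]; exact h0))⟩
  have hxg := mem_gauss_of_mem_chartRing π v ℓ hℓN hv x
  obtain ⟨c, o, P, Q, hrep, hc, heq, -, hred⟩ :=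
    exists_eq_C_mul A π N ℓ hℓN (mem_fieldC_level _) h0
  have hcA : c ∈ A :=
    mem_of_red_ne_zero A π N (c := c) (o := ⟨o, P, Q, hrep⟩) (y := ⟨X₀, hxg⟩) heq hred
  have hsplit : (⟨X₀, hxg⟩ : gaussRing A π N) =
      ⟨_, C_mem_gaussRing A π N ⟨c, hcA⟩⟩ * ⟨o, P, Q, hrep⟩ := Subtype.ext heq
  have hπc : π ⟨c, hcA⟩ = 0 := by
    have h := (congrArg (gaussRed A π N) hsplit).symm.trans hx
    rw [map_mul, gaussRed_C] at h
    exact (_root_.map_eq_zero (HahnSeries.C : k →+* LaurentSeries k)).mp
      ((mul_eq_zero.mp h).resolve_right hred)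
  obtain ⟨b, hb⟩ := hker _ hπc
  have hc' : c = (ϖ : L) * b := congrArg Subtype.val hb
  have hl : (ϖ : L) ≠ 0 := fun h => hϖ (Subtype.ext h)
  have hy : HahnSeries.C (ϖ : L)⁻¹ * X₀ ∈ gaussRing A π N := by
    have : HahnSeries.C (ϖ : L)⁻¹ * X₀ = HahnSeries.C (b : L) * o := by
      rw [hX₀, heq, ← mul_assoc, ← map_mul, hc', ← mul_assoc, inv_mul_cancel₀ hl, one_mul]
    rw [this]
    exact mul_mem (C_mem_gaussRing _ _ N b) ⟨P, Q, hrep⟩
  obtain ⟨p, hp, hroot⟩ := exists_monic_root A v x.2
  obtain ⟨p', hp', hroot'⟩ := exists_monic_root_div A π N ℓ hℓN hv hp hroot hl hy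
  set y₀ : LevelField L N := algebraMap L (LevelField L N) (ϖ : L)⁻¹ * (x : LevelField L N) with hy₀
  have hy₀' : (y₀ : LaurentSeries L) = HahnSeries.C (ϖ : L)⁻¹ * X₀ := by
    rw [hy₀, MulMemClass.coe_mul, HahnSeries.C_apply, ← ModularCurve.algebraMap_laurentSeries_eq_single]
    rfl
  rw [← hy₀'] at hroot'
  refine ⟨⟨y₀, mem_chartRing_of_monic_root A v hp' hroot'⟩, Subtype.ext ?_⟩
  show (x : LevelField L N) = algebraMap A (LevelField L N) ϖ * y₀
  rw [hy₀, IsScalarTower.algebraMap_apply A L (LevelField L N), ← mul_assoc, ← map_mul,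
    show algebraMap A L ϖ = (ϖ : L) from rfl, mul_inv_cancel₀ hl, map_one, one_mul]

variable {n : ℕ} (hn : (n : A) ≠ 0) (hπn : π (n : A) = 0)
  (hker : ∀ a, π a = 0 → ∃ b, a = (n : A) * b)

include hn hπn hker hℓN hv in
theorem ker_chartRed :
    RingHom.ker (chartRed π v ℓ hℓN hv) = Ideal.span {(n : chartRing A v)} := by
  refine le_antisymm (fun x hx => ?_) ?_
  · obtain ⟨y, hy⟩ := exists_eq_mul_of_chartRed_eq_zero v ℓ hℓN hv hn hker hx
    rw [map_natCast] at hy
    exact Ideal.mem_span_singleton.mpr ⟨y, hy⟩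
  · rw [Ideal.span_le, Set.singleton_subset_iff, SetLike.mem_coe, RingHom.mem_ker,
      ← map_natCast (algebraMap A (chartRing A v)), chartRed_algebraMap, hπn, map_zero]

include hn hπn hker hℓN hv in
/-- The special fibre is integral. -/
theorem prime_natCast_chartRing : Prime (n : chartRing A v) := by
  have h0 : (n : chartRing A v) ≠ 0 := fun h => hn (by
    have h1 : algebraMap L (LevelField L N) ((n : A) : L) = 0 := by
      have := congrArg (chartRing A v).val h
      rw [map_natCast, map_zero] at this
      rw [show ((n : A) : L) = (n : L) from map_natCast A.subtype n, map_natCast, this]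
    exact Subtype.ext ((_root_.map_eq_zero _).mp h1))
  rw [← Ideal.span_singleton_prime h0, ← ker_chartRed v ℓ hℓN hv hn hπn hker]
  exact RingHom.ker_isPrime _

/-- A subring of a field is integrally closed if it contains the integral elements of a subfield
containing it. -/
theorem isIntegrallyClosed_of_subfield {E : Type*} [Field E] (S : Subring E) (F : Subfield E)
    (hSF : ∀ x ∈ S, x ∈ F) (h : ∀ x ∈ F, IsIntegral S x → x ∈ S) : IsIntegrallyClosed S := by
  refine (isIntegrallyClosed_iff (FractionRing S)).mpr fun {x} hx => ?_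
  set φ : FractionRing S →ₐ[S] E :=
    IsFractionRing.liftAlgHom (g := Algebra.ofId S E) Subtype.val_injective
  have hF : φ x ∈ F := by
    obtain ⟨a, b, -, rfl⟩ := IsFractionRing.div_surjective (A := S) x
    rw [map_div₀, φ.commutes, φ.commutes]
    exact div_mem (hSF _ a.2) (hSF _ b.2)
  obtain ⟨y, hy⟩ : ∃ y : S, (y : E) = φ x := ⟨⟨_, h _ hF (hx.map φ)⟩, rfl⟩
  exact ⟨y, φ.toRingHom.injective (by
    show φ (algebraMap S (FractionRing S) y) = φ x
    rw [φ.commutes]
    exact hy)⟩

include hn hπn hker hℓN hv in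
/-- The special fibre is normal if integral elements of a field containing it lift. -/
theorem isIntegrallyClosed_chartFibre (Fb : Subfield (LaurentSeries k))
    (hFb : ∀ x, chartRed π v ℓ hℓN hv x ∈ Fb)
    (hlift : ∀ y ∈ Fb, (∃ p : k[X][X], p.Monic ∧ p.eval₂ (evalRed π v hv) y = 0) →
      ∃ x, chartRed π v ℓ hℓN hv x = y) :
    IsIntegrallyClosed (chartRing A v ⧸ Ideal.span {(n : chartRing A v)}) := by
  set g := chartRed π v ℓ hℓN hv with hg
  have : IsIntegrallyClosed g.range := by
    refine isIntegrallyClosed_of_subfield g.range Fb (by rintro _ ⟨x, rfl⟩; exact hFb x)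
      fun y hyF hy => ?_
    suffices h : ∃ p : k[X][X], p.Monic ∧ p.eval₂ (evalRed π v hv) y = 0 from hlift y hyF h
    have hint : ∀ z ∈ g.range, (evalRed π v hv).IsIntegralElem z := by
      rintro _ ⟨x, rfl⟩
      obtain ⟨q', hqm, hq⟩ := x.2
      have hl : ∀ b : Algebra.adjoin A {v}, ∃ P : A[X],
          aeval (chartVar v) P = (⟨(b : LevelField L N), isIntegral_algebraMap⟩ : chartRing A v) :=
        fun b => by
        have h : (b : LevelField L N) ∈ (aeval (R := A) v).range := by
          rw [← Algebra.adjoin_singleton_eq_range_aeval]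
          exact b.2
        obtain ⟨P, hP⟩ := h
        exact ⟨P, Subtype.ext ((aeval_algHom_apply (chartRing A v).val (chartVar v) P).symm.trans hP)⟩
      let j : Algebra.adjoin A {v} →+* chartRing A v :=
        (algebraMap (Algebra.adjoin A {v}) (LevelField L N)).codRestrict (chartRing A v).toSubring
          fun b => isIntegral_algebraMap
      have hq' : q'.eval₂ j x = 0 := by
        refine Subtype.ext ?_
        show (chartRing A v).val.toRingHom (q'.eval₂ j x) = 0
        rw [hom_eval₂]
        exact hq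
      have hmem : (q'.map (g.comp j)) ∈ lifts (evalRed π v hv) :=
        (lifts_iff_coeff_lifts _).mpr fun i => by
          obtain ⟨P, hP⟩ := hl (q'.coeff i)
          refine ⟨P.map π, ?_⟩
          rw [coeff_map, RingHom.comp_apply, ← chartRed_aeval π v ℓ hℓN hv, hP]
          rfl
      obtain ⟨p, hp, -, hpm⟩ := lifts_and_natDegree_eq_and_monic hmem (hqm.map _)
      refine ⟨p, hpm, ?_⟩
      rw [eval₂_eq_eval_map, hp, eval_map, ← hom_eval₂, hq', map_zero]
    let : Algebra k[X] (LaurentSeries k) := (evalRed π v hv).toAlgebra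
    let C' := integralClosure k[X] (LaurentSeries k)
    obtain ⟨p, hp, hpy⟩ := hy
    have : IsIntegral C' y := by
      refine ⟨p.map (g.range.subtype.codRestrict C'.toSubring fun z => hint _ z.2), hp.map _, ?_⟩
      rw [eval₂_map]
      exact hpy
    exact isIntegral_trans (R := k[X]) (A := C') y this
  exact IsIntegrallyClosed.of_equiv
    (((Ideal.quotEquivOfEq (ker_chartRed v ℓ hℓN hv hn hπn hker).symm).trans
      g.quotientKerEquivRange).symm)

end FermatAgent.BadRed.Carayol.Instance
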