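import Fermat.Agent.BadRed.Carayol.Instance.Basics
import Fermat.Agent.BadRed.Carayol.Instance.Reduction

/-!
# `u` and `1/u` are chart variables
-/

set_option autoImplicit false
set_option linter.unusedSectionVars false

noncomputable section

open Function Polynomial
open FermatAgent.Igusa FermatAgent.ModFun
open ModularCurve (coeffMap jqModC modularFunctionFieldC)

namespace FermatAgent.BadRed.Carayol.Instance

variable {q : ℕ} [NeZero q] (H : Hauptmodul q) {R : ℤ[X]}

/-- The expansion of `1/u`. -/
def uInvSeries : LaurentSeries ℤ :=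
  HahnSeries.single (1 : ℤ) 1 * HahnSeries.ofPowerSeries ℤ ℤ (H.series.invOfUnit 1)

theorem uSeries_mul_uInvSeries : uSeries H * uInvSeries H = 1 := by
  rw [uSeries, uInvSeries, mul_mul_mul_comm, HahnSeries.single_mul_single, ← map_mul,
    PowerSeries.mul_invOfUnit _ 1 (by rw [H.constantCoeff_series, Units.val_one]), map_one,
    mul_one, mul_one, neg_add_cancel, HahnSeries.single_zero_one]

theorem inv_uSeries (F : Type*) [Field F] :
    (coeffMap (Int.castRingHom F) (uSeries H))⁻¹ = coeffMap (Int.castRingHom F) (uInvSeries H) :=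
  inv_eq_of_mul_eq_one_right (by rw [← map_mul, uSeries_mul_uInvSeries, map_one])

theorem eq_zero_of_aeval_uSeries (F : Type*) [Field F] {p : F[X]}
    (h : aeval (coeffMap (Int.castRingHom F) (uSeries H)) p = 0) : p = 0 :=
  eq_zero_of_aeval_pole Nat.one_pos (by simpa using (poleLE_uSeries H).coeffMap _)
    (by simp [coeff_uSeries_top]) h

theorem eval₂_C_eq_aeval {F : Type*} [Field F] (t : LaurentSeries F) (p : F[X]) :
    p.eval₂ HahnSeries.C t = aeval t p := by
  rw [aeval_def]
  congr 1
  refine RingHom.ext fun c => ?_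
  rw [ModularCurve.algebraMap_laurentSeries_eq_single, HahnSeries.C_apply]

section Hom

variable {S T : Type*} [CommRing S] [CommRing T]

/-- Homogenised substitution. -/
def homSubst (P Q : S[X]) (m : ℕ) (g : S[X]) : S[X] :=
  ∑ l ∈ Finset.range (m + 1), C (g.coeff l) * P ^ l * Q ^ (m - l)

theorem homSubst_map (f : S →+* T) (P Q : S[X]) (m : ℕ) (g : S[X]) :
    (homSubst P Q m g).map f = homSubst (P.map f) (Q.map f) m (g.map f) := by
  simp [homSubst, Polynomial.map_sum]

theorem map_homSubst {E : Type*} [CommRing E] (φ : S[X] →+* E) (P Q : S[X]) {J : E}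
    (hJ : φ P = J * φ Q) {m : ℕ} {g : S[X]} (hg : g.natDegree ≤ m) :
    φ (homSubst P Q m g) = φ Q ^ m * g.eval₂ (φ.comp C) J := by
  rw [homSubst, map_sum, eval₂_eq_sum_range' _ (Nat.lt_succ_of_le hg), Finset.mul_sum]
  refine Finset.sum_congr rfl fun l hl => ?_
  rw [Finset.mem_range] at hl
  rw [map_mul, map_mul, map_pow, map_pow, hJ, mul_pow, RingHom.comp_apply]
  conv_rhs => rw [show m = l + (m - l) by omega, pow_add]
  ring

end Hom

variable {L : Type*} [Field L] [Algebra ℚ L] {A : ValuationSubring L}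
variable {k : Type*} [Field k] {π : A →+* k} [hπ : Fact (Surjective π)]
variable {N : ℕ} [NeZero N] (ℓ : ℕ) [Fact ℓ.Prime] [CharP k ℓ] (hℓN : ¬ ℓ ∣ N)

theorem coeffMap_subtype_int (s : LaurentSeries ℤ) :
    coeffMap A.subtype (coeffMap (Int.castRingHom A) s) = coeffMap (Int.castRingHom L) s := by
  rw [ModularCurve.coeffMap_coeffMap]
  exact ModularCurve.coeffMap_congr (RingHom.ext_int _ _) s

include hℓN in
/-- Series with integral coefficients in the function field reduce coefficientwise. -/
theorem intSeries_mem_gaussRing {s : LaurentSeries ℤ}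
    (hs : coeffMap (Int.castRingHom L) s ∈ modularFunctionFieldC L N) :
    ∃ h : coeffMap (Int.castRingHom L) s ∈ gaussRing A π N,
      gaussRed A π N ⟨_, h⟩ = coeffMap (Int.castRingHom k) s := by
  obtain ⟨h, hr⟩ := coeffMap_mem_gaussRing A π N ℓ hℓN
    (y := coeffMap (Int.castRingHom A) s) (by rwa [coeffMap_subtype_int])
  have e := coeffMap_subtype_int (A := A) s
  refine ⟨e ▸ h, ?_⟩
  rw [show (⟨_, e ▸ h⟩ : gaussRing A π N) = ⟨_, h⟩ from Subtype.ext e.symm, hr,
    ModularCurve.coeffMap_coeffMap]
  exact ModularCurve.coeffMap_congr (RingHom.ext_int _ _) s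

theorem evalAt_intPoly (t : LaurentSeries L) (P : ℤ[X]) :
    evalAtInt A t (P.map (Int.castRingHom A)) = P.eval₂ (Int.castRingHom _) t := by
  rw [evalAtInt, RingHom.comp_apply, evalAt, coe_mapRingHom, coe_eval₂RingHom, eval₂_map, eval₂_map]
  exact eval₂_congr (RingHom.ext_int _ _) rfl rfl

theorem coeffMap_aeval_int {F : Type*} [CommRing F] (s : LaurentSeries ℤ) (P : ℤ[X]) :
    coeffMap (Int.castRingHom F) (aeval s P) =
      P.eval₂ (Int.castRingHom _) (coeffMap (Int.castRingHom F) s) := by
  rw [aeval_def, hom_eval₂]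
  exact eval₂_congr (RingHom.ext_int _ _) rfl rfl

theorem rel_uSeries (F : Type*) [Field F] {P : ℤ[X]}
    (hP : aeval (uSeries H) P = jqModC ℤ * aeval (uSeries H) R ^ H.L) :
    P.eval₂ (Int.castRingHom (LaurentSeries F)) (coeffMap (Int.castRingHom F) (uSeries H)) =
      jqModC F *
        (R.eval₂ (Int.castRingHom _) (coeffMap (Int.castRingHom F) (uSeries H))) ^ H.L := by
  rw [← coeffMap_aeval_int, ← coeffMap_aeval_int, hP, map_mul, map_pow,
    ModularCurve.coeffMap_jqModC]

variable {v : LevelField L N}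

theorem mem_field_uElt (hN : H.L ∣ N) :
    coeffMap (Int.castRingHom L) (uSeries H) ∈ modularFunctionFieldC L N := by
  rw [← coe_uElt L H hN]; exact mem_fieldC_level _

theorem mem_field_uInv (hN : H.L ∣ N) :
    coeffMap (Int.castRingHom L) (uInvSeries H) ∈ modularFunctionFieldC L N := by
  rw [← inv_uSeries]; exact inv_mem (mem_field_uElt H hN)

include hℓN in
/-- `u` is a chart variable. -/
theorem isChartVar_uSeries (hN : H.L ∣ N) (hR : IsCuspPoly H R) :
    IsChartVar A π N (coeffMap (Int.castRingHom L) (uSeries H)) where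
  inj := (injective_iff_map_eq_zero _).mpr fun Q h =>
    eq_zero_of_aeval_uSeries H L (by rwa [← eval₂_C_eq_aeval])
  mem := (intSeries_mem_gaussRing ℓ hℓN (mem_field_uElt H hN)).choose
  rewrite G y hG h := by
    classical
    obtain ⟨P, hP⟩ := exists_j_eq_eval H hR
    set m := G.support.sup fun i => (G.coeff i).natDegree with hm
    have hle : ∀ i, (G.coeff i).natDegree ≤ m := fun i => by
      by_cases hi : i ∈ G.support
      · exact Finset.le_sup (f := fun i => (G.coeff i).natDegree) hi
      · simp [notMem_support_iff.mp hi]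
    set P₀ := P.map (Int.castRingHom A) with hP₀
    set Q₀ := (R.map (Int.castRingHom A)) ^ H.L with hQ₀
    set G' : A[X][X] :=
      ∑ i ∈ Finset.range (G.natDegree + 1), C (homSubst P₀ Q₀ m (G.coeff i)) * X ^ i with hG'
    have hcoeff : G'.coeff G.natDegree = homSubst P₀ Q₀ m (G.coeff G.natDegree) := by
      simp [hG']
    have hne : (homSubst P₀ Q₀ m (G.coeff G.natDegree)).map π ≠ 0 := fun h0 => by
      set φ : k[X] →+* LaurentSeries k :=
        eval₂RingHom HahnSeries.C (coeffMap (Int.castRingHom k) (uSeries H)) with hφ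
      have hev : ∀ S : ℤ[X], φ ((S.map (Int.castRingHom A)).map π) =
          S.eval₂ (Int.castRingHom _) (coeffMap (Int.castRingHom k) (uSeries H)) := fun S => by
        rw [hφ, coe_eval₂RingHom, map_map, eval₂_map]
        exact eval₂_congr (RingHom.ext_int _ _) rfl rfl
      have hR0 : φ ((R.map (Int.castRingHom A)).map π) ≠ 0 := fun e => by
        rw [hφ, coe_eval₂RingHom, eval₂_C_eq_aeval, map_map,
          RingHom.ext_int (π.comp (Int.castRingHom A)) (Int.castRingHom k)] at e
        exact (hR.monic.map _).ne_zero (eq_zero_of_aeval_uSeries H k e)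
      have h1 := map_homSubst φ (P₀.map π) (Q₀.map π) (J := jqModC k)
        (by rw [hQ₀, Polynomial.map_pow, map_pow, hP₀, hev, hev]; exact rel_uSeries H k hP)
        (g := (G.coeff G.natDegree).map π) (natDegree_map_le.trans (hle _))
      rw [← homSubst_map, h0, map_zero, eq_comm, mul_eq_zero] at h1
      refine gevC_ne_zero k hG ?_
      rw [gevC, coe_eval₂RingHom]
      refine Eq.trans (eval₂_congr (RingHom.ext fun c => ?_) rfl rfl) (h1.resolve_left ?_)
      · simp [hφ]
      · rw [hQ₀, Polynomial.map_pow, map_pow]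
        exact pow_ne_zero _ (pow_ne_zero _ hR0)
    have hdeg : G'.natDegree = G.natDegree := by
      refine le_antisymm ?_ (le_natDegree_of_ne_zero (fun h' => hne (by rw [← hcoeff, h', Polynomial.map_zero])))
      refine natDegree_sum_le_of_forall_le _ _ fun i hi => (natDegree_C_mul_X_pow_le _ _).trans ?_
      simp only [Finset.mem_range] at hi
      omega
    refine ⟨G', by rw [Polynomial.leadingCoeff, hdeg, hcoeff]; exact hne, ?_⟩
    set t := coeffMap (Int.castRingHom L) (uSeries H)
    rw [eval₂_eq_sum_range] at h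
    rw [hG', eval₂_finsetSum]
    refine Eq.trans ?_ (show evalAtInt A t Q₀ ^ m * (∑ i ∈ Finset.range (G.natDegree + 1),
      ((coeffMap A.subtype).comp (gevC A)) (G.coeff i) * y ^ i) = 0 by rw [h, mul_zero])
    rw [Finset.mul_sum]
    refine Finset.sum_congr rfl fun i _ => ?_
    rw [eval₂_mul, eval₂_C, eval₂_X_pow, map_homSubst (evalAtInt A t) P₀ Q₀ (J := jqModC L)
      (by rw [hP₀, hQ₀, evalAt_intPoly, map_pow, evalAt_intPoly]; exact rel_uSeries H L hP) (hle i), mul_assoc]
    congr 2
    rw [RingHom.comp_apply, coeffMap_gevC, gevC, coe_eval₂RingHom, eval₂_map]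
    exact eval₂_congr (RingHom.ext fun a => by simp [evalAtInt, evalAt]) rfl rfl

/-- The inverse of a chart variable. -/
theorem isChartVar_inv' {t : LaurentSeries L} (ht : IsChartVar A π N t) (ht0 : t ≠ 0)
    (hmem : t⁻¹ ∈ gaussRing A π N) : IsChartVar A π N t⁻¹ where
  inj := (injective_iff_map_eq_zero _).mpr fun Q h => by
    by_contra hQ
    have h2 := evalAt_reflect ht0 (m := Q.natDegree) (Q := Q.reflect Q.natDegree)
      (natDegree_reflect_le.trans (max_le le_rfl le_rfl))
    rw [reflect_reflect, h, zero_mul] at h2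
    exact hQ (by simpa using (injective_iff_map_eq_zero _).mp ht.inj _ h2.symm)
  mem := hmem
  rewrite G y hG h := by
    classical
    obtain ⟨G₁, hG₁, h₁⟩ := ht.rewrite G y hG h
    set m := G₁.support.sup fun i => (G₁.coeff i).natDegree with hm
    have hle : ∀ i, (G₁.coeff i).natDegree ≤ m := fun i => by
      by_cases hi : i ∈ G₁.support
      · exact Finset.le_sup (f := fun i => (G₁.coeff i).natDegree) hi
      · simp [notMem_support_iff.mp hi]
    set G' : A[X][X] := ∑ i ∈ Finset.range (G₁.natDegree + 1), C ((G₁.coeff i).reflect m) * X ^ i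
      with hG'
    have hcoeff : G'.coeff G₁.natDegree = (G₁.coeff G₁.natDegree).reflect m := by
      simp [hG']
    have hne : ((G₁.coeff G₁.natDegree).reflect m).map π ≠ 0 := by
      rw [← reflect_map, Ne, reflect_eq_zero_iff]; exact hG₁
    have hdeg : G'.natDegree = G₁.natDegree := by
      refine le_antisymm ?_ (le_natDegree_of_ne_zero (fun h' => hne (by rw [← hcoeff, h', Polynomial.map_zero])))
      refine natDegree_sum_le_of_forall_le _ _ fun i hi => (natDegree_C_mul_X_pow_le _ _).trans ?_
      simp only [Finset.mem_range] at hi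
      omega
    refine ⟨G', by rw [Polynomial.leadingCoeff, hdeg, hcoeff]; exact hne, ?_⟩
    refine (mul_eq_zero.mp ?_).resolve_right (pow_ne_zero m ht0)
    rw [← h₁, eval₂_finsetSum, Finset.sum_mul, eval₂_eq_sum_range]
    refine Finset.sum_congr rfl fun i _ => ?_
    rw [eval₂_mul, eval₂_C, eval₂_X_pow, mul_right_comm, evalAtInt, RingHom.comp_apply,
      coe_mapRingHom, ← reflect_map, evalAt_reflect ht0 (natDegree_map_le.trans (hle i))]
    rfl

include hℓN in
/-- `1/u` is a chart variable. -/
theorem isChartVar_uInvSeries (hN : H.L ∣ N) (hR : IsCuspPoly H R) :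
    IsChartVar A π N (coeffMap (Int.castRingHom L) (uInvSeries H)) := by
  rw [← inv_uSeries]
  refine isChartVar_inv' (isChartVar_uSeries H ℓ hℓN hN hR) (fun h => ?_) ?_
  · have := congrArg (fun x : LaurentSeries L => x.coeff (-1)) h
    simp [coeff_uSeries_top] at this
  · rw [inv_uSeries]
    exact (intSeries_mem_gaussRing ℓ hℓN (mem_field_uInv H hN)).choose

end FermatAgent.BadRed.Carayol.Instance
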