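import Fermat.Agent.JacCharts.Basic
import Fermat.Agent.Curve.RR.Setup
import Mathlib.RingTheory.Polynomial.ScaleRoots

/-!
# Integrality over `K[t]` and poles
-/

set_option autoImplicit false
set_option linter.unusedSectionVars false

noncomputable section

open AlgebraicCurve Polynomial
open FermatAgent.Curve FermatAgent.Curve.RR FermatAgent.JacCharts

namespace FermatAgent.BadRed.Carayol.Instance

variable {K F : Type*} [Field K] [Field F] [Algebra K F] [IsAlgClosed K] [IsFunctionField1 K F]

/-- Functions with poles only at the poles of `t` are integral over `K[t]`. -/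
theorem isIntegral_of_mem_L {t f : F} {n : ℕ}
    (hf : f ∈ riemannRochSpace (n • polePart (K := K) t)) :
    IsIntegral (Algebra.adjoin K {t}) f := by
  rw [isIntegral_adjoin_iff]
  intro v hv
  rcases eq_or_ne f 0 with rfl | hf0
  · exact zero_mem _
  have ht := hv t rfl
  rw [RR.mem_iff_ord_nonneg v hf0]
  have h := (mem_L_iff hf0).mp hf v
  rw [Finsupp.smul_apply, polePart_apply] at h
  rcases eq_or_ne t 0 with rfl | ht0
  · simp at h; omega
  rw [RR.mem_iff_ord_nonneg v ht0] at ht
  rw [max_eq_left (by omega)] at h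
  simpa using h

theorem aeval_mul_inv_pow_mem {V : ValuationSubring F} (hV : ∀ c : K, algebraMap K F c ∈ V) {t : F}
    (ht : t ≠ 0) (htV : t⁻¹ ∈ V) {P : K[X]} {m : ℕ} (hm : P.natDegree ≤ m) :
    aeval t P * t⁻¹ ^ m ∈ V := by
  rw [aeval_eq_sum_range' (Nat.lt_succ_of_le hm), Finset.sum_mul]
  refine sum_mem fun l hl => ?_
  rw [Finset.mem_range] at hl
  rw [Algebra.smul_def, mul_assoc, show t ^ l * t⁻¹ ^ m = t⁻¹ ^ (m - l) by
    rw [show m = l + (m - l) by omega, pow_add, ← mul_assoc, ← mul_pow, mul_inv_cancel₀ ht,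
      one_pow, one_mul, show l + (m - l) - l = m - l by omega]]
  exact mul_mem (hV _) (pow_mem htV _)

theorem exists_bound_ord_of_monic {t : F} (ht : t ≠ 0) {p : K[X][X]} (hp : p.Monic) {y : F}
    (hy : p.eval₂ (aeval t).toRingHom y = 0) :
    ∃ e : ℕ, y ∈ riemannRochSpace (e • polePart (K := K) t) := by
  classical
  rcases eq_or_ne y 0 with rfl | hy0
  · exact ⟨0, zero_mem _⟩
  set e := p.support.sup fun i => (p.coeff i).natDegree with he
  have hle : ∀ i, (p.coeff i).natDegree ≤ e := fun i => by
    by_cases hi : i ∈ p.support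
    · exact Finset.le_sup (f := fun i => (p.coeff i).natDegree) hi
    · simp [notMem_support_iff.mp hi]
  refine ⟨e, (mem_L_iff hy0).mpr fun v => ?_⟩
  rw [Finsupp.smul_apply, polePart_apply]
  set V := v.toValuationSubring
  rcases le_or_gt 0 (v.ord t) with hpos | hneg
  · -- integral at `v`
    have htV : t ∈ V := (RR.mem_iff_ord_nonneg v ht).mpr hpos
    have : y ∈ V := by
      refine mem_valuationSubring_of_isIntegral V (R := V) (fun r => r.2)
        ⟨p.map ((aeval t).toRingHom.codRestrict V.toSubring fun P => ?_), hp.map _, ?_⟩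
      · show aeval t P ∈ V
        rw [aeval_eq_sum_range]
        exact sum_mem fun l _ => by
          rw [Algebra.smul_def]; exact mul_mem (v.algebraMap_mem' _) (pow_mem htV _)
      · rw [eval₂_map]; exact hy
    have := (RR.mem_iff_ord_nonneg v hy0).mp this
    rw [max_eq_left (by omega)]
    simpa using this
  · set s := t⁻¹ ^ e with hs
    have htV : t⁻¹ ∈ V := (RR.mem_iff_ord_nonneg v (inv_ne_zero ht)).mpr (by rw [v.ord_inv]; omega)
    have hl : (p.map (aeval t).toRingHom).scaleRoots s ∈ lifts V.subtype := by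
      refine (lifts_iff_coeff_lifts _).mpr fun i => ?_
      rw [coeff_scaleRoots, coeff_map, (hp.natDegree_map _)]
      rcases lt_trichotomy i p.natDegree with hi | hi | hi
      · refine ⟨⟨_, ?_⟩, rfl⟩
        show aeval t (p.coeff i) * (t⁻¹ ^ e) ^ (p.natDegree - i) ∈ V
        rw [show p.natDegree - i = 1 + (p.natDegree - i - 1) by omega, pow_add, pow_one, ← mul_assoc]
        exact mul_mem (aeval_mul_inv_pow_mem v.algebraMap_mem' ht htV (hle i))
          (pow_mem (pow_mem htV _) _)
      · subst hi
        exact ⟨1, by simp [hp.coeff_natDegree]⟩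
      · exact ⟨0, by simp [coeff_eq_zero_of_natDegree_lt hi]⟩
    obtain ⟨p', hp', -, hp'm⟩ := lifts_and_natDegree_eq_and_monic hl
      ((monic_scaleRoots_iff _).mpr (hp.map _))
    have : s * y ∈ V := by
      refine mem_valuationSubring_of_isIntegral V (R := V) (fun r => r.2) ⟨p', hp'm, ?_⟩
      show p'.eval₂ V.subtype (s * y) = 0
      rw [eval₂_eq_eval_map, hp', eval]
      rw [show s * y = RingHom.id F s * y from rfl, scaleRoots_eval₂_mul, eval₂_map]
      exact mul_eq_zero_of_right _ (by simpa using hy)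
    have hsy := (RR.mem_iff_ord_nonneg v (mul_ne_zero (pow_ne_zero _ (inv_ne_zero ht)) hy0)).mp this
    rw [v.ord_mul (pow_ne_zero _ (inv_ne_zero ht)) hy0, FermatAgent.Curve.ord_pow' v, v.ord_inv] at hsy
    rw [max_eq_right (by omega), nsmul_eq_mul]
    linarith

/-- Poles move to poles under reduction. -/
theorem polePart_le_redDiv {A : ValuationSubring K} {k : Type*} [Field k] [IsAlgClosed k]
    {π : A →+* k} {Fb : Type*} [Field Fb] [Algebra k Fb] [IsFunctionField1 k Fb]
    (d : GoodReductionDatum A π F Fb) {x : F} {xb : Fb} (hx : d.RedsTo x xb) (hxb : xb ≠ 0) :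
    polePart (K := k) xb ≤ d.redDiv (polePart (K := K) x) := by
  refine Finsupp.le_def.mpr fun Q => ?_
  rw [polePart_apply]
  have h1 : 0 ≤ d.redDiv (polePart (K := K) x) Q := by
    simpa using Finsupp.le_def.mp (GoodReductionDatum.redDiv_nonneg (d := d) (polePart_nonneg x)) Q
  have hZ : 0 ≤ divOf (K := K) x + polePart (K := K) x := by
    refine Finsupp.le_def.mpr fun v => ?_
    rw [Finsupp.add_apply, divOf_apply (hx.ne_zero hxb), polePart_apply]
    simp only [Finsupp.coe_zero, Pi.zero_apply]
    omega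
  have h2 := Finsupp.le_def.mp (GoodReductionDatum.redDiv_nonneg (d := d) hZ) Q
  rw [map_add, hx.redDiv_divOf hxb, Finsupp.add_apply, divOf_apply hxb] at h2
  simp only [Finsupp.coe_zero, Pi.zero_apply] at h2
  omega

end FermatAgent.BadRed.Carayol.Instance
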