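import Fermat.Agent.BadRed.Carayol.Instance.Reduction
import Fermat.Agent.BadRed.Carayol.Instance.BaseRing
import Fermat.Agent.BadRed.Carayol.Instance.Poles
import Fermat.Agent.JacCharts.Rational
import Fermat.Agent.ModCurve.Fun.Instances

/-!
# Integral functions on the special fibre lift to the chart
-/

set_option autoImplicit false
set_option linter.unusedSectionVars false

noncomputable section

open Function Polynomial AlgebraicCurve IsLocalRing
open FermatAgent.Igusa FermatAgent.ModFun FermatAgent.JacCharts FermatAgent.Curve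
open FermatAgent.Curve.RR (polePart polePart_apply)
open ModularCurve (coeffMap modularFunctionFieldC modularFunctionFieldFull modularFunctionFieldBar
  modularFunctionFieldFullC)
open FermatAgent.MazurPrinciple (inertiaField)

namespace FermatAgent.BadRed.Carayol.Instance

local notation "Qb" => AlgebraicClosure ℚ

variable (A : ValuationSubring Qb) {q : ℕ} (N : ℕ) [NeZero N]

section Shortcuts

variable (k : Type*) [Field k]

/-- Shortcut. -/
@[reducible, instance 2000] def seriesAlgebra : Algebra k (LaurentSeries k) :=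
  HahnSeries.powerSeriesAlgebra ℤ k

/-- Shortcut. -/
@[reducible, instance 2000] def fullCAlgebra (M : ℕ) : Algebra k (modularFunctionFieldFullC k M) :=
  SubalgebraClass.toAlgebra (modularFunctionFieldFullC k M)

end Shortcuts

/-- The inclusion of the inertia field. -/
abbrev inertiaVal : inertiaField A →ₐ[ℚ] Qb := (inertiaField A).val

/-- Extension of constants to `Qb`. -/
abbrev toBar : LevelField (inertiaField A) N →+* modularFunctionFieldBar N :=
  baseChangeHom (modularFunctionFieldFull N) (inertiaVal A)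

theorem coeffMap_subtype_incl (P : (inertiaRing A)[X][X]) :
    coeffMap A.subtype (gev A N (P.map (mapRingHom (inertiaIncl A)))) =
      coeffMap (inertiaVal A : inertiaField A →+* Qb)
        (coeffMap (inertiaRing A).subtype (gev (inertiaRing A) N P)) := by
  rw [coeffMap_gev, coeffMap_gev, coeffMap_gev, map_map, map_map, mapRingHom_comp, mapRingHom_comp]
  rfl

theorem isGaussRep_map {x : LaurentSeries (inertiaField A)} {P : (inertiaRing A)[X][X]}
    {Q : (inertiaRing A)[X]} (h : IsGaussRep (inertiaRing A) (inertiaRes A) N x P Q) :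
    IsGaussRep A (residue A) N (coeffMap (inertiaVal A : inertiaField A →+* Qb) x)
      (P.map (mapRingHom (inertiaIncl A))) (Q.map (inertiaIncl A)) := by
  refine ⟨by rw [map_map]; exact h.1, ?_⟩
  rw [coeffMap_subtype_incl, ← h.2, map_mul]
  congr 1
  rw [← gev_C A N, ← gev_C (inertiaRing A) N, ← coeffMap_subtype_incl, Polynomial.map_C,
    coe_mapRingHom]

theorem gauss_map {x : LaurentSeries (inertiaField A)}
    (hx : x ∈ gaussRing (inertiaRing A) (inertiaRes A) N) :
    ∃ h : coeffMap (inertiaVal A : inertiaField A →+* Qb) x ∈ gaussRing A (residue A) N,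
      gaussRed A (residue A) N ⟨_, h⟩ =
        gaussRed (inertiaRing A) (inertiaRes A) N ⟨x, hx⟩ := by
  obtain ⟨P, Q, h⟩ := id hx
  refine ⟨⟨_, _, isGaussRep_map A N h⟩, ?_⟩
  rw [gaussRed_eq A (residue A) N ⟨_, _, _, isGaussRep_map A N h⟩ (isGaussRep_map A N h),
    gaussRed_eq (inertiaRing A) (inertiaRes A) N ⟨x, hx⟩ h, coeffMap_gev, coeffMap_gev,
    coeffMap_gevC, coeffMap_gevC, map_map, map_map, mapRingHom_comp]
  rfl

variable {A N}
variable (hq : q.Prime) (hA : A.LiesOverPrime q) (hqN : ¬ q ∣ N)

include hq hA hqN in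
/-- Integrality at `A` of a function over the inertia field is integrality at its ring. -/
theorem gauss_of_map (x : LevelField (inertiaField A) N)
    (hx : (toBar A N x : LaurentSeries Qb) ∈ gaussRing A (residue A) N) :
    (x : LaurentSeries (inertiaField A)) ∈ gaussRing (inertiaRing A) (inertiaRes A) N := by
  have := Fact.mk hq
  have := Fact.mk (inertiaRes_surjective hq hA)
  have : Fact (Surjective (residue A)) := ⟨IsLocalRing.residue_surjective⟩
  have := Igusa.Down.charP_residueField hq hA
  rcases eq_or_ne (x : LaurentSeries (inertiaField A)) 0 with h0 | h0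
  · rw [h0]; exact zero_mem _
  obtain ⟨c, o, P, Q, hrep, hc, heq, -, hred⟩ :=
    exists_eq_C_mul (inertiaRing A) (inertiaRes A) N q hqN (mem_fieldC_level x) h0
  obtain ⟨ho, hor⟩ := gauss_map A N (x := o) ⟨P, Q, hrep⟩
  have hcA : (c : Qb) ∈ A := mem_of_red_ne_zero A (residue A) N (c := (c : Qb)) (o := ⟨_, ho⟩)
    (y := ⟨_, hx⟩) (by
      show coeffMap _ (x : LaurentSeries (inertiaField A)) = _
      rw [heq, map_mul, coeffMap_C]; rfl) (hor ▸ hred)
  rw [heq]
  exact mul_mem (C_mem_gaussRing _ _ N ⟨c, hcA⟩) ⟨P, Q, hrep⟩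

theorem gauss_toBar (x : LevelField (inertiaField A) N)
    (hx : (x : LaurentSeries (inertiaField A)) ∈ gaussRing (inertiaRing A) (inertiaRes A) N) :
    ∃ h : (toBar A N x : LaurentSeries Qb) ∈ gaussRing A (residue A) N,
      gaussRed A (residue A) N ⟨_, h⟩ =
        gaussRed (inertiaRing A) (inertiaRes A) N ⟨_, hx⟩ :=
  gauss_map A N hx

/-- A function with coefficients in a subfield, as a function over it. -/
theorem exists_toBar_eq {f : modularFunctionFieldBar N}
    (hf : ∀ n : ℤ, (f : LaurentSeries Qb).coeff n ∈ inertiaField A) :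
    ∃ x : LevelField (inertiaField A) N, toBar A N x = f := by
  set y : LaurentSeries (inertiaField A) :=
    ⟨fun n => ⟨_, hf n⟩, (f : LaurentSeries Qb).isPWO_support.mono fun n hn => by
      simpa [Function.mem_support, Subtype.ext_iff] using hn⟩ with hy
  have h : coeffMap (inertiaVal A : inertiaField A →+* Qb) y = (f : LaurentSeries Qb) :=
    HahnSeries.ext rfl
  exact ⟨⟨y, (coeffMap_mem_laurentBaseChange_iff _ (inertiaVal A)).mp (h ▸ f.2)⟩, Subtype.ext h⟩

theorem galAut_toBar {σ : Qb ≃ₐ[ℚ] Qb} (hσ : σ ∈ A.inertiaSubgroupIn ℚ)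
    (x : LevelField (inertiaField A) N) : galAut N σ • toBar A N x = toBar A N x := by
  apply Subtype.ext
  ext n
  rw [coeff_galAut]
  exact MazurPrinciple.mem_inertiaField.mp ((x : LaurentSeries (inertiaField A)).coeff n).2 σ hσ

/-- Integrality over `Qb[v]` descends. -/
theorem isIntegral_of_toBar {v x : LevelField (inertiaField A) N}
    (h : IsIntegral (Algebra.adjoin Qb {toBar A N v}) (toBar A N x)) :
    ∃ p : (inertiaField A)[X][X], p.Monic ∧
      p.eval₂ (evalAt (v : LaurentSeries (inertiaField A))) (x : LaurentSeries (inertiaField A)) = 0 := by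
  classical
  set f : inertiaField A →+* Qb := (inertiaVal A : inertiaField A →+* Qb)
  obtain ⟨g, hgm, hg⟩ := h
  have hl : g.map (algebraMap (Algebra.adjoin Qb {toBar A N v}) (modularFunctionFieldBar N)) ∈
      lifts (aeval (R := Qb) (toBar A N v)).toRingHom := by
    refine (lifts_iff_coeff_lifts _).mpr fun i => ?_
    rw [coeff_map]
    have h : (g.coeff i : modularFunctionFieldBar N) ∈ (aeval (R := Qb) (toBar A N v)).range := by
      rw [← Algebra.adjoin_singleton_eq_range_aeval]
      exact (g.coeff i).2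
    exact h
  obtain ⟨p, hp, -, hpm⟩ := lifts_and_natDegree_eq_and_monic hl (hgm.map _)
  have h0 : (modularFunctionFieldBar N).val.toRingHom
      (p.eval₂ (aeval (R := Qb) (toBar A N v)).toRingHom (toBar A N x)) = 0 := by
    rw [eval₂_eq_eval_map, hp, eval_map, hg, map_zero]
  rw [hom_eval₂] at h0
  obtain ⟨φ, hφ⟩ := exists_functional_one (K := inertiaField A) (L := Qb)
  set p' : (inertiaField A)[X][X] := X ^ p.natDegree +
    ∑ i ∈ Finset.range p.natDegree, C (polyMap φ.toAddMonoidHom (p.coeff i)) * X ^ i with hp'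
  refine ⟨p', monic_X_pow_add (lt_of_le_of_lt (degree_sum_le _ _) ((Finset.sup_lt_iff
    (WithBot.bot_lt_coe _)).mpr fun i hi => (degree_C_mul_X_pow_le _ _).trans_lt
      (by exact_mod_cast Finset.mem_range.mp hi))), ?_⟩
  set X₀ := (x : LaurentSeries (inertiaField A))
  set V₀ := (v : LaurentSeries (inertiaField A))
  have key : ∀ (P : Qb[X]) (i : ℕ), coeffLin φ
      ((modularFunctionFieldBar N).val.toRingHom (aeval (toBar A N v) P) * coeffMap f X₀ ^ i) =
        evalAt V₀ (polyMap φ.toAddMonoidHom P) * X₀ ^ i := by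
    intro P i
    induction P using Polynomial.induction_on' with
    | add a b ha hb => simp only [map_add, add_mul, ha, hb]
    | monomial n a =>
      rw [polyMap_monomial, aeval_monomial, RingHom.map_mul, RingHom.map_pow, evalAt,
        coe_eval₂RingHom, eval₂_monomial, mul_assoc]
      show coeffLin φ (algebraMap Qb (LaurentSeries Qb) a * ((coeffMap f V₀) ^ n * coeffMap f X₀ ^ i)) = _
      rw [← map_pow, ← map_pow, ← map_mul]
      rw [show coeffMap f = coeffMap (algebraMap (inertiaField A) Qb) from rfl, coeffLin_mul_coeffMap,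
        coeffLin_algebraMap, mul_assoc, ModularCurve.algebraMap_laurentSeries_eq_single,
        HahnSeries.C_apply]
      rfl
  have h1 := congrArg (coeffLin φ) h0
  rw [map_zero, eval₂_eq_sum_range, map_sum, Finset.sum_range_succ, hpm.coeff_natDegree,
    map_one, one_mul] at h1
  rw [hp', eval₂_add, eval₂_X_pow, eval₂_finsetSum, ← h1, add_comm]
  refine congrArg₂ (· + ·) (Finset.sum_congr rfl fun i _ => ?_) ?_
  · rw [eval₂_mul, eval₂_C, eval₂_X_pow]
    exact (key (p.coeff i) i).symm
  · have := key 1 p.natDegree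
    rw [map_one, map_one, one_mul] at this
    refine Eq.trans ?_ this.symm
    rw [← C_1, ← monomial_zero_left, polyMap_monomial, monomial_zero_left, LinearMap.toAddMonoidHom_coe,
      show φ (1 : Qb) = 1 from by simpa using hφ 1, C_1, map_one, one_mul]

include hq hA hqN in
theorem mem_datum_integers {f : modularFunctionFieldBar N}
    (h : (f : LaurentSeries Qb) ∈ gaussRing A (residue A) N) :
    f ∈ (Igusa.Down.datum N hq hqN hA).integers := h

include hq hA hqN in
theorem coe_datum_red (f : modularFunctionFieldBar N)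
    (h : (f : LaurentSeries Qb) ∈ gaussRing A (residue A) N) :
    ((Igusa.Down.datum N hq hqN hA).red ⟨f, mem_datum_integers hq hA hqN h⟩ :
      LaurentSeries (ResidueField A)) = gaussRed A (residue A) N ⟨_, h⟩ := rfl

variable (v : LevelField (inertiaField A) N)
  [hπ : Fact (Surjective (inertiaRes A))]
  [Fact q.Prime] [CharP (ResidueField A) q]
variable (hv : IsChartVar (inertiaRing A) (inertiaRes A) N (v : LaurentSeries (inertiaField A)))

include hA hqN hv in
/-- Reduction of a chart lands in the function field of the fibre. -/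
theorem chartRed_mem_fullC (x : chartRing (inertiaRing A) v) :
    chartRed (inertiaRes A) v q hqN hv x ∈
      modularFunctionFieldFullC (ResidueField A) N := by
  obtain ⟨hm, hr⟩ := gauss_map A N (mem_gauss_of_mem_chartRing (inertiaRes A) v q hqN hv x)
  rw [chartRed_apply, ← hr]
  have : Fact (Surjective (residue A)) := ⟨IsLocalRing.residue_surjective⟩
  exact Igusa.Down.gaussRed_mem_fullC A N hqN ⟨_, hm⟩

theorem transcendental_of_injective {k : Type*} [Field k] {E : IntermediateField k (LaurentSeries k)}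
    (x : E) {t : LaurentSeries k} (hx : (x : LaurentSeries k) = t)
    (h : Injective (eval₂RingHom HahnSeries.C t)) : Transcendental k x := by
  rintro ⟨P, hP, hP0⟩
  refine hP ((injective_iff_map_eq_zero _).mp h P ?_)
  have := congrArg E.val.toRingHom hP0
  rw [map_zero, aeval_def, hom_eval₂] at this
  rw [coe_eval₂RingHom, ← hx]
  refine Eq.trans (eval₂_congr (RingHom.ext fun c => ?_) rfl rfl) this
  rw [HahnSeries.C_apply, ← ModularCurve.algebraMap_laurentSeries_eq_single]
  rfl

theorem eval₂_coe_eq_zero {k : Type*} [Field k] {E : IntermediateField k (LaurentSeries k)}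
    (x : E) {t : LaurentSeries k} (hx : (x : LaurentSeries k) = t) {z : E} {y : LaurentSeries k}
    (hz : (z : LaurentSeries k) = y) {p : k[X][X]}
    (hp : p.eval₂ (eval₂RingHom HahnSeries.C t) y = 0) : p.eval₂ (aeval x).toRingHom z = 0 := by
  refine E.val.toRingHom.injective ?_
  rw [map_zero, hom_eval₂]
  refine Eq.trans (eval₂_congr (ringHom_ext (fun c => ?_) ?_) hz rfl) hp
  · simp [HahnSeries.C_apply, ← ModularCurve.algebraMap_laurentSeries_eq_single]
  · simpa using hx

/-- Clear denominators in an integrality relation. -/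
theorem exists_monic_root_smul {v x : LaurentSeries (inertiaField A)} {p₁ : (inertiaField A)[X][X]}
    (hp₁ : p₁.Monic) (hp₁x : p₁.eval₂ (evalAt v) x = 0) :
    ∃ c : inertiaField A, c ≠ 0 ∧ ∃ p₃ : (inertiaRing A)[X][X], p₃.Monic ∧
      p₃.eval₂ (evalAtInt (inertiaRing A) v) (HahnSeries.C c * x) = 0 := by
  classical
  obtain ⟨b, hb⟩ := IsLocalization.exist_integer_multiples_of_finite
    (nonZeroDivisors (inertiaRing A)) (S := inertiaField A)
    fun ij : Fin p₁.natDegree × Fin ((p₁.support.sup fun i => (p₁.coeff i).natDegree) + 1) =>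
      (p₁.coeff ij.1).coeff ij.2
  set c : inertiaField A := ((b : inertiaRing A) : inertiaField A)
  have hc : c ≠ 0 := fun h => nonZeroDivisors.ne_zero b.2 (Subtype.ext h)
  set p₂ := p₁.scaleRoots (C c) with hp₂
  have hl : p₂ ∈ lifts (mapRingHom (inertiaRing A).subtype) := by
    refine (lifts_iff_coeff_lifts _).mpr fun i => ?_
    rw [hp₂, coeff_scaleRoots]
    rcases lt_trichotomy i p₁.natDegree with hi | hi | hi
    · refine (lifts_iff_coeff_lifts _).mpr fun l => ?_
      rw [show p₁.natDegree - i = (p₁.natDegree - i - 1) + 1 by omega, ← map_pow, coeff_mul_C,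
        pow_succ]
      by_cases hl : l < (p₁.support.sup fun i => (p₁.coeff i).natDegree) + 1
      · obtain ⟨r, hr⟩ := hb (⟨i, hi⟩, ⟨l, hl⟩)
        refine ⟨(b : inertiaRing A) ^ (p₁.natDegree - i - 1) * r, ?_⟩
        have hr' : (r : inertiaField A) = c * (p₁.coeff i).coeff l := hr
        rw [map_mul, map_pow]
        show c ^ _ * (r : inertiaField A) = _
        rw [hr']
        ring
      · refine ⟨0, ?_⟩
        rw [coeff_eq_zero_of_natDegree_lt (p := p₁.coeff i), zero_mul, map_zero]
        have hle : (p₁.coeff i).natDegree ≤ p₁.support.sup fun i => (p₁.coeff i).natDegree := by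
          by_cases hi' : i ∈ p₁.support
          · exact Finset.le_sup (f := fun i => (p₁.coeff i).natDegree) hi'
          · simp [notMem_support_iff.mp hi']
        omega
    · subst hi
      exact ⟨1, by simp [hp₁.coeff_natDegree]⟩
    · exact ⟨0, by simp [coeff_eq_zero_of_natDegree_lt hi]⟩
  obtain ⟨p₃, hp₃, -, hp₃m⟩ := lifts_and_natDegree_eq_and_monic hl ((monic_scaleRoots_iff _).mpr hp₁)
  set x₀ : LaurentSeries (inertiaField A) := HahnSeries.C c * x
  have hroot₃ : p₃.eval₂ (evalAtInt (inertiaRing A) v) x₀ = 0 := by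
    rw [evalAtInt, ← eval₂_map, hp₃,
      show x₀ = evalAt v (C c) * x
        by simp [x₀, evalAt], hp₂, scaleRoots_eval₂_mul, hp₁x, mul_zero]
  exact ⟨c, hc, p₃, hp₃m, hroot₃⟩

/-- The bound on the poles of an integral element of the fibre. -/
theorem exists_nsmul_bound {K F k Fb : Type*} [Field K] [IsAlgClosed K] [Field F] [Algebra K F]
    [IsFunctionField1 K F] [Field k] [IsAlgClosed k] [Field Fb] [Algebra k Fb]
    [IsFunctionField1 k Fb] {B : ValuationSubring K} {π : B →+* k}
    (d : GoodReductionDatum B π F Fb) {x : F} {xb : Fb} (hx : d.RedsTo x xb)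
    (hxb : Transcendental k xb) {p : k[X][X]} (hp : p.Monic) {yb : Fb}
    (hpy : p.eval₂ (aeval xb).toRingHom yb = 0) (m : ℕ) :
    ∃ n : ℕ, (m : ℤ) ≤ Divisor.degree (n • polePart (K := K) x) ∧
      yb ∈ riemannRochSpace (d.redDiv (n • polePart (K := K) x)) := by
  have hxb0 : xb ≠ 0 := fun h => hxb (h ▸ isAlgebraic_zero)
  set D := polePart (K := K) x
  have hD0 : 0 ≤ D := RR.polePart_nonneg _
  have hle := polePart_le_redDiv d hx hxb0
  have hDpos : 1 ≤ Divisor.degree D := by
    have h1 := RR.degree_nonneg (sub_nonneg.mpr hle)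
    rw [map_sub, GoodReductionDatum.degree_redDiv] at h1
    have h2 := RR.degree_polePart_eq hxb
    have h3 := finrank_adjoin_pos (K := k) hxb
    have h1' : Divisor.degree (polePart (K := k) xb) ≤ Divisor.degree D := sub_nonneg.mp h1
    exact le_trans (by omega) h1'
  obtain ⟨e, he⟩ := exists_bound_ord_of_monic hxb0 hp hpy
  refine ⟨e + m, ?_, L_mono ?_ he⟩
  · rw [map_nsmul, nsmul_eq_mul]
    exact (show (m : ℤ) ≤ ((e + m : ℕ) : ℤ) by omega).trans
      (le_mul_of_one_le_right (by positivity) hDpos)
  · rw [map_nsmul]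
    exact (nsmul_le_nsmul_right hle e).trans
      (nsmul_le_nsmul_left (GoodReductionDatum.redDiv_nonneg hD0) (by omega))

include hq hA hqN hv in
/-- An element integral over `K[v]` with integral reduction lies in the chart. -/
theorem exists_chartRed_of_gauss {x : LevelField (inertiaField A) N}
    (hxg : (x : LaurentSeries (inertiaField A)) ∈ gaussRing (inertiaRing A) (inertiaRes A) N)
    {p₁ : (inertiaField A)[X][X]} (hp₁ : p₁.Monic)
    (hp₁x : p₁.eval₂ (evalAt (v : LaurentSeries (inertiaField A)))
      (x : LaurentSeries (inertiaField A)) = 0) :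
    ∃ z, chartRed (inertiaRes A) v q hqN hv z =
      gaussRed (inertiaRing A) (inertiaRes A) N ⟨_, hxg⟩ := by
  obtain ⟨c, hc, p₃, hp₃m, hroot₃⟩ := exists_monic_root_smul hp₁ hp₁x
  have hxc : HahnSeries.C c⁻¹ * (HahnSeries.C c * (x : LaurentSeries (inertiaField A))) =
      (x : LaurentSeries (inertiaField A)) := Igusa.Down.C_inv_mul_C_mul _ hc _
  obtain ⟨p', hp', hp'x⟩ := exists_monic_root_div (inertiaRing A) (inertiaRes A) N q hqN hv hp₃m
    hroot₃ hc (hxc.symm ▸ hxg)
  rw [hxc] at hp'x
  exact ⟨⟨x, mem_chartRing_of_monic_root (inertiaRing A) v hp' hp'x⟩, rfl⟩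

include hq hA hqN hv in
theorem exists_chartRed_eq_aux [IsAlgClosed (ResidueField A)]
    [IsFunctionField1 Qb (modularFunctionFieldBar N)]
    [IsFunctionField1 (ResidueField A) (modularFunctionFieldFullC (ResidueField A) N)]
    {d : GoodReductionDatum A (residue A) (modularFunctionFieldBar N)
      (modularFunctionFieldFullC (ResidueField A) N)} (hdl : d.IsLaurent)
    (hint : ∀ f : modularFunctionFieldBar N,
      f ∈ d.integers ↔ (f : LaurentSeries Qb) ∈ gaussRing A (residue A) N)
    (hredc : ∀ (f : modularFunctionFieldBar N) (h : f ∈ d.integers),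
      (d.red ⟨f, h⟩ : LaurentSeries (ResidueField A)) =
        gaussRed A (residue A) N ⟨_, (hint f).mp h⟩)
    (hinj : Injective (evalRed (inertiaRes A) v hv))
    {y : LaurentSeries (ResidueField A)} (hy : y ∈ modularFunctionFieldFullC (ResidueField A) N)
    {p : (ResidueField A)[X][X]} (hp : p.Monic)
    (hpy : p.eval₂ (evalRed (inertiaRes A) v hv) y = 0) :
    ∃ x, chartRed (inertiaRes A) v q hqN hv x = y := by
  have : Fact (Surjective (residue A)) := ⟨IsLocalRing.residue_surjective⟩
  obtain ⟨hvg, hvr⟩ := gauss_toBar v hv.mem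
  have hvi := (hint (toBar A N v)).mpr hvg
  have hvb' : (d.red ⟨_, hvi⟩ : LaurentSeries (ResidueField A)) = varRed (inertiaRes A) v hv :=
    (hredc _ hvi).trans hvr
  have hred : d.RedsTo (toBar A N v) (d.red ⟨_, hvi⟩) := ⟨hvi, rfl⟩
  have hvbT := transcendental_of_injective _ hvb' hinj
  obtain ⟨n, hB, hfb⟩ := exists_nsmul_bound d hred hvbT hp
    (eval₂_coe_eq_zero _ hvb' (z := ⟨y, hy⟩) rfl hpy)
    (4 * genusFF Qb (modularFunctionFieldBar N) + 2)
  have hBfix : ∀ σ ∈ A.inertiaSubgroupIn ℚ, galAut N σ • (n • polePart (K := Qb) (toBar A N v)) =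
      n • polePart (K := Qb) (toBar A N v) := fun σ hσ => by
    have hne := hred.ne_zero fun h => hvbT (h ▸ isAlgebraic_zero)
    have h := semilinear_smul_divOf (galAut N σ) hne
    rw [galAut_toBar hσ v] at h
    ext w
    rw [SemilinearAut.divisor_smul_apply, Finsupp.smul_apply, Finsupp.smul_apply, polePart_apply,
      polePart_apply, ← divOf_apply hne, ← divOf_apply hne]
    conv_rhs => rw [← h, SemilinearAut.divisor_smul_apply]
  obtain ⟨f, hfL, hfr, hfix⟩ :=
    hdl.exists_fixed_lift (exists_fixed_residue hq hA) (by push_cast at hB; exact hB) hBfix hfb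
  obtain ⟨x, hx⟩ := exists_toBar_eq (A := A) (f := f) fun n => by
    rw [MazurPrinciple.mem_inertiaField]
    intro σ hσ
    rw [← coeff_galAut, hfix σ hσ]
  subst hx
  obtain ⟨p₁, hp₁, hp₁x⟩ := isIntegral_of_toBar (isIntegral_of_mem_L hfL)
  obtain ⟨hfm, hfe⟩ := hfr
  have hxg : (x : LaurentSeries (inertiaField A)) ∈ gaussRing (inertiaRing A) (inertiaRes A) N :=
    gauss_of_map hq hA hqN x ((hint _).mp hfm)
  obtain ⟨z, hz⟩ := exists_chartRed_of_gauss hq hA hqN v hv hxg hp₁ hp₁x
  obtain ⟨hm, hmr⟩ := gauss_toBar x hxg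
  exact ⟨z, (hz.trans (hmr.symm.trans (hredc _ hfm).symm)).trans (congrArg Subtype.val hfe)⟩

include hq hA hqN hv in
/-- Functions on the special fibre integral over the variable lift to the chart. -/
theorem exists_chartRed_eq (hinj : Injective (evalRed (inertiaRes A) v hv))
    {y : LaurentSeries (ResidueField A)} (hy : y ∈ modularFunctionFieldFullC (ResidueField A) N)
    {p : (ResidueField A)[X][X]} (hp : p.Monic)
    (hpy : p.eval₂ (evalRed (inertiaRes A) v hv) y = 0) :
    ∃ x, chartRed (inertiaRes A) v q hqN hv x = y := by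
  have := Igusa.Down.isAlgClosed_residueField A
  have := Igusa.Down.isFunctionField1_bar N
  have := Igusa.Down.isFunctionField1_fibre' N hq hqN hA
  exact exists_chartRed_eq_aux hq hA hqN v hv (Igusa.Down.isLaurent_datum N hq hqN hA)
    (fun f => Iff.rfl) (fun f h => coe_datum_red hq hA hqN f h) hinj hy hp hpy

end FermatAgent.BadRed.Carayol.Instance
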