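import Fermat.Agent.BadRed.Carayol.Instance.Deriv
import Fermat.Agent.BadRed.Carayol.Instance.ChartVar
import Fermat.Agent.BadRed.Carayol.Instance.Lift

/-!
# The charts `u` and `1/u` over the inertia field

Every field of `ChartData` except étaleness, which is a hypothesis here.
-/

set_option autoImplicit false
set_option linter.unusedSectionVars false
set_option maxHeartbeats 1600000

noncomputable section

open Polynomial IsLocalRing Function
open FermatAgent.ModFun FermatAgent.Igusa
open ModularCurve (coeffMap heckeAlphaBar heckeBetaBar modularFunctionFieldFullC)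
open FermatAgent.MazurPrinciple (inertiaField)

namespace FermatAgent.BadRed.Carayol.Instance

local notation "Qb" => AlgebraicClosure ℚ

/-- The étaleness required of a chart with the given cusps. -/
def EtaleAway {W F : Type*} [CommRing W] [IsLocalRing W] [Field F] [Algebra W F] (q : ℕ) (v : F)
    (cusps : Finset W) : Prop :=
  ∀ (Q : Ideal (chartRing W v)), Q.IsMaximal → (q : chartRing W v) ∈ Q →
    ∀ a : W, (∀ b ∈ cusps, residue W a ≠ residue W b) →
      (∀ x : chartRing W v, (x : F) = v - algebraMap W F a → x ∈ Q →
        ∀ y ∈ Q, ∃ r ∉ Q, r * y ∈ Ideal.span {(q : chartRing W v), x})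

variable (A : ValuationSubring Qb) {q : ℕ} [hq : Fact q.Prime] [NeZero q]
variable {N : ℕ} [NeZero N] (hqN : ¬ q ∣ N)

include hqN in
/-- The special fibre of a chart is integral and normal. -/
theorem fibre_properties (hA : A.LiesOverPrime q) (v : LevelField (inertiaField A) N)
    (hv : ∀ [Fact (Surjective (inertiaRes A))] [CharP (ResidueField A) q],
      ∃ h : IsChartVar (inertiaRing A) (inertiaRes A) N (v : LaurentSeries (inertiaField A)),
        Injective (evalRed (inertiaRes A) v h)) :
    Prime (q : chartRing (inertiaRing A) v) ∧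
      IsIntegrallyClosed
        (chartRing (inertiaRing A) v ⧸ Ideal.span {(q : chartRing (inertiaRing A) v)}) := by
  have := Fact.mk (inertiaRes_surjective hq.out hA)
  have := Igusa.Down.charP_residueField hq.out hA
  obtain ⟨h, hinj⟩ := hv
  exact ⟨prime_natCast_chartRing v q hqN h (natCast_ne_zero_inertiaRing hq.out)
      (inertiaRes_natCast hA) (fun _ => exists_eq_mul_of_inertiaRes_eq_zero hq.out hA),
    isIntegrallyClosed_chartFibre v q hqN h (natCast_ne_zero_inertiaRing hq.out)
      (inertiaRes_natCast hA) (fun _ => exists_eq_mul_of_inertiaRes_eq_zero hq.out hA)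
      (modularFunctionFieldFullC (ResidueField A) N).toSubfield
      (chartRed_mem_fullC hA hqN v h)
      fun _ hy ⟨_, hp, hpy⟩ => exists_chartRed_eq hq.out hA hqN v h hinj hy hp hpy⟩

variable {A}

/-- The data of a chart from its modular equation. -/
def chartDataOf [IsDiscreteValuationRing (inertiaRing A)]
    {v : LevelField (inertiaField A) N}
    (P : PolyChart q (inertiaRing A) (heckeAlphaBar (inertiaField A) N q v)
      (heckeBetaBar (inertiaField A) N q v))
    (htrans : Transcendental (inertiaField A) v)
    (hfin : FiniteDimensional (IntermediateField.adjoin (inertiaField A) {v})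
      (LevelField (inertiaField A) N))
    (hderiv :
      let x := heckeAlphaBar (inertiaField A) N q v
      let z := heckeBetaBar (inertiaField A) N q v
      (∃ n : ℕ, IsIntegral (Algebra.adjoin (inertiaField A) {z})
        (aeval z (∏ a ∈ P.cusps, (X - C a)) ^ n *
          (-evalTwo (derivInner P.Φ) x z / evalTwo P.Φ.derivative x z))) ∧
      (∃ n : ℕ, IsIntegral (Algebra.adjoin (inertiaField A) {x})
        (aeval x (∏ a ∈ P.cusps, (X - C a)) ^ n *
          (-evalTwo (derivInner P.Φ) z x / evalTwo P.Φ.derivative z x))))
    (hgen :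
      let K := inertiaField A
      IntermediateField.adjoin K (Set.range (heckeBetaBar K N q) ∪ {heckeAlphaBar K N q v}) = ⊤ ∧
      IntermediateField.adjoin K (Set.range (heckeAlphaBar K N q) ∪ {heckeBetaBar K N q v}) = ⊤ ∧
      IntermediateField.adjoin K (Set.range (heckeAlphaBar K (N * q) q) ∪
        {heckeBetaBar K (N * q) q (heckeBetaBar K N q v)}) = ⊤ ∧
      IntermediateField.adjoin K (Set.range (heckeBetaBar K (N * q) q) ∪
        {heckeAlphaBar K (N * q) q (heckeAlphaBar K N q v)}) = ⊤)
    (hfibre : Prime (q : chartRing (inertiaRing A) v) ∧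
      IsIntegrallyClosed
        (chartRing (inertiaRing A) v ⧸ Ideal.span {(q : chartRing (inertiaRing A) v)}))
    (hetale : EtaleAway q v P.cusps) :
    ChartData (inertiaRing A) (tower (inertiaField A) N hqN) v where
  transcendental := htrans
  finite_over := hfin
  cusps := P.cusps
  cusps_residue_injective := P.cusps_residue_injective
  conj := P.conj
  conj_mem := P.conj_mem
  conj_conj := P.conj_conj
  conj_residue _ ha := P.conj_residue ha
  Φ := P.Φ
  monic := P.monic
  natDegree_eq := P.natDegree_eq
  symm := P.symm
  kronecker := P.kronecker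
  root := P.root
  cusp_fibre := P.cusp_fibre
  deriv_integral := hderiv.1
  deriv_integral' := hderiv.2
  generate_t := hgen.1
  generate_s := hgen.2.1
  generate_α := hgen.2.2.1
  generate_β := hgen.2.2.2
  q_prime := hfibre.1
  fibre_normal := hfibre.2
  etale := hetale

variable (H : Hauptmodul q) (hN : H.L ∣ N) {R : ℤ[X]} (hR : IsCuspPoly H R) (hR0 : R.coeff 0 = 0)
variable (hA : A.LiesOverPrime q) (hH : H.IsCoord)

include hR hA hqN in
theorem fibre_uElt :
    Prime (q : chartRing (inertiaRing A) (uElt (inertiaField A) H hN)) ∧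
      IsIntegrallyClosed (chartRing (inertiaRing A) (uElt (inertiaField A) H hN) ⧸
        Ideal.span {(q : chartRing (inertiaRing A) (uElt (inertiaField A) H hN))}) := by
  refine fibre_properties A hqN hA _ fun {_ _} => ?_
  have h : IsChartVar (inertiaRing A) (inertiaRes A) N
      ((uElt (inertiaField A) H hN : LevelField (inertiaField A) N) :
        LaurentSeries (inertiaField A)) := by
    rw [coe_uElt]; exact isChartVar_uSeries H q hqN hN hR
  refine ⟨h, (injective_iff_map_eq_zero _).mpr fun p hp => ?_⟩
  obtain ⟨hm, hr⟩ := intSeries_mem_gaussRing (π := inertiaRes A) q hqN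
    (mem_field_uElt (L := inertiaField A) H hN)
  have hvr : varRed (inertiaRes A) _ h = coeffMap (Int.castRingHom (ResidueField A)) (uSeries H) :=
    (congrArg (gaussRed _ _ N) (Subtype.ext (coe_uElt _ H hN))).trans hr
  rw [evalRed, coe_eval₂RingHom, hvr, eval₂_C_eq_aeval] at hp
  exact eq_zero_of_aeval_uSeries H _ hp

include hR hA hqN in
theorem fibre_uInv :
    Prime (q : chartRing (inertiaRing A) (uElt (inertiaField A) H hN)⁻¹) ∧
      IsIntegrallyClosed (chartRing (inertiaRing A) (uElt (inertiaField A) H hN)⁻¹ ⧸
        Ideal.span {(q : chartRing (inertiaRing A) (uElt (inertiaField A) H hN)⁻¹)}) := by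
  refine fibre_properties A hqN hA _ fun {_ _} => ?_
  have hcoe : (((uElt (inertiaField A) H hN)⁻¹ : LevelField (inertiaField A) N) :
      LaurentSeries (inertiaField A)) =
        coeffMap (Int.castRingHom (inertiaField A)) (uInvSeries H) := by
    rw [IntermediateField.coe_inv, coe_uElt, inv_uSeries]
  have h : IsChartVar (inertiaRing A) (inertiaRes A) N
      (((uElt (inertiaField A) H hN)⁻¹ : LevelField (inertiaField A) N) :
        LaurentSeries (inertiaField A)) := by
    rw [hcoe]; exact isChartVar_uInvSeries H q hqN hN hR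
  refine ⟨h, (injective_iff_map_eq_zero _).mpr fun p hp => ?_⟩
  obtain ⟨hm, hr⟩ := intSeries_mem_gaussRing (π := inertiaRes A) q hqN
    (mem_field_uInv (L := inertiaField A) H hN)
  have hvr : varRed (inertiaRes A) _ h =
      coeffMap (Int.castRingHom (ResidueField A)) (uInvSeries H) :=
    (congrArg (gaussRed _ _ N) (Subtype.ext hcoe)).trans hr
  rw [evalRed, coe_eval₂RingHom, hvr, ← inv_uSeries, eval₂_C_eq_aeval] at hp
  by_contra hp0
  obtain ⟨r, hr0, hr'⟩ := IsAlgebraic.inv_iff.mp (⟨p, hp0, hp⟩ : IsAlgebraic _ _)
  exact hr0 (eq_zero_of_aeval_uSeries H _ hr')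

variable [IsDiscreteValuationRing (inertiaRing A)]

/-- The chart at `0`, over the inertia field. -/
def inertiaChart : PolyChart q (inertiaRing A)
    (heckeAlphaBar (inertiaField A) N q (uElt (inertiaField A) H hN))
    (heckeBetaBar (inertiaField A) N q (uElt (inertiaField A) H hN)) :=
  basePolyChart H (inertiaField A) (inertiaToC A) (inertiaRing A) hN hR hR0
    (splits_inertiaRing hq.out hA hR.monic hR.separable) (residue_natCast_inertiaRing hA)

/-- The chart at infinity, over the inertia field. -/
def inertiaChartInv : PolyChart q (inertiaRing A)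
    (heckeAlphaBar (inertiaField A) N q (uElt (inertiaField A) H hN)⁻¹)
    (heckeBetaBar (inertiaField A) N q (uElt (inertiaField A) H hN)⁻¹) :=
  invPolyChart H (inertiaField A) (inertiaToC A) (inertiaRing A) hN hR hR0
    (splits_inertiaRing hq.out hA hR.monic hR.separable) (residue_natCast_inertiaRing hA)

/-- The chart at `0`, given étaleness. -/
def uChartData (hetale : EtaleAway q (uElt (inertiaField A) H hN) (cuspSet R (inertiaRing A))) :
    ChartData (inertiaRing A) (tower (inertiaField A) N hqN) (uElt (inertiaField A) H hN) :=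
  chartDataOf hqN (inertiaChart H hN hR hR0 hA) (transcendental_uElt H _ hN)
    (finite_over_uElt H _ hN hR)
    (deriv_integral_uElt H _ _ _ hN hqN hR hR0 _ _ hH)
    ⟨generate_t _ H hN hqN (inertiaToC A), generate_s _ H hN hqN (inertiaToC A),
      generate_α _ H hN hqN (inertiaToC A), generate_β _ H hN hqN (inertiaToC A)⟩
    (fibre_uElt hqN H hN hR hA) hetale

/-- The chart at infinity, given étaleness. -/
def uInvChartData
    (hetale : EtaleAway q (uElt (inertiaField A) H hN)⁻¹
      (inertiaChartInv H hN hR hR0 hA).cusps) :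
    ChartData (inertiaRing A) (tower (inertiaField A) N hqN) (uElt (inertiaField A) H hN)⁻¹ :=
  chartDataOf hqN (inertiaChartInv H hN hR hR0 hA)
    (fun h => transcendental_uElt H _ hN (IsAlgebraic.inv_iff.mp h))
    (by rw [Instance.adjoin_inv_eq]; exact finite_over_uElt H _ hN hR)
    (deriv_integral_uInv H _ _ _ hN hqN hR hR0 _ _ hH)
    ⟨by rw [map_inv₀, adjoin_union_inv]; exact generate_t _ H hN hqN (inertiaToC A),
      by rw [map_inv₀, adjoin_union_inv]; exact generate_s _ H hN hqN (inertiaToC A),
      by rw [map_inv₀, map_inv₀, adjoin_union_inv]; exact generate_α _ H hN hqN (inertiaToC A),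
      by rw [map_inv₀, map_inv₀, adjoin_union_inv]; exact generate_β _ H hN hqN (inertiaToC A)⟩
    (fibre_uInv hqN H hN hR hA) hetale

end FermatAgent.BadRed.Carayol.Instance
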