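import Fermat.Agent.Igusa.Generators
import Fermat.Agent.ModCurve.Fun.Level

/-!
# Leading exponentials at `i∞`

`HasLead F k`: `F τ / exp (2 π i k τ)` tends to a nonzero constant at `i∞`.  The behaviour of
`Δ (d γ τ)` is computed, and a criterion for a root of a modular function to be invariant under
a parabolic element is proved.
-/

set_option autoImplicit false

noncomputable section

open UpperHalfPlane hiding I
open Complex Filter Function Asymptotics
open scoped Real Topology MatrixGroups Manifold ModularForm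
open FermatAgent.ModFun

namespace FermatAgent.BadRed.Carayol.Instance

local notation "Δ" => ModularForm.discriminant
local notation "𝕢" => Periodic.qParam

/-- `exp (2 π i k τ)`. -/
def wExp (k : ℝ) (τ : ℍ) : ℂ := cexp (2 * π * Complex.I * k * τ)

theorem wExp_ne_zero (k : ℝ) (τ : ℍ) : wExp k τ ≠ 0 := Complex.exp_ne_zero _

theorem wExp_add (k l : ℝ) (τ : ℍ) : wExp (k + l) τ = wExp k τ * wExp l τ := by
  rw [wExp, wExp, wExp, ← Complex.exp_add]; push_cast; ring_nf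

theorem wExp_zero (τ : ℍ) : wExp 0 τ = 1 := by simp [wExp]

theorem wExp_nat_mul (n : ℕ) (k : ℝ) (τ : ℍ) : wExp (n * k) τ = wExp k τ ^ n := by
  rw [wExp, wExp, ← Complex.exp_nat_mul]; push_cast; ring_nf

theorem norm_wExp (k : ℝ) (τ : ℍ) : ‖wExp k τ‖ = Real.exp (-2 * π * k * τ.im) := by
  rw [wExp, Complex.norm_exp]; simp

/-- The leading exponential at `i∞`. -/
def HasLead (F : ℍ → ℂ) (k : ℝ) : Prop :=
  ∃ C : ℂ, C ≠ 0 ∧ Tendsto (fun τ => F τ / wExp k τ) atImInfty (𝓝 C)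

theorem HasLead.congr {F G : ℍ → ℂ} {k : ℝ} (h : HasLead F k) (he : ∀ τ, F τ = G τ) :
    HasLead G k := by
  obtain ⟨C, hC, ht⟩ := h
  exact ⟨C, hC, ht.congr fun τ => by rw [he τ]⟩

theorem HasLead.mul {F G : ℍ → ℂ} {k l : ℝ} (hF : HasLead F k) (hG : HasLead G l) :
    HasLead (fun τ => F τ * G τ) (k + l) := by
  obtain ⟨C, hC, hF⟩ := hF
  obtain ⟨D, hD, hG⟩ := hG
  exact ⟨C * D, mul_ne_zero hC hD, (hF.mul hG).congr fun τ => by rw [wExp_add, div_mul_div_comm]⟩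

theorem HasLead.inv {F : ℍ → ℂ} {k : ℝ} (hF : HasLead F k) : HasLead (fun τ => (F τ)⁻¹) (-k) := by
  obtain ⟨C, hC, hF⟩ := hF
  refine ⟨C⁻¹, inv_ne_zero hC, (hF.inv₀ hC).congr fun τ => ?_⟩
  have h : wExp k τ * wExp (-k) τ = 1 := by rw [← wExp_add, add_neg_cancel, wExp_zero]
  rw [eq_inv_of_mul_eq_one_right h, inv_div, div_inv_eq_mul]
  ring

theorem HasLead.div {F G : ℍ → ℂ} {k l : ℝ} (hF : HasLead F k) (hG : HasLead G l) :
    HasLead (fun τ => F τ / G τ) (k - l) := by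
  simpa only [sub_eq_add_neg, div_eq_mul_inv] using hF.mul hG.inv

theorem hasLead_const {c : ℂ} (hc : c ≠ 0) : HasLead (fun _ => c) 0 :=
  ⟨c, hc, by simpa only [wExp_zero, div_one] using tendsto_const_nhds⟩

theorem HasLead.const_mul {F : ℍ → ℂ} {k : ℝ} (hF : HasLead F k) {c : ℂ} (hc : c ≠ 0) :
    HasLead (fun τ => c * F τ) k := by
  simpa using (hasLead_const hc).mul hF

theorem HasLead.pow {F : ℍ → ℂ} {k : ℝ} (hF : HasLead F k) (n : ℕ) :
    HasLead (fun τ => F τ ^ n) (n * k) := by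
  obtain ⟨C, hC, hF⟩ := hF
  exact ⟨C ^ n, pow_ne_zero n hC, (hF.pow n).congr fun τ => by rw [wExp_nat_mul, div_pow]⟩

theorem HasLead.tendsto_zero {F : ℍ → ℂ} {k : ℝ} (hk : 0 < k) (hF : HasLead F k) :
    Tendsto F atImInfty (𝓝 0) := by
  obtain ⟨C, -, hF⟩ := hF
  have h0 : Tendsto (wExp k) atImInfty (𝓝 0) := by
    rw [tendsto_zero_iff_norm_tendsto_zero]
    simp only [norm_wExp]
    refine Real.tendsto_exp_atBot.comp
      (tendsto_comap.const_mul_atTop_of_neg ?_)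
    nlinarith [Real.pi_pos]
  simpa using (hF.mul h0).congr fun τ => div_mul_cancel₀ _ (wExp_ne_zero k τ)

theorem HasLead.bounded {F : ℍ → ℂ} {k : ℝ} (hk : 0 ≤ k) (hF : HasLead F k) :
    IsBoundedAtImInfty F := by
  rcases hk.eq_or_lt with h | h
  · obtain ⟨C, -, hF⟩ := hF
    subst h
    simp only [wExp_zero, div_one] at hF
    exact hF.isBigO_one ℝ
  · exact (hF.tendsto_zero h).isBigO_one ℝ

theorem tendsto_zero_of_pow {F : ℍ → ℂ} {m : ℕ} (_hm : 0 < m)
    (h : Tendsto (fun τ => F τ ^ m) atImInfty (𝓝 0)) : Tendsto F atImInfty (𝓝 0) := by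
  rw [Metric.tendsto_nhds] at h ⊢
  intro ε hε
  filter_upwards [h (ε ^ m) (pow_pos hε m)] with τ hτ
  rw [dist_zero_right] at hτ ⊢
  rw [norm_pow] at hτ
  exact lt_of_pow_lt_pow_left₀ m hε.le hτ

theorem isBounded_of_pow {F : ℍ → ℂ} {m : ℕ} (hm : 0 < m)
    (h : IsBoundedAtImInfty fun τ => F τ ^ m) : IsBoundedAtImInfty F := by
  obtain ⟨c, A, hc⟩ := isBoundedAtImInfty_iff.mp h
  refine isBoundedAtImInfty_iff.mpr ⟨max c 1, A, fun τ hτ => ?_⟩
  rcases le_total ‖F τ‖ 1 with h1 | h1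
  · exact h1.trans (le_max_right _ _)
  · refine le_trans ?_ ((hc τ hτ).trans (le_max_left _ _))
    rw [norm_pow]
    exact le_self_pow₀ h1 hm.ne'

theorem hasLead_discriminant : HasLead Δ 1 := by
  refine ⟨1, one_ne_zero, ModularForm.tendsto_atImInfty_tprod_one_sub_eta_q_pow.congr fun τ => ?_⟩
  have hq : wExp 1 τ = 𝕢 1 (τ : ℂ) := by simp [wExp, Periodic.qParam]
  rw [hq, ModularForm.discriminant_eq_q_prod, mul_div_cancel_left₀ _ (Periodic.qParam_ne_zero _)]

theorem tendsto_ut_atImInfty (a e : ℕ) [NeZero a] [NeZero e] (b : ℤ) :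
    Tendsto (Igusa.ut a e b) atImInfty atImInfty := by
  have hr : (0 : ℝ) < (a : ℝ) / e :=
    div_pos (Nat.cast_pos.mpr (NeZero.pos a)) (Nat.cast_pos.mpr (NeZero.pos e))
  rw [atImInfty, tendsto_comap_iff]
  refine (tendsto_comap.const_mul_atTop hr).congr fun τ => ?_
  show (a : ℝ) / e * τ.im = (Igusa.ut a e b τ).im
  simp [Igusa.ut]

theorem wExp_ut (k : ℝ) (a e : ℕ) [NeZero a] [NeZero e] (b : ℤ) (τ : ℍ) :
    wExp k (Igusa.ut a e b τ) = cexp (2 * π * Complex.I * k * b / e) * wExp (k * a / e) τ := by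
  rw [wExp, wExp, Igusa.coe_ut, ← Complex.exp_add]
  congr 1
  push_cast
  ring

theorem hasLead_discriminant_ut (a e : ℕ) [NeZero a] [NeZero e] (b : ℤ) :
    HasLead (fun τ => Δ (Igusa.ut a e b τ)) ((a : ℝ) / e) := by
  obtain ⟨C, hC, h⟩ := hasLead_discriminant
  refine ⟨C * cexp (2 * π * Complex.I * (1 : ℝ) * b / e), mul_ne_zero hC (Complex.exp_ne_zero _),
    ((h.comp (tendsto_ut_atImInfty a e b)).mul_const _).congr fun τ => ?_⟩
  simp only [comp_apply, wExp_ut, one_mul]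
  field_simp [Complex.exp_ne_zero, wExp_ne_zero]

/-- The order of `Δ(d ·)` at the cusp `γ ∞`. -/
theorem hasLead_discriminant_dil_smul (d : ℕ) [NeZero d] (γ : SL(2, ℤ)) :
    HasLead (fun τ => Δ (dil d (γ • τ)) / ((γ 1 0 : ℂ) * τ + γ 1 1) ^ 12)
      ((Nat.gcd d (γ 1 0).natAbs : ℝ) ^ 2 / d) := by
  obtain ⟨γ', a, e, _, _, b, hd, -, h1, h2⟩ := Igusa.exists_dil_smul d γ
  have he0 : (e : ℂ) ≠ 0 := Nat.cast_ne_zero.mpr (NeZero.ne e)
  -- compare coefficients in the identity between the automorphy factors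
  have key : ∀ τ : ℍ, (γ' 1 0 : ℂ) * (a * τ + b) + e * (γ' 1 1 : ℂ)
      = (γ 1 0 : ℂ) * τ + γ 1 1 := fun τ => by
    rw [← h2 τ, Igusa.coe_ut]; field_simp
  have hI := key UpperHalfPlane.I
  have hc : γ 1 0 = γ' 1 0 * a := by
    have := congrArg Complex.im hI
    simp at this
    exact_mod_cast this.symm
  have hD : γ 1 1 = γ' 1 0 * b + e * γ' 1 1 := by
    have hre := congrArg Complex.re hI
    simp at hre
    exact_mod_cast hre.symm
  have hcop : IsCoprime (γ' 1 0) (e : ℤ) := by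
    have hdet : γ 0 0 * γ 1 1 - γ 0 1 * γ 1 0 = 1 := by
      have := γ.det_coe
      rwa [Matrix.det_fin_two] at this
    exact ⟨γ 0 0 * b - γ 0 1 * a, γ 0 0 * γ' 1 1, by
      linear_combination hdet - (γ 0 0) * hD + (γ 0 1) * hc⟩
  have hgcd : Nat.gcd d (γ 1 0).natAbs = a := by
    rw [hc, Int.natAbs_mul, Int.natAbs_natCast, ← hd, mul_comm (γ' 1 0).natAbs, Nat.gcd_mul_left]
    have : Nat.gcd e (γ' 1 0).natAbs = 1 := by
      simpa [Int.gcd, Nat.gcd_comm] using Int.isCoprime_iff_gcd_eq_one.mp hcop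
    rw [this, mul_one]
  have hk : (Nat.gcd d (γ 1 0).natAbs : ℝ) ^ 2 / d = (a : ℝ) / e := by
    rw [hgcd, ← hd]
    push_cast
    have : (a : ℝ) ≠ 0 := Nat.cast_ne_zero.mpr (NeZero.ne a)
    have : (e : ℝ) ≠ 0 := Nat.cast_ne_zero.mpr (NeZero.ne e)
    field_simp
  rw [hk]
  refine ((hasLead_discriminant_ut a e b).const_mul
    (inv_ne_zero (pow_ne_zero 12 he0))).congr fun τ => ?_
  rw [h1, Igusa.discriminant_smul_eq, ← h2 τ]
  have := Igusa.sl_denom_ne_zero γ' (Igusa.ut a e b τ)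
  field_simp

/-- The elements of `SL₂(ℤ)` fixing a function. -/
def fixGroup (F : ℍ → ℂ) : Subgroup SL(2, ℤ) where
  carrier := {γ | ∀ τ, F (γ • τ) = F τ}
  mul_mem' {a b} ha hb τ := by rw [mul_smul, ha, hb]
  one_mem' τ := by rw [one_smul]
  inv_mem' {a} ha τ := by
    conv_rhs => rw [← smul_inv_smul a τ, ha]

theorem mem_fixGroup {F : ℍ → ℂ} {γ : SL(2, ℤ)} : γ ∈ fixGroup F ↔ ∀ τ, F (γ • τ) = F τ :=
  Iff.rfl

/-- A root of an invariant function is invariant up to a root of unity. -/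
theorem exists_multiplier {F : ℍ → ℂ} (hF : MDiff F) (h0 : ∀ τ, F τ ≠ 0) {m : ℕ} (hm : 0 < m)
    {γ : SL(2, ℤ)} (hinv : ∀ τ, F (γ • τ) ^ m = F τ ^ m) :
    ∃ ω : ℂ, ω ^ m = 1 ∧ ∀ τ, F (γ • τ) = ω * F τ := by
  have hc : Continuous fun τ => F (γ • τ) / F τ :=
    (mdiff_comp_smul hF γ).continuous.div hF.continuous h0
  have hT : IsDiscrete {z : ℂ | z ^ m = 1} := by
    refine Set.Finite.isDiscrete ?_
    refine (Polynomial.nthRootsFinset m (1 : ℂ)).finite_toSet.subset fun z hz => ?_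
    simpa [Polynomial.mem_nthRootsFinset hm] using hz
  have hmaps : ∀ τ, (F (γ • τ) / F τ) ^ m = 1 := fun τ => by
    rw [div_pow, hinv, div_self (pow_ne_zero _ (h0 τ))]
  refine ⟨_, hmaps UpperHalfPlane.I, fun τ => ?_⟩
  have := isPreconnected_univ.constant_of_mapsTo hT hc.continuousOn (fun τ _ => hmaps τ)
    (Set.mem_univ τ) (Set.mem_univ UpperHalfPlane.I)
  rw [← this, div_mul_cancel₀ _ (h0 τ)]

/-- Invariance of a root under the parabolic element `A T^h A⁻¹`. -/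
theorem mem_fixGroup_of_lead {F : ℍ → ℂ} (hF : MDiff F) (h0 : ∀ τ, F τ ≠ 0) {m : ℕ} (hm : 0 < m)
    {A : SL(2, ℤ)} {h : ℤ}
    (hinv : ∀ τ, F ((A * ModularGroup.T ^ h * A⁻¹) • τ) ^ m = F τ ^ m) {k : ℝ}
    (hlead : HasLead (fun τ => F (A • τ) ^ m) (m * k)) (hkh : ∃ n : ℤ, k * h = n) :
    A * ModularGroup.T ^ h * A⁻¹ ∈ fixGroup F := by
  obtain ⟨ω, -, hωF⟩ := exists_multiplier hF h0 hm hinv
  suffices hω : ω = 1 from fun τ => by rw [hωF, hω, one_mul]
  set G : ℍ → ℂ := fun τ => F (A • τ) / wExp k τ with hG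
  have hGc : Continuous G := by
    refine (mdiff_comp_smul hF A).continuous.div ?_ fun τ => wExp_ne_zero k τ
    exact Complex.continuous_exp.comp (continuous_const.mul UpperHalfPlane.continuous_coe)
  have hper : ∀ τ, wExp k ((h : ℝ) +ᵥ τ) = wExp k τ := fun τ => by
    obtain ⟨n, hn⟩ := hkh
    have : wExp k ((h : ℝ) +ᵥ τ) = cexp (n * (2 * π * Complex.I)) * wExp k τ := by
      rw [wExp, wExp, ← Complex.exp_add]
      congr 1
      rw [UpperHalfPlane.coe_vadd]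
      have hn' : (k : ℂ) * (h : ℂ) = (n : ℂ) := by exact_mod_cast hn
      push_cast
      linear_combination (2 * (π : ℂ) * Complex.I) * hn'
    rw [this, Complex.exp_int_mul_two_pi_mul_I, one_mul]
  have hGω : ∀ τ, G ((h : ℝ) +ᵥ τ) = ω * G τ := fun τ => by
    simp only [hG, hper]
    rw [← modular_T_zpow_smul, smul_smul,
      show A * ModularGroup.T ^ h = A * ModularGroup.T ^ h * A⁻¹ * A by group, mul_smul, hωF,
      mul_div_assoc]
  obtain ⟨C, hC, hlim⟩ := hlead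
  have hlim' : Tendsto (fun τ => G τ ^ m / C) atImInfty (𝓝 1) := by
    rw [← div_self hC]
    exact (hlim.congr fun τ => by simp only [hG, div_pow, wExp_nat_mul]).div_const C
  obtain ⟨r, hr⟩ : ∃ r : ℂ, r ^ m = C :=
    ⟨C ^ (1 / (m : ℂ)), by rw [one_div, Complex.cpow_nat_inv_pow C hm.ne']⟩
  obtain ⟨Y, hY⟩ := (atImInfty_mem _).mp (hlim' (Metric.ball_mem_nhds 1 one_pos))
  let τ₀ : ℍ := ⟨⟨0, max Y 1⟩, lt_max_of_lt_right one_pos⟩
  have him : ∀ t : ℝ, Y ≤ (t +ᵥ τ₀ : ℍ).im := fun t => by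
    rw [UpperHalfPlane.vadd_im]; exact le_max_left _ _
  have hline : Continuous fun t : ℝ => t +ᵥ τ₀ := by
    rw [UpperHalfPlane.isEmbedding_coe.continuous_iff]
    simp only [comp_def, UpperHalfPlane.coe_vadd]
    fun_prop
  set c : ℝ → ℂ := fun t =>
    G (t +ᵥ τ₀) / (r * cexp (Complex.log (G (t +ᵥ τ₀) ^ m / C) / m)) with hc
  have hslit : ∀ t : ℝ, G (t +ᵥ τ₀) ^ m / C ∈ Complex.slitPlane := fun t => by
    refine Complex.ball_one_subset_slitPlane ?_
    exact hY _ (him t)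
  have hr0 : r ≠ 0 := fun h => hC (by rw [← hr, h, zero_pow hm.ne'])
  have hcc : Continuous c := by
    refine (hGc.comp hline).div ?_ fun t => mul_ne_zero hr0 (Complex.exp_ne_zero _)
    exact continuous_const.mul (Complex.continuous_exp.comp
      ((((hGc.comp hline).pow m).div_const C).clog hslit |>.div_const _))
  have hcm : ∀ t, c t ^ m = 1 := fun t => by
    have hG0 : G (t +ᵥ τ₀) ≠ 0 := div_ne_zero (h0 _) (wExp_ne_zero _ _)
    rw [hc]
    simp only
    rw [div_pow, mul_pow, hr, ← Complex.exp_nat_mul,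
      mul_div_cancel₀ _ (Nat.cast_ne_zero.mpr hm.ne'), Complex.exp_log (Complex.slitPlane_ne_zero
      (hslit t))]
    field_simp
  have hT : IsDiscrete {z : ℂ | z ^ m = 1} := by
    refine Set.Finite.isDiscrete ?_
    refine (Polynomial.nthRootsFinset m (1 : ℂ)).finite_toSet.subset fun z hz => ?_
    simpa [Polynomial.mem_nthRootsFinset hm] using hz
  have hceq := isPreconnected_univ.constant_of_mapsTo hT hcc.continuousOn (fun t _ => hcm t)
    (Set.mem_univ (h : ℝ)) (Set.mem_univ (0 : ℝ))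
  have hG0 : G τ₀ ≠ 0 := div_ne_zero (h0 _) (wExp_ne_zero _ _)
  have hωm : ω ^ m = 1 := by
    have h1 : F ((A * ModularGroup.T ^ h * A⁻¹) • τ₀) ^ m = ω ^ m * F τ₀ ^ m := by
      rw [hωF, mul_pow]
    rw [hinv] at h1
    have := pow_ne_zero m (h0 τ₀)
    field_simp at h1
    exact h1.symm
  simp only [hc, zero_vadd, hGω, mul_pow, hωm, one_mul] at hceq
  have hd : r * cexp (Complex.log (G τ₀ ^ m / C) / m) ≠ 0 :=
    mul_ne_zero hr0 (Complex.exp_ne_zero _)
  field_simp at hceq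
  exact hceq

end FermatAgent.BadRed.Carayol.Instance
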