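import Fermat.Agent.BadRed.Carayol.Instance.Chart

/-!
# Constants, transcendence and separability
-/

set_option autoImplicit false
set_option linter.unusedSectionVars false

noncomputable section

open Polynomial Function
open FermatAgent.ModFun
open ModularCurve (coeffMap qExpand heckeAlphaBar heckeBetaBar jqModC laurentBaseChange
  modularFunctionFieldFull)

namespace FermatAgent.BadRed.Carayol.Instance

section Constants

variable {K : Type*} [Field K]

theorem eq_zero_of_isAlgebraic_coeff {x : LaurentSeries K} (hx : IsAlgebraic K x)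
    (h : ∀ m : ℤ, m ≤ 0 → x.coeff m = 0) : x = 0 := by
  by_contra hne
  obtain ⟨p, hp0, hp⟩ := hx
  have hord : 0 < x.order := by
    by_contra! hle
    exact HahnSeries.coeff_order_eq_zero.not.mpr hne (h _ hle)
  have hpole : PoleLE x.order.toNat x⁻¹ := by
    intro m hm
    have : x⁻¹.order = -x.order := by
      have := HahnSeries.order_mul (inv_ne_zero hne) hne
      rw [inv_mul_cancel₀ hne, HahnSeries.order_one] at this
      omega
    exact HahnSeries.coeff_eq_zero_of_lt_order (by omega)
  have hlead : x⁻¹.coeff (-(x.order.toNat : ℕ) : ℤ) ≠ 0 := by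
    have : x⁻¹.order = -x.order := by
      have := HahnSeries.order_mul (inv_ne_zero hne) hne
      rw [inv_mul_cancel₀ hne, HahnSeries.order_one] at this
      omega
    rw [show (-(x.order.toNat : ℕ) : ℤ) = x⁻¹.order by omega]
    exact HahnSeries.coeff_order_eq_zero.not.mpr (inv_ne_zero hne)
  have halg : IsAlgebraic K x⁻¹ := IsAlgebraic.inv ⟨p, hp0, hp⟩
  obtain ⟨r, hr0, hr⟩ := halg
  exact hr0 (eq_zero_of_aeval_pole (by omega) hpole hlead hr)

/-- Series algebraic over the constants are constant. -/
theorem mem_range_of_isAlgebraic {x : LaurentSeries K} (hx : IsAlgebraic K x) :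
    x ∈ Set.range (algebraMap K (LaurentSeries K)) := by
  rcases eq_or_ne x 0 with rfl | hne
  · exact ⟨0, map_zero _⟩
  have hnp : 0 ≤ x.order := by
    by_contra! hlt
    obtain ⟨p, hp0, hp⟩ := hx
    refine hp0 (eq_zero_of_aeval_pole (d := (-x.order).toNat) (by omega) (fun m hm => ?_) ?_ hp)
    · exact HahnSeries.coeff_eq_zero_of_lt_order (by omega)
    · rw [show (-((-x.order).toNat : ℕ) : ℤ) = x.order by omega]
      exact HahnSeries.coeff_order_eq_zero.not.mpr hne
  refine ⟨x.coeff 0, eq_comm.mp (sub_eq_zero.mp (eq_zero_of_isAlgebraic_coeff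
    (hx.sub (isAlgebraic_algebraMap _)) fun m hm => ?_))⟩
  rw [ModularCurve.algebraMap_laurentSeries_eq_single, HahnSeries.coeff_sub]
  rcases hm.lt_or_eq with hm' | rfl
  · rw [HahnSeries.coeff_eq_zero_of_lt_order (lt_of_lt_of_le hm' hnp),
      HahnSeries.coeff_single_of_ne hm'.ne, sub_zero]
  · rw [HahnSeries.coeff_single_same, sub_self]

theorem mem_range_of_isAlgebraic_sub {E : IntermediateField K (LaurentSeries K)} {x : E}
    (hx : IsAlgebraic K x) : x ∈ Set.range (algebraMap K E) := by
  obtain ⟨c, hc⟩ := mem_range_of_isAlgebraic (hx.algHom E.val)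
  exact ⟨c, Subtype.ext hc⟩

end Constants

variable {q : ℕ} [hq : Fact q.Prime] [NeZero q] (H : Hauptmodul q) {R : ℤ[X]}
variable (K : Type*) [Field K] [Algebra ℚ K] {N : ℕ} [NeZero N] (hN : H.L ∣ N)

theorem transcendental_uElt : Transcendental K (uElt K H hN) := fun h => by
  obtain ⟨c, hc⟩ := mem_range_of_isAlgebraic_sub h
  have := congrArg (fun y : LevelField K N => (y : LaurentSeries K).coeff (-1)) hc
  simp [coe_uElt, coeff_uSeries_top, ModularCurve.algebraMap_laurentSeries_eq_single] at this

theorem uElt_ne_zero : uElt K H hN ≠ 0 := fun h =>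
  transcendental_uElt H K hN (h ▸ isAlgebraic_zero)

/-- `j` is a rational function of `u`. -/
theorem jBar_mem_adjoin (hR : IsCuspPoly H R) :
    jBar K N ∈ IntermediateField.adjoin K {uElt K H hN} := by
  obtain ⟨P, hP⟩ := exists_j_eq_eval H hR
  set u := uElt K H hN with hu
  have haev : ∀ Q : ℤ[X], ((aeval u Q : LevelField K N) : LaurentSeries K) =
      coeffMap (Int.castRingHom K) (aeval (uSeries H) Q) := fun Q => by
    show (LevelField K N).val.toRingHom (aeval u Q) = _
    rw [aeval_def, aeval_def, hom_eval₂, hom_eval₂]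
    exact eval₂_congr (RingHom.ext_int _ _) (coe_uElt K H hN) rfl
  have hmem : ∀ Q : ℤ[X], aeval u Q ∈ IntermediateField.adjoin K {u} := fun Q => by
    rw [← aeval_map_algebraMap K u Q]
    exact IntermediateField.algebra_adjoin_le_adjoin K _ (aeval_mem_adjoin_singleton K u)
  have h1 : aeval u P = jBar K N * aeval u R ^ H.L := by
    refine Subtype.ext ?_
    rw [MulMemClass.coe_mul, SubmonoidClass.coe_pow, haev, haev, hP, map_mul, map_pow, coe_jBar,
      ModularCurve.coeffMap_jqModC]
  have h2 : aeval u R ≠ 0 := fun h => by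
    refine transcendental_uElt H K hN ⟨R.map (Int.castRingHom K), (hR.monic.map _).ne_zero, ?_⟩
    rw [show Int.castRingHom K = algebraMap ℤ K from RingHom.ext_int _ _, aeval_map_algebraMap, h]
  rw [eq_comm, ← eq_div_iff (pow_ne_zero _ h2)] at h1
  rw [h1]
  exact div_mem (hmem P) (pow_mem (hmem R) _)

/-- Finiteness over a larger intermediate field. -/
theorem finiteDimensional_of_le {F : Type*} [Field F] [Algebra K F] {E E' : IntermediateField K F}
    (hle : E ≤ E') (h : FiniteDimensional E F) : FiniteDimensional E' F := by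
  obtain ⟨s, hs⟩ := h.fg_top
  refine ⟨⟨s, eq_top_iff.mpr fun y _ => ?_⟩⟩
  have hy : y ∈ Submodule.span E (s : Set F) := hs ▸ Submodule.mem_top
  induction hy using Submodule.span_induction with
  | mem z hz => exact Submodule.subset_span hz
  | zero => exact zero_mem _
  | add a b _ _ ha hb => exact add_mem (ha trivial) (hb trivial)
  | smul c z _ hz =>
    exact Submodule.smul_mem _ (⟨(c : F), hle c.2⟩ : E') (hz trivial)

theorem finite_over_uElt (hR : IsCuspPoly H R) :
    FiniteDimensional (IntermediateField.adjoin K {uElt K H hN}) (LevelField K N) :=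
  finiteDimensional_of_le K
    (IntermediateField.adjoin_simple_le_iff.mpr (jBar_mem_adjoin H K hN hR))
    (finiteDimensional_adjoin_jBar K N)

theorem adjoin_inv_eq {F : Type*} [Field F] [Algebra K F] (u : F) :
    IntermediateField.adjoin K {u⁻¹} = IntermediateField.adjoin K {u} := by
  refine le_antisymm ?_ ?_ <;> rw [IntermediateField.adjoin_simple_le_iff]
  · exact inv_mem (IntermediateField.mem_adjoin_simple_self K u)
  · simpa using inv_mem (IntermediateField.mem_adjoin_simple_self K u⁻¹)

/-- A generator with a monic equation of the degree of the extension is a simple root. -/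
theorem evalTwo_derivative_ne_zero {W A B : Type*} [CommRing W] [Field A] [Field B] [Algebra K A]
    [Algebra K B] [Algebra W K] [Algebra W A] [Algebra W B] [IsScalarTower W K A] [IsScalarTower W K B]
    [CharZero A] (φ : A →ₐ[K] B) {n : ℕ} (hn : degreeAlong φ = n) (hn0 : n ≠ 0) {a : A} {x : B}
    (hgen : IntermediateField.adjoin K (Set.range φ ∪ {x}) = ⊤) {Φ : W[X][X]} (hΦ : Φ.Monic)
    (hdeg : Φ.natDegree = n) (hroot : evalTwo Φ x (φ a) = 0) :
    evalTwo Φ.derivative x (φ a) ≠ 0 := by
  let := φ.toRingHom.toAlgebra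
  have := finite_of_degreeAlong (φ := φ) (hn ▸ hn0)
  have : IsScalarTower K A B := IsScalarTower.of_algebraMap_eq fun k => (φ.commutes k).symm
  have key : ∀ Ψ : W[X][X], evalTwo Ψ x (φ a) = aeval x (Ψ.map (aeval a).toRingHom) := fun Ψ => by
    rw [evalTwo, aeval_def, eval₂_map]
    refine eval₂_congr (ringHom_ext (fun w => ?_) ?_) rfl rfl
    · show aeval (φ a) (C w) = φ (aeval a (C w))
      rw [aeval_C, aeval_C, IsScalarTower.algebraMap_apply W K A, AlgHom.commutes,
        ← IsScalarTower.algebraMap_apply]
    · show aeval (φ a) X = φ (aeval a X)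
      rw [aeval_X, aeval_X]
  have htop : IntermediateField.adjoin A {x} = ⊤ := by
    rw [eq_top_iff]
    intro y _
    have hy : y ∈ IntermediateField.adjoin K (Set.range φ ∪ {x}) := hgen ▸ IntermediateField.mem_top
    refine (IntermediateField.adjoin_le_iff (T := (IntermediateField.adjoin A {x}).restrictScalars K)).mpr
      ?_ hy
    rintro z (⟨b, rfl⟩ | rfl)
    · exact (IntermediateField.adjoin A {x}).algebraMap_mem b
    · exact IntermediateField.mem_adjoin_simple_self A z
  have hx : IsIntegral A x := IsIntegral.of_finite A x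
  have hdm : (minpoly A x).natDegree = n :=
    ((Field.primitive_element_iff_minpoly_natDegree_eq A x).mp htop).trans hn
  have hP : Φ.map (aeval a).toRingHom = minpoly A x :=
    minpoly.unique' A x (hΦ.map _) (by rw [← key, hroot]) fun Q hQ => by
      rcases eq_or_ne Q 0 with rfl | hQ0
      · exact Or.inl rfl
      refine Or.inr fun hQx => ?_
      have h1 := natDegree_le_natDegree (minpoly.degree_le_of_ne_zero A x hQ0 hQx)
      have h2 : Q.degree < (Φ.map (aeval a).toRingHom).degree := hQ
      rw [degree_eq_natDegree hQ0, degree_eq_natDegree (hΦ.map _).ne_zero, hΦ.natDegree_map,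
        hdeg] at h2
      have h3 : Q.natDegree < n := by exact_mod_cast h2
      omega
  rw [key, ← derivative_map, hP]
  exact (minpoly.irreducible hx).separable.aeval_derivative_ne_zero (minpoly.aeval A x)

end FermatAgent.BadRed.Carayol.Instance
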