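import Fermat.Agent.BadRed.Carayol.Instance.ModEq
import Fermat.Agent.ModCurve.Fun.FieldC

/-!
# No relations of low degree over the functions of higher level
-/

set_option autoImplicit false

noncomputable section

open UpperHalfPlane hiding I
open Complex Filter Function CongruenceSubgroup Polynomial
open scoped Real Topology MatrixGroups Manifold ModularForm
open FermatAgent.ModFun

namespace FermatAgent.BadRed.Carayol.Instance

/-- A function with enough conjugates satisfies no equation of low degree over the level ring. -/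
theorem eq_zero_of_conjugates {M : ℕ} [NeZero M] {x : ℍ → ℂ}
    (hx : ∀ γ ∈ Gamma0 M, (fun τ : ℍ => x (γ • τ)) ∈ tameRing) {ι : Type*} [Fintype ι]
    (r : ι → SL(2, ℤ)) (hr : ∀ i, r i ∈ Gamma0 M)
    (hinj : Injective fun i (τ : ℍ) => x (r i • τ))
    {G : (levelRing M)[X]} (hdeg : G.natDegree < Fintype.card ι)
    (h : ∀ τ : ℍ, ∑ i ∈ Finset.range (G.natDegree + 1), (G.coeff i : ℍ → ℂ) τ * x τ ^ i = 0) :
    G = 0 := by
  let inc : levelRing M →+* tameRing :=
    (levelRing M).val.toRingHom.codRestrict tameRing fun f => by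
      have := mem_tameRing_comp_smul f.2 1
      simp only [one_smul] at this
      exact this
  have hincinj : Injective inc := fun a b hab => Subtype.ext (congrArg Subtype.val hab :)
  refine map_injective inc hincinj ?_
  rw [Polynomial.map_zero]
  refine eq_zero_of_natDegree_lt_card_of_eval_eq_zero _
    (f := fun i => (⟨_, hx _ (hr i)⟩ : tameRing)) (fun i j hij => hinj (congrArg Subtype.val hij))
    (fun i => ?_) (natDegree_map_le.trans_lt hdeg)
  refine Subtype.ext (funext fun τ => ?_)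
  change evalT τ _ = 0
  rw [eval_map, hom_eval₂, eval₂_eq_sum_range, ← h (r i • τ)]
  refine Finset.sum_congr rfl fun k _ => ?_
  simp only [RingHom.comp_apply, evalT_apply]
  rw [(G.coeff k).2.2.1 _ (hr i) τ]
  rfl

variable {q : ℕ} [NeZero q] [Fact q.Prime] (H : Hauptmodul q)

/-- Moves between `u(qτ)` and its conjugates inside `Γ₀(N)`, avoiding `u(τ/q)` with upper right
entry divisible by `q`. -/
theorem exists_smul_none_level {N : ℕ} (hN : H.L ∣ N) (hqN : q.Coprime N) (i : Option (ZMod q)) :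
    ∃ γ ∈ Gamma0 N, (i ≠ some 0 → (q : ℤ) ∣ γ 0 1) ∧
      ∀ τ, rootFun H none (γ • τ) = rootFun H i τ := by
  cases i with
  | none => exact ⟨1, one_mem _, fun _ => by simp, fun τ => by rw [one_smul]⟩
  | some x =>
    obtain ⟨s, t, hst⟩ : ∃ s t : ℤ, s * q + t * N = 1 :=
      Int.isCoprime_iff_gcd_eq_one.mpr (by simpa [Int.gcd_natCast_natCast] using hqN)
    set b : ℤ := (x.val : ℤ) with hb
    set d : ℤ := s * q + t * N * (N * b) with hd
    obtain ⟨A, B, hAB⟩ : IsCoprime d (N : ℤ) :=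
      ⟨1, t - t * (N * b), by rw [hd]; linear_combination hst⟩
    obtain ⟨w, hw⟩ : (q : ℤ) ∣ d - N * b :=
      ⟨s - s * (N * b), by rw [hd]; linear_combination ((N : ℤ) * b) * hst⟩
    obtain ⟨k, hk⟩ : ∃ k : ℤ, x ≠ 0 → (q : ℤ) ∣ -B + k * d := by
      by_cases hx : x = 0
      · exact ⟨0, fun h => absurd hx h⟩
      · have hqd : IsCoprime (q : ℤ) d := by
          refine ((Nat.prime_iff_prime_int.mp Fact.out).coprime_iff_not_dvd).mpr fun h => hx ?_
          have h2 : (q : ℤ) ∣ N * b := by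
            have h3 := dvd_sub h (Dvd.intro w hw.symm : (q : ℤ) ∣ d - N * b)
            simpa using h3
          have h3 : (q : ℤ) ∣ b :=
            ((Int.isCoprime_iff_gcd_eq_one).mpr (by simpa [Int.gcd_natCast_natCast] using hqN)
              : IsCoprime (q : ℤ) N).dvd_of_dvd_mul_left h2
          refine (ZMod.val_eq_zero x).mp (Nat.eq_zero_of_dvd_of_lt ?_ (ZMod.val_lt x))
          exact Int.natCast_dvd_natCast.mp (hb ▸ h3)
        obtain ⟨u, v, huv⟩ := hqd
        exact ⟨v * B, fun _ => ⟨-(u * B), by linear_combination B * huv⟩⟩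
    let γ : SL(2, ℤ) := ⟨!![A + k * N, -B + k * d; (N : ℤ), d],
      by rw [Matrix.det_fin_two_of]; linear_combination hAB⟩
    let δ : SL(2, ℤ) := ⟨!![(q : ℤ) * (A + k * N), -(A + k * N) * b + (-B + k * d); (N : ℤ), w],
      by rw [Matrix.det_fin_two_of]; linear_combination hAB - (A + k * N) * hw⟩
    have hγ : γ ∈ Gamma0 N := by
      rw [Gamma0_mem]; simp [γ]
    have hδ : δ ∈ Gamma0 H.L := by
      rw [Gamma0_mem, ZMod.intCast_zmod_eq_zero_iff_dvd]
      simpa [δ] using Int.natCast_dvd_natCast.mpr hN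
    refine ⟨γ, hγ, fun hx => by simpa [γ] using hk (fun h => hx (by rw [h])), fun τ => ?_⟩
    have := aff_smul_eq (a := q) (e := 1) (a' := 1) (e' := q) (b := 0) (b' := b) (γ := γ) (δ := δ)
      (by simp [γ, δ]) (by simp [γ, δ]; ring) (by simp [γ, δ])
      (by simp [γ, δ]; linear_combination hw) τ
    simp only [rootFun, qMove, ← hb, this, H.mem.2.1 δ hδ]

/-- `u(qτ)` has degree `q + 1` over level `N`. -/
theorem eq_zero_of_level {N : ℕ} [NeZero N] (hN : H.L ∣ N) (hqN : q.Coprime N)
    {G : (levelRing N)[X]} (hdeg : G.natDegree < q + 1)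
    (h : ∀ τ : ℍ, ∑ i ∈ Finset.range (G.natDegree + 1),
      (G.coeff i : ℍ → ℂ) τ * H.u (dil q τ) ^ i = 0) : G = 0 := by
  choose r hr _ hr' using exists_smul_none_level H hN hqN
  refine eq_zero_of_conjugates (x := rootFun H none) (fun γ _ => rootFun_smul_mem H none γ) r hr
    (fun i j hij => rootFun_injective H (funext fun τ => ?_)) ?_ fun τ => ?_
  · exact (hr' i τ).symm.trans ((congrFun hij τ).trans (hr' j τ))
  · simpa [Fintype.card_option, ZMod.card] using hdeg
  · simpa only [rootFun_none] using h τ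

omit [Fact q.Prime] in
/-- `q (γ τ) = γ' (q τ)`. -/
theorem exists_dil_move {N : ℕ} {γ : SL(2, ℤ)} (hγ : γ ∈ Gamma0 (N * q)) :
    ∃ δ : SL(2, ℤ), ∀ τ : ℍ, dil q (γ • τ) = δ • dil q τ := by
  rw [Gamma0_mem, ZMod.intCast_zmod_eq_zero_iff_dvd] at hγ
  obtain ⟨c, hc⟩ := hγ
  push_cast at hc
  refine ⟨⟨!![γ 0 0, q * γ 0 1; N * c, γ 1 1], ?_⟩, fun τ => ?_⟩
  · have h := γ.det_coe
    rw [Matrix.det_fin_two] at h
    rw [Matrix.det_fin_two_of]
    linear_combination h + γ 0 1 * hc
  · have := aff_smul_eq (a := q) (e := 1) (a' := q) (e' := 1) (b := 0) (b' := 0) (γ := γ)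
      (δ := ⟨!![γ 0 0, q * γ 0 1; N * c, γ 1 1], by
        have h := γ.det_coe
        rw [Matrix.det_fin_two] at h
        rw [Matrix.det_fin_two_of]
        linear_combination h + γ 0 1 * hc⟩)
      (by simp; ring) (by simp) (by simp [hc]; ring) (by simp) τ
    convert this using 2 <;> first | rfl | (ext1; simp [coe_aff, coe_dil])

/-- `u(q²τ)` has degree `q` over level `Nq`. -/
theorem eq_zero_of_level_mul {N : ℕ} [NeZero N] [NeZero (N * q)] (hN : H.L ∣ N) (hqN : q.Coprime N)
    {G : (levelRing (N * q))[X]} (hdeg : G.natDegree < q)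
    (h : ∀ τ : ℍ, ∑ i ∈ Finset.range (G.natDegree + 1),
      (G.coeff i : ℍ → ℂ) τ * H.u (dil q (dil q τ)) ^ i = 0) : G = 0 := by
  have key : ∀ i : {i : Option (ZMod q) // i ≠ some 0}, ∃ γ ∈ Gamma0 (N * q),
      ∀ τ, rootFun H none (dil q (γ • τ)) = rootFun H i.1 (dil q τ) := fun i => by
    obtain ⟨γ, hγ, hdvd, hγi⟩ := exists_smul_none_level H hN hqN i.1
    obtain ⟨c, hc⟩ := hdvd i.2
    have hdet := γ.det_coe
    rw [Matrix.det_fin_two, hc] at hdet
    let γ' : SL(2, ℤ) := ⟨!![γ 0 0, c; γ 1 0 * q, γ 1 1],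
      by rw [Matrix.det_fin_two_of]; linear_combination hdet⟩
    refine ⟨γ', ?_, fun τ => ?_⟩
    · rw [Gamma0_mem, ZMod.intCast_zmod_eq_zero_iff_dvd] at hγ ⊢
      simpa [γ'] using mul_dvd_mul_right hγ (q : ℤ)
    · rw [← hγi]
      congr 1
      have := aff_smul_eq (a := q) (e := 1) (a' := q) (e' := 1) (b := 0) (b' := 0) (γ := γ')
        (δ := γ) (by simp [γ']; ring) (by simp [γ', hc]) (by simp [γ']) (by simp [γ']) τ
      convert this using 2 <;> first | rfl | (ext1; simp [coe_aff, coe_dil])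
  choose r hr hr' using key
  refine eq_zero_of_conjugates (x := fun τ => rootFun H none (dil q τ)) (fun γ hγ => ?_) r hr
    (fun i j hij => Subtype.ext (rootFun_injective H (funext fun τ => ?_))) ?_ fun τ => ?_
  · obtain ⟨δ, hδ⟩ := exists_dil_move hγ
    simp only [hδ]
    exact ⟨mdiff_comp (g := dil q) (rootFun_smul_mem H none δ).1 (by
        simp only [coe_dil]; exact mdifferentiable_const.mul mdifferentiable_coe),
      (rootFun_smul_mem H none δ).2.comp (Nat.cast_pos.mpr (NeZero.pos q)) (dil_im q)⟩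
  · obtain ⟨σ, hσ⟩ := exists_dil_eq q τ
    rw [← hσ]
    exact (hr' i σ).symm.trans ((congrFun hij σ).trans (hr' j σ))
  · simpa [Fintype.card_subtype_compl, Fintype.card_option, ZMod.card] using hdeg
  · simpa only [rootFun_none] using h τ

/-- `u(τ/q)` has degree `q` over level `Nq`. -/
theorem eq_zero_of_level_div {N : ℕ} [NeZero (N * q)] {G : (levelRing (N * q))[X]}
    (hdeg : G.natDegree < q)
    (h : ∀ τ : ℍ, ∑ i ∈ Finset.range (G.natDegree + 1),
      (G.coeff i : ℍ → ℂ) (dil q τ) * H.u τ ^ i = 0) : G = 0 := by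
  have key : ∀ x : ZMod q, ∀ τ,
      rootFun H (some 0) (ModularGroup.T ^ (x.val : ℤ) • τ) = rootFun H (some x) τ := fun x τ => by
    simp only [rootFun, qMove]
    congr 1
    ext1
    rw [modular_T_zpow_smul, coe_aff, coe_aff, coe_vadd]
    simp [-ZMod.natCast_val]
    ring
  refine eq_zero_of_conjugates (x := rootFun H (some 0)) (fun γ _ => rootFun_smul_mem H _ γ)
    (fun x : ZMod q => ModularGroup.T ^ (x.val : ℤ))
    (fun x => zpow_mem (T_mem_Gamma0 _) _)
    (fun i j hij => Option.some_injective _ (rootFun_injective H (funext fun τ => ?_))) ?_ fun τ => ?_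
  · exact (key i τ).symm.trans ((congrFun hij τ).trans (key j τ))
  · simpa [ZMod.card] using hdeg
  · obtain ⟨σ, rfl⟩ := exists_dil_eq q τ
    simpa [rootFun, qMove_dil_some] using h σ

end FermatAgent.BadRed.Carayol.Instance
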