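import Fermat.Agent.BadRed.Carayol.Instance.Tower
import Fermat.Agent.BadRed.Carayol.Instance.Conjugates
import Fermat.Agent.ModCurve.Fun.BaseChange

/-!
# `u` in the function fields and the generators of the tower
-/

set_option autoImplicit false

noncomputable section

open UpperHalfPlane hiding I
open Complex Filter Function CongruenceSubgroup Polynomial
open scoped Real Topology MatrixGroups Manifold ModularForm
open FermatAgent.ModFun
open ModularCurve (coeffMap coeffEmb qExpand laurentBaseChange modularFunctionFieldFull heckeAlphaBar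
  heckeBetaBar)

namespace FermatAgent.BadRed.Carayol.Instance

/-- A primitive element criterion. -/
theorem adjoin_eq_top_of_noRelation {K A B : Type*} [Field K] [Field A] [Field B] [Algebra K A]
    [Algebra K B] (φ : A →ₐ[K] B) {n : ℕ} (hn : degreeAlong φ = n) (hn0 : n ≠ 0) (x : B)
    (h : ∀ G : A[X], G.natDegree < n → G.eval₂ φ.toRingHom x = 0 → G = 0) :
    IntermediateField.adjoin K (Set.range φ ∪ {x}) = ⊤ := by
  let := φ.toRingHom.toAlgebra
  have := finite_of_degreeAlong (φ := φ) (hn ▸ hn0)
  have : IsScalarTower K A B := IsScalarTower.of_algebraMap_eq fun k => (φ.commutes k).symm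
  have hx : IsIntegral A x := IsIntegral.of_finite A x
  have hdeg : (minpoly A x).natDegree = n := by
    refine le_antisymm ?_ (not_lt.mp fun hlt => minpoly.ne_zero hx (h _ hlt (minpoly.aeval A x)))
    rw [← hn]
    exact minpoly.natDegree_le x
  have htop : IntermediateField.adjoin A {x} = ⊤ :=
    (Field.primitive_element_iff_minpoly_natDegree_eq A x).mpr (hdeg.trans hn.symm)
  rw [eq_top_iff]
  intro y _
  have hy : y ∈ IntermediateField.adjoin A {x} := htop ▸ IntermediateField.mem_top
  induction hy using IntermediateField.adjoin_induction with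
  | mem z hz =>
    exact IntermediateField.subset_adjoin _ _ (Or.inr hz)
  | algebraMap a =>
    exact IntermediateField.subset_adjoin _ _ (Or.inl ⟨a, rfl⟩)
  | add a b _ _ ha hb => exact add_mem (ha trivial) (hb trivial)
  | inv a _ ha => exact inv_mem (ha trivial)
  | mul a b _ _ ha hb => exact mul_mem (ha trivial) (hb trivial)

/-- A root in a subfield, read in the ambient field along a map agreeing with the inclusion. -/
theorem eval₂_val_eq_zero {K L : Type*} [Field K] [Field L] [Algebra K L]
    {E E' : IntermediateField K L} {φ : E →ₐ[K] E'} {x' : E'} {G : E[X]}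
    (h : G.eval₂ φ.toRingHom x' = 0) {x : L} (hx : (x' : L) = x)
    (hφ : ∀ a, (φ a : L) = (a : L)) : G.eval₂ E.val.toRingHom x = 0 := by
  have e : E.val.toRingHom = E'.val.toRingHom.comp φ.toRingHom :=
    RingHom.ext fun a => (hφ a).symm
  rw [e, ← hx, show (x' : L) = E'.val.toRingHom x' from rfl, ← hom_eval₂, h, map_zero]

/-- The same with an endomorphism of the ambient field. -/
theorem eval₂_comp_eq_zero {K L : Type*} [Field K] [Field L] [Algebra K L]
    {E E' : IntermediateField K L} {φ : E →ₐ[K] E'} {x' : E'} {G : E[X]}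
    (h : G.eval₂ φ.toRingHom x' = 0) (r : L →+* L) {x : L} (hx : (x' : L) = x)
    (hφ : ∀ a, (φ a : L) = r (a : L)) : G.eval₂ (r.comp E.val.toRingHom) x = 0 := by
  have e : r.comp E.val.toRingHom = E'.val.toRingHom.comp φ.toRingHom :=
    RingHom.ext fun a => (hφ a).symm
  rw [e, ← hx, show (x' : L) = E'.val.toRingHom x' from rfl, ← hom_eval₂, h, map_zero]

/-- Transport generators along an isomorphism. -/
theorem adjoin_eq_top_of_equiv {K A B : Type*} [Field K] [Field A] [Field B] [Algebra K A]
    [Algebra K B] (e : B ≃ₐ[K] B) {φ ψ : A →ₐ[K] B} (h : e.toAlgHom.comp φ = ψ) {x y : B}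
    (hxy : e x = y) (htop : IntermediateField.adjoin K (Set.range φ ∪ {x}) = ⊤) :
    IntermediateField.adjoin K (Set.range ψ ∪ {y}) = ⊤ := by
  subst h hxy
  have h2 := congrArg (IntermediateField.map e.toAlgHom) htop
  rw [IntermediateField.adjoin_map, Set.image_union, Set.image_singleton, ← Set.range_comp] at h2
  rw [AlgHom.coe_comp]
  refine h2.trans (eq_top_iff.mpr fun z _ => ?_)
  exact ⟨e.symm z, IntermediateField.mem_top, e.apply_symm_apply z⟩

variable (K : Type*) [Field K] [Algebra ℚ K]

/-- Transfer of "no relation" from functions on `ℍ` to series over `K`. -/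
theorem noRelation_transfer (ι : K →ₐ[ℚ] ℂ) {M : ℕ} [NeZero M] (Γ : levelRing M →+* cuspRing)
    (ψK : LevelField K M →+* LaurentSeries K) (ψC : LevelField ℂ M →+* LaurentSeries ℂ)
    (hψ : ∀ y, coeffMap (ι : K →+* ℂ) (ψK y) = ψC (baseChangeHom _ ι y))
    (hΓ : ∀ g, qLaurentHom (Γ g) = ψC (levelToField M g))
    (xc : cuspRing) {x : LaurentSeries K} (hx : coeffMap (ι : K →+* ℂ) x = qLaurentHom xc) {n : ℕ}
    (hno : ∀ G : (levelRing M)[X], G.natDegree < n →
      (∀ τ, ∑ i ∈ Finset.range (G.natDegree + 1),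
        (Γ (G.coeff i) : ℍ → ℂ) τ * (xc : ℍ → ℂ) τ ^ i = 0) → G = 0)
    {G : (LevelField K M)[X]} (hdeg : G.natDegree < n) (hG : G.eval₂ ψK x = 0) : G = 0 := by
  have hbinj : Injective (baseChangeHom (modularFunctionFieldFull M) ι) :=
    baseChangeHom_injective _ ι
  refine map_injective _ hbinj ?_
  rw [Polynomial.map_zero]
  set Gc := G.map (baseChangeHom (modularFunctionFieldFull M) ι) with hGc
  have hroot : Gc.eval₂ ψC (qLaurentHom xc) = 0 := by
    rw [hGc, eval₂_map, ← hx, ← map_zero (coeffMap (ι : K →+* ℂ)), ← hG, hom_eval₂]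
    exact eval₂_congr (RingHom.ext fun y => (hψ y).symm) rfl rfl
  let := (levelToField M).toRingHom.toAlgebra
  have := isFractionRing_levelRing M
  obtain ⟨b, hbmem, hb⟩ := IsLocalization.integerNormalization_spec
    (nonZeroDivisors (levelRing M)) Gc
  set G' := IsLocalization.integerNormalization (nonZeroDivisors (levelRing M)) Gc with hG'
  have hbC : G'.map (algebraMap (levelRing M) (LevelField ℂ M))
      = C (algebraMap (levelRing M) (LevelField ℂ M) b) * Gc := by
    rw [hb]
    ext1 i
    rw [coeff_smul, coeff_C_mul]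
    exact Algebra.smul_def b _
  have hb0 : algebraMap (levelRing M) (LevelField ℂ M) b ≠ 0 :=
    fun h => nonZeroDivisors.ne_zero hbmem (levelToField_injective M (h.trans (map_zero _).symm))
  have hG'deg : G'.natDegree < n := by
    rw [← natDegree_map_eq_of_injective (f := algebraMap (levelRing M) (LevelField ℂ M))
      (levelToField_injective M), hbC, natDegree_C_mul hb0, hGc, natDegree_map_eq_of_injective hbinj]
    exact hdeg
  have h0 : G'.eval₂ Γ xc = 0 := by
    refine qLaurentHom_injective ?_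
    rw [map_zero, ← AlgHom.coe_toRingHom, hom_eval₂]
    refine Eq.trans ?_ (show ψC (algebraMap (levelRing M) (LevelField ℂ M) b) *
      Gc.eval₂ ψC (qLaurentHom xc) = 0 by rw [hroot, mul_zero])
    rw [← eval₂_C (f := ψC) (x := qLaurentHom xc), ← eval₂_mul, ← hbC, eval₂_map]
    exact eval₂_congr (RingHom.ext fun g => hΓ g) rfl rfl
  have hzero : G' = 0 := hno _ hG'deg fun τ => by
    have h := congrArg (evalC τ) h0
    rw [hom_eval₂, map_zero, eval₂_eq_sum_range] at h
    simpa using h
  rw [hzero, Polynomial.map_zero, eq_comm, mul_eq_zero] at hbC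
  exact hbC.resolve_left (C_ne_zero.mpr hb0)

variable {q : ℕ} [hq : Fact q.Prime] [NeZero q] (H : Hauptmodul q)

omit hq [NeZero q] in
theorem coeffEmb_intCast (R : Type*) [Field R] [Algebra ℚ R] (s : LaurentSeries ℤ) :
    coeffEmb R (coeffMap (Int.castRingHom ℚ) s) = coeffMap (Int.castRingHom R) s := by
  rw [coeffEmb, ModularCurve.coeffMap_coeffMap]
  exact ModularCurve.coeffMap_congr (RingHom.ext_int _ _) s

omit hq [NeZero q] in
theorem uSeries_mem_full : coeffMap (Int.castRingHom ℚ) (uSeries H) ∈ modularFunctionFieldFull H.L :=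
  mem_full_of_qLaurent_eq H.L H.mem (by rw [qLaurent_u_eq, coeffEmb_intCast])

/-- `u` in the function field of level `N`. -/
def uElt {N : ℕ} [NeZero N] (hN : H.L ∣ N) : LevelField K N :=
  toBaseChange K _ ⟨_, ModularCurve.full_degeneracy_le hN (uSeries_mem_full H)⟩

omit hq [NeZero q] in
theorem coe_uElt {N : ℕ} [NeZero N] (hN : H.L ∣ N) :
    (uElt K H hN : LaurentSeries K) = coeffMap (Int.castRingHom K) (uSeries H) := by
  rw [uElt, coe_toBaseChange, coeffEmb_intCast]

omit hq [NeZero q] in
theorem coeffMap_intCast (ι : K →ₐ[ℚ] ℂ) (s : LaurentSeries ℤ) :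
    coeffMap (ι : K →+* ℂ) (coeffMap (Int.castRingHom K) s) = coeffMap (Int.castRingHom ℂ) s := by
  rw [ModularCurve.coeffMap_coeffMap]
  exact ModularCurve.coeffMap_congr (RingHom.ext_int _ _) s

/-- `u` as an element of the cusp ring. -/
def uCusp : cuspRing := ⟨H.u, levelRing_le_cuspRing _ H.mem⟩

omit hq [NeZero q] in
theorem qLaurentHom_uCusp (ι : K →ₐ[ℚ] ℂ) :
    coeffMap (ι : K →+* ℂ) (coeffMap (Int.castRingHom K) (uSeries H))
      = qLaurentHom (uCusp H) := by
  rw [coeffMap_intCast, qLaurentHom_apply]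
  exact (qLaurent_u_eq H).symm

variable {N : ℕ} [NeZero N] (hN : H.L ∣ N) (hqN : ¬ q ∣ N)

omit hN hqN in
theorem swapQ_beta_apply (hco : q.Coprime N) (x : LevelField K N) :
    swapQ K N hco (heckeBetaBar K N q x) = heckeAlphaBar K N q x := by
  rw [← swapQ_comp_beta K N hco, AlgHom.comp_apply, AlgEquiv.coe_toAlgHom]

include hqN in
/-- `u(qτ)` generates level `Nq` over level `N`. -/
theorem generate_s (ι : K →ₐ[ℚ] ℂ) :
    IntermediateField.adjoin K (Set.range (heckeAlphaBar K N q) ∪ {(heckeBetaBar K N q) (uElt K H hN)})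
      = ⊤ := by
  refine adjoin_eq_top_of_noRelation _ (degreeAlong_s K N hqN) (Nat.succ_ne_zero q) _
    fun G hdeg hG => ?_
  refine noRelation_transfer K ι (Subalgebra.inclusion (levelRing_le_cuspRing N)).toRingHom
    (LevelField K N).val.toRingHom (LevelField ℂ N).val.toRingHom (fun y => rfl) (fun g => rfl)
    ⟨_, mem_cuspRing_comp_dil (uCusp H).2 q⟩
    (x := qExpand K q (coeffMap (Int.castRingHom K) (uSeries H))) ?_ ?_ hdeg ?_
  · rw [coeffMap_comm_qExpand, qLaurentHom_uCusp, qLaurentHom_apply, qLaurentHom_apply]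
    exact (qLaurent_comp_dil (uCusp H).2 q).symm
  · intro G' hG' h
    exact eq_zero_of_level H hN (hq.out.coprime_iff_not_dvd.mpr hqN) hG' h
  · exact eval₂_val_eq_zero hG ((ModularCurve.coe_heckeBetaBar N q (uElt K H hN)).trans
      (congrArg (qExpand K q) (coe_uElt K H hN))) (ModularCurve.coe_heckeAlphaBar N q)

include hqN in
/-- `u(τ)` generates level `Nq` over the functions `f(qτ)` of level `N`. -/
theorem generate_t (ι : K →ₐ[ℚ] ℂ) :
    IntermediateField.adjoin K (Set.range (heckeBetaBar K N q) ∪ {(heckeAlphaBar K N q) (uElt K H hN)})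
      = ⊤ := by
  have hco : q.Coprime N := hq.out.coprime_iff_not_dvd.mpr hqN
  exact adjoin_eq_top_of_equiv (swapQ K N hco) (φ := heckeAlphaBar K N q)
    (ψ := heckeBetaBar K N q) (swapQ_comp_alpha K N hco)
    (swapQ_beta_apply K hco (uElt K H hN)) (generate_s K H hN hqN ι)

include hqN in
/-- `u(q²τ)` generates level `Nq²` over level `Nq`. -/
theorem generate_α (ι : K →ₐ[ℚ] ℂ) :
    IntermediateField.adjoin K (Set.range (heckeAlphaBar K (N * q) q) ∪
      {(heckeBetaBar K (N * q) q) ((heckeBetaBar K N q) (uElt K H hN))}) = ⊤ := by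
  refine adjoin_eq_top_of_noRelation _ (degreeAlong_α K N) hq.out.ne_zero _ fun G hdeg hG => ?_
  refine noRelation_transfer K ι (Subalgebra.inclusion (levelRing_le_cuspRing (N * q))).toRingHom
    (LevelField K (N * q)).val.toRingHom (LevelField ℂ (N * q)).val.toRingHom (fun y => rfl)
    (fun g => rfl) ⟨_, mem_cuspRing_comp_dil (mem_cuspRing_comp_dil (uCusp H).2 q) q⟩
    (x := qExpand K q (qExpand K q (coeffMap (Int.castRingHom K) (uSeries H)))) ?_ ?_ hdeg ?_
  · rw [coeffMap_comm_qExpand, coeffMap_comm_qExpand, qLaurentHom_uCusp, qLaurentHom_apply,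
      qLaurentHom_apply]
    exact ((qLaurent_comp_dil (mem_cuspRing_comp_dil (uCusp H).2 q) q).trans
      (congrArg _ (qLaurent_comp_dil (uCusp H).2 q))).symm
  · intro G' hG' h
    exact eq_zero_of_level_mul H hN (hq.out.coprime_iff_not_dvd.mpr hqN) hG' h
  · exact eval₂_val_eq_zero hG ((ModularCurve.coe_heckeBetaBar (N * q) q _).trans
      (congrArg (qExpand K q) ((ModularCurve.coe_heckeBetaBar N q _).trans
        (congrArg (qExpand K q) (coe_uElt K H hN))))) (ModularCurve.coe_heckeAlphaBar (N * q) q)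

include hqN in
/-- `u(τ)` generates level `Nq²` over the functions `f(qτ)` of level `Nq`. -/
theorem generate_β (ι : K →ₐ[ℚ] ℂ) :
    IntermediateField.adjoin K (Set.range (heckeBetaBar K (N * q) q) ∪
      {(heckeAlphaBar K (N * q) q) ((heckeAlphaBar K N q) (uElt K H hN))}) = ⊤ := by
  refine adjoin_eq_top_of_noRelation _ (degreeAlong_β K N hqN) hq.out.ne_zero _ fun G hdeg hG => ?_
  let Γ : levelRing (N * q) →+* cuspRing :=
    { toFun := fun f => ⟨(f : ℍ → ℂ) ∘ dil q,
        mem_cuspRing_comp_dil (levelRing_le_cuspRing _ f.2) q⟩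
      map_one' := rfl
      map_mul' := fun _ _ => rfl
      map_zero' := rfl
      map_add' := fun _ _ => rfl }
  refine noRelation_transfer K ι Γ
    ((qExpand K q).comp (LevelField K (N * q)).val.toRingHom)
    ((qExpand ℂ q).comp (LevelField ℂ (N * q)).val.toRingHom)
    (fun y => coeffMap_comm_qExpand (ι : K →+* ℂ) q (y : LaurentSeries K))
    (fun g => (qLaurent_comp_dil (levelRing_le_cuspRing _ g.2) q).trans rfl) (uCusp H)
    (x := coeffMap (Int.castRingHom K) (uSeries H)) (qLaurentHom_uCusp K H ι) ?_ hdeg ?_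
  · intro G' hG' h
    exact eq_zero_of_level_div H hG' h
  · exact eval₂_comp_eq_zero hG (qExpand K q) ((ModularCurve.coe_heckeAlphaBar (N * q) q _).trans
      ((ModularCurve.coe_heckeAlphaBar N q _).trans (coe_uElt K H hN)))
      (ModularCurve.coe_heckeBetaBar (N * q) q)

end FermatAgent.BadRed.Carayol.Instance
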