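import Fermat.Agent.BadRed.Carayol.Instance.Hauptmodul

/-!
# The coordinate `(η(τ)/η(4τ))⁸` on `X₀(4)`
-/

set_option autoImplicit false

noncomputable section

open UpperHalfPlane hiding I
open Complex Filter Function Asymptotics CongruenceSubgroup
open scoped Real Topology MatrixGroups Manifold ModularForm
open FermatAgent.ModFun

namespace FermatAgent.BadRed.Carayol.Instance

local notation "Δ" => ModularForm.discriminant

/-- `(η(τ)/η(4τ))⁸`. -/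
def u4 : ℍ → ℂ := etaQuot 1 4 8 1

/-- `(η(2τ)/η(4τ))²⁴`. -/
def v4 : ℍ → ℂ := etaQuot 2 4 24 2

theorem u4_eq : (8 : ℕ) * 3 = 24 ∧ (4 : ℕ) = 1 + 1 * 3 := ⟨rfl, rfl⟩

theorem v4_eq : (24 : ℕ) * 1 = 24 ∧ (4 : ℕ) = 2 + 2 * 1 := ⟨rfl, rfl⟩

theorem gcd_natAbs (d : ℕ) (c : ℤ) : Nat.gcd d c.natAbs = Nat.gcd (c.natAbs % d) d :=
  Nat.gcd_rec d c.natAbs

theorem Gamma0_four_le : Gamma0 4 ≤ fixGroup u4 := by
  refine Gamma0_le_of_three_or_four (Or.inr rfl) (neg_one_mem_fixGroup _)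
    (T_mem_fixGroup (etaQuot_mem 1 4 8 1)) ?_
  rw [lowerMat_eq_conj]
  refine mem_fixGroup_etaQuot u4_eq.1 u4_eq.2 (by norm_num) (L := 4) (one_dvd _) dvd_rfl ?_
    (l := 1 / 4) ?_ ⟨-1, by norm_num⟩
  · rw [← lowerMat_eq_conj]; simp [lowerMat]
  · simp [ModularGroup.coe_S]
    norm_num

theorem u4_mem : u4 ∈ levelRing 4 :=
  etaQuot_mem_levelRing u4_eq.1 u4_eq.2 (by norm_num) Gamma0_four_le

theorem v4_mem : v4 ∈ levelRing 4 := by
  refine etaQuot_mem_levelRing v4_eq.1 v4_eq.2 one_pos fun γ hγ τ => ?_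
  rw [Gamma0_mem, ZMod.intCast_zmod_eq_zero_iff_dvd] at hγ
  simpa [v4] using etaQuot_pow_smul v4_eq.1 v4_eq.2 ((by norm_num : (2 : ℤ) ∣ 4).trans hγ) hγ τ

/-- The three types of cusps. -/
theorem cusp_cases (c : ℤ) :
    (¬ 2 ∣ c ∧ Nat.gcd 1 c.natAbs = 1 ∧ Nat.gcd 2 c.natAbs = 1 ∧ Nat.gcd 4 c.natAbs = 1) ∨
    (2 ∣ c ∧ ¬ 4 ∣ c ∧ Nat.gcd 1 c.natAbs = 1 ∧ Nat.gcd 2 c.natAbs = 2 ∧ Nat.gcd 4 c.natAbs = 2) ∨
    (4 ∣ c ∧ Nat.gcd 1 c.natAbs = 1 ∧ Nat.gcd 2 c.natAbs = 2 ∧ Nat.gcd 4 c.natAbs = 4) := by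
  rw [gcd_natAbs 4, gcd_natAbs 2, Nat.gcd_one_left]
  rcases (by omega : c.natAbs % 4 = 0 ∨ c.natAbs % 4 = 1 ∨ c.natAbs % 4 = 2 ∨ c.natAbs % 4 = 3)
    with h | h | h | h
  · refine Or.inr (Or.inr ⟨by omega, rfl, ?_, ?_⟩)
    · rw [show c.natAbs % 2 = 0 by omega]; rfl
    · rw [h]; rfl
  · refine Or.inl ⟨by omega, rfl, ?_, ?_⟩
    · rw [show c.natAbs % 2 = 1 by omega]; rfl
    · rw [h]; rfl
  · refine Or.inr (Or.inl ⟨by omega, by omega, rfl, ?_, ?_⟩)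
    · rw [show c.natAbs % 2 = 0 by omega]; rfl
    · rw [h]; rfl
  · refine Or.inl ⟨by omega, rfl, ?_, ?_⟩
    · rw [show c.natAbs % 2 = 1 by omega]; rfl
    · rw [h]; rfl

theorem not_mem_Gamma0_four {γ : SL(2, ℤ)} : γ ∉ Gamma0 4 ↔ ¬ (4 : ℤ) ∣ γ 1 0 := by
  rw [Gamma0_mem, ZMod.intCast_zmod_eq_zero_iff_dvd]; rfl

theorem hasLead_u4 (γ : SL(2, ℤ)) :
    (¬ 2 ∣ γ 1 0 → HasLead (fun τ => u4 (γ • τ) ^ 3) (3 / 4)) ∧
    (2 ∣ γ 1 0 → ¬ 4 ∣ γ 1 0 → HasLead (fun τ => u4 (γ • τ) ^ 3) 0) ∧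
    (4 ∣ γ 1 0 → HasLead (fun τ => u4 (γ • τ) ^ 3) (-3)) := by
  have h : HasLead (fun τ => u4 (γ • τ) ^ 3)
      ((Nat.gcd 1 (γ 1 0).natAbs : ℝ) ^ 2 / (1 : ℕ) - (Nat.gcd 4 (γ 1 0).natAbs : ℝ) ^ 2 / (4 : ℕ)) :=
    hasLead_etaQuot (d₁ := 1) (d₂ := 4) u4_eq.1 u4_eq.2 γ
  rcases cusp_cases (γ 1 0) with ⟨hc, e1, e2, e4⟩ | ⟨hc, hc', e1, e2, e4⟩ | ⟨hc, e1, e2, e4⟩ <;>
    rw [e1, e4] at h <;> refine ⟨fun H => ?_, fun H H' => ?_, fun H => ?_⟩ <;>
    first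
      | (exfalso; omega)
      | (convert h using 1; norm_num)

theorem hasLead_v4 (γ : SL(2, ℤ)) (h4 : ¬ 4 ∣ γ 1 0) :
    ∃ l : ℝ, 0 < l ∧ HasLead (fun τ => v4 (γ • τ) ^ 1) l := by
  refine ⟨_, ?_, hasLead_etaQuot (d₁ := 2) (d₂ := 4) v4_eq.1 v4_eq.2 γ⟩
  rcases cusp_cases (γ 1 0) with ⟨hc, e1, e2, e4⟩ | ⟨hc, hc', e1, e2, e4⟩ | ⟨hc, e1, e2, e4⟩
  · rw [e2, e4]; norm_num
  · rw [e2, e4]; norm_num
  · exact absurd hc h4

theorem u4_bounded (γ : SL(2, ℤ)) (h4 : ¬ 4 ∣ γ 1 0) :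
    IsBoundedAtImInfty fun τ => u4 (γ • τ) := by
  obtain ⟨h1, h2, -⟩ := hasLead_u4 γ
  by_cases hc : 2 ∣ γ 1 0
  · exact isBounded_of_pow (m := 3) (by norm_num) ((h2 hc h4).bounded le_rfl)
  · exact isBounded_of_pow (m := 3) (by norm_num) ((h1 hc).bounded (by norm_num))

theorem coeff_one_series_u4 : (etaSeries 1 4 8).coeff 1 = -8 := by
  have h1 : ModularCurve.etaProd.coeff 1 = -1 := by
    rw [coeff_etaProd]; simp
  rw [etaSeries, PowerSeries.coeff_one_mul, PowerSeries.coeff_one_pow, PowerSeries.coeff_one_pow,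
    coeff_one_expand (d := 4) (by norm_num)]
  simp [h1, ModularCurve.constantCoeff_etaProd]

theorem coeff_one_series_v4 : (etaSeries 2 4 24).coeff 1 = 0 := by
  rw [etaSeries, PowerSeries.coeff_one_mul, PowerSeries.coeff_one_pow, PowerSeries.coeff_one_pow,
    coeff_one_expand (d := 4) (by norm_num), coeff_one_expand (d := 2) (by norm_num)]
  simp

theorem u4_identity (τ : ℍ) : u4 τ ^ 2 + 16 * u4 τ = v4 τ := by
  set F : ℍ → ℂ := u4 ^ 2 + algebraMap ℂ (ℍ → ℂ) 16 * u4 - v4 with hF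
  have hc1 := levelRing_le_cuspRing 4 u4_mem
  have hc2 := levelRing_le_cuspRing 4 v4_mem
  have h16 : algebraMap ℂ (ℍ → ℂ) 16 * u4 ∈ cuspRing := mul_mem (algebraMap_mem _ _) hc1
  have hFm : F ∈ levelRing 4 :=
    sub_mem (add_mem (pow_mem u4_mem 2) (mul_mem (algebraMap_mem _ _) u4_mem)) v4_mem
  have hFq : qLaurent F = HahnSeries.single (-((2 : ℕ) : ℤ)) 1 *
        toLS ((etaSeries 1 4 8).map (Int.castRingHom ℂ) ^ 2)
      + HahnSeries.single 0 (16 : ℂ) * (HahnSeries.single (-((1 : ℕ) : ℤ)) 1 *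
        toLS ((etaSeries 1 4 8).map (Int.castRingHom ℂ)))
      - HahnSeries.single (-((2 : ℕ) : ℤ)) 1 *
        toLS ((etaSeries 2 4 24).map (Int.castRingHom ℂ)) := by
    rw [hF, qLaurent_sub (add_mem (pow_mem hc1 2) h16) hc2, qLaurent_add (pow_mem hc1 2) h16,
      qLaurent_mul (algebraMap_mem _ _) hc1, qLaurent_pow hc1, qLaurent_algebraMap,
      ModularCurve.algebraMap_laurentSeries_eq_single, u4, v4, qLaurent_etaQuot, qLaurent_etaQuot,
      mul_pow, HahnSeries.single_pow, one_pow, ← map_pow]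
    simp
  have hcoef : ∀ m : ℤ, m < 0 → (qLaurent F).coeff m = 0 := by
    intro m hm
    rw [hFq, HahnSeries.coeff_sub, HahnSeries.coeff_add, HahnSeries.coeff_single_mul (b := (0 : ℤ)),
      sub_zero m]
    rcases (by omega : m < -2 ∨ m = -2 ∨ m = -1) with h | h | h
    · rw [coeff_single_mul_toLS_of_lt 2 _ (by omega), coeff_single_mul_toLS_of_lt 1 _ (by omega),
        coeff_single_mul_toLS_of_lt 2 _ (by omega)]
      simp
    · subst h
      rw [coeff_single_mul_toLS_of_lt 1 _ (by norm_num : (-2 : ℤ) < -((1 : ℕ) : ℤ)),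
        show (-2 : ℤ) = ((0 : ℕ) : ℤ) - ((2 : ℕ) : ℤ) by norm_num, coeff_single_mul_toLS,
        coeff_single_mul_toLS]
      simp [PowerSeries.coeff_zero_eq_constantCoeff, constantCoeff_map_etaSeries, constantCoeff_etaSeries]
    · subst h
      conv_lhs =>
        rw [show (-1 : ℤ) = ((1 : ℕ) : ℤ) - ((2 : ℕ) : ℤ) by norm_num, coeff_single_mul_toLS,
          coeff_single_mul_toLS,
          show ((1 : ℕ) : ℤ) - ((2 : ℕ) : ℤ) = ((0 : ℕ) : ℤ) - ((1 : ℕ) : ℤ) by norm_num,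
          coeff_single_mul_toLS]
      rw [PowerSeries.coeff_one_pow]
      simp [PowerSeries.coeff_zero_eq_constantCoeff, constantCoeff_map_etaSeries,
        constantCoeff_etaSeries, coeff_one_series_u4, coeff_one_series_v4]
      norm_num
  obtain ⟨r, hr⟩ := exists_toLS_eq hcoef
  have hinf := isBounded_of_qLaurent (levelRing_le_cuspRing 4 hFm) hr
  have hb : ∀ γ : SL(2, ℤ), IsBoundedAtImInfty fun τ => F (γ • τ) := fun γ => by
    by_cases h4 : (4 : ℤ) ∣ γ 1 0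
    · have hγ : γ ∈ Gamma0 4 := by by_contra h; exact not_mem_Gamma0_four.mp h h4
      simpa only [hFm.2.1 γ hγ] using hinf
    · have hu := u4_bounded γ h4
      obtain ⟨l, hl, hv⟩ := hasLead_v4 γ h4
      exact ((hu.mul hu |>.congr_left fun τ => (pow_two _).symm).add
        (isBounded_const_mul hu 16)).sub
        (isBounded_of_pow (m := 1) one_pos (hv.bounded hl.le))
  have hconst := fun w => eq_const_of_bounded hFm hb τ w
  have := atImInfty_neBot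
  have hS : ¬ 4 ∣ ModularGroup.S 1 0 := by simp [ModularGroup.coe_S]
  have hS2 : ¬ 2 ∣ ModularGroup.S 1 0 := by simp [ModularGroup.coe_S]
  have hu0 : Tendsto (fun w => u4 (ModularGroup.S • w)) atImInfty (𝓝 0) :=
    tendsto_zero_of_pow (m := 3) (by norm_num)
      (((hasLead_u4 _).1 hS2).tendsto_zero (by norm_num))
  obtain ⟨l, hl, hv⟩ := hasLead_v4 _ hS
  have hv0 := tendsto_zero_of_pow (m := 1) one_pos (hv.tendsto_zero hl)
  have hF0 : Tendsto (fun w => F (ModularGroup.S • w)) atImInfty (𝓝 0) := by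
    simpa [hF] using ((hu0.pow 2).add (hu0.const_mul 16)).sub hv0
  have := tendsto_nhds_unique (hF0.congr fun w => hconst _) tendsto_const_nhds
  simpa [hF, sub_eq_zero] using this.symm

/-- Value of `u4` at the cusp `γ ∞`. -/
def val4 (γ : SL(2, ℤ)) : ℂ := if 2 ∣ γ 1 0 then -16 else 0

theorem tendsto_val4 (γ : SL(2, ℤ)) (hγ : γ ∉ Gamma0 4) :
    Tendsto (fun τ => u4 (γ • τ)) atImInfty (𝓝 (val4 γ)) := by
  rw [not_mem_Gamma0_four] at hγ
  obtain ⟨h1, h2, -⟩ := hasLead_u4 γ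
  rw [val4]
  split_ifs with hc
  · obtain ⟨C, hC, hlim⟩ := h2 hc hγ
    obtain ⟨l, hl, hv⟩ := hasLead_v4 γ hγ
    have hv0 := tendsto_zero_of_pow (m := 1) one_pos (hv.tendsto_zero hl)
    have hu := u4_bounded γ hγ
    have hnum : Tendsto (fun τ => v4 (γ • τ) * u4 (γ • τ) ^ 2) atImInfty (𝓝 0) :=
      hv0.zero_mul_isBoundedUnder_le
        ((hu.mul hu |>.congr_left fun τ => (pow_two _).symm).isBoundedUnder_le)
    have h3 : Tendsto (fun τ => u4 (γ • τ) ^ 3) atImInfty (𝓝 C) :=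
      hlim.congr fun τ => by rw [wExp_zero, div_one]
    have h16 : Tendsto (fun τ => u4 (γ • τ) + 16) atImInfty (𝓝 0) := by
      have := hnum.div h3 hC
      rw [zero_div] at this
      refine this.congr fun τ => ?_
      have hne := etaQuot_ne_zero 1 4 8 1 (γ • τ)
      change u4 (γ • τ) ≠ 0 at hne
      rw [Pi.div_apply, ← u4_identity]
      field_simp
    simpa using h16.add_const (-16)
  · exact tendsto_zero_of_pow (m := 3) (by norm_num) ((h1 hc).tendsto_zero (by norm_num))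

/-- A nonvanishing form of weight `12` for comparison. -/
def G4 (τ : ℍ) : ℂ := Δ (dil 2 τ) ^ 5 / (Δ (dil 1 τ) ^ 2 * Δ (dil 4 τ) ^ 2)

theorem u4_deriv_ne (τ : ℍ) : dH u4 τ ≠ 0 := by
  have hne : ∀ τ, u4 τ ≠ 0 := etaQuot_ne_zero 1 4 8 1
  have hd := ModularForm.discriminant_ne_zero
  refine dH_ne_zero_of_weight u4_mem hne (m := 3) (by norm_num)
    (exists_dH_ne_zero (levelRing_le_cuspRing 4 u4_mem) (n := -1) (by norm_num) ?_)
    (G := G4) ?_ ?_ (κ := 6) (by norm_num) ?_ ?_ τ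
  · rw [u4, qLaurent_etaQuot, show (-1 : ℤ) = ((0 : ℕ) : ℤ) - ((1 : ℕ) : ℤ) by norm_num]
    conv_lhs => rw [coeff_single_mul_toLS]
    simp [PowerSeries.coeff_zero_eq_constantCoeff, constantCoeff_etaSeries]
  · unfold G4
    rw [UpperHalfPlane.mdifferentiable_iff]
    exact ((UpperHalfPlane.mdifferentiable_iff.mp (mdiff_discriminant_dil 2)).pow 5).div
      (((UpperHalfPlane.mdifferentiable_iff.mp (mdiff_discriminant_dil 1)).pow 2).mul
        ((UpperHalfPlane.mdifferentiable_iff.mp (mdiff_discriminant_dil 4)).pow 2))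
      fun z _ => mul_ne_zero (pow_ne_zero _ (hd _)) (pow_ne_zero _ (hd _))
  · exact fun τ => div_ne_zero (pow_ne_zero _ (hd _))
      (mul_ne_zero (pow_ne_zero _ (hd _)) (pow_ne_zero _ (hd _)))
  · intro γ hγ τ
    rw [Gamma0_mem, ZMod.intCast_zmod_eq_zero_iff_dvd] at hγ
    have hne' := Igusa.sl_denom_ne_zero γ τ
    simp only [G4]
    rw [discriminant_dil_smul_of_dvd 2 ((by norm_num : (2 : ℤ) ∣ 4).trans hγ),
      discriminant_dil_smul_of_dvd 1 (by simp), discriminant_dil_smul_of_dvd 4 hγ]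
    have h1 := hd (dil 1 τ); have h2 := hd (dil 2 τ); have h4 := hd (dil 4 τ)
    field_simp
  · intro γ
    have hG := (((hasLead_discriminant_dil_smul 2 γ).pow 5).div
      (((hasLead_discriminant_dil_smul 1 γ).pow 2).mul ((hasLead_discriminant_dil_smul 4 γ).pow 2))).congr
      (G := fun τ => G4 (γ • τ) / ((γ 1 0 : ℂ) * τ + γ 1 1) ^ (2 * 6)) fun τ => by
        have hne' := Igusa.sl_denom_ne_zero γ τ
        have h1 := hd (dil 1 (γ • τ)); have h2 := hd (dil 2 (γ • τ)); have h4 := hd (dil 4 (γ • τ))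
        simp only [G4]
        field_simp
    obtain ⟨L1, L2, L4⟩ := hasLead_u4 γ
    rcases cusp_cases (γ 1 0) with ⟨hc, e1, e2, e4⟩ | ⟨hc, hc', e1, e2, e4⟩ | ⟨hc, e1, e2, e4⟩ <;>
      rw [e1, e2, e4] at hG
    · refine ⟨4, 1, _, by norm_num, periodic_smul_of_dvd u4_mem γ (dvd_mul_right _ _), ?_, hG,
        Or.inl (by norm_num)⟩
      convert L1 hc using 1; norm_num
    · refine ⟨1, 0, _, one_pos, periodic_smul_of_dvd u4_mem γ ?_, ?_, hG,
        Or.inr ⟨rfl, by norm_num⟩⟩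
      · obtain ⟨c', hc''⟩ := hc
        exact ⟨c' ^ 2, by rw [hc'']; push_cast; ring⟩
      · convert L2 hc hc' using 1; norm_num
    · refine ⟨1, -1, _, one_pos, periodic_smul_of_dvd u4_mem γ ?_, ?_, hG, Or.inl (by norm_num)⟩
      · obtain ⟨c', hc''⟩ := hc
        exact ⟨4 * c' ^ 2, by rw [hc'']; push_cast; ring⟩
      · convert L4 hc using 1; norm_num

theorem dvd_iff_of_odd_mul {g x c : ℤ} (hg : g * x = c) (hc : ¬ 2 ∣ g) :
    (2 ∣ x ↔ 2 ∣ c) ∧ (4 ∣ x ↔ 4 ∣ c) := by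
  have h2 : IsCoprime (2 : ℤ) g := (Int.prime_two.coprime_iff_not_dvd).mpr hc
  have h4 : IsCoprime (4 : ℤ) g := by simpa using h2.pow_left (m := 2)
  exact ⟨⟨fun h => hg ▸ dvd_mul_of_dvd_right h g, fun h => h2.dvd_of_dvd_mul_left (hg ▸ h)⟩,
    ⟨fun h => hg ▸ dvd_mul_of_dvd_right h g, fun h => h4.dvd_of_dvd_mul_left (hg ▸ h)⟩⟩

/-- The coordinate on `X₀(4)`, for odd `q`. -/
def hauptmodul4 (q : ℕ) (hq : ¬ 2 ∣ q) : Hauptmodul q where
  L := 4
  coprime := by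
    have h2 : q.Coprime 2 := (Nat.coprime_comm.mp ((Nat.prime_two.coprime_iff_not_dvd).mpr hq))
    simpa using h2.pow_right 2
  u := u4
  series := etaSeries 1 4 8
  constantCoeff_series := constantCoeff_etaSeries 1 4 8
  mem := u4_mem
  qLaurent_u := by rw [u4, qLaurent_etaQuot]; simp
  cusps := {0, -16}
  val := val4
  val_mem γ _ := by rw [val4]; split_ifs <;> simp
  tendsto_val := tendsto_val4
  cusps_val a ha := by
    simp only [Finset.mem_insert, Finset.mem_singleton] at ha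
    rcases ha with rfl | rfl
    · exact ⟨ModularGroup.S, not_mem_Gamma0_four.mpr (by simp [ModularGroup.coe_S]),
        by simp [val4, ModularGroup.coe_S]⟩
    · exact ⟨lowerMat 2, not_mem_Gamma0_four.mpr (by simp [lowerMat]), by simp [val4, lowerMat]⟩
  val_scale γ δ hγ g b h := by
    rw [not_mem_Gamma0_four] at hγ ⊢
    have hdet : IsCoprime (γ 0 0) (γ 1 0) := by
      refine ⟨γ 1 1, -γ 0 1, ?_⟩
      have := γ.det_coe
      rw [Matrix.det_fin_two] at this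
      linear_combination this
    have hq2 : ¬ (2 : ℤ) ∣ q := by exact_mod_cast hq
    have key : ¬ 2 ∣ g → ∀ c, g * δ 1 0 = c → ((2 ∣ δ 1 0 ↔ 2 ∣ c) ∧ (4 ∣ δ 1 0 ↔ 4 ∣ c)) :=
      fun hg c hc => dvd_iff_of_odd_mul hc hg
    have hqm : ∀ c : ℤ, ((2 ∣ (q : ℤ) * c ↔ 2 ∣ c) ∧ (4 ∣ (q : ℤ) * c ↔ 4 ∣ c)) := fun c => by
      have h2 : IsCoprime (2 : ℤ) (q : ℤ) := (Int.prime_two.coprime_iff_not_dvd).mpr hq2
      have h4 : IsCoprime (4 : ℤ) (q : ℤ) := by simpa using h2.pow_left (m := 2)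
      exact ⟨⟨h2.dvd_of_dvd_mul_left, fun h => dvd_mul_of_dvd_right h _⟩,
        ⟨h4.dvd_of_dvd_mul_left, fun h => dvd_mul_of_dvd_right h _⟩⟩
    have hconj : ∀ x : SL(2, ℤ), (starRingEnd ℂ) (val4 x) = val4 x := fun x => by
      rw [val4]; split_ifs <;> simp [map_ofNat, map_neg]
    rcases h with ⟨h10, h00⟩ | ⟨h10, h00⟩
    · have hg : ¬ 2 ∣ g := fun hg => by
        have hc : (2 : ℤ) ∣ γ 1 0 := h10 ▸ dvd_mul_of_dvd_left hg _
        have ha : (2 : ℤ) ∣ q * γ 0 0 := h00 ▸ dvd_mul_of_dvd_left hg _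
        have h1 := hdet.isUnit_of_dvd' ((hqm _).1.mp ha) hc
        norm_num [Int.isUnit_iff] at h1
      obtain ⟨e2, e4⟩ := key hg _ h10
      exact ⟨fun h => hγ (e4.mp h), by rw [hconj]; simp only [val4, e2]⟩
    · have hg : ¬ 2 ∣ g := fun hg => by
        have hc : (2 : ℤ) ∣ γ 1 0 :=
          (hqm _).1.mp (h10 ▸ dvd_mul_of_dvd_left hg _)
        have ha : (2 : ℤ) ∣ γ 0 0 + b * γ 1 0 := h00 ▸ dvd_mul_of_dvd_left hg _
        have h1 := hdet.isUnit_of_dvd'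
          ((dvd_add_left (dvd_mul_of_dvd_right hc b)).mp ha) hc
        norm_num [Int.isUnit_iff] at h1
      obtain ⟨e2, e4⟩ := key hg _ h10
      exact ⟨fun h => hγ ((hqm _).2.mp (e4.mp h)),
        by rw [hconj]; simp only [val4, e2, (hqm _).1]⟩

theorem hauptmodul4_isCoord (q : ℕ) (hq : ¬ 2 ∣ q) : (hauptmodul4 q hq).IsCoord :=
  ⟨etaQuot_ne_zero 1 4 8 1, u4_deriv_ne⟩

end FermatAgent.BadRed.Carayol.Instance
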