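import Fermat.Agent.BadRed.Carayol.Instance.Hauptmodul

/-!
# The coordinate `(η(τ)/η(9τ))³` on `X₀(9)`
-/

set_option autoImplicit false

noncomputable section

open UpperHalfPlane hiding I
open Complex Filter Function Asymptotics CongruenceSubgroup
open scoped Real Topology MatrixGroups Manifold ModularForm
open FermatAgent.ModFun

namespace FermatAgent.BadRed.Carayol.Instance

local notation "Δ" => ModularForm.discriminant

/-- `(η(τ)/η(9τ))³`. -/
def u9 : ℍ → ℂ := etaQuot 1 9 3 1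

/-- `(η(3τ)/η(9τ))¹²`. -/
def w9 : ℍ → ℂ := etaQuot 3 9 12 3

theorem u9_eq : (3 : ℕ) * 8 = 24 ∧ (9 : ℕ) = 1 + 1 * 8 := ⟨rfl, rfl⟩

theorem w9_eq : (12 : ℕ) * 2 = 24 ∧ (9 : ℕ) = 3 + 3 * 2 := ⟨rfl, rfl⟩

theorem not_mem_Gamma0_nine {γ : SL(2, ℤ)} : γ ∉ Gamma0 9 ↔ ¬ (9 : ℤ) ∣ γ 1 0 := by
  rw [Gamma0_mem, ZMod.intCast_zmod_eq_zero_iff_dvd]; rfl

theorem nine_le_fix {F : ℍ → ℂ} {d₁ d₂ e k m : ℕ} [NeZero d₁] [NeZero d₂]
    (hF : F = etaQuot d₁ d₂ e k) (hem : e * m = 24) (hd : d₂ = d₁ + k * m) (hm : 0 < m)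
    (h1 : d₁ ∣ 9) (h2 : d₂ ∣ 9) {l₀ : ℝ} {n₁ : ℤ}
    (hl₀ : (Nat.gcd d₁ 1 : ℝ) ^ 2 / d₁ - (Nat.gcd d₂ 1 : ℝ) ^ 2 / d₂ = m * l₀)
    (hl₀' : l₀ * ((-9 : ℤ) : ℝ) = -1)
    (hl₁ : (Nat.gcd d₁ 3 : ℝ) ^ 2 / d₁ - (Nat.gcd d₂ 3 : ℝ) ^ 2 / d₂ = m * n₁) :
    Gamma0 9 ≤ fixGroup F := by
  subst hF
  have h6 : Nat.gcd d₁ 6 = Nat.gcd d₁ 3 ∧ Nat.gcd d₂ 6 = Nat.gcd d₂ 3 := by
    have : ∀ d : ℕ, d ∣ 9 → Nat.gcd d 6 = Nat.gcd d 3 := fun d hd => by
      have : d ≤ 9 := Nat.le_of_dvd (by norm_num) hd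
      interval_cases d <;> first | rfl | (exfalso; norm_num at hd)
    exact ⟨this _ h1, this _ h2⟩
  refine Gamma0_nine_le (neg_one_mem_fixGroup _) (T_mem_fixGroup (etaQuot_mem _ _ _ _)) ?_ ?_ ?_
  · rw [← zpow_one ModularGroup.T]
    refine mem_fixGroup_etaQuot hem hd hm (L := 9) h1 h2 ?_ (l := n₁) ?_ ⟨n₁, by simp⟩
    · simp [mul_apply_two, lowerMat, ModularGroup.coe_T, Matrix.SpecialLinearGroup.SL2_inv_expl]
    · simpa [lowerMat] using hl₁
  · rw [← zpow_one ModularGroup.T]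
    refine mem_fixGroup_etaQuot hem hd hm (L := 9) h1 h2 ?_ (l := n₁) ?_ ⟨n₁, by simp⟩
    · simp [mul_apply_two, lowerMat, ModularGroup.coe_T, Matrix.SpecialLinearGroup.SL2_inv_expl]
    · have e1 : (lowerMat 6 1 0).natAbs = 6 := by simp [lowerMat]
      rw [e1, h6.1, h6.2, hl₁]
  · rw [lowerMat_eq_conj]
    refine mem_fixGroup_etaQuot hem hd hm (L := 9) h1 h2 ?_ (l := l₀) ?_ ⟨-1, by rw [hl₀']; norm_num⟩
    · rw [← lowerMat_eq_conj]; simp [lowerMat]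
    · simpa [ModularGroup.coe_S] using hl₀

theorem u9_mem : u9 ∈ levelRing 9 :=
  etaQuot_mem_levelRing u9_eq.1 u9_eq.2 (by norm_num)
    (nine_le_fix rfl u9_eq.1 u9_eq.2 (by norm_num) (one_dvd _) dvd_rfl (l₀ := 1 / 9) (n₁ := 0)
      (by norm_num) (by norm_num) (by norm_num))

theorem w9_mem : w9 ∈ levelRing 9 :=
  etaQuot_mem_levelRing w9_eq.1 w9_eq.2 (by norm_num)
    (nine_le_fix rfl w9_eq.1 w9_eq.2 (by norm_num) (by norm_num) dvd_rfl (l₀ := 1 / 9) (n₁ := 1)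
      (by norm_num) (by norm_num) (by norm_num))

theorem gcd_natAbs' (d : ℕ) (c : ℤ) : Nat.gcd d c.natAbs = Nat.gcd (c.natAbs % d) d :=
  Nat.gcd_rec d c.natAbs

/-- The three types of cusps. -/
theorem cusp_cases9 (c : ℤ) :
    (¬ 3 ∣ c ∧ Nat.gcd 3 c.natAbs = 1 ∧ Nat.gcd 9 c.natAbs = 1) ∨
    (3 ∣ c ∧ ¬ 9 ∣ c ∧ Nat.gcd 3 c.natAbs = 3 ∧ Nat.gcd 9 c.natAbs = 3) ∨
    (9 ∣ c ∧ Nat.gcd 3 c.natAbs = 3 ∧ Nat.gcd 9 c.natAbs = 9) := by
  rw [gcd_natAbs' 3, gcd_natAbs' 9]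
  rcases (by omega : c.natAbs % 9 = 0 ∨ c.natAbs % 9 = 3 ∨ c.natAbs % 9 = 6 ∨
    (c.natAbs % 9 < 9 ∧ c.natAbs % 3 ≠ 0)) with h | h | h | ⟨h, h'⟩
  · refine Or.inr (Or.inr ⟨by omega, ?_, ?_⟩)
    · rw [show c.natAbs % 3 = 0 by omega]; rfl
    · rw [h]; rfl
  · refine Or.inr (Or.inl ⟨by omega, by omega, ?_, ?_⟩)
    · rw [show c.natAbs % 3 = 0 by omega]; rfl
    · rw [h]; rfl
  · refine Or.inr (Or.inl ⟨by omega, by omega, ?_, ?_⟩)
    · rw [show c.natAbs % 3 = 0 by omega]; rfl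
    · rw [h]; rfl
  · refine Or.inl ⟨by omega, ?_, ?_⟩
    · rcases (by omega : c.natAbs % 3 = 1 ∨ c.natAbs % 3 = 2) with h3 | h3 <;> rw [h3] <;> rfl
    · have h9 : c.natAbs % 9 % 3 ≠ 0 := by omega
      generalize c.natAbs % 9 = r at h h9
      interval_cases r <;> first | rfl | omega

theorem hasLead_u9 (γ : SL(2, ℤ)) :
    (¬ 3 ∣ γ 1 0 → HasLead (fun τ => u9 (γ • τ) ^ 8) (8 / 9)) ∧
    (3 ∣ γ 1 0 → ¬ 9 ∣ γ 1 0 → HasLead (fun τ => u9 (γ • τ) ^ 8) 0) ∧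
    (9 ∣ γ 1 0 → HasLead (fun τ => u9 (γ • τ) ^ 8) (-8)) := by
  have h : HasLead (fun τ => u9 (γ • τ) ^ 8)
      ((Nat.gcd 1 (γ 1 0).natAbs : ℝ) ^ 2 / (1 : ℕ) - (Nat.gcd 9 (γ 1 0).natAbs : ℝ) ^ 2 / (9 : ℕ)) :=
    hasLead_etaQuot (d₁ := 1) (d₂ := 9) u9_eq.1 u9_eq.2 γ
  rcases cusp_cases9 (γ 1 0) with ⟨hc, e3, e9⟩ | ⟨hc, hc', e3, e9⟩ | ⟨hc, e3, e9⟩ <;>
    rw [Nat.gcd_one_left, e9] at h <;> refine ⟨fun H => ?_, fun H H' => ?_, fun H => ?_⟩ <;>
    first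
      | (exfalso; omega)
      | (convert h using 1; norm_num)

theorem hasLead_w9 (γ : SL(2, ℤ)) (h9 : ¬ 9 ∣ γ 1 0) :
    ∃ l : ℝ, 0 < l ∧ HasLead (fun τ => w9 (γ • τ) ^ 2) l := by
  refine ⟨_, ?_, hasLead_etaQuot (d₁ := 3) (d₂ := 9) w9_eq.1 w9_eq.2 γ⟩
  rcases cusp_cases9 (γ 1 0) with ⟨hc, e3, e9⟩ | ⟨hc, hc', e3, e9⟩ | ⟨hc, e3, e9⟩
  · rw [e3, e9]; norm_num
  · rw [e3, e9]; norm_num
  · exact absurd hc h9

theorem u9_bounded (γ : SL(2, ℤ)) (h9 : ¬ 9 ∣ γ 1 0) :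
    IsBoundedAtImInfty fun τ => u9 (γ • τ) := by
  obtain ⟨h1, h2, -⟩ := hasLead_u9 γ
  by_cases hc : 3 ∣ γ 1 0
  · exact isBounded_of_pow (m := 8) (by norm_num) ((h2 hc h9).bounded le_rfl)
  · exact isBounded_of_pow (m := 8) (by norm_num) ((h1 hc).bounded (by norm_num))

theorem coeff_two_mul {R : Type*} [CommRing R] (φ ψ : PowerSeries R) :
    (φ * ψ).coeff 2 = φ.coeff 0 * ψ.coeff 2 + φ.coeff 1 * ψ.coeff 1 + φ.coeff 2 * ψ.coeff 0 := by
  rw [PowerSeries.coeff_mul, Finset.Nat.sum_antidiagonal_succ, Finset.Nat.sum_antidiagonal_succ]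
  simp [add_assoc]

theorem coeff_series_u9 : (etaSeries 1 9 3).coeff 1 = -3 ∧ (etaSeries 1 9 3).coeff 2 = 0 := by
  have h1 : ModularCurve.etaProd.coeff 1 = -1 := by
    rw [coeff_etaProd]; simp
  have h2 : ModularCurve.etaProd.coeff 2 = -1 := by
    rw [coeff_etaProd, Finset.prod_range_succ, Finset.prod_range_one, coeff_two_mul]
    simp [PowerSeries.coeff_X_pow, PowerSeries.coeff_X]
  have hE : ∀ i, 0 < i → i < 9 →
      ((ModularCurve.etaProd.invOfUnit 1).expand 9 (NeZero.ne 9)).coeff i = 0 := fun i hi hi' =>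
    PowerSeries.coeff_expand_of_not_dvd _ _ _ fun h => by
      have := Nat.le_of_dvd hi h
      omega
  have h0 : ModularCurve.etaProd.coeff 0 = 1 := by
    rw [PowerSeries.coeff_zero_eq_constantCoeff, ModularCurve.constantCoeff_etaProd]
  have g0 : ((ModularCurve.etaProd.invOfUnit 1).expand 9 (NeZero.ne 9)).coeff 0 = 1 := by
    simp [PowerSeries.coeff_zero_eq_constantCoeff, PowerSeries.constantCoeff_expand]
  have g1 := hE 1 (by norm_num) (by norm_num)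
  have g2 := hE 2 (by norm_num) (by norm_num)
  set P := ModularCurve.etaProd
  set E := (ModularCurve.etaProd.invOfUnit 1).expand 9 (NeZero.ne 9)
  have hS : etaSeries 1 9 3 = P * P * P * (E * E * E) := by
    rw [etaSeries, PowerSeries.expand_one_apply]; ring
  rw [PowerSeries.coeff_zero_eq_constantCoeff_apply] at h0 g0
  constructor
  · rw [hS]
    simp [PowerSeries.coeff_one_mul, h0, h1, g0, g1]
  · rw [hS]
    simp [coeff_two_mul, PowerSeries.coeff_one_mul, h0, h1, h2, g0, g1, g2]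

theorem coeff_series_w9 : (etaSeries 3 9 12).coeff 1 = 0 ∧ (etaSeries 3 9 12).coeff 2 = 0 := by
  obtain ⟨r, hr⟩ : ∃ r : PowerSeries ℤ, etaSeries 3 9 12 = r.expand 3 (by norm_num) :=
    ⟨ModularCurve.etaProd ^ 12 *
      ((ModularCurve.etaProd.invOfUnit 1).expand 3 (by norm_num)) ^ 12, by
      rw [etaSeries, map_mul, map_pow, map_pow, ← PowerSeries.expand_mul]⟩
  rw [hr]
  exact ⟨PowerSeries.coeff_expand_of_not_dvd _ _ _ (by norm_num),
    PowerSeries.coeff_expand_of_not_dvd _ _ _ (by norm_num)⟩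

theorem u9_identity (τ : ℍ) : u9 τ * (u9 τ ^ 2 + 9 * u9 τ + 27) = w9 τ := by
  set c : ℂ → (ℍ → ℂ) := fun z => algebraMap ℂ (ℍ → ℂ) z
  set F : ℍ → ℂ := u9 ^ 3 + c 9 * u9 ^ 2 + c 27 * u9 - w9 with hF
  have hu := levelRing_le_cuspRing 9 u9_mem
  have hw := levelRing_le_cuspRing 9 w9_mem
  have ha : ∀ z, c z ∈ cuspRing := fun z => algebraMap_mem _ _
  have hFm : F ∈ levelRing 9 := sub_mem (add_mem (add_mem (pow_mem u9_mem 3)
    (mul_mem (algebraMap_mem _ _) (pow_mem u9_mem 2))) (mul_mem (algebraMap_mem _ _) u9_mem)) w9_mem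
  set U := (etaSeries 1 9 3).map (Int.castRingHom ℂ) with hU
  set V := (etaSeries 3 9 12).map (Int.castRingHom ℂ) with hV
  have hFq : qLaurent F = HahnSeries.single (-((3 : ℕ) : ℤ)) 1 *
      toLS (U ^ 3 + PowerSeries.C 9 * PowerSeries.X * U ^ 2
        + PowerSeries.C 27 * PowerSeries.X ^ 2 * U - V) := by
    have hu' : qLaurent u9 = HahnSeries.single (-1 : ℤ) 1 * toLS U := by
      rw [u9, qLaurent_etaQuot]; simp [U]
    have hw' : qLaurent w9 = HahnSeries.single (-((3 : ℕ) : ℤ)) 1 * toLS V := by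
      rw [w9, qLaurent_etaQuot]
    have h2 : c 9 * u9 ^ 2 ∈ cuspRing := mul_mem (ha _) (pow_mem hu 2)
    have h3 : c 27 * u9 ∈ cuspRing := mul_mem (ha _) hu
    rw [hF, qLaurent_sub (add_mem (add_mem (pow_mem hu 3) h2) h3) hw,
      qLaurent_add (add_mem (pow_mem hu 3) h2) h3, qLaurent_add (pow_mem hu 3) h2,
      qLaurent_mul (ha _) (pow_mem hu 2), qLaurent_mul (ha _) hu, qLaurent_pow hu, qLaurent_pow hu,
      hu', hw', qLaurent_algebraMap, qLaurent_algebraMap]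
    simp only [map_add, map_sub, map_mul, map_pow, toLS, HahnSeries.ofPowerSeries_X,
      HahnSeries.ofPowerSeries_C, mul_pow, HahnSeries.single_pow, one_pow, mul_add, mul_sub,
      ModularCurve.algebraMap_laurentSeries_eq_single]
    simp only [show (HahnSeries.C (9 : ℂ) : LaurentSeries ℂ) = HahnSeries.single 0 9 from rfl,
      show (HahnSeries.C (27 : ℂ) : LaurentSeries ℂ) = HahnSeries.single 0 27 from rfl,
      ← mul_assoc, HahnSeries.single_mul_single]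
    norm_num
  have hcoef : ∀ m : ℤ, m < 0 → (qLaurent F).coeff m = 0 := by
    intro m hm
    rw [hFq]
    rcases (by omega : m < -3 ∨ m = -3 ∨ m = -2 ∨ m = -1) with h | h | h | h
    · exact coeff_single_mul_toLS_of_lt 3 _ (by omega)
    all_goals
      subst h
      obtain ⟨hu1, hu2⟩ := coeff_series_u9
      obtain ⟨hw1, hw2⟩ := coeff_series_w9
      have hU0 : U.coeff 0 = 1 := by
        rw [PowerSeries.coeff_zero_eq_constantCoeff, hU, constantCoeff_map_etaSeries]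
      have hV0 : V.coeff 0 = 1 := by
        rw [PowerSeries.coeff_zero_eq_constantCoeff, hV, constantCoeff_map_etaSeries]
      have hU1 : U.coeff 1 = -3 := by simp [hU, hu1]
      have hU2 : U.coeff 2 = 0 := by simp [hU, hu2]
      have hV1 : V.coeff 1 = 0 := by simp [hV, hw1]
      have hV2 : V.coeff 2 = 0 := by simp [hV, hw2]
    · rw [show (-3 : ℤ) = ((0 : ℕ) : ℤ) - ((3 : ℕ) : ℤ) by norm_num, coeff_single_mul_toLS]
      simp [PowerSeries.coeff_zero_eq_constantCoeff, map_mul, map_pow,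
        ← PowerSeries.coeff_zero_eq_constantCoeff_apply (φ := U),
        ← PowerSeries.coeff_zero_eq_constantCoeff_apply (φ := V), hU0, hV0]
    · rw [show (-2 : ℤ) = ((1 : ℕ) : ℤ) - ((3 : ℕ) : ℤ) by norm_num, coeff_single_mul_toLS,
        show U ^ 3 = U * U * U by ring, show U ^ 2 = U * U by ring,
        show (PowerSeries.X : PowerSeries ℂ) ^ 2 = PowerSeries.X * PowerSeries.X by ring]
      rw [PowerSeries.coeff_zero_eq_constantCoeff_apply] at hU0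
      simp [PowerSeries.coeff_one_mul, hU0, hU1, hV1, PowerSeries.coeff_C]
      norm_num
    · rw [show (-1 : ℤ) = ((2 : ℕ) : ℤ) - ((3 : ℕ) : ℤ) by norm_num, coeff_single_mul_toLS,
        show U ^ 3 = U * U * U by ring, show U ^ 2 = U * U by ring,
        show (PowerSeries.X : PowerSeries ℂ) ^ 2 = PowerSeries.X * PowerSeries.X by ring]
      rw [PowerSeries.coeff_zero_eq_constantCoeff_apply] at hU0
      simp [coeff_two_mul, PowerSeries.coeff_one_mul, hU0, hU1, hU2, hV2,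
        PowerSeries.coeff_X, PowerSeries.coeff_C]
      norm_num
  obtain ⟨r, hr⟩ := exists_toLS_eq hcoef
  have hinf := isBounded_of_qLaurent (levelRing_le_cuspRing 9 hFm) hr
  have hb : ∀ γ : SL(2, ℤ), IsBoundedAtImInfty fun τ => F (γ • τ) := fun γ => by
    by_cases h9 : (9 : ℤ) ∣ γ 1 0
    · have hγ : γ ∈ Gamma0 9 := by by_contra h; exact not_mem_Gamma0_nine.mp h h9
      simpa only [hFm.2.1 γ hγ] using hinf
    · have hu := u9_bounded γ h9
      obtain ⟨l, hl, hv⟩ := hasLead_w9 γ h9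
      exact ((((hu.mul hu).mul hu).congr_left fun τ =>
          (show u9 (γ • τ) * u9 (γ • τ) * u9 (γ • τ) = u9 (γ • τ) ^ 3 by ring)).add
        (isBounded_const_mul ((hu.mul hu).congr_left fun τ => (pow_two _).symm) 9) |>.add
        (isBounded_const_mul hu 27)).sub (isBounded_of_pow (m := 2) two_pos (hv.bounded hl.le))
  have hconst := fun w => eq_const_of_bounded hFm hb τ w
  have := atImInfty_neBot
  have hS : ¬ 9 ∣ ModularGroup.S 1 0 := by simp [ModularGroup.coe_S]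
  have hS3 : ¬ 3 ∣ ModularGroup.S 1 0 := by simp [ModularGroup.coe_S]
  have hu0 : Tendsto (fun w => u9 (ModularGroup.S • w)) atImInfty (𝓝 0) :=
    tendsto_zero_of_pow (m := 8) (by norm_num)
      (((hasLead_u9 _).1 hS3).tendsto_zero (by norm_num))
  obtain ⟨l, hl, hv⟩ := hasLead_w9 _ hS
  have hv0 := tendsto_zero_of_pow (m := 2) two_pos (hv.tendsto_zero hl)
  have hF0 : Tendsto (fun w => F (ModularGroup.S • w)) atImInfty (𝓝 0) := by
    simpa [hF, c] using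
      (((hu0.pow 3).add ((hu0.pow 2).const_mul 9)).add (hu0.const_mul 27)).sub hv0
  have := tendsto_nhds_unique (hF0.congr fun w => hconst _) tendsto_const_nhds
  simp only [hF, c, Pi.add_apply, Pi.sub_apply, Pi.mul_apply, Pi.pow_apply,
    Pi.algebraMap_apply, Algebra.algebraMap_self, RingHom.id_apply] at this
  linear_combination -this

/-- The class of the cusp `γ ∞` among those with denominator `3`. -/
def cls9 (γ : SL(2, ℤ)) : ZMod 3 := (γ 0 0 : ZMod 3) * ((γ 1 0 / 3 : ℤ) : ZMod 3)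

theorem u9_comp_mem {γ : SL(2, ℤ)} (hc : 3 ∣ γ 1 0) : (fun τ => u9 (γ • τ)) ∈ cuspRing :=
  ⟨mdiff_comp_smul u9_mem.1 γ, fun τ => by
    obtain ⟨c, hc'⟩ := hc
    simpa using periodic_smul_of_dvd u9_mem γ (h := 1)
      ⟨c ^ 2, by rw [hc']; push_cast; ring⟩ τ, u9_mem.2.2 γ⟩

theorem tendsto_limit9 {γ : SL(2, ℤ)} (hc : 3 ∣ γ 1 0) (h9 : ¬ 9 ∣ γ 1 0) :
    ∃ r : ℂ, r ^ 2 + 9 * r + 27 = 0 ∧ Tendsto (fun τ => u9 (γ • τ)) atImInfty (𝓝 r) := by
  have := atImInfty_neBot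
  set r := (qExpansion 1 fun τ => u9 (γ • τ)).coeff 0
  have ht : Tendsto (fun τ => u9 (γ • τ)) atImInfty (𝓝 r) :=
    tendsto_coeff_zero (u9_comp_mem hc) (u9_bounded γ h9)
  refine ⟨r, ?_, ht⟩
  obtain ⟨l, hl, hw⟩ := hasLead_w9 γ h9
  have hw0 := tendsto_zero_of_pow (m := 2) two_pos (hw.tendsto_zero hl)
  obtain ⟨C, hC, hlim⟩ := (hasLead_u9 γ).2.1 hc h9
  have hr8 : r ^ 8 = C := tendsto_nhds_unique (ht.pow 8)
    (hlim.congr fun τ => by rw [wExp_zero, div_one])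
  have hr : r ≠ 0 := fun h => hC (by rw [← hr8, h]; simp)
  have h0 : r * (r ^ 2 + 9 * r + 27) = 0 := by
    refine tendsto_nhds_unique (ht.mul (((ht.pow 2).add (ht.const_mul 9)).add_const 27)) ?_
    exact hw0.congr fun τ => (u9_identity _).symm
  exact (mul_eq_zero.mp h0).resolve_left hr

theorem smul_lower {γ : SL(2, ℤ)} {k : ℤ} (h : (9 : ℤ) ∣ γ 1 0 - k * γ 1 1) :
    (fun τ => u9 (γ • τ)) = fun τ => u9 (lowerMat k • τ) := by
  have hmem : γ * (lowerMat k)⁻¹ ∈ Gamma0 9 := by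
    rw [Gamma0_mem, ZMod.intCast_zmod_eq_zero_iff_dvd, mul_apply_two]
    simp [lowerMat, Matrix.SpecialLinearGroup.SL2_inv_expl]
    rwa [mul_comm, ← sub_eq_add_neg]
  funext τ
  rw [← u9_mem.2.1 _ hmem (lowerMat k • τ), smul_smul, inv_mul_cancel_right]

/-- The first value at the cusps with denominator `3`. -/
def root9 : ℂ := (qExpansion 1 fun τ => u9 (lowerMat 3 • τ)).coeff 0

theorem tendsto_root9 : Tendsto (fun τ => u9 (lowerMat 3 • τ)) atImInfty (𝓝 root9) :=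
  tendsto_coeff_zero (u9_comp_mem (by simp [lowerMat])) (u9_bounded _ (by simp [lowerMat]))

theorem root9_eq : root9 ^ 2 + 9 * root9 + 27 = 0 := by
  obtain ⟨r, hr, ht⟩ := tendsto_limit9 (γ := lowerMat 3) (by simp [lowerMat]) (by simp [lowerMat])
  have := atImInfty_neBot
  rwa [tendsto_nhds_unique tendsto_root9 ht]

theorem root9_conj_ne : (starRingEnd ℂ) root9 ≠ root9 := by
  intro h
  have h2 : root9.im = 0 := Complex.conj_eq_iff_im.mp h
  have := congrArg Complex.re root9_eq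
  simp [pow_two, h2] at this
  nlinarith [sq_nonneg (2 * root9.re + 9)]

theorem eq_root9 {r : ℂ} (hr : r ^ 2 + 9 * r + 27 = 0) :
    r = root9 ∨ r = (starRingEnd ℂ) root9 := by
  have hc := congrArg (starRingEnd ℂ) root9_eq
  simp only [map_add, map_mul, map_pow, map_zero, map_ofNat] at hc
  have hsum : (starRingEnd ℂ) root9 + root9 + 9 = 0 :=
    (mul_eq_zero.mp (by linear_combination root9_eq - hc :
      (root9 - (starRingEnd ℂ) root9) * ((starRingEnd ℂ) root9 + root9 + 9) = 0)).resolve_left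
      (sub_ne_zero.mpr root9_conj_ne.symm)
  exact (mul_eq_zero.mp (by linear_combination hr - root9_eq - (r - root9) * hsum :
      (r - root9) * (r - (starRingEnd ℂ) root9) = 0)).imp sub_eq_zero.mp sub_eq_zero.mp

theorem cls9_cases {γ : SL(2, ℤ)} (hc : 3 ∣ γ 1 0) (h9 : ¬ 9 ∣ γ 1 0) :
    (cls9 γ = 1 ∧ (9 : ℤ) ∣ γ 1 0 - 3 * γ 1 1) ∨
      (cls9 γ = 2 ∧ (9 : ℤ) ∣ γ 1 0 - 6 * γ 1 1) := by
  obtain ⟨c, hc'⟩ := hc
  have hdet := γ.det_coe
  rw [Matrix.det_fin_two, hc'] at hdet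
  have hd : (γ 0 0 : ZMod 3) * γ 1 1 = 1 := by
    have := congrArg (Int.cast : ℤ → ZMod 3) hdet
    simpa [show (3 : ZMod 3) = 0 from rfl] using this
  have hc0 : (c : ZMod 3) ≠ 0 := fun h => h9 (by
    obtain ⟨m, hm⟩ := (ZMod.intCast_zmod_eq_zero_iff_dvd c 3).mp h
    exact ⟨m, by rw [hc', hm]; push_cast; ring⟩)
  have key : ∀ a d c : ZMod 3, a * d = 1 → c ≠ 0 →
      (a * c = 1 ∧ c - d = 0) ∨ (a * c = 2 ∧ c - 2 * d = 0) := by decide
  rw [cls9, hc', Int.mul_ediv_cancel_left _ (by norm_num : (3 : ℤ) ≠ 0)]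
  refine (key _ _ _ hd hc0).imp (fun h => ⟨h.1, ?_⟩) fun h => ⟨h.1, ?_⟩
  · obtain ⟨m, hm⟩ := (ZMod.intCast_zmod_eq_zero_iff_dvd (c - γ 1 1) 3).mp
      (by push_cast; exact h.2)
    exact ⟨m, by push_cast at hm; linear_combination 3 * hm⟩
  · obtain ⟨m, hm⟩ := (ZMod.intCast_zmod_eq_zero_iff_dvd (c - 2 * γ 1 1) 3).mp
      (by push_cast; exact h.2)
    exact ⟨m, by push_cast at hm; linear_combination 3 * hm⟩

theorem u9_quadratic_ne {r : ℂ} (hr : r ^ 2 + 9 * r + 27 = 0) (τ : ℍ) : u9 τ - r ≠ 0 := by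
  intro h
  have := u9_identity τ
  rw [sub_eq_zero.mp h, hr, mul_zero] at this
  exact etaQuot_ne_zero 3 9 12 3 τ this.symm

theorem limit_lower_six : Tendsto (fun τ => u9 (lowerMat 6 • τ)) atImInfty
    (𝓝 ((starRingEnd ℂ) root9)) := by
  have := atImInfty_neBot
  obtain ⟨r, hr, ht⟩ := tendsto_limit9 (γ := lowerMat 6) (by simp [lowerMat]) (by simp [lowerMat])
  rcases eq_root9 hr with rfl | rfl
  swap
  · exact ht
  exfalso
  set s : ℂ := (starRingEnd ℂ) root9 with hs_def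
  have hs : s ^ 2 + 9 * s + 27 = 0 := by
    simpa [hs_def, map_ofNat] using congrArg (starRingEnd ℂ) root9_eq
  set f : ℍ → ℂ := fun τ => (u9 τ - s)⁻¹ with hf
  have hs0 : s ≠ 0 := fun h => by simp [h] at hs
  have hlim : ∀ γ : SL(2, ℤ), ∃ z, Tendsto (fun τ => f (γ • τ)) atImInfty (𝓝 z) := fun γ => by
    rcases cusp_cases9 (γ 1 0) with ⟨hc, -⟩ | ⟨hc, h9, -⟩ | ⟨h9, -⟩
    · exact ⟨_, (((tendsto_zero_of_pow (m := 8) (by norm_num)
        (((hasLead_u9 γ).1 hc).tendsto_zero (by norm_num))).sub_const s).inv₀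
          (by simpa using hs0))⟩
    · have hlim : Tendsto (fun τ => u9 (γ • τ)) atImInfty (𝓝 root9) := by
        rcases cls9_cases hc h9 with ⟨-, h⟩ | ⟨-, h⟩ <;> rw [smul_lower h]
        · exact tendsto_root9
        · exact ht
      exact ⟨_, (hlim.sub_const s).inv₀ (sub_ne_zero.mpr root9_conj_ne.symm)⟩
    · have h8 : Tendsto (fun τ => (u9 (γ • τ))⁻¹) atImInfty (𝓝 0) := by
        refine tendsto_zero_of_pow (m := 8) (by norm_num) ?_
        simp only [inv_pow]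
        exact (((hasLead_u9 γ).2.2 h9).inv).tendsto_zero (by norm_num)
      refine ⟨0, ?_⟩
      have h1 := h8.div (((h8.const_mul s).const_sub 1)) (by simp)
      simp only [mul_zero, sub_zero, zero_div] at h1
      refine h1.congr fun τ => ?_
      have h2 : u9 (γ • τ) ≠ 0 := etaQuot_ne_zero 1 9 3 1 _
      simp only [hf, Pi.div_apply]
      field_simp
  have hb : ∀ γ : SL(2, ℤ), IsBoundedAtImInfty fun τ => f (γ • τ) := fun γ => by
    obtain ⟨z, hz⟩ := hlim γ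
    exact hz.isBigO_one ℝ
  have hfm : f ∈ levelRing 9 := by
    refine ⟨?_, fun γ hγ τ => by simp only [hf, u9_mem.2.1 γ hγ], fun γ => .of_bounded (hb γ)⟩
    rw [UpperHalfPlane.mdifferentiable_iff]
    exact ((UpperHalfPlane.mdifferentiable_iff.mp u9_mem.1).sub_const s).inv
      fun z _ => u9_quadratic_ne hs _
  have hconst := fun w => eq_const_of_bounded hfm hb UpperHalfPlane.I w
  have h0 : Tendsto (fun τ => f (ModularGroup.S • τ)) atImInfty (𝓝 (0 - s)⁻¹) :=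
    ((tendsto_zero_of_pow (m := 8) (by norm_num) (((hasLead_u9 _).1
      (by simp [ModularGroup.coe_S])).tendsto_zero (by norm_num))).sub_const s).inv₀
        (by simpa using hs0)
  have h1 : Tendsto (fun τ => f (lowerMat 3 • τ)) atImInfty (𝓝 (root9 - s)⁻¹) :=
    (tendsto_root9.sub_const s).inv₀ (sub_ne_zero.mpr root9_conj_ne.symm)
  have e0 := tendsto_nhds_unique (h0.congr fun w => hconst _) tendsto_const_nhds
  have e1 := tendsto_nhds_unique (h1.congr fun w => hconst _) tendsto_const_nhds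
  rw [← e1, inv_inj, sub_left_inj] at e0
  have := root9_eq
  simp [← e0] at this

/-- Value of `u9` at the cusp `γ ∞`. -/
def val9 (γ : SL(2, ℤ)) : ℂ :=
  if 3 ∣ γ 1 0 then (if cls9 γ = 1 then root9 else (starRingEnd ℂ) root9) else 0

theorem tendsto_val9 (γ : SL(2, ℤ)) (hγ : γ ∉ Gamma0 9) :
    Tendsto (fun τ => u9 (γ • τ)) atImInfty (𝓝 (val9 γ)) := by
  rw [not_mem_Gamma0_nine] at hγ
  rw [val9]
  split_ifs with hc h1
  · rcases cls9_cases hc hγ with ⟨-, h⟩ | ⟨h2, -⟩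
    · rw [smul_lower h]; exact tendsto_root9
    · rw [h1] at h2; exact absurd h2 (by decide)
  · rcases cls9_cases hc hγ with ⟨h, -⟩ | ⟨-, h⟩
    · exact absurd h h1
    · rw [smul_lower h]; exact limit_lower_six
  · exact tendsto_zero_of_pow (m := 8) (by norm_num)
      (((hasLead_u9 γ).1 hc).tendsto_zero (by norm_num))

/-- A nonvanishing form of weight `48` for comparison. -/
def G9 (τ : ℍ) : ℂ := Δ (dil 3 τ) ^ 10 / (Δ (dil 1 τ) ^ 3 * Δ (dil 9 τ) ^ 3)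

theorem u9_deriv_ne (τ : ℍ) : dH u9 τ ≠ 0 := by
  have hne : ∀ τ, u9 τ ≠ 0 := etaQuot_ne_zero 1 9 3 1
  have hd := ModularForm.discriminant_ne_zero
  refine dH_ne_zero_of_weight u9_mem hne (m := 8) (by norm_num)
    (exists_dH_ne_zero (levelRing_le_cuspRing 9 u9_mem) (n := -1) (by norm_num) ?_)
    (G := G9) ?_ ?_ (κ := 24) (by norm_num) ?_ ?_ τ
  · rw [u9, qLaurent_etaQuot, show (-1 : ℤ) = ((0 : ℕ) : ℤ) - ((1 : ℕ) : ℤ) by norm_num]
    conv_lhs => rw [coeff_single_mul_toLS]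
    simp [PowerSeries.coeff_zero_eq_constantCoeff, constantCoeff_etaSeries]
  · unfold G9
    rw [UpperHalfPlane.mdifferentiable_iff]
    exact ((UpperHalfPlane.mdifferentiable_iff.mp (mdiff_discriminant_dil 3)).pow 10).div
      (((UpperHalfPlane.mdifferentiable_iff.mp (mdiff_discriminant_dil 1)).pow 3).mul
        ((UpperHalfPlane.mdifferentiable_iff.mp (mdiff_discriminant_dil 9)).pow 3))
      fun z _ => mul_ne_zero (pow_ne_zero _ (hd _)) (pow_ne_zero _ (hd _))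
  · exact fun τ => div_ne_zero (pow_ne_zero _ (hd _))
      (mul_ne_zero (pow_ne_zero _ (hd _)) (pow_ne_zero _ (hd _)))
  · intro γ hγ τ
    rw [Gamma0_mem, ZMod.intCast_zmod_eq_zero_iff_dvd] at hγ
    have hne' := Igusa.sl_denom_ne_zero γ τ
    simp only [G9]
    rw [discriminant_dil_smul_of_dvd 3 ((by norm_num : (3 : ℤ) ∣ 9).trans hγ),
      discriminant_dil_smul_of_dvd 1 (by simp), discriminant_dil_smul_of_dvd 9 hγ]
    have h1 := hd (dil 1 τ); have h2 := hd (dil 3 τ); have h4 := hd (dil 9 τ)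
    field_simp
  · intro γ
    have hG := (((hasLead_discriminant_dil_smul 3 γ).pow 10).div
      (((hasLead_discriminant_dil_smul 1 γ).pow 3).mul ((hasLead_discriminant_dil_smul 9 γ).pow 3))).congr
      (G := fun τ => G9 (γ • τ) / ((γ 1 0 : ℂ) * τ + γ 1 1) ^ (2 * 24)) fun τ => by
        have hne' := Igusa.sl_denom_ne_zero γ τ
        have h1 := hd (dil 1 (γ • τ)); have h2 := hd (dil 3 (γ • τ)); have h4 := hd (dil 9 (γ • τ))
        simp only [G9]
        field_simp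
    obtain ⟨L1, L2, L4⟩ := hasLead_u9 γ
    rcases cusp_cases9 (γ 1 0) with ⟨hc, e3, e9⟩ | ⟨hc, hc', e3, e9⟩ | ⟨hc, e3, e9⟩ <;>
      rw [Nat.gcd_one_left, e3, e9] at hG
    · refine ⟨9, 1, _, by norm_num, periodic_smul_of_dvd u9_mem γ (dvd_mul_right _ _), ?_, hG,
        Or.inl (by norm_num)⟩
      convert L1 hc using 1; norm_num
    · refine ⟨1, 0, _, one_pos, periodic_smul_of_dvd u9_mem γ ?_, ?_, hG,
        Or.inr ⟨rfl, by norm_num⟩⟩
      · obtain ⟨c', hc''⟩ := hc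
        exact ⟨c' ^ 2, by rw [hc'']; push_cast; ring⟩
      · convert L2 hc hc' using 1; norm_num
    · refine ⟨1, -1, _, one_pos, periodic_smul_of_dvd u9_mem γ ?_, ?_, hG, Or.inl (by norm_num)⟩
      · obtain ⟨c', hc''⟩ := hc
        exact ⟨9 * c' ^ 2, by rw [hc'']; push_cast; ring⟩
      · convert L4 hc using 1; norm_num

theorem cls9_scale {γ δ : SL(2, ℤ)} {q g x : ℤ} (hq : (q : ZMod 3) = 2)
    (hc : 3 ∣ γ 1 0) (hd : 3 ∣ δ 1 0) (hx : (x : ZMod 3) = γ 0 0)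
    (h : (g * δ 1 0 = γ 1 0 ∧ g * δ 0 0 = q * x) ∨ (g * δ 1 0 = q * γ 1 0 ∧ g * δ 0 0 = x))
    (hg : (g : ZMod 3) ≠ 0) : cls9 δ = -cls9 γ := by
  obtain ⟨c, hc'⟩ := hc
  obtain ⟨e, he⟩ := hd
  have h3 : (3 : ℤ) ≠ 0 := by norm_num
  rw [cls9, cls9, hc', he, Int.mul_ediv_cancel_left _ h3, Int.mul_ediv_cancel_left _ h3]
  rw [hc', he] at h
  have h' : (g * e = c ∧ g * δ 0 0 = q * x) ∨ (g * e = q * c ∧ g * δ 0 0 = x) :=
    h.imp (fun h => ⟨mul_left_cancel₀ h3 (by linear_combination h.1), h.2⟩)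
      fun h => ⟨mul_left_cancel₀ h3 (by linear_combination h.1), h.2⟩
  have key : ∀ g a : ZMod 3, g ≠ 0 → ∀ e c a' : ZMod 3,
      ((g * e = c ∧ g * a' = 2 * a) ∨ (g * e = 2 * c ∧ g * a' = a)) → a' * e = -(a * c) := by
    decide
  refine key _ _ hg _ _ _ ?_
  rcases h' with ⟨h1, h2⟩ | ⟨h1, h2⟩
  · refine Or.inl ⟨by exact_mod_cast congrArg (Int.cast : ℤ → ZMod 3) h1, ?_⟩
    rw [← hx, ← hq]; exact_mod_cast congrArg (Int.cast : ℤ → ZMod 3) h2
  · refine Or.inr ⟨?_, ?_⟩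
    · rw [← hq]; exact_mod_cast congrArg (Int.cast : ℤ → ZMod 3) h1
    · rw [← hx]; exact_mod_cast congrArg (Int.cast : ℤ → ZMod 3) h2

/-- The coordinate on `X₀(9)`, for `q ≡ 2 mod 3`. -/
def hauptmodul9 (q : ℕ) (hq : q % 3 = 2) : Hauptmodul q where
  L := 9
  coprime := by
    have h3 : q.Coprime 3 := Nat.coprime_comm.mp
      ((Nat.prime_three.coprime_iff_not_dvd).mpr (by omega))
    simpa using h3.pow_right 2
  u := u9
  series := etaSeries 1 9 3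
  constantCoeff_series := constantCoeff_etaSeries 1 9 3
  mem := u9_mem
  qLaurent_u := by rw [u9, qLaurent_etaQuot]; simp
  cusps := {0, root9, (starRingEnd ℂ) root9}
  val := val9
  val_mem γ _ := by rw [val9]; split_ifs <;> simp
  tendsto_val := tendsto_val9
  cusps_val a ha := by
    simp only [Finset.mem_insert, Finset.mem_singleton] at ha
    rcases ha with rfl | rfl | rfl
    · exact ⟨ModularGroup.S, not_mem_Gamma0_nine.mpr (by simp [ModularGroup.coe_S]),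
        by simp [val9, ModularGroup.coe_S]⟩
    · refine ⟨lowerMat 3, not_mem_Gamma0_nine.mpr (by simp [lowerMat]), ?_⟩
      have e : cls9 (lowerMat 3) = 1 := by decide
      simp [val9, lowerMat] at e ⊢
      simp [e]
    · refine ⟨lowerMat 6, not_mem_Gamma0_nine.mpr (by simp [lowerMat]), ?_⟩
      have e : cls9 (lowerMat 6) = 2 := by decide
      simp [val9, lowerMat] at e ⊢
      simp [e, show (2 : ZMod 3) ≠ 1 by decide]
  val_scale γ δ hγ g b h := by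
    rw [not_mem_Gamma0_nine] at hγ ⊢
    have hdet : IsCoprime (γ 0 0) (γ 1 0) := by
      refine ⟨γ 1 1, -γ 0 1, ?_⟩
      have := γ.det_coe
      rw [Matrix.det_fin_two] at this
      linear_combination this
    have hq3 : ¬ (3 : ℤ) ∣ q := by omega
    have h3q : IsCoprime (3 : ℤ) (q : ℤ) := (Int.prime_three.coprime_iff_not_dvd).mpr hq3
    have hg : ¬ 3 ∣ g := fun hg => by
      rcases h with ⟨h10, h00⟩ | ⟨h10, h00⟩
      · have h1 := hdet.isUnit_of_dvd'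
          (h3q.dvd_of_dvd_mul_left (h00 ▸ dvd_mul_of_dvd_left hg _))
          (h10 ▸ dvd_mul_of_dvd_left hg _)
        norm_num [Int.isUnit_iff] at h1
      · have hc : (3 : ℤ) ∣ γ 1 0 := h3q.dvd_of_dvd_mul_left (h10 ▸ dvd_mul_of_dvd_left hg _)
        have h1 := hdet.isUnit_of_dvd'
          ((dvd_add_left (dvd_mul_of_dvd_right hc b)).mp (h00 ▸ dvd_mul_of_dvd_left hg _)) hc
        norm_num [Int.isUnit_iff] at h1
    have h3g : IsCoprime (3 : ℤ) g := (Int.prime_three.coprime_iff_not_dvd).mpr hg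
    have hiff : ∀ n : ℤ, n ∣ (9 : ℤ) → (n ∣ δ 1 0 ↔ n ∣ γ 1 0) := fun n hn => by
      have h9 : ∀ x, IsCoprime (3 : ℤ) x → IsCoprime n x := fun x hx =>
        (by simpa using hx.pow_left (m := 2) : IsCoprime (9 : ℤ) x).of_isCoprime_of_dvd_left hn
      rcases h with ⟨h10, -⟩ | ⟨h10, -⟩
      · exact ⟨fun h => h10 ▸ dvd_mul_of_dvd_right h g,
          fun h => (h9 _ h3g).dvd_of_dvd_mul_left (h10 ▸ h)⟩
      · exact ⟨fun h => (h9 _ h3q).dvd_of_dvd_mul_left (h10 ▸ dvd_mul_of_dvd_right h g),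
          fun h => (h9 _ h3g).dvd_of_dvd_mul_left (h10 ▸ dvd_mul_of_dvd_right h _)⟩
    have e9 := hiff 9 dvd_rfl
    refine ⟨fun h => hγ (e9.mp h), ?_⟩
    by_cases hc : 3 ∣ γ 1 0
    · have hd := (hiff 3 (by norm_num)).mpr hc
      have hgz : (g : ZMod 3) ≠ 0 := fun h => hg ((ZMod.intCast_zmod_eq_zero_iff_dvd g 3).mp h)
      have hqz : (((q : ℕ) : ℤ) : ZMod 3) = 2 := by
        rw [Int.cast_natCast, ← ZMod.natCast_mod, hq]; rfl
      have hcls : cls9 δ = -cls9 γ := by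
        rcases h with h | ⟨h10, h00⟩
        · exact cls9_scale (x := γ 0 0) hqz hc hd rfl (Or.inl h) hgz
        · refine cls9_scale (x := γ 0 0 + b * γ 1 0) hqz hc hd ?_ (Or.inr ⟨h10, h00⟩) hgz
          push_cast
          rw [(ZMod.intCast_zmod_eq_zero_iff_dvd (γ 1 0) 3).mpr hc, mul_zero, add_zero]
      rcases cls9_cases hc hγ with ⟨e, -⟩ | ⟨e, -⟩ <;>
        simp [val9, hc, hd, hcls, e, show (-1 : ZMod 3) ≠ 1 by decide,
          show (-2 : ZMod 3) = 1 by decide, show (2 : ZMod 3) ≠ 1 by decide]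
    · simp [val9, hc, mt (hiff 3 (by norm_num)).mp hc]

theorem hauptmodul9_isCoord (q : ℕ) (hq : q % 3 = 2) : (hauptmodul9 q hq).IsCoord :=
  ⟨etaQuot_ne_zero 1 9 3 1, u9_deriv_ne⟩

end FermatAgent.BadRed.Carayol.Instance
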