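import Fermat.Agent.BadRed.Carayol.Instance.Conjugates
import Fermat.Agent.BadRed.Carayol.Instance.Level4
import Fermat.Agent.BadRed.Carayol.Instance.Level9

/-!
# The cusp polynomial and `j` as a rational function of `u`
-/

set_option autoImplicit false

noncomputable section

open UpperHalfPlane hiding I
open Complex Filter Function Asymptotics CongruenceSubgroup Polynomial
open scoped Real Topology MatrixGroups Manifold ModularForm
open FermatAgent.ModFun

namespace FermatAgent.BadRed.Carayol.Instance

variable {q : ℕ} (H : Hauptmodul q)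

/-- An integral polynomial with simple roots at the cusp values, separable modulo `q`. -/
structure IsCuspPoly (R : ℤ[X]) : Prop where
  monic : R.Monic
  map_eq : R.map (Int.castRingHom ℂ) = ∏ a ∈ H.cusps, (X - C a)
  separable : (R.map (Int.castRingHom (ZMod q))).Separable

theorem hauptmodul4_isCuspPoly [Fact q.Prime] (hq : ¬ 2 ∣ q) :
    IsCuspPoly (hauptmodul4 q hq) (X ^ 2 + C 16 * X) where
  monic := monic_X_pow_add (n := 2) ((degree_C_mul_X_le _).trans_lt (by norm_num))
  map_eq := by
    show _ = ∏ a ∈ ({0, -16} : Finset ℂ), (X - C a)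
    rw [Finset.prod_insert (by simp), Finset.prod_singleton]
    simp [Polynomial.map_ofNat, map_ofNat]
    ring
  separable := by
    have h2 : (2 : ZMod q) ≠ 0 := fun h => hq (by
      have : ((2 : ℕ) : ZMod q) = 0 := by exact_mod_cast h
      rw [CharP.cast_eq_zero_iff (ZMod q) q] at this
      exact ((Nat.prime_dvd_prime_iff_eq Fact.out Nat.prime_two).mp this) ▸ dvd_rfl)
    have h256 : (256 : ZMod q) ≠ 0 := by
      rw [show (256 : ZMod q) = 2 ^ 8 by norm_num]; exact pow_ne_zero _ h2
    simp only [Polynomial.map_add, Polynomial.map_pow, Polynomial.map_mul, map_X, map_C]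
    rw [separable_def']
    refine ⟨C (-4 * (256 : ZMod q)⁻¹), C ((256 : ZMod q)⁻¹) * (C 2 * X + C 16), ?_⟩
    simp only [derivative_add, derivative_X_pow, derivative_mul, derivative_C, derivative_X,
      zero_mul, zero_add, mul_one, eq_intCast, Int.cast_ofNat]
    have hinv : C ((256 : ZMod q)⁻¹) * C 256 = 1 := by
      rw [← C_mul, inv_mul_cancel₀ h256, C_1]
    have e256 : (C 256 : (ZMod q)[X]) = 256 := rfl
    rw [e256] at hinv
    simp only [map_mul, map_neg, Polynomial.C_ofNat, Nat.cast_ofNat, Nat.add_one_sub_one,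
      pow_one] at hinv ⊢
    linear_combination hinv

theorem hauptmodul9_isCuspPoly [Fact q.Prime] (hq : q % 3 = 2) :
    IsCuspPoly (hauptmodul9 q hq) (X ^ 3 + (C 9 * X ^ 2 + C 27 * X)) where
  monic := monic_X_pow_add (n := 3) ((degree_add_le _ _).trans_lt
    (max_lt ((degree_C_mul_X_pow_le _ _).trans_lt (by norm_num))
      ((degree_C_mul_X_le _).trans_lt (by norm_num))))
  map_eq := by
    have hsum : root9 + (starRingEnd ℂ) root9 = -9 := by
      have hc := congrArg (starRingEnd ℂ) root9_eq
      simp only [map_add, map_mul, map_pow, map_zero, map_ofNat] at hc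
      have := (mul_eq_zero.mp (by linear_combination root9_eq - hc :
        (root9 - (starRingEnd ℂ) root9) * ((starRingEnd ℂ) root9 + root9 + 9) = 0)).resolve_left
        (sub_ne_zero.mpr root9_conj_ne.symm)
      linear_combination this
    have hprod : root9 * (starRingEnd ℂ) root9 = 27 := by
      linear_combination root9 * hsum - root9_eq
    have h0 : root9 ≠ 0 := fun h => by simp [h] at hprod
    have h0' : (starRingEnd ℂ) root9 ≠ 0 := fun h => by simp [h] at hprod
    show _ = ∏ a ∈ ({0, root9, (starRingEnd ℂ) root9} : Finset ℂ), (X - C a)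
    rw [Finset.prod_insert (by simp [Ne.symm h0, Ne.symm h0']),
      Finset.prod_insert (by simp [root9_conj_ne.symm]), Finset.prod_singleton,
      show (X - C root9) * (X - C ((starRingEnd ℂ) root9)) = X ^ 2
        - C (root9 + (starRingEnd ℂ) root9) * X + C (root9 * (starRingEnd ℂ) root9) by
        rw [C_add, C_mul]; ring, hsum, hprod]
    simp [Polynomial.map_ofNat, map_ofNat]
    ring
  separable := by
    have h3 : (3 : ZMod q) ≠ 0 := fun h => by
      have : ((3 : ℕ) : ZMod q) = 0 := by exact_mod_cast h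
      rw [CharP.cast_eq_zero_iff (ZMod q) q] at this
      rw [(Nat.prime_dvd_prime_iff_eq Fact.out Nat.prime_three).mp this] at hq
      omega
    have h81 : (81 : ZMod q) ≠ 0 := by
      rw [show (81 : ZMod q) = 3 ^ 4 by norm_num]; exact pow_ne_zero _ h3
    simp only [Polynomial.map_add, Polynomial.map_pow, Polynomial.map_mul, map_X, map_C]
    rw [separable_def']
    refine ⟨C (-3 * (81 : ZMod q)⁻¹), C ((81 : ZMod q)⁻¹) * (C 3 + X), ?_⟩
    simp only [derivative_add, derivative_X_pow, derivative_mul, derivative_C, derivative_X,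
      zero_mul, zero_add, mul_one, eq_intCast, Int.cast_ofNat]
    have hinv : C ((81 : ZMod q)⁻¹) * C 81 = 1 := by
      rw [← C_mul, inv_mul_cancel₀ h81, C_1]
    have e81 : (C 81 : (ZMod q)[X]) = 81 := rfl
    rw [e81] at hinv
    simp only [map_mul, map_neg, Polynomial.C_ofNat, Nat.cast_ofNat, Nat.add_one_sub_one,
      pow_one] at hinv ⊢
    linear_combination hinv

theorem exists_poleLE {R : Type*} [CommRing R] (s : LaurentSeries R) : ∃ n, PoleLE n s := by
  refine ⟨(-s.order).toNat, fun m hm => ?_⟩
  by_contra h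
  have := HahnSeries.order_le_of_coeff_ne_zero h
  omega

variable [NeZero q]

omit [NeZero q] in
/-- `j · R(u) ^ L` is an integral polynomial in `u`. -/
theorem exists_j_eq_eval {R : ℤ[X]} (hR : IsCuspPoly H R) :
    ∃ P : ℤ[X], aeval (uSeries H) P
      = ModularCurve.jqModC ℤ * aeval (uSeries H) R ^ H.L := by
  set f : ℍ → ℂ := fun τ => jFun τ * evalInt (H.u τ) R ^ H.L with hf
  set uL : levelRing H.L := ⟨H.u, H.mem⟩ with huL
  have hfm : f ∈ levelRing H.L := by
    have : f = ((⟨jd 1, jd_mem_levelRing (one_dvd _)⟩ *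
        eval₂ (Int.castRingHom (levelRing H.L)) uL R ^ H.L : levelRing H.L) : ℍ → ℂ) := by
      funext τ
      simp only [hf, MulMemClass.coe_mul, SubmonoidClass.coe_pow, Pi.mul_apply, Pi.pow_apply,
        jd_one]
      congr 2
      set ev : levelRing H.L →+* ℂ :=
        (Pi.evalRingHom (fun _ : ℍ => ℂ) τ).comp (levelRing H.L).val.toRingHom with hev
      show _ = ev (eval₂ (Int.castRingHom (levelRing H.L)) uL R)
      rw [hom_eval₂]
      exact eval₂_congr (RingHom.ext_int _ _) rfl rfl
    rw [this]
    exact SetLike.coe_mem _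
  have hb : ∀ γ : SL(2, ℤ), γ ∉ Gamma0 H.L → IsBoundedAtImInfty fun τ => f (γ • τ) := by
    intro γ hγ
    set g : ℍ → ℂ := fun τ => evalInt (H.u (γ • dil H.L τ)) R with hg
    have hgm : g ∈ cuspRing := by
      set v : cuspRing := ⟨_, mem_cuspRing_at_cusp H.mem γ⟩ with hv
      have : g = ((eval₂ (Int.castRingHom cuspRing) v R : cuspRing) : ℍ → ℂ) := by
        funext τ
        rw [← evalC_apply τ, hom_eval₂]
        exact eval₂_congr (RingHom.ext_int _ _) rfl rfl
      rw [this]
      exact SetLike.coe_mem _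
    have hdil : Tendsto (dil H.L) atImInfty atImInfty := by
      rw [atImInfty, tendsto_comap_iff]
      exact (tendsto_comap.const_mul_atTop (Nat.cast_pos.mpr (NeZero.pos H.L))).congr
        fun τ => (dil_im H.L τ).symm
    have hg0 : Tendsto g atImInfty (𝓝 0) := by
      have h1 := ((R.map (Int.castRingHom ℂ)).continuous).continuousAt.tendsto.comp
        ((H.tendsto_val γ hγ).comp hdil)
      have h2 : (R.map (Int.castRingHom ℂ)).eval (H.val γ) = 0 := by
        rw [hR.map_eq, eval_prod]
        exact Finset.prod_eq_zero (H.val_mem γ hγ) (by simp)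
      rw [h2] at h1
      exact h1.congr fun τ => eval_map _ _
    have hgb : IsBoundedAtImInfty g := hg0.isBigO_one ℝ
    have := atImInfty_neBot
    have hdec : g =O[atImInfty] fun τ : ℍ => Real.exp (-2 * π * τ.im) := by
      have h1 : valueAtInfty g = 0 := by
        rw [← qExpansion_coeff_zero one_pos (analyticAt_cuspFunction_of_mem hgm hgb)
          (periodic_iff.mpr hgm.2.1)]
        exact tendsto_nhds_unique (tendsto_coeff_zero hgm hgb) hg0
      have h2 := exp_decay_sub_atImInfty one_pos (periodic_iff.mpr hgm.2.1) hgm.1 hgb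
      simp only [h1, sub_zero] at h2
      simpa using! h2
    have hj : (fun τ => jFun (dil H.L τ)) =O[atImInfty]
        fun τ : ℍ => Real.exp (2 * π * H.L * τ.im) := by
      have h1 := norm_jFun_comp_tendsto (g := dil H.L) (Nat.cast_pos.mpr (NeZero.pos H.L))
        (dil_im H.L)
      refine IsBigO.of_bound 2 ?_
      filter_upwards [h1.eventually_le_const one_lt_two] with τ hτ
      rw [Real.norm_of_nonneg (Real.exp_pos _).le]
      have hpos := Real.exp_pos (2 * π * H.L * τ.im)
      have e : Real.exp (-2 * π * H.L * τ.im) * Real.exp (2 * π * H.L * τ.im) = 1 := by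
        rw [← Real.exp_add]; ring_nf; exact Real.exp_zero
      nlinarith [norm_nonneg (jFun (dil H.L τ))]
    have hbd : IsBoundedAtImInfty fun τ => f (γ • dil H.L τ) := by
      have h2 := hj.mul (hdec.pow H.L)
      refine (h2.trans (IsBigO.of_bound 1 (Eventually.of_forall fun τ => ?_))).congr_left
        fun τ => by simp only [hf, jFun_smul, hg]
      rw [← Real.exp_nat_mul, ← Real.exp_add, Pi.one_apply, norm_one, one_mul,
        Real.norm_of_nonneg (Real.exp_pos _).le, Real.exp_le_one_iff]
      apply le_of_eq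
      ring
    refine (hbd.comp_tendsto (tendsto_aff_atImInfty 1 H.L 0)).congr (fun τ => ?_) (fun τ => rfl)
    simp only [Function.comp_apply]
    congr 2
    ext1
    simp [coe_dil, coe_aff]
    field_simp [show (H.L : ℂ) ≠ 0 from Nat.cast_ne_zero.mpr (NeZero.ne H.L)]
  set s : LaurentSeries ℤ := ModularCurve.jqModC ℤ * aeval (uSeries H) R ^ H.L with hs
  set uc : cuspRing := ⟨H.u, levelRing_le_cuspRing _ H.mem⟩ with huc
  have heval : ∀ Q : ℤ[X], qLaurentHom (eval₂ (Int.castRingHom cuspRing) uc Q)
      = ModularCurve.coeffMap (Int.castRingHom ℂ) (aeval (uSeries H) Q) := fun Q => by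
    rw [← AlgHom.coe_toRingHom, hom_eval₂, aeval_def, hom_eval₂]
    refine eval₂_congr (RingHom.ext_int _ _) ?_ rfl
    simp [huc, qLaurentHom_apply, qLaurent_u_eq]
  have hfs : qLaurent f = ModularCurve.coeffMap (Int.castRingHom ℂ) s := by
    have e : f = ((⟨jFun, jFun_mem_cuspRing⟩ *
        eval₂ (Int.castRingHom cuspRing) uc R ^ H.L : cuspRing) : ℍ → ℂ) := by
      funext τ
      rw [← evalC_apply τ, map_mul, map_pow, hom_eval₂]
      simp only [hf, evalC_apply, coe_eval₂RingHom]
      congr 2
    rw [e, ← qLaurentHom_apply, map_mul, map_pow, heval, qLaurentHom_apply, qLaurent_jFun, hs,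
      map_mul, map_pow, ModularCurve.coeffMap_jqModC]
  obtain ⟨n, hn⟩ := exists_poleLE s
  obtain ⟨P, -, hP⟩ := exists_eq_eval H.mem
    (fun γ hγ => (H.tendsto_val γ hγ).isBigO_one ℝ) (Int.castRingHom ℂ).range H.qLaurent_u
    (by rw [← PowerSeries.coeff_zero_eq_constantCoeff_apply, PowerSeries.coeff_map,
      PowerSeries.coeff_zero_eq_constantCoeff_apply, H.constantCoeff_series, map_one])
    (fun i => ⟨H.series.coeff i, by simp⟩) n hfm hb
    (fun m hm => by rw [hfs, hn.coeffMap _ m hm])
    (fun m => ⟨s.coeff m, by rw [hfs]; simp⟩)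
  obtain ⟨Q, rfl⟩ := Polynomial.map_surjective _
    (RingHom.rangeRestrict_surjective (Int.castRingHom ℂ)) P
  refine ⟨Q, ?_⟩
  have hinj : Injective (ModularCurve.coeffMap (Int.castRingHom ℂ)) := fun x y h => by
    ext k
    have := congrArg (fun s : LaurentSeries ℂ => s.coeff k) h
    simpa using this
  refine hinj ?_
  rw [← heval, ← hfs, qLaurentHom_apply]
  congr 1
  funext τ
  rw [hP τ, eval₂_map, ← evalC_apply τ, hom_eval₂]
  exact eval₂_congr (RingHom.ext_int _ _) rfl rfl

end FermatAgent.BadRed.Carayol.Instance
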