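import Fermat.Agent.BadRed.Carayol.Instance.PolyChart
import Fermat.Agent.BadRed.Carayol.Instance.Generate
import Fermat.Agent.BadRed.Carayol.Instance.JLine

/-!
# The chart at `0` of the coordinate `u`
-/

set_option autoImplicit false
set_option linter.unusedSectionVars false

noncomputable section

open Polynomial IsLocalRing Function
open FermatAgent.ModFun
open ModularCurve (coeffMap qExpand heckeAlphaBar heckeBetaBar)

namespace FermatAgent.BadRed.Carayol.Instance

variable {q : ℕ} [hq : Fact q.Prime] [NeZero q] (H : Hauptmodul q) {R : ℤ[X]}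

theorem mem_cusps_iff (hR : IsCuspPoly H R) (b : ℂ) :
    b ∈ H.cusps ↔ R.eval₂ (Int.castRingHom ℂ) b = 0 := by
  rw [← eval_map, hR.map_eq, eval_prod, Finset.prod_eq_zero_iff]
  simp [sub_eq_zero]

theorem conj_mem_cusps (hR : IsCuspPoly H R) {b : ℂ} (hb : b ∈ H.cusps) :
    (starRingEnd ℂ) b ∈ H.cusps := by
  rw [mem_cusps_iff H hR] at hb ⊢
  rw [← map_zero (starRingEnd ℂ), ← hb, hom_eval₂,
    RingHom.ext_int ((starRingEnd ℂ).comp (Int.castRingHom ℂ)) (Int.castRingHom ℂ)]

section Cusps

variable {K : Type*} [Field K] [Algebra ℚ K] (ι : K →ₐ[ℚ] ℂ)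
variable (W : Type*) [CommRing W] [IsDomain W] [IsLocalRing W] [Algebra W K]

/-- The embedding of the constants. -/
abbrev constEmb : W →+* ℂ := (ι : K →+* ℂ).comp (algebraMap W K)

variable (R) in
/-- The roots of the cusp polynomial in `W`. -/
def cuspSet : Finset W :=
  letI := Classical.decEq W
  (R.map (Int.castRingHom W)).roots.toFinset

variable {W}
variable (hR : IsCuspPoly H R) (hsplit : (R.map (Int.castRingHom W)).Splits)

theorem mem_cuspSet_iff (hR : IsCuspPoly H R) {a : W} :
    a ∈ cuspSet R W ↔ R.eval₂ (Int.castRingHom W) a = 0 := by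
  classical
  rw [cuspSet, Multiset.mem_toFinset, mem_roots (hR.monic.map _).ne_zero, IsRoot.def, eval_map]

include hR hsplit in
theorem roots_nodup_residue (hq0 : residue W (q : W) = 0) :
    ((R.map (Int.castRingHom W)).roots.map (residue W)).Nodup := by
  have : CharP (ResidueField W) q :=
    (CharP.charP_iff_prime_eq_zero hq.out).mpr (by rw [← map_natCast (residue W), hq0])
  have h := congrArg (Polynomial.map (residue W)) (hsplit.eq_prod_roots_of_monic (hR.monic.map _))
  rw [map_map, Polynomial.map_multiset_prod, Multiset.map_map,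
    RingHom.ext_int ((residue W).comp (Int.castRingHom W))
      ((ZMod.castHom dvd_rfl (ResidueField W)).comp (Int.castRingHom (ZMod q))), ← map_map] at h
  have hsep : ((R.map (Int.castRingHom (ZMod q))).map
      (ZMod.castHom dvd_rfl (ResidueField W))).Separable := hR.separable.map
  have h2 : ((R.map (Int.castRingHom (ZMod q))).map (ZMod.castHom dvd_rfl (ResidueField W))) =
      (((R.map (Int.castRingHom W)).roots.map (residue W)).map fun a => X - C a).prod := by
    rw [h, Multiset.map_map]
    simp
  rw [← roots_multiset_prod_X_sub_C ((R.map (Int.castRingHom W)).roots.map (residue W)), ← h2]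
  exact nodup_roots hsep

include hR hsplit in
theorem prod_cuspSet (hq0 : residue W (q : W) = 0) :
    ∏ a ∈ cuspSet R W, (X - C a) = R.map (Int.castRingHom W) := by
  classical
  conv_rhs => rw [hsplit.eq_prod_roots_of_monic (hR.monic.map _)]
  rw [cuspSet, Finset.prod_eq_multiset_prod, Multiset.toFinset_val,
    (Multiset.Nodup.of_map _ (roots_nodup_residue H hR hsplit hq0)).dedup]

include hR hsplit in
theorem constEmb_mem (hq0 : residue W (q : W) = 0) (b : ℂ) :
    b ∈ H.cusps ↔ ∃ a ∈ cuspSet R W, constEmb ι W a = b := by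
  have h : (R.map (Int.castRingHom ℂ)).eval b = ∏ a ∈ cuspSet R W, (b - constEmb ι W a) := by
    rw [← RingHom.ext_int ((constEmb ι W).comp (Int.castRingHom W)) (Int.castRingHom ℂ), ← map_map,
      ← prod_cuspSet H hR hsplit hq0, Polynomial.map_prod, eval_prod]
    simp
  rw [mem_cusps_iff H hR, ← eval_map, h, Finset.prod_eq_zero_iff]
  exact exists_congr fun a => and_congr_right fun _ => sub_eq_zero.trans eq_comm

open scoped Classical in
variable (R W) in
/-- Complex conjugation on the roots. -/
def cuspConj (a : W) : W :=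
  if h : ∃ b ∈ cuspSet R W, constEmb ι W b = (starRingEnd ℂ) (constEmb ι W a) then h.choose else a

include hR hsplit in
theorem cuspConj_spec (hq0 : residue W (q : W) = 0) {a : W} (ha : a ∈ cuspSet R W) :
    cuspConj R ι W a ∈ cuspSet R W ∧
      constEmb ι W (cuspConj R ι W a) = (starRingEnd ℂ) (constEmb ι W a) := by
  have h := (constEmb_mem H ι hR hsplit hq0 _).mp
    (conj_mem_cusps H hR ((constEmb_mem H ι hR hsplit hq0 _).mpr ⟨a, ha, rfl⟩))
  rw [cuspConj, dif_pos h]
  exact h.choose_spec

end Cusps

variable (K : Type*) [Field K] [Algebra ℚ K] (ι : K →ₐ[ℚ] ℂ)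
variable (W : Type*) [CommRing W] [IsDomain W] [IsLocalRing W] [Algebra W K] [FaithfulSMul W K]
variable {N : ℕ} [NeZero N] (hN : H.L ∣ N)
variable [Algebra W (LevelField K (N * q))] [IsScalarTower W K (LevelField K (N * q))]

theorem coe_alpha_uElt : ((heckeAlphaBar K N q (uElt K H hN) : LevelField K (N * q)) : LaurentSeries K)
    = coeffMap (Int.castRingHom K) (uSeries H) :=
  (ModularCurve.coe_heckeAlphaBar N q _).trans (coe_uElt K H hN)

theorem coe_beta_uElt : ((heckeBetaBar K N q (uElt K H hN) : LevelField K (N * q)) : LaurentSeries K)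
    = coeffMap (Int.castRingHom K) (qExpand ℤ q (uSeries H)) :=
  ((ModularCurve.coe_heckeBetaBar N q _).trans (congrArg (qExpand K q) (coe_uElt K H hN))).trans
    (coeffMap_comm_qExpand _ q _).symm

theorem root_aux {A : Type*} [CommRing A] (f : ℤ →+* A) (g : LaurentSeries ℤ →+* A) (a b : LaurentSeries ℤ)
    (h : ((modPoly H).map (eval₂RingHom (Int.castRingHom _) a)).eval b = 0) :
    (modPoly H).eval₂ (eval₂RingHom f (g a)) (g b) = 0 := by
  rw [eval_map] at h
  rw [← map_zero g, ← h, hom_eval₂]
  exact eval₂_congr (ringHom_ext (fun c => by simp) (by simp)) rfl rfl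

/-- The chart at `0`. -/
def basePolyChart (hR : IsCuspPoly H R) (hR0 : R.coeff 0 = 0)
    (hsplit : (R.map (Int.castRingHom W)).Splits) (hq0 : residue W (q : W) = 0) :
    PolyChart q W (heckeAlphaBar K N q (uElt K H hN)) (heckeBetaBar K N q (uElt K H hN)) where
  cusps := cuspSet R W
  zero_mem := by rw [mem_cuspSet_iff H hR, eval₂_at_zero, hR0, map_zero]
  cusps_residue_injective := by
    classical
    intro a ha b hb h
    exact Multiset.inj_on_of_nodup_map (roots_nodup_residue H hR hsplit hq0) a
      (Multiset.mem_toFinset.mp ha) b (Multiset.mem_toFinset.mp hb) h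
  conj := cuspConj R ι W
  conj_mem a ha := (cuspConj_spec H ι hR hsplit hq0 ha).1
  conj_conj a ha := by
    have h1 := cuspConj_spec H ι hR hsplit hq0 ha
    have h2 := cuspConj_spec H ι hR hsplit hq0 h1.1
    exact (ι.toRingHom.injective.comp (FaithfulSMul.algebraMap_injective W K))
      (h2.2.trans (by rw [h1.2, Complex.conj_conj]; rfl))
  Φ := (modPoly H).map (mapRingHom (Int.castRingHom W))
  monic := (modPoly_monic H).map _
  natDegree_eq := by
    rw [(modPoly_monic H).natDegree_map, natDegree_modPoly]
  symm i j := by simp [modPoly_symm H i j]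
  kronecker := by
    have : CharP (ResidueField W) q :=
      (CharP.charP_iff_prime_eq_zero hq.out).mpr (by rw [← map_natCast (residue W), hq0])
    rw [map_map, mapRingHom_comp, RingHom.ext_int ((residue W).comp (Int.castRingHom W))
      ((ZMod.castHom dvd_rfl (ResidueField W)).comp (Int.castRingHom (ZMod q))), ← mapRingHom_comp,
      ← map_map, modPoly_kronecker]
    simp
  root := by
    refine (LevelField K (N * q)).val.toRingHom.injective ?_
    rw [evalTwo_comm ((natDegree_map_le).trans (natDegree_modPoly H).le)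
      (fun i j => by simp [modPoly_symm H i j]), map_zero, evalTwo, eval₂_map, hom_eval₂]
    refine Eq.trans ?_ (root_aux H (Int.castRingHom (LaurentSeries K))
      (coeffMap (Int.castRingHom K)) (uSeries H) (qExpand ℤ q (uSeries H)) (modPoly_root_series H))
    refine eval₂_congr (ringHom_ext (fun c => by simp) ?_) (coe_beta_uElt H K hN) rfl
    simp [coe_alpha_uElt H K hN]
  cusp_fibre a ha := by
    refine map_injective (constEmb ι W)
      (ι.toRingHom.injective.comp (FaithfulSMul.algebraMap_injective W K)) ?_
    rw [Polynomial.map_pow, Polynomial.map_sub, map_X, map_C, (cuspConj_spec H ι hR hsplit hq0 ha).2,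
      ← modPoly_cusp H ((constEmb_mem H ι hR hsplit hq0 _).mpr ⟨a, ha, rfl⟩), map_map, map_map]
    congr 1
    exact ringHom_ext (fun c => by simp) (by simp)

end FermatAgent.BadRed.Carayol.Instance
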