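import Fermat.Agent.BadRed.Carayol.Instance.Series

/-!
# The coefficients of the modular equation
-/

set_option autoImplicit false

noncomputable section

open UpperHalfPlane hiding I
open Complex Filter Function CongruenceSubgroup Polynomial
open scoped Real Topology MatrixGroups Manifold ModularForm
open FermatAgent.ModFun

namespace FermatAgent.BadRed.Carayol.Instance

variable {q : ℕ} [NeZero q] [Fact q.Prime] (H : Hauptmodul q)

/-- Evaluation of integral polynomials. -/
abbrev evalInt (a : ℂ) : ℤ[X] →+* ℂ := Polynomial.eval₂RingHom (Int.castRingHom ℂ) a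

/-- The product over the conjugates at the point `τ`. -/
def rootProd (τ : ℍ) : ℂ[X] := ∏ i : Option (ZMod q), (X - C (rootFun H i τ))

omit [Fact (Nat.Prime q)] in
theorem rootProd_monic (τ : ℍ) : (rootProd H τ).Monic :=
  monic_prod_of_monic _ _ fun _ _ => monic_X_sub_C _

omit [Fact (Nat.Prime q)] in
theorem natDegree_rootProd (τ : ℍ) : (rootProd H τ).natDegree = q + 1 := by
  rw [rootProd, natDegree_prod _ _ fun _ _ => X_sub_C_ne_zero _]
  simp [Fintype.card_option, ZMod.card]

theorem rootProd_smul {γ : SL(2, ℤ)} (hγ : γ ∈ Gamma0 H.L) (τ : ℍ) :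
    rootProd H (γ • τ) = rootProd H τ := by
  obtain ⟨σ, hσ⟩ := exists_perm H hγ
  exact Fintype.prod_equiv σ _ _ fun i => by rw [hσ]

/-- The product as a polynomial over the tame ring, seen from the cusp `γ ∞`. -/
def rootProdAt (γ : SL(2, ℤ)) : tameRing[X] :=
  ∏ i : Option (ZMod q), (X - C ⟨_, rootFun_smul_mem H i γ⟩)

omit [Fact (Nat.Prime q)] in
theorem map_rootProdAt (γ : SL(2, ℤ)) (τ : ℍ) :
    (rootProdAt H γ).map (evalT τ) = rootProd H (γ • τ) := by
  simp [rootProdAt, rootProd, Polynomial.map_prod]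

/-- The coefficients of the product. -/
def coeffFun (k : ℕ) (τ : ℍ) : ℂ := (rootProd H τ).coeff k

omit [Fact (Nat.Prime q)] in
theorem coeffFun_smul_eq (k : ℕ) (γ : SL(2, ℤ)) :
    (fun τ => coeffFun H k (γ • τ)) = ((rootProdAt H γ).coeff k : ℍ → ℂ) := by
  funext τ
  rw [coeffFun, ← map_rootProdAt, coeff_map, evalT_apply]

theorem coeffFun_mem (k : ℕ) : coeffFun H k ∈ levelRing H.L := by
  refine ⟨?_, fun γ hγ τ => by rw [coeffFun, coeffFun, rootProd_smul H hγ], fun γ => ?_⟩
  · have := coeffFun_smul_eq H k 1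
    simp only [one_smul] at this
    rw [show coeffFun H k = _ from this]
    exact ((rootProdAt H 1).coeff k).2.1
  · rw [coeffFun_smul_eq]
    exact ((rootProdAt H γ).coeff k).2.2

omit [NeZero q] [Fact q.Prime] in
theorem tendsto_coeff_prod {α ι : Type*} {l : Filter α} (t : Finset ι) (f : ι → α → ℂ)
    (a : ι → ℂ) (h : ∀ i ∈ t, Tendsto (f i) l (𝓝 (a i))) (k : ℕ) :
    Tendsto (fun x => (∏ i ∈ t, (X - C (f i x))).coeff k) l
      (𝓝 ((∏ i ∈ t, (X - C (a i))).coeff k)) := by
  classical
  induction t using Finset.induction_on generalizing k with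
  | empty => simp only [Finset.prod_empty]; exact tendsto_const_nhds
  | insert b t hb ih =>
    have h' := fun i hi => h i (Finset.mem_insert_of_mem hi)
    simp only [Finset.prod_insert hb, sub_mul, coeff_sub, coeff_C_mul]
    refine Tendsto.sub ?_ ((h b (Finset.mem_insert_self _ _)).mul (ih h' k))
    cases k with
    | zero => simp only [coeff_X_mul_zero]; exact tendsto_const_nhds
    | succ k => simp only [coeff_X_mul]; exact ih h' k

omit [Fact (Nat.Prime q)] in
theorem tendsto_coeffFun (k : ℕ) {γ : SL(2, ℤ)} (hγ : γ ∉ Gamma0 H.L) :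
    Tendsto (fun τ => coeffFun H k (γ • τ)) atImInfty
      (𝓝 (((X - C ((starRingEnd ℂ) (H.val γ))) ^ (q + 1)).coeff k)) := by
  have := tendsto_coeff_prod Finset.univ (fun i τ => rootFun H i (γ • τ))
    (fun _ => (starRingEnd ℂ) (H.val γ)) (fun i _ => tendsto_rootFun H i hγ) k
  simpa [coeffFun, rootProd, Fintype.card_option, ZMod.card] using this

/-- The product after `τ ↦ qτ`, over the cusp ring. -/
def rootProdQ : cuspRing[X] :=
  ∏ i : Option (ZMod q), (X - C ⟨_, rootFun_dil_mem H i⟩)

/-- Evaluation at `τ` of elements of the cusp ring. -/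
def evalC (τ : ℍ) : cuspRing →+* ℂ :=
  (Pi.evalRingHom (fun _ : ℍ => ℂ) τ).comp cuspRing.val.toRingHom

omit [NeZero q] [Fact q.Prime] in
@[simp] theorem evalC_apply (τ : ℍ) (f : cuspRing) : evalC τ f = (f : ℍ → ℂ) τ := rfl

omit [Fact (Nat.Prime q)] in
theorem map_rootProdQ (τ : ℍ) : (rootProdQ H).map (evalC τ) = rootProd H (dil q τ) := by
  simp [rootProdQ, rootProd, Polynomial.map_prod]

omit [Fact (Nat.Prime q)] in
theorem map_qLaurentHom_rootProdQ :
    (rootProdQ H).map qLaurentHom.toRingHom = rootPoly H (rootC q) := by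
  simp [rootProdQ, rootPoly, Polynomial.map_prod, qLaurentHom_apply, qLaurent_rootFun]

theorem qExpand_qLaurent_coeffFun (k : ℕ) :
    ModularCurve.qExpand ℂ q (qLaurent (coeffFun H k)) = (rootPoly H (rootC q)).coeff k := by
  rw [← qLaurent_comp_dil (levelRing_le_cuspRing _ (coeffFun_mem H k)),
    ← map_qLaurentHom_rootProdQ, coeff_map,
    show coeffFun H k ∘ dil q = ((rootProdQ H).coeff k : ℍ → ℂ) from funext fun τ => by
      rw [comp_apply, coeffFun, ← map_rootProdQ, coeff_map, evalC_apply]]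
  simp [qLaurentHom_apply]

/-- The coefficients are integral polynomials in `u`. -/
theorem exists_coeff_eval (k : ℕ) :
    ∃ Q : ℤ[X], Q.natDegree ≤ q + 1 ∧ ∀ τ, coeffFun H k τ = evalInt (H.u τ) Q := by
  have hub : ∀ γ : SL(2, ℤ), γ ∉ Gamma0 H.L → IsBoundedAtImInfty fun τ => H.u (γ • τ) :=
    fun γ hγ => (H.tendsto_val γ hγ).isBigO_one ℝ
  obtain ⟨s, hs⟩ := exists_int_series H k
  have hcoeff : ∀ m : ℤ, (qLaurent (coeffFun H k)).coeff m
      = ((ModularCurve.coeffMap (Int.castRingHom ℂ) s).coeff ((q : ℤ) * m)) := fun m => by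
    rw [← hs, ← qExpand_qLaurent_coeffFun, ModularCurve.qExpand_coeff_mul]
  obtain ⟨P, hPdeg, hP⟩ := exists_eq_eval H.mem hub (Int.castRingHom ℂ).range H.qLaurent_u
    (by rw [← PowerSeries.coeff_zero_eq_constantCoeff_apply, PowerSeries.coeff_map,
      PowerSeries.coeff_zero_eq_constantCoeff_apply, H.constantCoeff_series, map_one])
    (fun i => ⟨H.series.coeff i, by simp⟩) (q + 1) (coeffFun_mem H k)
    (fun γ hγ => (tendsto_coeffFun H k hγ).isBigO_one ℝ)
    (fun m hm => by
      rw [hcoeff, ← hs]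
      refine poleLE_rootPoly H _ k _ ?_
      have := mul_lt_mul_of_pos_left hm (Int.natCast_pos.mpr (NeZero.pos q))
      push_cast at this ⊢
      linarith)
    (fun m => ⟨s.coeff ((q : ℤ) * m), by rw [hcoeff]; simp⟩)
  have hsurj : Surjective (Int.castRingHom ℂ).rangeRestrict :=
    RingHom.rangeRestrict_surjective _
  obtain ⟨Q, rfl⟩ := Polynomial.map_surjective _ hsurj P
  have hinj : Injective (Int.castRingHom ℂ).rangeRestrict := fun x y h =>
    Int.cast_injective (congrArg Subtype.val h)
  rw [natDegree_map_eq_of_injective hinj] at hPdeg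
  refine ⟨Q, hPdeg, fun τ => ?_⟩
  rw [hP τ, eval₂_map]
  rfl

/-- The modular equation for `u`: a relation between `u(qτ)` and `u(τ)`. -/
def modPoly : ℤ[X][X] :=
  X ^ (q + 1) + ∑ k ∈ Finset.range (q + 1), C (exists_coeff_eval H k).choose * X ^ k

theorem coeff_modPoly (i : ℕ) :
    (modPoly H).coeff i = if i < q + 1 then (exists_coeff_eval H i).choose
      else if i = q + 1 then 1 else 0 := by
  simp only [modPoly, coeff_add, coeff_X_pow, finsetSum_coeff, coeff_C_mul_X_pow,
    Finset.sum_ite_eq, Finset.mem_range]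
  rcases lt_trichotomy i (q + 1) with h | h | h
  · simp [h, h.ne]
  · simp [h]
  · simp [h.ne', h.not_gt]

theorem modPoly_monic : (modPoly H).Monic := by
  refine monic_of_natDegree_le_of_coeff_eq_one (q + 1) ?_ (by simp [coeff_modPoly])
  refine natDegree_le_iff_coeff_eq_zero.mpr fun i hi => ?_
  rw [coeff_modPoly, if_neg (by omega), if_neg (by omega)]

theorem natDegree_modPoly : (modPoly H).natDegree = q + 1 :=
  natDegree_eq_of_le_of_coeff_ne_zero
    (natDegree_le_iff_coeff_eq_zero.mpr fun i hi => by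
      rw [coeff_modPoly, if_neg (by omega), if_neg (by omega)])
    (by simp [coeff_modPoly])

theorem natDegree_coeff_modPoly (i : ℕ) : ((modPoly H).coeff i).natDegree ≤ q + 1 := by
  rw [coeff_modPoly]
  split_ifs
  · exact (exists_coeff_eval H i).choose_spec.1
  · simp
  · simp

/-- The roots over `u(τ)` are the conjugates of `u(qτ)`. -/
theorem map_modPoly (τ : ℍ) : (modPoly H).map (evalInt (H.u τ)) = rootProd H τ := by
  ext i
  rw [coeff_map, coeff_modPoly]
  split_ifs with h1 h2
  · exact ((exists_coeff_eval H i).choose_spec.2 τ).symm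
  · subst h2
    rw [map_one, ← natDegree_rootProd H τ, coeff_natDegree, (rootProd_monic H τ).leadingCoeff]
  · rw [map_zero, coeff_eq_zero_of_natDegree_lt]
    rw [natDegree_rootProd]
    omega

/-- The fibre over a cusp value. -/
theorem modPoly_cusp {a : ℂ} (ha : a ∈ H.cusps) :
    (modPoly H).map (evalInt a) = (X - C ((starRingEnd ℂ) a)) ^ (q + 1) := by
  obtain ⟨γ, hγ, rfl⟩ := H.cusps_val a ha
  have := atImInfty_neBot
  ext i
  rw [coeff_map]
  have h1 : Tendsto (fun τ => evalInt (H.u (γ • τ)) ((modPoly H).coeff i)) atImInfty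
      (𝓝 (evalInt (H.val γ) ((modPoly H).coeff i))) := by
    simp only [coe_eval₂RingHom, ← eval_map]
    exact (Polynomial.continuous _).continuousAt.tendsto.comp (H.tendsto_val γ hγ)
  refine tendsto_nhds_unique h1 ((tendsto_coeffFun H i hγ).congr fun τ => ?_)
  rw [coeffFun, ← map_modPoly, coeff_map]

end FermatAgent.BadRed.Carayol.Instance
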