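import Fermat.Agent.BadRed.Carayol.Instance.EtaQuotient
import Fermat.Agent.ModCurve.Points.JLine

/-!
# Logarithmic derivatives at the cusps and nonvanishing

`dlog f = f'/f`.  If `(f'/f)^κ / G` is invariant and bounded at the cusps, the derivative of `f`
vanishes nowhere.
-/

set_option autoImplicit false

noncomputable section

open UpperHalfPlane hiding I
open Complex Filter Function Asymptotics CongruenceSubgroup
open scoped Real Topology MatrixGroups Manifold ModularForm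
open FermatAgent.ModFun

namespace FermatAgent.BadRed.Carayol.Instance

local notation "𝕢" => Periodic.qParam

/-- The derivative of a function on `ℍ`. -/
def dH (f : ℍ → ℂ) (τ : ℍ) : ℂ := deriv (f ∘ ofComplex) τ

/-- The logarithmic derivative. -/
def dlog (f : ℍ → ℂ) (τ : ℍ) : ℂ := dH f τ / f τ

theorem differentiableAt_ofComplex {f : ℍ → ℂ} (hf : MDiff f) (τ : ℍ) :
    DifferentiableAt ℂ (f ∘ ofComplex) τ :=
  ((UpperHalfPlane.mdifferentiable_iff.mp hf).differentiableAt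
    (isOpen_upperHalfPlaneSet.mem_nhds τ.im_pos))

theorem eventuallyEq_of_forall {p q : ℂ → ℂ} (τ : ℍ) (h : ∀ w : ℍ, p w = q w) :
    p =ᶠ[𝓝 (τ : ℂ)] q := by
  filter_upwards [isOpen_upperHalfPlaneSet.mem_nhds τ.im_pos] with w hw using h ⟨w, hw⟩

theorem dH_comp_smul {f : ℍ → ℂ} (hf : MDiff f) (γ : SL(2, ℤ)) (τ : ℍ) :
    dH (fun w => f (γ • w)) τ = dH f (γ • τ) / ((γ 1 0 : ℂ) * τ + γ 1 1) ^ 2 := by
  have hev : ((fun w : ℍ => f (γ • w)) ∘ ofComplex) =ᶠ[𝓝 (τ : ℂ)]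
      ((f ∘ ofComplex) ∘ ModCurve.Points.moeb γ) :=
    eventuallyEq_of_forall τ fun w => by simp [ModCurve.Points.moeb_coe]
  rw [dH, hev.deriv_eq]
  refine (HasDerivAt.comp (h₂ := f ∘ ofComplex) (h₂' := dH f (γ • τ)) (τ : ℂ) ?_
    (ModCurve.Points.hasDerivAt_moeb γ τ)).deriv.trans ?_
  · rw [ModCurve.Points.moeb_coe]
    exact (differentiableAt_ofComplex hf _).hasDerivAt
  · rw [div_eq_mul_inv]; rfl

theorem dH_comp_dil {f : ℍ → ℂ} (hf : MDiff f) (d : ℕ) [NeZero d] (τ : ℍ) :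
    dH (f ∘ dil d) τ = d * dH f (dil d τ) := by
  have hev : ((f ∘ dil d) ∘ ofComplex) =ᶠ[𝓝 (τ : ℂ)]
      ((f ∘ ofComplex) ∘ fun w : ℂ => (d : ℂ) * w) :=
    eventuallyEq_of_forall τ fun w => by simp [← coe_dil]
  rw [dH, hev.deriv_eq]
  refine (HasDerivAt.comp (h₂ := f ∘ ofComplex) (h₂' := dH f (dil d τ)) (τ : ℂ) ?_
    ((hasDerivAt_id (τ : ℂ)).const_mul (d : ℂ))).deriv.trans ?_
  · rw [id, ← coe_dil]
    exact (differentiableAt_ofComplex hf _).hasDerivAt
  · rw [mul_one, mul_comm]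

theorem dlog_wExp_mul {r : ℍ → ℂ} (hr : MDiff r) {τ : ℍ} (h0 : r τ ≠ 0) (k : ℝ) :
    dlog (fun w => wExp k w * r w) τ = 2 * π * Complex.I * k + dlog r τ := by
  have hev : ((fun w : ℍ => wExp k w * r w) ∘ ofComplex) =ᶠ[𝓝 (τ : ℂ)]
      fun w : ℂ => cexp (2 * π * Complex.I * k * w) * (r ∘ ofComplex) w :=
    eventuallyEq_of_forall τ fun w => by simp [wExp]
  have h1 : HasDerivAt (fun w : ℂ => cexp (2 * π * Complex.I * k * w))
      (cexp (2 * π * Complex.I * k * τ) * (2 * π * Complex.I * k)) τ := by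
    simpa using ((hasDerivAt_id (τ : ℂ)).const_mul (2 * π * Complex.I * k)).cexp
  simp only [dlog, dH]
  rw [hev.deriv_eq, (h1.fun_mul (differentiableAt_ofComplex hr τ).hasDerivAt).deriv]
  simp only [comp_apply, ofComplex_apply, wExp]
  field_simp

/-- Decay of the logarithmic derivative of a periodic function with nonzero limit. -/
theorem dlog_isBigO {r : ℍ → ℂ} (hr : r ∈ cuspRing) {m : ℕ} (hm : 0 < m) {C : ℂ} (hC : C ≠ 0)
    (hlim : Tendsto (fun τ => r τ ^ m) atImInfty (𝓝 C)) :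
    dlog r =O[atImInfty] fun τ : ℍ => Real.exp (-2 * π * τ.im) := by
  have hb : IsBoundedAtImInfty r := isBounded_of_pow hm (hlim.isBigO_one ℝ)
  have := atImInfty_neBot
  have hlim' := tendsto_coeff_zero hr hb
  have hc0 : (qExpansion 1 r).coeff 0 ≠ 0 := by
    intro h
    rw [h] at hlim'
    have := tendsto_nhds_unique hlim (hlim'.pow m)
    rw [zero_pow hm.ne'] at this
    exact hC this
  have hA := analyticAt_cuspFunction_of_mem hr hb
  have hd : (fun τ : ℍ => dH r τ) =O[atImInfty] fun τ : ℍ => Real.exp (-2 * π * τ.im) := by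
    have hq := qParam_tendsto_atImInfty (h := 1) one_pos
    have hev : ∀ᶠ τ : ℍ in atImInfty, dH r τ =
        deriv (cuspFunction 1 r) (𝕢 1 τ) * ((2 * π * Complex.I) * 𝕢 1 τ) := by
      filter_upwards [hq.eventually hA.eventually_analyticAt] with τ hτ
      have hev : (r ∘ ofComplex) =ᶠ[𝓝 (τ : ℂ)] (cuspFunction 1 r) ∘ 𝕢 1 :=
        eventuallyEq_of_forall τ fun w => by
          simp [eq_cuspFunction w one_ne_zero (periodic_iff.mpr hr.2.1)]
      have h2 : HasDerivAt (𝕢 1) ((2 * π * Complex.I) * 𝕢 1 τ) (τ : ℂ) := by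
        have hf : (𝕢 1 : ℂ → ℂ) = fun w : ℂ => cexp (2 * π * Complex.I * w) := by
          funext w; simp [Periodic.qParam]
        have h3 : HasDerivAt (fun w : ℂ => 2 * π * Complex.I * w) (2 * π * Complex.I) (τ : ℂ) := by
          simpa using (hasDerivAt_id (τ : ℂ)).const_mul (2 * π * Complex.I)
        rw [hf]
        exact h3.cexp.congr_deriv (mul_comm _ _)
      rw [dH, hev.deriv_eq]
      exact ((hτ.differentiableAt.hasDerivAt).comp (τ : ℂ) h2).deriv
    have h1 : (fun τ : ℍ => deriv (cuspFunction 1 r) (𝕢 1 τ)) =O[atImInfty] (1 : ℍ → ℝ) :=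
      (hA.deriv.continuousAt.tendsto.comp hq).isBigO_one ℝ
    have h2 : (fun τ : ℍ => (2 * π * Complex.I) * 𝕢 1 (τ : ℂ)) =O[atImInfty]
        fun τ : ℍ => Real.exp (-2 * π * τ.im) :=
      IsBigO.const_mul_left (IsBigO.of_bound 1 (Eventually.of_forall fun τ => by
        rw [norm_qParam_one, Real.norm_of_nonneg (Real.exp_pos _).le, one_mul])) _
    exact ((h1.mul h2).congr' (hev.mono fun τ h => h.symm)
      (Eventually.of_forall fun τ => one_mul _))
  have hi : (fun τ => (r τ)⁻¹) =O[atImInfty] (1 : ℍ → ℝ) := (hlim'.inv₀ hc0).isBigO_one ℝ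
  exact (hd.mul hi).congr (fun τ => (div_eq_mul_inv _ _).symm) fun τ => mul_one _

/-- Behaviour of `dlog` of a function periodic of period `h` with a monomial leading term. -/
theorem dlog_bound {g : ℍ → ℂ} (hg : MDiff g) (_ht : IsTame g) (h0 : ∀ τ, g τ ≠ 0) {h : ℕ}
    [NeZero h] (hper : ∀ τ : ℍ, g ((h : ℝ) +ᵥ τ) = g τ) {m : ℕ} (hm : 0 < m) {n : ℤ}
    (hlead : HasLead (fun τ => g τ ^ m) (m * ((n : ℝ) / h))) :
    IsBoundedAtImInfty (dlog g) ∧
      (n = 0 → dlog g =O[atImInfty] fun τ : ℍ => Real.exp (-2 * π * ((1 : ℝ) / h) * τ.im)) := by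
  have hh : (0 : ℝ) < h := Nat.cast_pos.mpr (NeZero.pos h)
  set r : ℍ → ℂ := fun τ => wExp (-n) τ * g (dil h τ) with hr
  have hr' : MDiff r := by
    refine MDifferentiable.mul ?_ (mdiff_comp hg (by simp only [coe_dil]; exact mdifferentiable_const.mul mdifferentiable_coe))
    rw [UpperHalfPlane.mdifferentiable_iff]
    have hl : Differentiable ℂ fun z : ℂ => 2 * π * Complex.I * ((-(n : ℝ) : ℝ) : ℂ) * z :=
      differentiable_id.const_mul _
    exact hl.cexp.differentiableOn.congr fun z hz => by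
      simp [wExp, ofComplex_apply_of_im_pos hz]
  have hper1 : ∀ τ : ℍ, wExp (-n) ((1 : ℝ) +ᵥ τ) = wExp (-n) τ := fun τ => by
    have : wExp (-n) ((1 : ℝ) +ᵥ τ) = cexp ((-n : ℤ) * (2 * π * Complex.I)) * wExp (-n) τ := by
      rw [wExp, wExp, ← Complex.exp_add]
      congr 1
      rw [UpperHalfPlane.coe_vadd]
      push_cast
      ring
    rw [this, Complex.exp_int_mul_two_pi_mul_I, one_mul]
  obtain ⟨C, hC, hlim⟩ := hlead
  have hrlim : Tendsto (fun τ => r τ ^ m) atImInfty (𝓝 C) := by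
    have ht : Tendsto (dil h) atImInfty atImInfty := by
      rw [atImInfty, tendsto_comap_iff]
      exact (tendsto_comap.const_mul_atTop hh).congr fun τ => (dil_im h τ).symm
    refine (hlim.comp ht).congr fun τ => ?_
    have : wExp (m * ((n : ℝ) / h)) (dil h τ) = (wExp (n : ℝ) τ) ^ m := by
      rw [← wExp_nat_mul, wExp, wExp, coe_dil]
      congr 1
      have : (h : ℂ) ≠ 0 := Nat.cast_ne_zero.mpr (NeZero.ne h)
      push_cast
      field_simp
    have hinv : wExp (-(n : ℝ)) τ = (wExp (n : ℝ) τ)⁻¹ := by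
      refine eq_inv_of_mul_eq_one_right ?_
      rw [← wExp_add, add_neg_cancel, wExp_zero]
    simp only [comp_apply, hr, this, hinv, mul_pow, inv_pow]
    ring
  have hrm : r ∈ cuspRing := by
    refine ⟨hr', fun τ => ?_, isTame_of_pow_lead hm (l := 0) ⟨C, hC, by simpa [wExp_zero] using hrlim⟩⟩
    simp only [hr, hper1, dil_vadd, mul_one, hper]
  have hO := dlog_isBigO hrm hm hC hrlim
  have key : ∀ τ, dlog g τ = (2 * π * Complex.I * (n : ℝ) + dlog r (Igusa.ut 1 h 0 τ)) / h := by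
    intro τ
    set w := Igusa.ut 1 h 0 τ with hw
    have hτ : dil h w = τ := by
      ext1
      rw [coe_dil, hw, Igusa.coe_ut]
      have : (h : ℂ) ≠ 0 := Nat.cast_ne_zero.mpr (NeZero.ne h)
      push_cast; field_simp; ring
    have hr0 : r w ≠ 0 := mul_ne_zero (wExp_ne_zero _ _) (h0 _)
    have he : (fun v => wExp (n : ℝ) v * r v) = g ∘ dil h := by
      funext v
      simp only [hr, comp_apply]
      rw [← mul_assoc, ← wExp_add, add_neg_cancel, wExp_zero, one_mul]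
    have h1 := dlog_wExp_mul hr' hr0 (n : ℝ)
    rw [he, dlog, dH_comp_dil hg, comp_apply, hτ, mul_div_assoc] at h1
    rw [← h1, dlog, mul_div_cancel_left₀ _ (Nat.cast_ne_zero.mpr (NeZero.ne h))]
  have hO' : (fun τ => dlog r (Igusa.ut 1 h 0 τ)) =O[atImInfty]
      fun τ : ℍ => Real.exp (-2 * π * ((1 : ℝ) / h) * τ.im) :=
    (hO.comp_tendsto (tendsto_ut_atImInfty 1 h 0)).congr_right fun τ => by
      simp [Igusa.ut]; ring
  have hO1 : (fun τ => dlog r (Igusa.ut 1 h 0 τ)) =O[atImInfty] (1 : ℍ → ℝ) := by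
    refine hO'.trans (IsBigO.of_bound 1 (Eventually.of_forall fun τ => ?_))
    rw [Real.norm_of_nonneg (Real.exp_pos _).le, Pi.one_apply, norm_one, mul_one,
      Real.exp_le_one_iff]
    have : 0 < (1 : ℝ) / h * τ.im := mul_pos (by positivity) τ.im_pos
    nlinarith [Real.pi_pos]
  refine ⟨?_, fun hn => ?_⟩
  · show dlog g =O[atImInfty] (1 : ℍ → ℝ)
    rw [show dlog g = fun τ => (2 * π * Complex.I * (n : ℝ) + dlog r (Igusa.ut 1 h 0 τ)) * ((h : ℂ))⁻¹
      from funext fun τ => by rw [key, div_eq_mul_inv]]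
    simpa [mul_comm] using ((const_boundedAtFilter atImInfty (2 * π * Complex.I * (n : ℝ))).add hO1
      |>.const_mul_left ((h : ℂ)⁻¹))
  · subst hn
    refine (hO'.const_mul_left ((h : ℂ)⁻¹)).congr_left fun τ => ?_
    rw [key]
    push_cast
    ring

/-- Nonvanishing of the derivative by comparison with a nonvanishing form of the same weight. -/
theorem dH_ne_zero_of_weight {L : ℕ} [NeZero L] {u : ℍ → ℂ} (hu : u ∈ levelRing L)
    (h0 : ∀ τ, u τ ≠ 0) {m : ℕ} (hm : 0 < m) (hnc : ∃ τ, dH u τ ≠ 0)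
    {G : ℍ → ℂ} (hG : MDiff G) (hG0 : ∀ τ, G τ ≠ 0) {κ : ℕ} (hκ : 0 < κ)
    (hGinv : ∀ γ ∈ Gamma0 L, ∀ τ,
      G (γ • τ) = ((γ 1 0 : ℂ) * τ + γ 1 1) ^ (2 * κ) * G τ)
    (hcusp : ∀ γ : SL(2, ℤ), ∃ (h : ℕ) (n : ℤ) (l : ℝ), 0 < h ∧
      (∀ τ : ℍ, u (γ • ((h : ℝ) +ᵥ τ)) = u (γ • τ)) ∧
      HasLead (fun τ => u (γ • τ) ^ m) (m * ((n : ℝ) / h)) ∧
      HasLead (fun τ => G (γ • τ) / ((γ 1 0 : ℂ) * τ + γ 1 1) ^ (2 * κ)) l ∧
      (l ≤ 0 ∨ (n = 0 ∧ l ≤ κ * ((1 : ℝ) / h))))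
    (τ : ℍ) : dH u τ ≠ 0 := by
  set H : ℍ → ℂ := fun τ => dlog u τ ^ κ / G τ with hH
  have hHγ : ∀ (γ : SL(2, ℤ)) (τ : ℍ), H (γ • τ) = dlog (fun w => u (γ • w)) τ ^ κ /
      (G (γ • τ) / ((γ 1 0 : ℂ) * τ + γ 1 1) ^ (2 * κ)) := fun γ τ => by
    have hne : ((γ 1 0 : ℂ) * τ + γ 1 1) ^ 2 ≠ 0 := pow_ne_zero _ (Igusa.sl_denom_ne_zero γ τ)
    simp only [hH, dlog, dH_comp_smul hu.1, pow_mul, div_pow]
    field_simp
  have hHinv : ∀ γ ∈ Gamma0 L, ∀ τ, H (γ • τ) = H τ := fun γ hγ τ => by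
    rw [hHγ, hGinv γ hγ, mul_div_assoc]
    have : (fun w => u (γ • w)) = u := funext (hu.2.1 γ hγ)
    rw [this]
    simp only [hH]
    congr 1
    field_simp [Igusa.sl_denom_ne_zero γ τ]
  have hdm : MDiff (fun τ => dlog u τ) := by
    rw [UpperHalfPlane.mdifferentiable_iff]
    refine DifferentiableOn.div ?_ (UpperHalfPlane.mdifferentiable_iff.mp hu.1) fun z _ => h0 _
    refine ((UpperHalfPlane.mdifferentiable_iff.mp hu.1).deriv isOpen_upperHalfPlaneSet).congr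
      fun z hz => ?_
    simp [dH, ofComplex_apply_of_im_pos hz]
  have hHm : MDiff H := by
    rw [UpperHalfPlane.mdifferentiable_iff]
    exact ((UpperHalfPlane.mdifferentiable_iff.mp hdm).pow κ).div
      (UpperHalfPlane.mdifferentiable_iff.mp hG) fun z _ => hG0 _
  have hHb : ∀ γ : SL(2, ℤ), IsBoundedAtImInfty fun τ => H (γ • τ) := fun γ => by
    obtain ⟨h, n, l, hh, hper, hlu, hlG, hcase⟩ := hcusp γ
    have : NeZero h := ⟨hh.ne'⟩
    obtain ⟨hb1, hb2⟩ := dlog_bound (g := fun w => u (γ • w)) (mdiff_comp_smul hu.1 γ)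
      (hu.2.2 γ) (fun w => h0 _) hper hm hlu
    have hGi : (fun τ : ℍ => (G (γ • τ) / ((γ 1 0 : ℂ) * τ + γ 1 1) ^ (2 * κ))⁻¹)
        =O[atImInfty] fun τ : ℍ => Real.exp (2 * π * l * τ.im) := by
      obtain ⟨C, -, hC⟩ := hlG.inv
      have h1 : (fun τ => wExp (-l) τ) =O[atImInfty] fun τ : ℍ => Real.exp (2 * π * l * τ.im) :=
        IsBigO.of_bound 1 (Eventually.of_forall fun τ => by
          rw [norm_wExp, Real.norm_of_nonneg (Real.exp_pos _).le, one_mul]; simp)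
      refine ((hC.isBigO_one ℝ).mul h1).congr (fun τ => ?_) (fun τ => one_mul _)
      exact div_mul_cancel₀ _ (wExp_ne_zero _ _)
    show (fun τ => H (γ • τ)) =O[atImInfty] (1 : ℍ → ℝ)
    simp only [hHγ, div_eq_mul_inv (dlog _ _ ^ κ)]
    rcases hcase with hl | ⟨hn, hl⟩
    · refine ((IsBigO.pow (hb1 : dlog _ =O[atImInfty] (1 : ℍ → ℝ)) κ).mul hGi).trans
        (IsBigO.of_bound 1 (Eventually.of_forall fun τ => ?_))
      simp only [Pi.one_apply, one_pow, one_mul, norm_one, mul_one]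
      rw [Real.norm_of_nonneg (Real.exp_pos _).le, Real.exp_le_one_iff]
      exact mul_nonpos_of_nonpos_of_nonneg (mul_nonpos_of_nonneg_of_nonpos (by positivity) hl)
        τ.im_pos.le
    · refine (((hb2 hn).pow κ).mul hGi).trans (IsBigO.of_bound 1 (Eventually.of_forall fun τ => ?_))
      rw [← Real.exp_nat_mul, ← Real.exp_add, Pi.one_apply, norm_one, mul_one,
        Real.norm_of_nonneg (Real.exp_pos _).le, Real.exp_le_one_iff]
      have h2 : (l - κ * ((1 : ℝ) / h)) * τ.im ≤ 0 :=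
        mul_nonpos_of_nonpos_of_nonneg (by linarith) τ.im_pos.le
      nlinarith [Real.pi_pos]
  have hHl : H ∈ levelRing L := ⟨hHm, hHinv, fun γ => .of_bounded (hHb γ)⟩
  obtain ⟨τ₁, hτ₁⟩ := hnc
  intro hzero
  have hc := eq_const_of_bounded hHl hHb τ₁ τ
  simp only [hH, dlog, hzero, zero_div] at hc
  have h1 : (dH u τ₁ / u τ₁) ^ κ / G τ₁ ≠ 0 :=
    div_ne_zero (pow_ne_zero _ (div_ne_zero hτ₁ (h0 τ₁))) (hG0 τ₁)
  rw [zero_pow hκ.ne', zero_div] at hc
  exact h1 hc.symm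

end FermatAgent.BadRed.Carayol.Instance
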