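import Fermat.Agent.BadRed.Carayol.Defs
import Fermat.Agent.BadRed.Carayol.Instance.LogDeriv
import Mathlib.FieldTheory.RatFunc.AsPolynomial
import Mathlib.FieldTheory.IsAlgClosed.AlgebraicClosure
import Mathlib.FieldTheory.IntermediateField.Adjoin.Basic
import Mathlib.RingTheory.Polynomial.ScaleRoots
import Mathlib.Algebra.Polynomial.Lifts
import Mathlib.RingTheory.Algebraic.Integral

/-!
# Integrality of the derivative of an algebraic function

If `Φ(x, z) = 0` and, over a holomorphic `v` without critical points, the roots of `Φ(·, v)` are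
holomorphic, then the derivative `dx/dz` is integral over `K[z]` away from the values omitted by
`v`: its conjugates are the holomorphic functions `ρ'/v'`.
-/

set_option autoImplicit false
set_option linter.style.haveILetI false

noncomputable section

open UpperHalfPlane hiding I
open Polynomial Filter
open scoped Manifold Topology

namespace FermatAgent.BadRed.Carayol.Instance

/-- Holomorphic functions on `ℍ`. -/
def holoRing : Subalgebra ℂ (ℍ → ℂ) where
  carrier := {f | MDiff f}
  mul_mem' hf hg := hf.mul hg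
  add_mem' hf hg := hf.add hg
  algebraMap_mem' _ := mdifferentiable_const

instance : IsDomain holoRing := by
  have : NoZeroDivisors holoRing :=
    ⟨fun {f g} h => by
      rcases (UpperHalfPlane.mul_eq_zero_iff f.2 g.2).mp (congrArg Subtype.val h) with h | h
      · exact Or.inl (Subtype.ext h)
      · exact Or.inr (Subtype.ext h)⟩
  have : Nontrivial holoRing :=
    ⟨⟨0, 1, fun h => zero_ne_one (congrFun (congrArg Subtype.val h) UpperHalfPlane.I)⟩⟩
  exact NoZeroDivisors.to_isDomain _

/-- Evaluation of a holomorphic function at a point. -/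
def holoEval (τ : ℍ) : holoRing →+* ℂ := (Pi.evalRingHom _ τ).comp holoRing.val.toRingHom

@[simp] theorem holoEval_apply (τ : ℍ) (f : holoRing) : holoEval τ f = (f : ℍ → ℂ) τ := rfl

theorem holoRing_ext {f g : holoRing} (h : ∀ τ, holoEval τ f = holoEval τ g) : f = g :=
  Subtype.ext (funext h)

theorem hasDerivAt_eval (p : ℂ[X]) {t : ℂ → ℂ} {t' w : ℂ} (ht : HasDerivAt t t' w) :
    HasDerivAt (fun z => p.eval (t z)) (p.derivative.eval (t w) * t') w :=
  (p.hasDerivAt (t w)).comp w ht

/-- The chain rule for a polynomial in two variables. -/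
theorem hasDerivAt_evalTwo {W : Type*} [CommRing W] (j : W →+* ℂ) (P : W[X][X])
    {r t : ℂ → ℂ} {r' t' w : ℂ} (hr : HasDerivAt r r' w) (ht : HasDerivAt t t' w) :
    HasDerivAt (fun z => P.eval₂ (eval₂RingHom j (t z)) (r z))
      (P.derivative.eval₂ (eval₂RingHom j (t w)) (r w) * r' +
        (derivInner P).eval₂ (eval₂RingHom j (t w)) (r w) * t') w := by
  induction P using Polynomial.induction_on' with
  | add a b ha hb =>
    have hd : derivInner (a + b) = derivInner a + derivInner b := by
      unfold derivInner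
      rw [Polynomial.sum_add_index] <;> simp
    simp only [eval₂_add, derivative_add, hd]
    exact (ha.fun_add hb).congr_deriv (by ring)
  | monomial n c =>
    have hd : derivInner (monomial n c) = monomial n (derivative c) :=
      sum_monomial_index _ _ (by simp)
    have h1 : HasDerivAt (fun z => (c.map j).eval (t z))
        ((c.map j).derivative.eval (t w) * t') w := hasDerivAt_eval _ ht
    simp only [eval_map, derivative_map] at h1
    simp only [hd, derivative_monomial, eval₂_monomial, map_mul, map_natCast,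
      coe_eval₂RingHom]
    exact (h1.fun_mul (hr.fun_pow n)).congr_deriv (by ring)

theorem exists_pow_mul_deriv_integral {W K L : Type*} [CommRing W] [Field K] [Field L]
    [Algebra W K] [Algebra K L] [Algebra W L] [IsScalarTower W K L] (ι : K →+* ℂ)
    {x z : L} (hz : Transcendental K z) (Φ : W[X][X]) (hΦ : Φ.Monic)
    (hroot : evalTwo Φ x z = 0) (hsep : evalTwo Φ.derivative x z ≠ 0)
    (v : ℍ → ℂ) (hv : MDiff v) (hdv : ∀ τ, dH v τ ≠ 0)
    {κ : Type*} [Fintype κ] (ρ : κ → ℍ → ℂ) (hρ : ∀ i, MDiff (ρ i))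
    (hprod : ∀ τ, Φ.map (eval₂RingHom (ι.comp (algebraMap W K)) (v τ)) = ∏ i, (X - C (ρ i τ)))
    (R : W[X]) (hR : R.Monic)
    (hsurj : ∀ a : ℂ, R.eval₂ (ι.comp (algebraMap W K)) a ≠ 0 → ∃ τ, v τ = a) :
    ∃ N : ℕ, IsIntegral (Algebra.adjoin K {z})
      (aeval z R ^ N * (-evalTwo (derivInner Φ) x z / evalTwo Φ.derivative x z)) := by
  classical
  set jW : W →+* ℂ := ι.comp (algebraMap W K) with hjW
  -- `K[X]` inside the holomorphic functions
  let vO : holoRing := ⟨v, hv⟩
  let φ : K[X] →+* holoRing := eval₂RingHom ((algebraMap ℂ holoRing).comp ι) vO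
  have hφev : ∀ (τ : ℍ) (p : K[X]), holoEval τ (φ p) = p.eval₂ ι (v τ) := fun τ p => by
    show holoEval τ (p.eval₂ _ vO) = _
    rw [hom_eval₂]
    congr 1
  have hφ : Function.Injective φ := by
    haveI : CharZero K := ⟨fun a b hab => by simpa using congrArg ι hab⟩
    rw [injective_iff_map_eq_zero]
    suffices h : ∀ (n : ℕ) (p : K[X]), p.natDegree ≤ n → (∀ τ, p.eval₂ ι (v τ) = 0) → p = 0 from
      fun p hp => h p.natDegree p le_rfl fun τ => by rw [← hφev, hp, map_zero]
    intro n
    induction n with
    | zero =>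
      intro p hp h
      obtain ⟨c, rfl⟩ := Polynomial.natDegree_eq_zero.mp (Nat.le_zero.mp hp)
      have := h UpperHalfPlane.I
      rw [eval₂_C, map_eq_zero] at this
      rw [this, C_0]
    | succ n ih =>
      intro p hp h
      have hd : p.derivative = 0 := by
        refine ih _ ((natDegree_derivative_le p).trans (by omega)) fun τ => ?_
        have h1 := hasDerivAt_eval (p.map ι) (differentiableAt_ofComplex hv τ).hasDerivAt
        have h0 : (fun w => (p.map ι).eval ((v ∘ ofComplex) w)) = fun _ => 0 :=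
          funext fun w => by rw [eval_map]; exact h _
        rw [h0] at h1
        have h2 := h1.unique (hasDerivAt_const _ _)
        simp only [derivative_map, eval_map, Function.comp_apply, ofComplex_apply] at h2
        exact (mul_eq_zero.mp h2).resolve_right (hdv τ)
      exact ih p (by rw [derivative_eq_zero.mp hd]; exact Nat.zero_le n) h
  -- the two embeddings of `K(X)`
  let Ω := AlgebraicClosure (FractionRing holoRing)
  let toΩ : holoRing →+* Ω := (algebraMap (FractionRing holoRing) Ω).comp
    (algebraMap holoRing (FractionRing holoRing))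
  have htoΩ : Function.Injective toΩ :=
    (algebraMap (FractionRing holoRing) Ω).injective.comp (IsFractionRing.injective _ _)
  have hgz : Function.Injective (aeval z : K[X] →ₐ[K] L).toRingHom :=
    transcendental_iff_injective.mp hz
  letI : Algebra (RatFunc K) L := (IsFractionRing.lift hgz).toAlgebra
  have hgΩ : Function.Injective (toΩ.comp φ) := htoΩ.comp hφ
  letI : Algebra (RatFunc K) Ω := (IsFractionRing.lift hgΩ).toAlgebra
  have hkL : ∀ p : K[X], algebraMap (RatFunc K) L (algebraMap K[X] (RatFunc K) p) = aeval z p :=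
    fun p => IsFractionRing.lift_algebraMap hgz p
  have hkΩ : ∀ p : K[X], algebraMap (RatFunc K) Ω (algebraMap K[X] (RatFunc K) p) = toΩ (φ p) :=
    fun p => IsFractionRing.lift_algebraMap hgΩ p
  let Φk : (RatFunc K)[X] :=
    Φ.map ((algebraMap K[X] (RatFunc K)).comp (mapRingHom (algebraMap W K)))
  have hWz : (algebraMap (RatFunc K) L).comp
      ((algebraMap K[X] (RatFunc K)).comp (mapRingHom (algebraMap W K))) = (aeval z).toRingHom :=
    RingHom.ext fun p => by
      show algebraMap (RatFunc K) L (algebraMap K[X] (RatFunc K) (p.map (algebraMap W K))) = _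
      rw [hkL, aeval_map_algebraMap]
      rfl
  have hxk : aeval x Φk = 0 := by
    rw [aeval_def, eval₂_map, hWz]
    exact hroot
  have hxint : IsIntegral (RatFunc K) x := ⟨Φk, hΦ.map _, hxk⟩
  set E : L := -evalTwo (derivInner Φ) x z / evalTwo Φ.derivative x z with hE
  let k₁ : IntermediateField (RatFunc K) L := IntermediateField.adjoin (RatFunc K) {x}
  haveI : FiniteDimensional (RatFunc K) k₁ := IntermediateField.adjoin.finiteDimensional hxint
  have hmem : ∀ p : W[X], (aeval z p) ∈ k₁ := fun p => by
    rw [show aeval z p = (aeval z).toRingHom p from rfl, ← hWz, RingHom.comp_apply]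
    exact k₁.algebraMap_mem _
  have hevk : ∀ P : W[X][X], evalTwo P x z ∈ k₁ := fun P => by
    rw [evalTwo, eval₂_eq_sum, Polynomial.sum]
    exact sum_mem fun i _ =>
      mul_mem (hmem _) (pow_mem (IntermediateField.mem_adjoin_simple_self _ x) i)
  let E₁ : k₁ := ⟨E, div_mem (neg_mem (hevk _)) (hevk _)⟩
  -- the roots of `Φ(·, v)`
  let jO : W →+* holoRing := (algebraMap ℂ holoRing).comp jW
  have hev : ∀ τ, (holoEval τ).comp (eval₂RingHom jO vO) = eval₂RingHom jW (v τ) := fun τ =>
    Polynomial.ringHom_ext (fun a => by simp [jO]; try rfl) (by simp; try rfl)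
  let ρO : κ → holoRing := fun i => ⟨ρ i, hρ i⟩
  have hprodO : Φ.map (eval₂RingHom jO vO) = ∏ i, (X - C (ρO i)) := by
    refine Polynomial.ext fun n => holoRing_ext fun τ => ?_
    have h := congrArg (fun p => p.coeff n) (hprod τ)
    rw [← hev τ, ← Polynomial.map_map] at h
    rw [← coeff_map (holoEval τ), ← coeff_map (holoEval τ), Polynomial.map_prod]
    simp only [Polynomial.map_sub, map_X, map_C]
    exact h
  -- every conjugate of `E` is holomorphic
  have hconj : ∀ σ : k₁ →ₐ[RatFunc K] Ω, σ E₁ ∈ toΩ.range := by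
    intro σ
    set y : Ω := σ ⟨x, IntermediateField.mem_adjoin_simple_self _ x⟩ with hy
    have hW : ∀ p : W[X], σ ⟨aeval z p, hmem p⟩ = toΩ (p.eval₂ jO vO) := fun p => by
      have : (⟨aeval z p, hmem p⟩ : k₁) = algebraMap (RatFunc K) k₁
          (algebraMap K[X] (RatFunc K) (p.map (algebraMap W K))) :=
        Subtype.ext (RingHom.congr_fun hWz p).symm
      rw [this, AlgHom.commutes, hkΩ]
      refine congrArg toΩ ?_
      show (p.map (algebraMap W K)).eval₂ _ vO = _
      rw [eval₂_map]
      rfl
    have hσ : ∀ P : W[X][X],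
        σ ⟨evalTwo P x z, hevk P⟩ = P.eval₂ (toΩ.comp (eval₂RingHom jO vO)) y := by
      intro P
      let fW : W[X] →+* k₁ := (aeval z).toRingHom.codRestrict k₁.toSubfield hmem
      have h1 : (⟨evalTwo P x z, hevk P⟩ : k₁) =
          P.eval₂ fW ⟨x, IntermediateField.mem_adjoin_simple_self _ x⟩ := by
        refine Subtype.ext ?_
        show evalTwo P x z = k₁.val.toRingHom (P.eval₂ fW _)
        rw [hom_eval₂]
        rfl
      have h2 : σ.toRingHom.comp fW = toΩ.comp (eval₂RingHom jO vO) := RingHom.ext hW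
      rw [h1, ← h2, hy]
      exact hom_eval₂ P fW σ.toRingHom _
    have hy0 : (Φ.map (toΩ.comp (eval₂RingHom jO vO))).eval y = 0 := by
      rw [eval_map, ← hσ, show (⟨evalTwo Φ x z, hevk Φ⟩ : k₁) = 0 from Subtype.ext hroot, map_zero]
    rw [← Polynomial.map_map, hprodO, Polynomial.map_prod, eval_prod, Finset.prod_eq_zero_iff] at hy0
    obtain ⟨i, -, hi⟩ := hy0
    rw [Polynomial.map_sub, map_X, map_C, eval_sub, eval_X, eval_C, sub_eq_zero] at hi
    have hd : MDiff fun τ => dH (ρ i) τ / dH v τ := by
      have h := fun {f : ℍ → ℂ} (hf : MDiff f) =>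
        (UpperHalfPlane.mdifferentiable_iff.mp hf).deriv isOpen_upperHalfPlaneSet
      rw [UpperHalfPlane.mdifferentiable_iff]
      refine ((h (hρ i)).div (h hv) fun w hw => ?_).congr fun w hw => ?_
      · exact hdv ⟨w, hw⟩
      · simp [dH, ofComplex_apply_of_im_pos hw]
    refine ⟨⟨_, hd⟩, ?_⟩
    have hP : ∀ P : W[X][X],
        σ ⟨evalTwo P x z, hevk P⟩ = toΩ (P.eval₂ (eval₂RingHom jO vO) (ρO i)) := fun P => by
      rw [hσ, hi, hom_eval₂]
    have hrel : Φ.derivative.eval₂ (eval₂RingHom jO vO) (ρO i) * ⟨_, hd⟩ =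
        -(derivInner Φ).eval₂ (eval₂RingHom jO vO) (ρO i) := by
      refine holoRing_ext fun τ => ?_
      have hd' := hasDerivAt_evalTwo jW Φ (differentiableAt_ofComplex (hρ i) τ).hasDerivAt
        (differentiableAt_ofComplex hv τ).hasDerivAt
      have h0 : (fun w => Φ.eval₂ (eval₂RingHom jW ((v ∘ ofComplex) w)) ((ρ i ∘ ofComplex) w)) =
          fun _ => 0 := by
        funext w
        rw [← eval_map]
        simp only [Function.comp_apply]
        rw [hprod, eval_prod]
        exact Finset.prod_eq_zero (Finset.mem_univ i) (by simp)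
      rw [h0] at hd'
      have h2 := hd'.unique (hasDerivAt_const _ _)
      simp only [Function.comp_apply, ofComplex_apply] at h2
      simp only [map_mul, map_neg, hom_eval₂, hev, holoEval_apply, ρO]
      change Φ.derivative.eval₂ _ (ρ i τ) * (dH (ρ i) τ / dH v τ) = _
      rw [← mul_div_assoc, div_eq_iff (hdv τ)]
      simp only [dH] at h2 ⊢
      linear_combination h2
    have hne : σ ⟨evalTwo Φ.derivative x z, hevk _⟩ ≠ 0 :=
      (map_ne_zero σ).2 fun h => hsep (congrArg Subtype.val h)
    have hE₁ : E₁ = -⟨evalTwo (derivInner Φ) x z, hevk _⟩ / ⟨evalTwo Φ.derivative x z, hevk _⟩ :=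
      Subtype.ext rfl
    rw [hE₁, map_div₀, map_neg, eq_div_iff hne, hP, hP, ← map_mul, ← map_neg, mul_comm, hrel]
  -- the coefficients of the minimal polynomial
  set m := minpoly (RatFunc K) E₁ with hm
  have hE₁int : IsIntegral (RatFunc K) E₁ := IsIntegral.of_finite (RatFunc K) E₁
  have hcoeff : ∀ j, algebraMap (RatFunc K) Ω (m.coeff j) ∈ toΩ.range := by
    have hlifts : m.map (algebraMap (RatFunc K) Ω) ∈ Polynomial.lifts toΩ := by
      rw [(IsAlgClosed.splits (m.map (algebraMap (RatFunc K) Ω))).eq_prod_roots_of_monic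
        ((minpoly.monic hE₁int).map _)]
      refine multiset_prod_mem _ fun q hq => ?_
      obtain ⟨r, hr, rfl⟩ := Multiset.mem_map.mp hq
      have hmem : r ∈ m.rootSet Ω := by
        rw [Polynomial.rootSet_def, Finset.mem_coe, Multiset.mem_toFinset]
        exact hr
      rw [← Algebra.IsAlgebraic.range_eval_eq_rootSet_minpoly (K := k₁) Ω E₁] at hmem
      obtain ⟨σ, rfl⟩ := hmem
      obtain ⟨f, hf⟩ := hconj σ
      exact ⟨X - C f, by simp [hf]⟩
    intro j
    have := (Polynomial.lifts_iff_coeff_lifts _).mp hlifts j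
    rwa [coeff_map] at this
  -- denominators divide a power of `R`
  set RK := R.map (algebraMap W K) with hRK
  have hden : ∀ c : RatFunc K, algebraMap (RatFunc K) Ω c ∈ toΩ.range → ∃ n, c.denom ∣ RK ^ n := by
    rintro c ⟨f, hf⟩
    refine ⟨(c.denom.map ι).natDegree, (Polynomial.map_dvd_map' ι).mp ?_⟩
    have hmul : φ c.num = φ c.denom * f := by
      refine htoΩ ?_
      rw [map_mul, hf, ← hkΩ, ← hkΩ, ← map_mul]
      congr 1
      rw [mul_comm, ← div_eq_iff (RatFunc.algebraMap_ne_zero c.denom_ne_zero), RatFunc.num_div_denom]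
    have hroots : ∀ a : ℂ, (c.denom.map ι).IsRoot a → (RK.map ι).IsRoot a := by
      intro a ha
      by_contra hRa
      rw [Polynomial.IsRoot, hRK, Polynomial.map_map, eval_map] at hRa
      obtain ⟨τ, rfl⟩ := hsurj a hRa
      rw [Polynomial.IsRoot, eval_map] at ha
      have h1 := congrArg (holoEval τ) hmul
      rw [map_mul, hφev, hφev, ha, zero_mul] at h1
      obtain ⟨p, q, hpq⟩ := c.isCoprime_num_denom
      have h2 := congrArg (eval₂ ι (v τ)) hpq
      simp [ha, h1] at h2
    refine dvd_pow_of_roots (Polynomial.map_ne_zero c.denom_ne_zero) ?_ hroots |>.trans ?_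
    · rw [hRK]
      exact Polynomial.map_ne_zero (hR.map _).ne_zero
    · rw [Polynomial.map_pow]
  choose n hn using fun j => hden _ (hcoeff j)
  set N := (Finset.range m.natDegree).sup n with hN
  refine ⟨N, ?_⟩
  set A := Algebra.adjoin K {z}
  have haz : ∀ p : K[X], aeval z p ∈ A := fun p => by
    rw [show A = (aeval z).range from Algebra.adjoin_singleton_eq_range_aeval K z]
    exact ⟨p, rfl⟩
  set r : RatFunc K := algebraMap K[X] (RatFunc K) (RK ^ N) with hr
  have hrL : algebraMap (RatFunc K) L r = aeval z R ^ N := by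
    rw [hr, hkL, map_pow, hRK, aeval_map_algebraMap]
  -- `R ^ N * E` is a root of a monic polynomial over `K[z]`
  have hroot' : aeval (algebraMap (RatFunc K) L r * E) (m.scaleRoots r) = 0 := by
    refine scaleRoots_aeval_eq_zero ?_
    show aeval (k₁.val E₁) m = 0
    rw [Polynomial.aeval_algHom_apply, minpoly.aeval, map_zero]
  have hlifts : (m.scaleRoots r).map (algebraMap (RatFunc K) L) ∈
      Polynomial.lifts (algebraMap A L) := by
    rw [Polynomial.lifts_iff_coeff_lifts]
    intro j
    rw [coeff_map, coeff_scaleRoots]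
    rcases lt_trichotomy j m.natDegree with hj | rfl | hj
    · obtain ⟨e, he⟩ := (hn j).trans (pow_dvd_pow RK (Finset.le_sup (Finset.mem_range.mpr hj)))
      refine ⟨⟨aeval z ((m.coeff j).num * e * (RK ^ N) ^ (m.natDegree - j - 1)), haz _⟩, ?_⟩
      show aeval z _ = _
      rw [← hkL]
      congr 1
      have hd := RatFunc.algebraMap_ne_zero (K := K) (m.coeff j).denom_ne_zero
      conv_rhs => rw [← RatFunc.num_div_denom (m.coeff j)]
      obtain ⟨d, hd'⟩ : ∃ d, m.natDegree - j = d + 1 := ⟨m.natDegree - j - 1, by omega⟩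
      rw [hr, hd', Nat.add_sub_cancel, pow_succ', map_mul, map_mul, map_pow, hN, he, map_mul]
      field_simp
    · exact ⟨1, by rw [Nat.sub_self, pow_zero, mul_one, map_one, show m.coeff m.natDegree = 1 from
        (minpoly.monic hE₁int).coeff_natDegree, map_one]⟩
    · exact ⟨0, by rw [map_zero, coeff_eq_zero_of_natDegree_lt hj, zero_mul, map_zero]⟩
  obtain ⟨P, hP, -, hPm⟩ := Polynomial.lifts_and_degree_eq_and_monic hlifts
    (((monic_scaleRoots_iff r).mpr (minpoly.monic hE₁int)).map _)
  refine ⟨P, hPm, ?_⟩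
  rw [hrL] at hroot'
  rw [← eval_map, hP, eval_map]
  exact hroot'
where
  dvd_pow_of_roots {f g : ℂ[X]} (hf : f ≠ 0) (hg : g ≠ 0)
      (h : ∀ a : ℂ, f.IsRoot a → g.IsRoot a) : f ∣ g ^ f.natDegree := by
    rw [IsAlgClosed.dvd_iff_roots_le_roots hf (pow_ne_zero _ hg), roots_pow,
      Multiset.le_iff_count]
    intro a
    rw [Multiset.count_nsmul, count_roots]
    rcases eq_or_ne (f.rootMultiplicity a) 0 with h0 | h0
    · omega
    · have ha : f.IsRoot a := ((rootMultiplicity_pos hf).mp (Nat.pos_of_ne_zero h0))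
      have h1 : 1 ≤ g.rootMultiplicity a := (rootMultiplicity_pos hg).mpr (h a ha)
      have h2 : f.rootMultiplicity a ≤ f.natDegree := by
        rw [← count_roots]
        exact (Multiset.count_le_card _ _).trans (card_roots' f)
      rw [count_roots]
      nlinarith

end FermatAgent.BadRed.Carayol.Instance

end
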