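import Fermat.Agent.ModCurve.Fun.ModEq

/-!
# Functions on `Y₀(L)` bounded at the finite cusps

* a function in the level ring bounded at every cusp is constant;
* if it is bounded at the cusps other than `∞` it is a polynomial in a generator with a simple
  pole at `∞`, with coefficients in any subring containing the expansion coefficients.
-/

set_option autoImplicit false

noncomputable section

open UpperHalfPlane hiding I
open Complex Filter Function Asymptotics CongruenceSubgroup
open scoped Real Topology MatrixGroups Manifold ModularForm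
open FermatAgent.ModFun

namespace FermatAgent.BadRed.Carayol.Instance

local notation "Δ" => ModularForm.discriminant

theorem isBounded_const_mul {f : ℍ → ℂ} (hf : IsBoundedAtImInfty f) (c : ℂ) :
    IsBoundedAtImInfty fun τ => c * f τ :=
  IsBigO.const_mul_left hf c

theorem isBounded_prod {ι : Type*} (s : Finset ι) {f : ι → ℍ → ℂ}
    (h : ∀ i ∈ s, IsBoundedAtImInfty (f i)) : IsBoundedAtImInfty fun τ => ∏ i ∈ s, f i τ := by
  classical
  induction s using Finset.induction_on with
  | empty =>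
    simp only [Finset.prod_empty]
    exact const_boundedAtFilter atImInfty (1 : ℂ)
  | insert a s ha ih =>
    simp only [Finset.prod_insert ha]
    exact (h a (Finset.mem_insert_self _ _)).mul (ih fun i hi => h i (Finset.mem_insert_of_mem hi))

/-- A function in the level ring bounded at all cusps is constant. -/
theorem eq_const_of_bounded {N : ℕ} [NeZero N] {f : ℍ → ℂ} (hf : f ∈ levelRing N)
    (hb : ∀ γ : SL(2, ℤ), IsBoundedAtImInfty fun τ => f (γ • τ)) (τ₀ τ : ℍ) : f τ = f τ₀ := by
  set g : ℍ → ℂ := f - algebraMap ℂ (ℍ → ℂ) (f τ₀) with hg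
  have hgm : g ∈ levelRing N := sub_mem hf (algebraMap_mem _ _)
  set P : tameRing := ∏ c : CosetSpace N, conjT ⟨g, hgm⟩ c with hP
  have hPv : ∀ τ, (P : ℍ → ℂ) τ = ∏ c : CosetSpace N, conj g c τ := fun τ => by
    rw [hP, ← evalT_apply, map_prod]
    rfl
  have hinv : ∀ (γ : SL(2, ℤ)) (τ : ℍ), (P : ℍ → ℂ) (γ • τ) = (P : ℍ → ℂ) τ := fun γ τ => by
    rw [hPv, hPv]
    simp only [conj_smul hgm]
    exact Fintype.prod_equiv (MulAction.toPerm γ⁻¹) _ _ fun c => rfl
  have hPb : IsBoundedAtImInfty ((P : ℍ → ℂ) * Δ ^ 0) := by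
    rw [pow_zero, mul_one, show (P : ℍ → ℂ) = fun τ => ∏ c : CosetSpace N, conj g c τ from funext hPv]
    exact isBounded_prod _ fun c _ => (hb c.out⁻¹).sub (const_boundedAtFilter _ (f τ₀))
  obtain ⟨Q, hQdeg, hQ⟩ := eq_aeval_jFun_of_bounded 0 P.2.1 hinv hPb
  have h0 : (P : ℍ → ℂ) τ₀ = 0 := by
    rw [hPv]
    refine Finset.prod_eq_zero (Finset.mem_univ ((1 : SL(2, ℤ)) : CosetSpace N)) ?_
    rw [conj_one hgm]
    simp [hg]
  have hQc : Q = Polynomial.C (Q.coeff 0) := Polynomial.eq_C_of_natDegree_le_zero hQdeg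
  have hP0 : P = 0 := by
    ext τ
    rw [hQ τ₀, hQc, Polynomial.eval_C] at h0
    rw [hQ τ, hQc, Polynomial.eval_C, h0]
    rfl
  obtain ⟨c, -, hc⟩ := Finset.prod_eq_zero_iff.mp (hP ▸ hP0)
  have hc' := congrFun (congrArg Subtype.val hc) (c.out • τ)
  simp only [conjT, conj, inv_smul_smul, ZeroMemClass.coe_zero, Pi.zero_apply] at hc'
  simpa [hg, sub_eq_zero] using hc'

/-- A bounded element of the cusp ring tends to the constant coefficient. -/
theorem tendsto_coeff_zero {f : ℍ → ℂ} (hf : f ∈ cuspRing) (hb : IsBoundedAtImInfty f) :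
    Tendsto f atImInfty (𝓝 ((qExpansion 1 f).coeff 0)) := by
  have hc := (analyticAt_cuspFunction_of_mem hf hb).continuousAt.tendsto.comp
    (qParam_tendsto_atImInfty (h := 1) one_pos)
  have h0 : (qExpansion 1 f).coeff 0 = cuspFunction 1 f 0 := by simp [qExpansion_coeff]
  rw [h0]
  exact hc.congr fun τ => eq_cuspFunction τ one_ne_zero (periodic_iff.mpr hf.2.1)

/-- No principal part in the expansion means bounded at `∞`. -/
theorem isBounded_of_qLaurent {f : ℍ → ℂ} (hf : f ∈ cuspRing) {r : PowerSeries ℂ}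
    (hr : qLaurent f = toLS r) : IsBoundedAtImInfty f := by
  obtain ⟨n, hn⟩ := isTame_iff.mp hf.2.2
  induction n with
  | zero => simpa using hn
  | succ n ih =>
    have hp := pow_mem discriminant_mem_cuspRing (n + 1)
    have hgm : f * Δ ^ (n + 1) ∈ cuspRing := mul_mem hf hp
    have hq : qExpansion 1 (f * Δ ^ (n + 1)) = r * qExpansion 1 Δ ^ (n + 1) := by
      apply HahnSeries.ofPowerSeries_injective (Γ := ℤ)
      rw [map_mul, map_pow, ← hr, qLaurent_eq hf hn,
        div_mul_cancel₀ _ (pow_ne_zero _ toLS_discriminant_ne_zero)]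
    have h0 : (qExpansion 1 (f * Δ ^ (n + 1))).coeff 0 = 0 := by
      rw [hq, PowerSeries.coeff_zero_eq_constantCoeff, map_mul, map_pow,
        ← PowerSeries.coeff_zero_eq_constantCoeff_apply (φ := qExpansion 1 Δ),
        qExpansion_discriminant_coeff_zero, zero_pow n.succ_ne_zero, mul_zero]
    have hdec : (f * Δ ^ (n + 1)) =O[atImInfty] fun τ : ℍ => Real.exp (-2 * π * τ.im) := by
      have h1 : valueAtInfty (f * Δ ^ (n + 1)) = 0 := by
        rw [← h0, qExpansion_coeff_zero one_pos (analyticAt_cuspFunction_of_mem hgm hn)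
          (periodic_iff.mpr hgm.2.1)]
      have h2 := exp_decay_sub_atImInfty one_pos (periodic_iff.mpr hgm.2.1) hgm.1 hn
      simp only [h1, sub_zero] at h2
      simpa using! h2
    refine ih ?_
    refine ((div_isBoundedUnder_of_isBigO
      (hdec.trans ModularForm.exp_isBigO_discriminant)).isBigO_one ℝ).congr_left fun τ => ?_
    simp [pow_succ, ← mul_assoc, mul_div_cancel_right₀ _ (ModularForm.discriminant_ne_zero τ)]

/-- A Laurent series without principal part is a power series. -/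
theorem exists_toLS_eq {s : LaurentSeries ℂ} (hs : ∀ m < 0, s.coeff m = 0) :
    ∃ r : PowerSeries ℂ, s = toLS r := by
  refine ⟨PowerSeries.mk fun i => s.coeff i, ?_⟩
  ext k
  rcases lt_or_ge k 0 with hk | hk
  · rw [hs k hk, toLS, ModularCurve.ofPowerSeries_coeff_of_neg _ hk]
  · lift k to ℕ using hk
    simp [toLS, HahnSeries.ofPowerSeries_apply_coeff]

theorem qLaurent_pow {f : ℍ → ℂ} (hf : f ∈ cuspRing) (n : ℕ) :
    qLaurent (f ^ n) = qLaurent f ^ n := by
  simpa using map_pow qLaurentHom ⟨f, hf⟩ n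

theorem qLaurent_mul {f g : ℍ → ℂ} (hf : f ∈ cuspRing) (hg : g ∈ cuspRing) :
    qLaurent (f * g) = qLaurent f * qLaurent g := by
  simpa using map_mul qLaurentHom ⟨f, hf⟩ ⟨g, hg⟩

theorem qLaurent_sub {f g : ℍ → ℂ} (hf : f ∈ cuspRing) (hg : g ∈ cuspRing) :
    qLaurent (f - g) = qLaurent f - qLaurent g := by
  simpa using map_sub qLaurentHom ⟨f, hf⟩ ⟨g, hg⟩

theorem qLaurent_add {f g : ℍ → ℂ} (hf : f ∈ cuspRing) (hg : g ∈ cuspRing) :
    qLaurent (f + g) = qLaurent f + qLaurent g := by
  simpa using map_add qLaurentHom ⟨f, hf⟩ ⟨g, hg⟩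

/-- A function bounded at all cusps but `∞` is a polynomial in `u`. -/
theorem exists_eq_eval {L : ℕ} [NeZero L] {u : ℍ → ℂ} (hu : u ∈ levelRing L)
    (hub : ∀ γ : SL(2, ℤ), γ ∉ Gamma0 L → IsBoundedAtImInfty fun τ => u (γ • τ))
    (R : Subring ℂ) {U : PowerSeries ℂ} (hU : qLaurent u = HahnSeries.single (-1 : ℤ) 1 * toLS U)
    (hU0 : PowerSeries.constantCoeff U = 1) (hUR : ∀ i, U.coeff i ∈ R) (n : ℕ) :
    ∀ {f : ℍ → ℂ}, f ∈ levelRing L →
      (∀ γ : SL(2, ℤ), γ ∉ Gamma0 L → IsBoundedAtImInfty fun τ => f (γ • τ)) →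
      (∀ m : ℤ, m < -n → (qLaurent f).coeff m = 0) →
      (∀ m : ℤ, (qLaurent f).coeff m ∈ R) →
      ∃ P : Polynomial R, P.natDegree ≤ n ∧ ∀ τ, f τ = P.eval₂ R.subtype (u τ) := by
  have huc := levelRing_le_cuspRing L hu
  have hupow : ∀ k : ℕ, qLaurent (u ^ k)
      = HahnSeries.single (-(k : ℤ)) 1 * toLS (U ^ k) := fun k => by
    rw [qLaurent_pow huc, hU, mul_pow, HahnSeries.single_pow, one_pow, ← map_pow,
      show k • (-1 : ℤ) = -(k : ℤ) by simp]
  induction n with
  | zero =>
    intro f hf hb hneg hR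
    have hfc := levelRing_le_cuspRing L hf
    obtain ⟨r, hr⟩ := exists_toLS_eq (s := qLaurent f) fun m hm => hneg m (by simpa using hm)
    have hinf : IsBoundedAtImInfty f := isBounded_of_qLaurent hfc hr
    have hall : ∀ γ : SL(2, ℤ), IsBoundedAtImInfty fun τ => f (γ • τ) := fun γ => by
      by_cases hγ : γ ∈ Gamma0 L
      · simpa only [hf.2.1 γ hγ] using hinf
      · exact hb γ hγ
    have hcoeff : (qExpansion 1 f).coeff 0 = (qLaurent f).coeff 0 := by
      rw [qLaurent_of_bounded hfc hinf, toLS, show (0 : ℤ) = ((0 : ℕ) : ℤ) from rfl,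
        HahnSeries.ofPowerSeries_apply_coeff]
    refine ⟨Polynomial.C ⟨_, hR 0⟩, by simp, fun τ => ?_⟩
    have := atImInfty_neBot
    have hconst := eq_const_of_bounded hf hall τ
    have h1 := tendsto_coeff_zero hfc hinf
    have h2 : Tendsto f atImInfty (𝓝 (f τ)) :=
      tendsto_const_nhds.congr fun w => (hconst w).symm
    rw [Polynomial.eval₂_C]
    show f τ = (qLaurent f).coeff 0
    rw [← hcoeff]
    exact tendsto_nhds_unique h2 h1
  | succ n ih =>
    intro f hf hb hneg hR
    set c : ℂ := (qLaurent f).coeff (-((n + 1 : ℕ) : ℤ)) with hc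
    set g : ℍ → ℂ := f - algebraMap ℂ (ℍ → ℂ) c * u ^ (n + 1) with hg
    have hpm : algebraMap ℂ (ℍ → ℂ) c * u ^ (n + 1) ∈ levelRing L :=
      mul_mem (algebraMap_mem _ _) (pow_mem hu _)
    have hgm : g ∈ levelRing L := sub_mem hf hpm
    have hgb : ∀ γ : SL(2, ℤ), γ ∉ Gamma0 L → IsBoundedAtImInfty fun τ => g (γ • τ) := fun γ hγ => by
      have hp : IsBoundedAtImInfty fun τ => ∏ _i ∈ Finset.range (n + 1), u (γ • τ) :=
        isBounded_prod _ fun _ _ => hub γ hγ
      simp only [Finset.prod_const, Finset.card_range] at hp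
      exact (hb γ hγ).sub (isBounded_const_mul hp c)
    have hq : qLaurent g = qLaurent f
        - HahnSeries.single (-((n + 1 : ℕ) : ℤ)) c * toLS (U ^ (n + 1)) := by
      rw [hg, qLaurent_sub (levelRing_le_cuspRing L hf) (levelRing_le_cuspRing L hpm),
        qLaurent_mul (algebraMap_mem _ _) (pow_mem huc _), qLaurent_algebraMap, hupow,
        ← mul_assoc, ModularCurve.algebraMap_laurentSeries_eq_single, HahnSeries.single_mul_single,
        zero_add, mul_one]
    have hcoeff : ∀ m : ℤ, (qLaurent g).coeff m = (qLaurent f).coeff m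
        - c * (toLS (U ^ (n + 1))).coeff (m + (n + 1 : ℕ)) := fun m => by
      rw [hq, HahnSeries.coeff_sub, HahnSeries.coeff_single_mul, sub_neg_eq_add]
    have hUn : ∀ i, (U ^ (n + 1)).coeff i ∈ R := by
      have : U ∈ (PowerSeries.map R.subtype).range :=
        ⟨PowerSeries.mk fun i => ⟨_, hUR i⟩, by ext i; simp⟩
      obtain ⟨V, hV⟩ := pow_mem this (n + 1)
      intro i
      rw [← hV, PowerSeries.coeff_map]
      exact SetLike.coe_mem _
    have hcR : ∀ m : ℤ, (toLS (U ^ (n + 1))).coeff m ∈ R := fun m => by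
      rcases lt_or_ge m 0 with hm | hm
      · rw [toLS, ModularCurve.ofPowerSeries_coeff_of_neg _ hm]; exact zero_mem _
      · lift m to ℕ using hm
        rw [toLS, HahnSeries.ofPowerSeries_apply_coeff]; exact hUn m
    obtain ⟨P, hPdeg, hP⟩ := ih hgm hgb (fun m hm => by
        rw [hcoeff]
        rcases lt_trichotomy m (-((n + 1 : ℕ) : ℤ)) with h | h | h
        · rw [hneg m h, toLS, ModularCurve.ofPowerSeries_coeff_of_neg _ (by omega)]
          simp
        · subst h
          rw [← hc, neg_add_cancel, toLS, show (0 : ℤ) = ((0 : ℕ) : ℤ) from rfl,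
            HahnSeries.ofPowerSeries_apply_coeff, PowerSeries.coeff_zero_eq_constantCoeff,
            map_pow, hU0, one_pow, mul_one, sub_self]
        · omega)
      (fun m => by
        rw [hcoeff]
        exact sub_mem (hR m) (mul_mem (hR _) (hcR _)))
    refine ⟨P + Polynomial.C ⟨c, hR _⟩ * Polynomial.X ^ (n + 1), ?_, fun τ => ?_⟩
    · exact (Polynomial.natDegree_add_le _ _).trans
        (max_le (hPdeg.trans n.le_succ) (Polynomial.natDegree_C_mul_X_pow_le _ _))
    · rw [Polynomial.eval₂_add, ← hP τ, Polynomial.eval₂_mul, Polynomial.eval₂_C,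
        Polynomial.eval₂_pow, Polynomial.eval₂_X, Subring.coe_subtype]
      simp [hg]

end FermatAgent.BadRed.Carayol.Instance
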