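import Fermat.Agent.BadRed.Carayol.Instance.Hauptmodul
import Fermat.Agent.BadRed.Carayol.Instance.Rigidity

/-!
# A coordinate takes every value that it does not take at a cusp
-/

set_option autoImplicit false

noncomputable section

open UpperHalfPlane hiding I
open Complex Filter Function Asymptotics CongruenceSubgroup
open scoped Real Topology MatrixGroups Manifold ModularForm
open FermatAgent.ModFun

namespace FermatAgent.BadRed.Carayol.Instance

local notation "Δ" => ModularForm.discriminant

variable {q : ℕ} (H : Hauptmodul q)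

/-- `u Δ` tends to `1` at `∞`. -/
theorem tendsto_u_mul_discriminant : Tendsto (H.u * Δ) atImInfty (𝓝 1) := by
  have huc := levelRing_le_cuspRing _ H.mem
  have hc : H.u * Δ ∈ cuspRing := mul_mem huc discriminant_mem_cuspRing
  obtain ⟨D, hD⟩ : PowerSeries.X ∣ qExpansion 1 (Δ : ℍ → ℂ) := by
    rw [PowerSeries.X_dvd_iff, ← PowerSeries.coeff_zero_eq_constantCoeff_apply,
      qExpansion_discriminant_coeff_zero]
  have hD0 : PowerSeries.constantCoeff D = 1 := by
    have h := congrArg (PowerSeries.coeff 1) hD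
    rw [PowerSeries.coeff_succ_X_mul, ModularForm.discriminant_qExpansion_coeff_one] at h
    rw [← PowerSeries.coeff_zero_eq_constantCoeff_apply, ← h]
  have hq : qLaurent (H.u * Δ) = toLS (H.series.map (Int.castRingHom ℂ) * D) := by
    rw [qLaurent_mul huc discriminant_mem_cuspRing, H.qLaurent_u,
      qLaurent_of_bounded discriminant_mem_cuspRing
        ModularForm.discriminant_isZeroAtImInfty.isBoundedAtImInfty, hD, map_mul, map_mul,
      HahnSeries.ofPowerSeries_X, mul_mul_mul_comm, HahnSeries.single_mul_single, neg_add_cancel,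
      one_mul, HahnSeries.single_zero_one, one_mul]
  have hb := isBounded_of_qLaurent hc hq
  have h := tendsto_coeff_zero hc hb
  rw [qLaurent_of_bounded hc hb] at hq
  rwa [HahnSeries.ofPowerSeries_injective hq, PowerSeries.coeff_zero_eq_constantCoeff_apply,
    map_mul, hD0, mul_one, ← PowerSeries.coeff_zero_eq_constantCoeff_apply, PowerSeries.coeff_map,
    PowerSeries.coeff_zero_eq_constantCoeff_apply, H.constantCoeff_series, map_one] at h

/-- `u` takes every value not taken at a cusp. -/
theorem exists_u_eq {a : ℂ} (ha : a ∉ H.cusps) : ∃ τ, H.u τ = a := by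
  by_contra! h
  have h0 : ∀ τ, H.u τ - a ≠ 0 := fun τ => sub_ne_zero.mpr (h τ)
  set g : ℍ → ℂ := fun τ => (H.u τ - a)⁻¹ with hg
  have hΔ : Tendsto (Δ : ℍ → ℂ) atImInfty (𝓝 0) := ModularForm.discriminant_isZeroAtImInfty
  have hden : Tendsto (fun τ => H.u τ * Δ τ - a * Δ τ) atImInfty (𝓝 1) := by
    simpa using (tendsto_u_mul_discriminant H).sub (hΔ.const_mul a)
  have hginf : Tendsto g atImInfty (𝓝 0) := by
    refine (zero_div (1 : ℂ) ▸ hΔ.div hden one_ne_zero).congr fun τ => ?_
    rw [hg, Pi.div_apply]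
    field_simp [ModularForm.discriminant_ne_zero τ, h0 τ]
  have hinv : ∀ γ ∈ Gamma0 H.L, ∀ τ, g (γ • τ) = g τ := fun γ hγ τ => by
    simp only [hg, H.mem.2.1 γ hγ]
  have hb : ∀ γ : SL(2, ℤ), IsBoundedAtImInfty fun τ => g (γ • τ) := fun γ => by
    by_cases hγ : γ ∈ Gamma0 H.L
    · simp only [hinv γ hγ]
      exact hginf.isBigO_one ℝ
    · have hne : H.val γ - a ≠ 0 :=
        sub_ne_zero.mpr fun he => ha (he ▸ H.val_mem γ hγ)
      exact (((H.tendsto_val γ hγ).sub_const a).inv₀ hne).isBigO_one ℝ
  have hmd : MDiff g := by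
    have hd := UpperHalfPlane.mdifferentiable_iff.mp H.mem.1
    rw [UpperHalfPlane.mdifferentiable_iff]
    exact ((hd.sub_const a).inv fun w _ => h0 _).congr fun w _ => rfl
  have hmem : g ∈ levelRing H.L := ⟨hmd, hinv, fun γ => IsTame.of_bounded (hb γ)⟩
  have hconst := eq_const_of_bounded hmem hb UpperHalfPlane.I
  have := atImInfty_neBot
  have hlim : Tendsto g atImInfty (𝓝 (g UpperHalfPlane.I)) :=
    tendsto_const_nhds.congr fun τ => (hconst τ).symm
  exact inv_ne_zero (h0 UpperHalfPlane.I) (tendsto_nhds_unique hlim hginf)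

end FermatAgent.BadRed.Carayol.Instance
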