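import Fermat.Agent.BadRed.Carayol.Instance.Basics
import Fermat.Agent.BadRed.Carayol.Instance.DerivIntegral
import Fermat.Agent.BadRed.Carayol.Instance.Surj

/-!
# Integrality of the derivative in the two charts
-/

set_option autoImplicit false
set_option linter.unusedSectionVars false

noncomputable section

open UpperHalfPlane hiding I
open Polynomial IsLocalRing
open scoped Manifold Topology Ring
open FermatAgent.ModFun
open ModularCurve (heckeAlphaBar heckeBetaBar)

namespace FermatAgent.BadRed.Carayol.Instance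

section Generic

variable {q : ℕ} {W K L : Type*} [CommRing W] [IsDomain W] [IsLocalRing W] [Field K] [Field L]
  [Algebra W K] [Algebra K L] [Algebra W L] [IsScalarTower W K L] (ι : K →+* ℂ)

/-- Integrality of the derivative from a holomorphic parametrisation of the roots. -/
theorem exists_deriv_integral {x z : L} (Φ : W[X][X]) (cusps : Finset W) (hΦ : Φ.Monic)
    (hroot : evalTwo Φ x z = 0) (hz : Transcendental K z)
    (hsep : evalTwo Φ.derivative x z ≠ 0) (v : ℍ → ℂ) (hv : MDiff v) (hdv : ∀ τ, dH v τ ≠ 0)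
    {κ : Type*} [Fintype κ] (ρ : κ → ℍ → ℂ) (hρ : ∀ i, MDiff (ρ i))
    (hprod : ∀ τ, Φ.map (eval₂RingHom (ι.comp (algebraMap W K)) (v τ)) = ∏ i, (X - C (ρ i τ)))
    (hsurj : ∀ a : ℂ, (∀ b ∈ cusps, ι (algebraMap W K b) ≠ a) → ∃ τ, v τ = a) :
    ∃ N : ℕ, IsIntegral (Algebra.adjoin K {z}) (aeval z (∏ a ∈ cusps, (X - C a)) ^ N *
      (-evalTwo (derivInner Φ) x z / evalTwo Φ.derivative x z)) := by
  refine exists_pow_mul_deriv_integral ι hz Φ hΦ hroot hsep v hv hdv ρ hρ hprod _
    (monic_prod_of_monic _ _ fun a _ => monic_X_sub_C a) fun a ha => hsurj a fun b hb hba => ha ?_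
  rw [eval₂_finsetProd]
  refine Finset.prod_eq_zero hb ?_
  simp [← hba]

omit [IsDomain W] [IsLocalRing W] [Algebra W L] [IsScalarTower W K L] in
theorem reflect_prod_X_sub_C {κ : Type*} (s : Finset κ) (r : κ → ℂ) :
    (∏ i ∈ s, (X - C (r i))).reflect s.card = ∏ i ∈ s, (1 - C (r i) * X) := by
  classical
  induction s using Finset.induction_on with
  | empty => simp
  | insert b s hb ih =>
    rw [Finset.prod_insert hb, Finset.prod_insert hb, Finset.card_insert_of_notMem hb,
      add_comm s.card 1, reflect_mul _ _ (natDegree_X_sub_C_le _)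
        (by rw [natDegree_prod _ _ fun i _ => X_sub_C_ne_zero _]; simp), ih]
    congr 1
    simp [-map_mul]

/-- The roots of the reversed equation are the inverses of the roots. -/
theorem map_revTwo_eq_prod {x z : L} (P : PolyChart q W x z) (hq : 0 < q) (hx : x ≠ 0) (hz : z ≠ 0)
    {κ : Type*} [Fintype κ] (hκ : Fintype.card κ = q + 1) (j : W →+* ℂ) {c : ℂ} (hc : c ≠ 0)
    (r : κ → ℂ) (hr : ∀ i, r i ≠ 0)
    (hprod : P.Φ.map (eval₂RingHom j c) = ∏ i, (X - C (r i))) :
    (revTwo (q + 1) P.Φ).map (eval₂RingHom j c⁻¹) = ∏ i, (X - C (r i)⁻¹) := by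
  have e : ∀ d, eval₂RingHom j d = (evalRingHom d).comp (mapRingHom j) := fun d =>
    ringHom_ext (fun a => by simp) (by simp)
  have hd : (P.Φ.map (mapRingHom j)).natDegree ≤ q + 1 := natDegree_map_le.trans P.natDegree_eq.le
  have hs : ∀ i k, ((P.Φ.map (mapRingHom j)).coeff i).coeff k =
      ((P.Φ.map (mapRingHom j)).coeff k).coeff i := fun i k => by simp [P.symm i k]
  have hm : ((revTwo (q + 1) P.Φ).map (eval₂RingHom j c⁻¹)).Monic := (P.inv hq hx hz).monic.map _
  have key : (revTwo (q + 1) P.Φ).map (eval₂RingHom j c⁻¹) =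
      C (c⁻¹ ^ (q + 1) * ∏ i, -r i) * ∏ i, (X - C (r i)⁻¹) := by
    have hcard : (Finset.univ : Finset κ).card = q + 1 := hκ
    rw [e, ← map_map, revTwo_map _ P.natDegree_eq.le, map_eval_revTwo hd hs (mul_inv_cancel₀ hc),
      map_map, ← e, hprod, C_mul, mul_assoc, ← hcard, reflect_prod_X_sub_C, map_prod,
      ← Finset.prod_mul_distrib]
    congr 1
    refine Finset.prod_congr rfl fun i _ => ?_
    rw [map_neg, mul_sub, neg_mul, neg_mul, ← C_mul, mul_inv_cancel₀ (hr i), C_1]
    ring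
  have hl := congrArg leadingCoeff key
  rw [hm.leadingCoeff, leadingCoeff_mul, leadingCoeff_C,
    (monic_prod_of_monic _ _ fun i _ => monic_X_sub_C _).leadingCoeff, mul_one] at hl
  rw [key, ← hl, C_1, one_mul]

/-- Rewrite the two functions of a chart. -/
def PolyChart.castEq {x z x' z' : L} (P : PolyChart q W x z) (hx : x = x') (hz : z = z') :
    PolyChart q W x' z' where
  cusps := P.cusps
  zero_mem := P.zero_mem
  cusps_residue_injective := P.cusps_residue_injective
  conj := P.conj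
  conj_mem := P.conj_mem
  conj_conj := P.conj_conj
  Φ := P.Φ
  monic := P.monic
  natDegree_eq := P.natDegree_eq
  symm := P.symm
  kronecker := P.kronecker
  root := hx ▸ hz ▸ P.root
  cusp_fibre := P.cusp_fibre

omit [IsDomain W] [IsLocalRing W] [Algebra W K] [Algebra W L] [IsScalarTower W K L] in
theorem adjoin_union_inv (S : Set L) (y : L) :
    IntermediateField.adjoin K (S ∪ {y⁻¹}) = IntermediateField.adjoin K (S ∪ {y}) := by
  refine le_antisymm ?_ ?_ <;> rw [IntermediateField.adjoin_le_iff] <;> rintro w (hw | rfl)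
  · exact IntermediateField.subset_adjoin _ _ (Or.inl hw)
  · exact inv_mem (IntermediateField.subset_adjoin _ _ (Or.inr rfl))
  · exact IntermediateField.subset_adjoin _ _ (Or.inl hw)
  · simpa using inv_mem (IntermediateField.subset_adjoin K (S ∪ {w⁻¹}) (Or.inr rfl))

end Generic

section Coord

variable {q : ℕ} [hq : Fact q.Prime] [NeZero q] (H : Hauptmodul q) {R : ℤ[X]}
variable (K : Type*) [Field K] [Algebra ℚ K] (ι : K →ₐ[ℚ] ℂ)
variable (W : Type*) [CommRing W] [IsDomain W] [IsLocalRing W] [Algebra W K] [FaithfulSMul W K]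
variable {N : ℕ} [NeZero N] (hN : H.L ∣ N) (hqN : ¬ q ∣ N)
variable [Algebra W (LevelField K N)] [IsScalarTower W K (LevelField K N)]
variable [Algebra W (LevelField K (N * q))] [IsScalarTower W K (LevelField K (N * q))]
variable (hR : IsCuspPoly H R) (hR0 : R.coeff 0 = 0)
variable (hsplit : (R.map (Int.castRingHom W)).Splits) (hq0 : residue W (q : W) = 0)

theorem map_basePolyChart (τ : ℍ) :
    (basePolyChart H K ι W hN hR hR0 hsplit hq0).Φ.map
      (eval₂RingHom (constEmb ι W) (H.u τ)) = ∏ i, (X - C (rootFun H i τ)) := by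
  show ((modPoly H).map (mapRingHom (Int.castRingHom W))).map _ = rootProd H τ
  rw [map_map, ← map_modPoly H τ]
  congr 1
  exact ringHom_ext (fun a => by simp [evalInt]) (by simp [evalInt])

theorem mdiff_rootFun (i : Option (ZMod q)) : MDiff (rootFun H i) := by
  have h := (rootFun_smul_mem H i 1).1
  simpa only [one_smul] using h

theorem rootFun_ne_zero (hH : H.IsCoord) (i : Option (ZMod q)) (τ : ℍ) : rootFun H i τ ≠ 0 :=
  hH.ne_zero _

theorem transcendental_map {F F' : Type*} [Field F] [Field F'] [Algebra K F] [Algebra K F']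
    (φ : F →ₐ[K] F') {u : F} (h : Transcendental K u) : Transcendental K (φ u) :=
  fun h' => h ((isAlgebraic_algHom_iff φ φ.toRingHom.injective).mp h')

theorem charZero_level : CharZero (LevelField K N) :=
  have : CharZero K := algebraRat.charZero K
  charZero_of_injective_algebraMap (algebraMap K (LevelField K N)).injective

include hqN in
theorem evalTwo_derivative_ne :
    let P := basePolyChart H K ι W hN hR hR0 hsplit hq0
    let x := heckeAlphaBar K N q (uElt K H hN)
    let z := heckeBetaBar K N q (uElt K H hN)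
    evalTwo P.Φ.derivative x z ≠ 0 ∧ evalTwo P.Φ.derivative z x ≠ 0 := by
  intro P x z
  have := charZero_level K (N := N)
  exact ⟨evalTwo_derivative_ne_zero K (heckeBetaBar K N q) (degreeAlong_t K N hqN)
      (Nat.succ_ne_zero q) (generate_t K H hN hqN ι) P.monic P.natDegree_eq P.root,
    evalTwo_derivative_ne_zero K (heckeAlphaBar K N q) (degreeAlong_s K N hqN)
      (Nat.succ_ne_zero q) (generate_s K H hN hqN ι) P.monic P.natDegree_eq
      ((evalTwo_comm P.natDegree_eq.le P.symm z x).trans P.root)⟩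

include hqN in
/-- `deriv_integral` and `deriv_integral'` for `u`. -/
theorem deriv_integral_uElt (hH : H.IsCoord) :
    let P := basePolyChart H K ι W hN hR hR0 hsplit hq0
    let x := heckeAlphaBar K N q (uElt K H hN)
    let z := heckeBetaBar K N q (uElt K H hN)
    (∃ n : ℕ, IsIntegral (Algebra.adjoin K {z}) (aeval z (∏ a ∈ P.cusps, (X - C a)) ^ n *
      (-evalTwo (derivInner P.Φ) x z / evalTwo P.Φ.derivative x z))) ∧
    (∃ n : ℕ, IsIntegral (Algebra.adjoin K {x}) (aeval x (∏ a ∈ P.cusps, (X - C a)) ^ n *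
      (-evalTwo (derivInner P.Φ) z x / evalTwo P.Φ.derivative z x))) := by
  intro P x z
  obtain ⟨hne, hne'⟩ := evalTwo_derivative_ne H K ι W hN hqN hR hR0 hsplit hq0
  have hsurj : ∀ a : ℂ, (∀ b ∈ P.cusps, (ι : K →+* ℂ) (algebraMap W K b) ≠ a) → ∃ τ, H.u τ = a :=
    fun a ha => exists_u_eq H fun hmem => by
      obtain ⟨b, hb, hba⟩ := (constEmb_mem H ι hR hsplit hq0 a).mp hmem
      exact ha b hb hba
  have hswap : evalTwo P.Φ z x = 0 := (evalTwo_comm P.natDegree_eq.le P.symm z x).trans P.root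
  have hu := transcendental_uElt H K hN
  exact ⟨exists_deriv_integral (ι : K →+* ℂ) P.Φ P.cusps P.monic P.root
      (transcendental_map K _ hu) hne H.u H.mem.1 hH.deriv_ne (rootFun H)
      (mdiff_rootFun H) (map_basePolyChart H K ι W hN hR hR0 hsplit hq0) hsurj,
    exists_deriv_integral (ι : K →+* ℂ) P.Φ P.cusps P.monic hswap
      (transcendental_map K _ hu) hne' H.u H.mem.1 hH.deriv_ne (rootFun H)
      (mdiff_rootFun H) (map_basePolyChart H K ι W hN hR hR0 hsplit hq0) hsurj⟩

theorem mdiff_inv {f : ℍ → ℂ} (hf : MDiff f) (h0 : ∀ τ, f τ ≠ 0) : MDiff fun τ => (f τ)⁻¹ := by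
  rw [UpperHalfPlane.mdifferentiable_iff]
  exact ((UpperHalfPlane.mdifferentiable_iff.mp hf).inv fun w _ => h0 _).congr fun w _ => rfl

theorem dH_inv_ne {f : ℍ → ℂ} (hf : MDiff f) (h0 : ∀ τ, f τ ≠ 0) (hd : ∀ τ, dH f τ ≠ 0)
    (τ : ℍ) : dH (fun σ => (f σ)⁻¹) τ ≠ 0 := by
  have h1 := (differentiableAt_ofComplex hf τ).hasDerivAt.inv (by simpa using h0 τ)
  show deriv (fun w => (f (ofComplex w))⁻¹) (τ : ℂ) ≠ 0
  rw [show (fun w => (f (ofComplex w))⁻¹) = (f ∘ ofComplex)⁻¹ from rfl, h1.deriv]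
  refine div_ne_zero (neg_ne_zero.mpr ?_) (pow_ne_zero _ (by simpa using h0 τ))
  simpa [dH] using hd τ

/-- The chart at infinity. -/
def invPolyChart (hR : IsCuspPoly H R) (hR0 : R.coeff 0 = 0)
    (hsplit : (R.map (Int.castRingHom W)).Splits) (hq0 : residue W (q : W) = 0) :
    PolyChart q W (heckeAlphaBar K N q (uElt K H hN)⁻¹) (heckeBetaBar K N q (uElt K H hN)⁻¹) :=
  ((basePolyChart H K ι W hN hR hR0 hsplit hq0).inv hq.out.pos
    ((_root_.map_ne_zero _).mpr (uElt_ne_zero H K hN))
    ((_root_.map_ne_zero _).mpr (uElt_ne_zero H K hN))).castEq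
      (map_inv₀ _ _).symm (map_inv₀ _ _).symm

theorem invPolyChart_cusps [DecidableEq W] :
    (invPolyChart H K ι W hN hR hR0 hsplit hq0).cusps = (cuspSet R W).image Ring.inverse := by
  simp only [invPolyChart, PolyChart.castEq, PolyChart.inv, basePolyChart]
  convert rfl

theorem invPolyChart_Φ :
    (invPolyChart H K ι W hN hR hR0 hsplit hq0).Φ =
      revTwo (q + 1) (basePolyChart H K ι W hN hR hR0 hsplit hq0).Φ :=
  rfl

include hqN in
/-- `deriv_integral` and `deriv_integral'` for `1/u`. -/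
theorem deriv_integral_uInv (hH : H.IsCoord) :
    let P := invPolyChart H K ι W hN hR hR0 hsplit hq0
    let x := heckeAlphaBar K N q (uElt K H hN)⁻¹
    let z := heckeBetaBar K N q (uElt K H hN)⁻¹
    (∃ n : ℕ, IsIntegral (Algebra.adjoin K {z}) (aeval z (∏ a ∈ P.cusps, (X - C a)) ^ n *
      (-evalTwo (derivInner P.Φ) x z / evalTwo P.Φ.derivative x z))) ∧
    (∃ n : ℕ, IsIntegral (Algebra.adjoin K {x}) (aeval x (∏ a ∈ P.cusps, (X - C a)) ^ n *
      (-evalTwo (derivInner P.Φ) z x / evalTwo P.Φ.derivative z x))) := by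
  classical
  intro P x z
  set P₀ := basePolyChart H K ι W hN hR hR0 hsplit hq0 with hP₀
  have hu := transcendental_uElt H K hN
  have hu' : Transcendental K (uElt K H hN)⁻¹ := fun h => hu (IsAlgebraic.inv_iff.mp h)
  have hswap : evalTwo P.Φ z x = 0 := (evalTwo_comm P.natDegree_eq.le P.symm z x).trans P.root
  have := charZero_level K (N := N)
  have hprod : ∀ τ, P.Φ.map (eval₂RingHom ((ι : K →+* ℂ).comp (algebraMap W K)) (H.u τ)⁻¹) =
      ∏ i, (X - C (rootFun H i τ)⁻¹) := fun τ => by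
    rw [invPolyChart_Φ]
    exact map_revTwo_eq_prod P₀ hq.out.pos ((_root_.map_ne_zero _).mpr (uElt_ne_zero H K hN))
      ((_root_.map_ne_zero _).mpr (uElt_ne_zero H K hN)) (by simp [ZMod.card]) _ (hH.ne_zero τ) _
      (fun i => rootFun_ne_zero H hH i τ) (map_basePolyChart H K ι W hN hR hR0 hsplit hq0 τ)
  have hsurj : ∀ a : ℂ, (∀ b ∈ P.cusps, (ι : K →+* ℂ) (algebraMap W K b) ≠ a) →
      ∃ τ, (H.u τ)⁻¹ = a := by
    intro a ha
    have ha0 : a ≠ 0 := fun h => ha 0 P.zero_mem (by simp [h])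
    obtain ⟨τ, hτ⟩ := exists_u_eq H (a := a⁻¹) fun hmem => by
      obtain ⟨b, hb, hba⟩ := (constEmb_mem H ι hR hsplit hq0 _).mp hmem
      have hb0 : b ≠ 0 := fun h => inv_ne_zero ha0 (by rw [← hba, h, map_zero])
      obtain ⟨w, rfl⟩ := P₀.isUnit_of_mem hb hb0
      refine ha (↑w⁻¹) (by rw [invPolyChart_cusps]; exact Finset.mem_image.mpr ⟨_, hb, Ring.inverse_unit w⟩) ?_
      show constEmb ι W ↑w⁻¹ = a
      rw [map_units_inv, hba, inv_inv]
    exact ⟨τ, by rw [hτ, inv_inv]⟩
  have hv := mdiff_inv H.mem.1 hH.ne_zero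
  have hdv := dH_inv_ne H.mem.1 hH.ne_zero hH.deriv_ne
  have hρ := fun i => mdiff_inv (mdiff_rootFun H i) (rootFun_ne_zero H hH i)
  exact ⟨exists_deriv_integral (ι : K →+* ℂ) P.Φ P.cusps P.monic P.root
      (transcendental_map K _ hu')
      (evalTwo_derivative_ne_zero K (heckeBetaBar K N q) (degreeAlong_t K N hqN)
        (Nat.succ_ne_zero q)
        (by rw [show x = (heckeAlphaBar K N q (uElt K H hN))⁻¹ from map_inv₀ _ _,
          adjoin_union_inv]; exact generate_t K H hN hqN ι) P.monic P.natDegree_eq P.root)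
      _ hv hdv _ hρ hprod hsurj,
    exists_deriv_integral (ι : K →+* ℂ) P.Φ P.cusps P.monic hswap
      (transcendental_map K _ hu')
      (evalTwo_derivative_ne_zero K (heckeAlphaBar K N q) (degreeAlong_s K N hqN)
        (Nat.succ_ne_zero q)
        (by rw [show z = (heckeBetaBar K N q (uElt K H hN))⁻¹ from map_inv₀ _ _,
          adjoin_union_inv]; exact generate_s K H hN hqN ι) P.monic P.natDegree_eq hswap)
      _ hv hdv _ hρ hprod hsurj⟩

end Coord

end FermatAgent.BadRed.Carayol.Instance
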