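import Fermat.Agent.BadRed.Carayol.Instance.Rigidity
import Fermat.Agent.BadRed.Carayol.Instance.Asymptotics
import Mathlib.RingTheory.PowerSeries.Expand

/-!
# Eta quotients `q^(-k) ∏ (1 - q^(d₁ n))^e / (1 - q^(d₂ n))^e`

When `e m = 24` and `d₂ = d₁ + k m` the `m`-th power is `Δ(d₁ τ)/Δ(d₂ τ)`.
-/

set_option autoImplicit false

noncomputable section

open UpperHalfPlane hiding I
open Complex Filter Function Asymptotics CongruenceSubgroup
open scoped Real Topology MatrixGroups Manifold ModularForm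
open FermatAgent.ModFun

namespace FermatAgent.BadRed.Carayol.Instance

local notation "Δ" => ModularForm.discriminant
local notation "𝕢" => Periodic.qParam

/-- `∏ (1 - q ^ n)⁻¹`. -/
def etaInv (τ : ℍ) : ℂ := (etaTail 0 τ)⁻¹

/-- `1/q`. -/
def qInv (τ : ℍ) : ℂ := (𝕢 1 (τ : ℂ))⁻¹

theorem etaTail_zero_ne_zero (τ : ℍ) : etaTail 0 τ ≠ 0 := by
  simpa [etaTail, ModularForm.eta_q] using ModularForm.eta_tprod_ne_zero τ.2

theorem tendsto_etaTail_zero : Tendsto (etaTail 0) atImInfty (𝓝 1) := by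
  have h := (etaTail_sub_one_isBigO 0).trans_tendsto (g'' := fun τ : ℍ => Real.exp (-2 * π * τ.im) ^ (0 + 1))
    (by
      simp only [zero_add, pow_one]
      exact Real.tendsto_exp_atBot.comp (tendsto_comap.const_mul_atTop_of_neg
        (by nlinarith [Real.pi_pos])))
  simpa using h.add_const 1

theorem etaInv_bounded : IsBoundedAtImInfty etaInv := by
  have := tendsto_etaTail_zero.inv₀ one_ne_zero
  exact this.isBigO_one ℝ

theorem etaInv_mem : etaInv ∈ cuspRing := by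
  refine ⟨?_, fun τ => by simp only [etaInv, (etaTail_mem 0).2.1], .of_bounded etaInv_bounded⟩
  rw [UpperHalfPlane.mdifferentiable_iff]
  exact (UpperHalfPlane.mdifferentiable_iff.mp (etaTail_mem 0).1).inv
    fun z _ => etaTail_zero_ne_zero _

theorem qLaurent_etaTail :
    qLaurent (etaTail 0) = toLS (ModularCurve.etaProd.map (Int.castRingHom ℂ)) := by
  rw [qLaurent_of_bounded (etaTail_mem 0) (etaTail_bounded 0), qExpansion_etaTail_zero]

theorem qLaurent_etaInv :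
    qLaurent etaInv = toLS ((ModularCurve.etaProd.invOfUnit 1).map (Int.castRingHom ℂ)) := by
  have h1 : qLaurent etaInv * qLaurent (etaTail 0) = 1 := by
    rw [← qLaurent_mul etaInv_mem (etaTail_mem 0),
      show etaInv * etaTail 0 = 1 from funext fun τ => by
        simp [etaInv, inv_mul_cancel₀ (etaTail_zero_ne_zero τ)]]
    simpa using map_one qLaurentHom
  refine left_inv_eq_right_inv h1 ?_
  rw [qLaurent_etaTail, ← map_mul, ← map_mul,
    PowerSeries.mul_invOfUnit _ _ (by simp [ModularCurve.constantCoeff_etaProd]), map_one, map_one]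

theorem qParam_eq_tail (τ : ℍ) : Δ τ = 𝕢 1 (τ : ℂ) * etaTail 0 τ ^ 24 := by
  rw [ModularForm.discriminant_eq_q_prod, etaTail, ← (multipliable_etaTail 0 τ).tprod_pow 24]

theorem qInv_eq : qInv = Igusa.invDelta * etaTail 0 ^ 24 := by
  funext τ
  have := ModularForm.discriminant_ne_zero τ
  rw [qParam_eq_tail] at this
  simp only [qInv, Igusa.invDelta, Pi.mul_apply, Pi.pow_apply]
  rw [qParam_eq_tail]
  field_simp [etaTail_zero_ne_zero τ]

theorem qInv_mem : qInv ∈ cuspRing :=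
  qInv_eq ▸ mul_mem Igusa.invDelta_mem_cuspRing (pow_mem (etaTail_mem 0) 24)

theorem qLaurent_qInv : qLaurent qInv = HahnSeries.single (-1 : ℤ) 1 := by
  have h1 : qLaurent qInv * qLaurent (fun τ : ℍ => 𝕢 1 (τ : ℂ)) = 1 := by
    rw [← qLaurent_mul qInv_mem qpar_mem_cuspRing,
      show qInv * (fun τ : ℍ => 𝕢 1 (τ : ℂ)) = 1 from funext fun τ => by
        simp [qInv, inv_mul_cancel₀ (Periodic.qParam_ne_zero _)]]
    simpa using map_one qLaurentHom
  refine left_inv_eq_right_inv h1 ?_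
  rw [qLaurent_of_bounded qpar_mem_cuspRing qpar_bounded, qExpansion_qpar, toLS,
    HahnSeries.ofPowerSeries_X, HahnSeries.single_mul_single]
  simp

theorem qExpand_toLS {R : Type*} [CommRing R] (d : ℕ) [NeZero d] (r : PowerSeries R) :
    ModularCurve.qExpand R d (HahnSeries.ofPowerSeries ℤ R r)
      = HahnSeries.ofPowerSeries ℤ R (r.expand d (NeZero.ne d)) := by
  ext k
  by_cases hk : (d : ℤ) ∣ k
  · obtain ⟨i, rfl⟩ := hk
    rw [ModularCurve.qExpand_coeff_mul]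
    rcases lt_or_ge i 0 with hi | hi
    · rw [ModularCurve.ofPowerSeries_coeff_of_neg _ hi, ModularCurve.ofPowerSeries_coeff_of_neg _
        (mul_neg_of_pos_of_neg (by simp [NeZero.pos]) hi)]
    · lift i to ℕ using hi
      rw [← Nat.cast_mul, HahnSeries.ofPowerSeries_apply_coeff,
        HahnSeries.ofPowerSeries_apply_coeff, PowerSeries.coeff_expand_mul]
  · rw [ModularCurve.qExpand_coeff_of_not_dvd d _ hk]
    rcases lt_or_ge k 0 with hi | hi
    · rw [ModularCurve.ofPowerSeries_coeff_of_neg _ hi]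
    · lift k to ℕ using hi
      rw [HahnSeries.ofPowerSeries_apply_coeff,
        PowerSeries.coeff_expand_of_not_dvd _ _ _ (mt Int.natCast_dvd_natCast.mpr hk)]

variable (d₁ d₂ e k : ℕ) [NeZero d₁] [NeZero d₂]

/-- The eta quotient. -/
def etaQuot : ℍ → ℂ :=
  qInv ^ k * ((etaTail 0 ∘ dil d₁) ^ e * (etaInv ∘ dil d₂) ^ e)

/-- Its expansion divided by `q^(-k)`. -/
def etaSeries : PowerSeries ℤ :=
  ModularCurve.etaProd.expand d₁ (NeZero.ne d₁) ^ e *
    (ModularCurve.etaProd.invOfUnit 1).expand d₂ (NeZero.ne d₂) ^ e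

theorem constantCoeff_etaSeries : PowerSeries.constantCoeff (etaSeries d₁ d₂ e) = 1 := by
  simp [etaSeries, PowerSeries.constantCoeff_expand, ModularCurve.constantCoeff_etaProd]

theorem etaQuot_mem : etaQuot d₁ d₂ e k ∈ cuspRing :=
  mul_mem (pow_mem qInv_mem k) (mul_mem (pow_mem (mem_cuspRing_comp_dil (etaTail_mem 0) d₁) e)
    (pow_mem (mem_cuspRing_comp_dil etaInv_mem d₂) e))

theorem etaQuot_ne_zero (τ : ℍ) : etaQuot d₁ d₂ e k τ ≠ 0 := by
  simp only [etaQuot, qInv, etaInv, Pi.mul_apply, Pi.pow_apply, comp_apply]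
  exact mul_ne_zero (pow_ne_zero _ (inv_ne_zero (Periodic.qParam_ne_zero _)))
    (mul_ne_zero (pow_ne_zero _ (etaTail_zero_ne_zero _))
      (pow_ne_zero _ (inv_ne_zero (etaTail_zero_ne_zero _))))

theorem qLaurent_etaQuot :
    qLaurent (etaQuot d₁ d₂ e k) = HahnSeries.single (-(k : ℤ)) 1 *
      toLS ((etaSeries d₁ d₂ e).map (Int.castRingHom ℂ)) := by
  have h1 := mem_cuspRing_comp_dil (etaTail_mem 0) d₁
  have h2 := mem_cuspRing_comp_dil etaInv_mem d₂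
  rw [etaQuot, qLaurent_mul (pow_mem qInv_mem k) (mul_mem (pow_mem h1 e) (pow_mem h2 e)),
    qLaurent_mul (pow_mem h1 e) (pow_mem h2 e), qLaurent_pow qInv_mem, qLaurent_pow h1,
    qLaurent_pow h2, qLaurent_comp_dil (etaTail_mem 0), qLaurent_comp_dil etaInv_mem,
    qLaurent_qInv, qLaurent_etaTail, qLaurent_etaInv, HahnSeries.single_pow, one_pow,
    show k • (-1 : ℤ) = -(k : ℤ) by simp, toLS, qExpand_toLS, qExpand_toLS, etaSeries, map_mul,
    map_mul, map_pow, map_pow, map_pow, map_pow, PowerSeries.map_expand, PowerSeries.map_expand]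

variable {d₁ d₂ e k} {m : ℕ}

theorem etaQuot_pow (hem : e * m = 24) (hd : d₂ = d₁ + k * m) (τ : ℍ) :
    etaQuot d₁ d₂ e k τ ^ m = Δ (dil d₁ τ) / Δ (dil d₂ τ) := by
  have h1 := etaTail_zero_ne_zero (dil d₁ τ)
  have h2 := etaTail_zero_ne_zero (dil d₂ τ)
  have hq := Periodic.qParam_ne_zero (h := 1) (τ : ℂ)
  simp only [etaQuot, qInv, etaInv, Pi.mul_apply, Pi.pow_apply, comp_apply]
  rw [qParam_eq_tail, qParam_eq_tail, qParam_dil, qParam_dil, mul_pow, mul_pow, ← pow_mul,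
    ← pow_mul, ← pow_mul, hem]
  have hq2 : 𝕢 1 (τ : ℂ) ^ d₂ = 𝕢 1 (τ : ℂ) ^ d₁ * 𝕢 1 (τ : ℂ) ^ (k * m) := by rw [← pow_add, ← hd]
  rw [hq2]
  simp only [inv_pow]
  field_simp

theorem etaQuot_pow_smul (hem : e * m = 24) (hd : d₂ = d₁ + k * m) {γ : SL(2, ℤ)}
    (h1 : (d₁ : ℤ) ∣ γ 1 0) (h2 : (d₂ : ℤ) ∣ γ 1 0) (τ : ℍ) :
    etaQuot d₁ d₂ e k (γ • τ) ^ m = etaQuot d₁ d₂ e k τ ^ m := by
  rw [etaQuot_pow hem hd, etaQuot_pow hem hd]
  have e1 : ∀ (d : ℕ) [NeZero d] (w : ℍ), Δ (dil d w) = Igusa.deltaRatio d w * Δ w := fun d _ w => by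
    simp [Igusa.deltaRatio, Igusa.invDelta, ModularForm.discriminant_ne_zero w]
  rw [e1 d₁, e1 d₂, e1 d₁ τ, e1 d₂ τ, (Igusa.deltaRatio_smul_of_dvd d₁ h1 τ).1,
    (Igusa.deltaRatio_smul_of_dvd d₂ h2 τ).1,
    mul_div_mul_right _ _ (ModularForm.discriminant_ne_zero _),
    mul_div_mul_right _ _ (ModularForm.discriminant_ne_zero _)]

/-- The order at the cusp `γ ∞` of the `m`-th power. -/
theorem hasLead_etaQuot (hem : e * m = 24) (hd : d₂ = d₁ + k * m) (γ : SL(2, ℤ)) :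
    HasLead (fun τ => etaQuot d₁ d₂ e k (γ • τ) ^ m)
      ((Nat.gcd d₁ (γ 1 0).natAbs : ℝ) ^ 2 / d₁ - (Nat.gcd d₂ (γ 1 0).natAbs : ℝ) ^ 2 / d₂) := by
  refine ((hasLead_discriminant_dil_smul d₁ γ).div (hasLead_discriminant_dil_smul d₂ γ)).congr
    fun τ => ?_
  rw [etaQuot_pow hem hd,
    div_div_div_cancel_right₀ (pow_ne_zero _ (Igusa.sl_denom_ne_zero γ τ))]

theorem isTame_of_pow_lead {F : ℍ → ℂ} {m : ℕ} (hm : 0 < m) {l : ℝ}
    (h : HasLead (fun τ => F τ ^ m) l) : IsTame F := by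
  have hw : ∀ τ, wExp l τ = wExp (l / m) τ ^ m := fun τ => by
    rw [← wExp_nat_mul, mul_div_cancel₀ _ (Nat.cast_ne_zero.mpr hm.ne')]
  obtain ⟨C, -, hC⟩ := h
  have hb : IsBoundedAtImInfty fun τ => F τ / wExp (l / m) τ :=
    isBounded_of_pow hm ((hC.congr fun τ => by rw [hw, div_pow]).isBigO_one ℝ)
  refine ⟨-2 * π * (l / m), ?_⟩
  have h1 : (fun τ => wExp (l / m) τ) =O[atImInfty]
      fun τ : ℍ => Real.exp (-2 * π * (l / m) * τ.im) :=
    IsBigO.of_bound 1 (Eventually.of_forall fun τ => by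
      rw [norm_wExp, Real.norm_of_nonneg (Real.exp_pos _).le, one_mul])
  refine (IsBigO.mul (hb : (fun τ => F τ / wExp (l / m) τ) =O[atImInfty] (1 : ℍ → ℝ)) h1).congr
    (fun τ => ?_) (fun τ => by simp)
  exact div_mul_cancel₀ _ (wExp_ne_zero _ _)

theorem etaQuot_mem_levelRing (hem : e * m = 24) (hd : d₂ = d₁ + k * m) (hm : 0 < m) {L : ℕ}
    (hinv : Gamma0 L ≤ fixGroup (etaQuot d₁ d₂ e k)) : etaQuot d₁ d₂ e k ∈ levelRing L :=
  ⟨(etaQuot_mem d₁ d₂ e k).1, fun _ hγ => mem_fixGroup.mp (hinv hγ),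
    fun γ => isTame_of_pow_lead hm (hasLead_etaQuot hem hd γ)⟩

theorem mem_fixGroup_etaQuot (hem : e * m = 24) (hd : d₂ = d₁ + k * m) (hm : 0 < m) {L : ℕ}
    (h1 : d₁ ∣ L) (h2 : d₂ ∣ L) {A : SL(2, ℤ)} {h : ℤ}
    (hmem : (L : ℤ) ∣ (A * ModularGroup.T ^ h * A⁻¹) 1 0) {l : ℝ}
    (hl : (Nat.gcd d₁ (A 1 0).natAbs : ℝ) ^ 2 / d₁ - (Nat.gcd d₂ (A 1 0).natAbs : ℝ) ^ 2 / d₂
      = m * l) (hlh : ∃ n : ℤ, l * h = n) :
    A * ModularGroup.T ^ h * A⁻¹ ∈ fixGroup (etaQuot d₁ d₂ e k) := by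
  refine mem_fixGroup_of_lead (etaQuot_mem d₁ d₂ e k).1 (etaQuot_ne_zero d₁ d₂ e k) hm
    (fun τ => etaQuot_pow_smul hem hd ((Int.natCast_dvd_natCast.mpr h1).trans hmem)
      ((Int.natCast_dvd_natCast.mpr h2).trans hmem) τ) ?_ hlh
  rw [← hl]
  exact hasLead_etaQuot hem hd A

theorem neg_one_mem_fixGroup (F : ℍ → ℂ) : -1 ∈ fixGroup F := fun τ => by
  rw [ModularGroup.SL_neg_smul, one_smul]

theorem T_mem_fixGroup {F : ℍ → ℂ} (hF : F ∈ cuspRing) : ModularGroup.T ∈ fixGroup F :=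
  fun τ => by rw [modular_T_smul, hF.2.1]

end FermatAgent.BadRed.Carayol.Instance
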