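import Fermat.Agent.BadRed.Carayol.Instance.EtaleFibre
import Fermat.Agent.BadRed.Carayol.Instance.Fields

/-!
# The charts are étale over their coordinate away from the cusps

A function of the fibre vanishing at a point over `ā` is a multiple of `v̄ - ā` up to a factor
regular in the chart and nonzero at the point; all three lift to the chart.
-/

set_option autoImplicit false
set_option linter.unusedSectionVars false
set_option maxHeartbeats 3200000

noncomputable section

open Function Polynomial AlgebraicCurve IsLocalRing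
open FermatAgent.Igusa FermatAgent.ModFun FermatAgent.Curve FermatAgent.JacCharts
open ModularCurve (coeffMap modularFunctionFieldBar modularFunctionFieldFullC)
open FermatAgent.MazurPrinciple (inertiaField)

namespace FermatAgent.BadRed.Carayol.Instance

local notation "Qb" => AlgebraicClosure ℚ

variable {A : ValuationSubring Qb} {q : ℕ} [hq : Fact q.Prime] [NeZero q]
variable {N : ℕ} [NeZero N] (hA : A.LiesOverPrime q) (hqN : ¬ q ∣ N)

section Abstract

variable {k Fb : Type*} [Field k] [IsAlgClosed k] [Field Fb] [Algebra k Fb] [IsFunctionField1 k Fb]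

/-- At a point where `x̄ = v̄ - ā` vanishes simply, functions vanishing there are locally multiples
of `x`. -/
theorem exists_mul_sub_mem_ker {Rg : Type*} [CommRing Rg] (rb : Rg →+* Fb) {Q : Ideal Rg}
    (hQ : Q ≠ ⊤) (hkQ : RingHom.ker rb ≤ Q) {vb : Fb} (hvbT : Transcendental k vb)
    (hconst : ∀ c : k, ∃ z, rb z = algebraMap k Fb c)
    (hlift : ∀ z : Fb, IsIntegral (Algebra.adjoin k {vb}) z → ∃ z', rb z' = z)
    {a : k} (hkey : ∀ P : Place k Fb, P.ord (vb - algebraMap k Fb a) ≤ 1)
    {x y : Rg} (hx : rb x = vb - algebraMap k Fb a) (hxQ : x ∈ Q) (hyQ : y ∈ Q) :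
    ∃ r ∉ Q, ∃ s, rb (r * y - s * x) = 0 := by
  have hItop : Q.map rb.rangeRestrict ≠ ⊤ := fun h => hQ (by
    have h' := Ideal.comap_map_of_surjective _ rb.rangeRestrict_surjective Q
    rw [h, Ideal.comap_top] at h'
    rw [h']
    refine (sup_eq_left.mpr fun z hz => hkQ ?_).symm
    rw [Ideal.mem_comap, Ideal.mem_bot] at hz
    exact congrArg Subtype.val hz)
  obtain ⟨V, hV, hIV⟩ := Ideal.image_subset_nonunits_valuationSubring _ hItop
  have hnon : ∀ z ∈ Q, rb z ∈ V.nonunits := fun z hz =>
    hIV ⟨rb.rangeRestrict z, Ideal.mem_map_of_mem _ hz, rfl⟩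
  have hVk : ∀ c : k, algebraMap k Fb c ∈ V := fun c => hV (hconst c)
  have hxb0 : rb x ≠ 0 := fun h0 => hvbT (by
    rw [hx, sub_eq_zero] at h0
    exact h0 ▸ isAlgebraic_algebraMap a)
  have hVtop : V ≠ ⊤ := by
    intro h
    have hxV := hnon x hxQ
    rcases V.inv_mem_nonunits_iff.mp (show ((rb x)⁻¹)⁻¹ ∈ V.nonunits by rwa [inv_inv]) with h1 | h1
    · exact inv_ne_zero hxb0 h1
    · exact h1 (h ▸ ValuationSubring.mem_top _)
  set P := placeOfValuationSubring V hVk hVtop
  have hpos : ∀ z ∈ Q, rb z = 0 ∨ 0 < P.ord (rb z) := fun z hz =>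
    (mem_nonunits_iff_ord_pos P).mp (hnon z hz)
  have hxpos : 0 < P.ord (rb x) := (hpos x hxQ).resolve_left hxb0
  have hx1 : P.ord (rb x) = 1 := by
    have := hkey P
    rw [← hx] at this
    omega
  have hf : rb y / rb x = 0 ∨ 0 ≤ P.ord (rb y / rb x) := by
    rcases hpos y hyQ with h | h
    · exact Or.inl (by rw [h, zero_div])
    · refine Or.inr ?_
      rw [Curve.ord_div P (fun h0 => by rw [h0, Place.ord_zero] at h; omega) hxb0]
      omega
  obtain ⟨r, hr0, hrP, hrint, hrf⟩ :=
    exists_unit_mul_regular hvbT (a := a) (hx ▸ hxpos) hf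
  obtain ⟨r', hr'⟩ := hlift r hrint
  obtain ⟨s', hs'⟩ := hlift _ hrf
  refine ⟨r', fun h => ?_, s', ?_⟩
  · rcases hpos r' h with h' | h'
    · exact hr0 (hr' ▸ h')
    · rw [hr', hrP] at h'
      exact lt_irrefl _ h'
  · rw [map_sub, map_mul, map_mul, hr', hs', mul_assoc, div_mul_cancel₀ _ hxb0, sub_self]

end Abstract

section General

variable [Fact (Surjective (inertiaRes A))] [CharP (ResidueField A) q]
variable (v : LevelField (inertiaField A) N)
variable (hv : IsChartVar (inertiaRing A) (inertiaRes A) N (v : LaurentSeries (inertiaField A)))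

include hA hqN in
theorem etaleAway_of_key [IsAlgClosed (ResidueField A)]
    [IsFunctionField1 (ResidueField A) (modularFunctionFieldFullC (ResidueField A) N)]
    (hinj : Injective (evalRed (inertiaRes A) v hv))
    (vb : modularFunctionFieldFullC (ResidueField A) N)
    (hvb : (vb : LaurentSeries (ResidueField A)) = varRed (inertiaRes A) v hv)
    {C : Finset (inertiaRing A)}
    (hkey : ∀ a : ResidueField A, (∀ b ∈ C, inertiaRes A b ≠ a) →
      ∀ Q : Place (ResidueField A) (modularFunctionFieldFullC (ResidueField A) N),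
        Q.ord (vb - algebraMap (ResidueField A) _ a) ≤ 1) :
    EtaleAway q v C := by
  intro Q hQ hqQ a ha x hx hxQ y hyQ
  let g := chartRed (inertiaRes A) v q hqN hv
  let rb : chartRing (inertiaRing A) v →+* (modularFunctionFieldFullC (ResidueField A) N) :=
    g.codRestrict (modularFunctionFieldFullC (ResidueField A) N).toSubfield.toSubring (chartRed_mem_fullC hA hqN v hv)
  have hcoe : ∀ z, (rb z : LaurentSeries (ResidueField A)) = g z := fun _ => rfl
  have hker : RingHom.ker rb = Ideal.span {(q : chartRing (inertiaRing A) v)} := by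
    rw [← ker_chartRed v q hqN hv (natCast_ne_zero_inertiaRing hq.out) (inertiaRes_natCast hA)
      (fun _ => exists_eq_mul_of_inertiaRes_eq_zero hq.out hA)]
    ext z
    rw [RingHom.mem_ker, RingHom.mem_ker]
    exact ⟨fun h => congrArg Subtype.val h, fun h => Subtype.ext h⟩
  have hkQ : RingHom.ker rb ≤ Q := by
    rw [hker, Ideal.span_le, Set.singleton_subset_iff]
    exact hqQ
  have hconst : ∀ b, rb (algebraMap (inertiaRing A) _ b) =
      algebraMap (ResidueField A) (modularFunctionFieldFullC (ResidueField A) N) (inertiaRes A b) :=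
    fun b => Subtype.ext ((hcoe _).trans ((chartRed_algebraMap (inertiaRes A) v q hqN hv b).trans
      (Igusa.Down.coe_algebraMap_series (ResidueField A) _).symm))
  have hx' : x = chartVar v - algebraMap (inertiaRing A) _ a := Subtype.ext (by
    rw [hx]; rfl)
  have hvar : rb (chartVar v) = vb := Subtype.ext ((hcoe _).trans hvb.symm)
  have hrx : rb x = vb - algebraMap (ResidueField A) (modularFunctionFieldFullC (ResidueField A) N) (inertiaRes A a) := by
    rw [hx', map_sub, hvar, hconst]
  obtain ⟨r, hr, s, hrs⟩ := exists_mul_sub_mem_ker rb hQ.ne_top hkQ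
    (transcendental_of_injective _ hvb hinj)
    (fun c => by obtain ⟨b, rfl⟩ := inertiaRes_surjective hq.out hA c; exact ⟨_, hconst b⟩)
    (fun z hz => by
      obtain ⟨p, hp, hpz⟩ := Igusa.Down.exists_monic_of_isIntegral_adjoin hz
      have h := congrArg Subtype.val hpz
      rw [Igusa.Down.coe_eval₂_aeval, hvb] at h
      obtain ⟨z', hz'⟩ := exists_chartRed_eq hq.out hA hqN v hv hinj z.2 hp h
      exact ⟨z', Subtype.ext hz'⟩)
    (hkey (inertiaRes A a) fun b hb e => ha b hb ((residueEquiv hq.out hA).injective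
      (by rw [residueEquiv_residue, residueEquiv_residue]; exact e.symm))) hrx hxQ hyQ
  refine ⟨r, hr, ?_⟩
  rw [← RingHom.mem_ker, hker] at hrs
  rw [← sub_add_cancel (r * y) (s * x)]
  exact add_mem (Ideal.span_mono (Set.singleton_subset_iff.mpr (Set.mem_insert _ _)) hrs)
    (Ideal.mul_mem_left _ _ (Ideal.subset_span (Set.mem_insert_of_mem _ rfl)))

end General

variable (H : Hauptmodul q) (hN : H.L ∣ N) {R : ℤ[X]} (hR : IsCuspPoly H R) (hR0 : R.coeff 0 = 0)
variable (hH : H.IsCoord)

include hA hqN hN hR hR0 hH in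
/-- The values of the reduced coordinate away from the cusps are taken simply. -/
theorem ord_uBar_sub_le_one' [IsAlgClosed (ResidueField A)]
    [IsFunctionField1 (ResidueField A) (modularFunctionFieldFullC (ResidueField A) N)]
    {a : ResidueField A} (ha : ∀ b ∈ cuspSet R (inertiaRing A), inertiaRes A b ≠ a)
    (Q : Place (ResidueField A) (modularFunctionFieldFullC (ResidueField A) N)) :
    Q.ord (uBar H hN A hA hqN - algebraMap (ResidueField A) _ a) ≤ 1 := by
  classical
  have := Igusa.Down.isFunctionField1_bar N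
  have hsplit := splits_inertiaRing hq.out hA hR.monic hR.separable
  refine ord_uBar_sub_le_one H hN A hA hqN hR hH
    ((cuspSet R (inertiaRing A)).image (inertiaIncl A))
    ⟨inertiaIncl A 0, Finset.mem_image_of_mem _
      ((mem_cuspSet_iff H hR).mpr (by rw [eval₂_at_zero, hR0, map_zero]))⟩ ?_ ?_ ?_ Q
  · intro b hb c hc h
    obtain ⟨b, hb', rfl⟩ := Finset.mem_image.mp hb
    obtain ⟨c, hc', rfl⟩ := Finset.mem_image.mp hc
    have hmem : ∀ d ∈ cuspSet R (inertiaRing A), d ∈ (R.map (Int.castRingHom _)).roots :=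
      fun d hd => by
        rw [mem_roots (hR.monic.map _).ne_zero, IsRoot.def, eval_map]
        exact (mem_cuspSet_iff H hR).mp hd
    refine congrArg _ (Multiset.inj_on_of_nodup_map
      (roots_nodup_residue H hR hsplit (residue_natCast_inertiaRing hA)) b
      (hmem b hb') c (hmem c hc')
      ((residueEquiv hq.out hA).injective ?_))
    rw [residueEquiv_residue, residueEquiv_residue]
    exact h
  · intro c hc
    have hp := prod_cuspSet H hR hsplit (residue_natCast_inertiaRing hA)
    have h : (∏ b ∈ cuspSet R (inertiaRing A), (X - C b)).eval₂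
        (A.subtype.comp (inertiaIncl A)) c = 0 := by
      rw [hp, eval₂_map, ← hc]
      exact eval₂_congr (RingHom.ext_int _ _) rfl rfl
    rw [eval₂_finsetProd, Finset.prod_eq_zero_iff] at h
    obtain ⟨b, hb, hb0⟩ := h
    rw [eval₂_sub, eval₂_X, eval₂_C, sub_eq_zero] at hb0
    exact ⟨_, Finset.mem_image_of_mem _ hb, hb0.symm⟩
  · intro c hc
    obtain ⟨b, hb, rfl⟩ := Finset.mem_image.mp hc
    exact ha b hb

include hA hqN hR hR0 hH in
/-- The chart at `0` is étale over `u` away from the cusps. -/
theorem etaleAway_uElt :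
    EtaleAway q (uElt (inertiaField A) H hN) (cuspSet R (inertiaRing A)) := by
  have := Fact.mk (inertiaRes_surjective hq.out hA)
  have := Igusa.Down.charP_residueField hq.out hA
  have := Igusa.Down.isAlgClosed_residueField A
  have := Igusa.Down.isFunctionField1_fibre' N hq.out hqN hA
  have hv : IsChartVar (inertiaRing A) (inertiaRes A) N
      ((uElt (inertiaField A) H hN : LevelField (inertiaField A) N) :
        LaurentSeries (inertiaField A)) := by
    rw [coe_uElt]; exact isChartVar_uSeries H q hqN hN hR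
  obtain ⟨hm, hr⟩ := intSeries_mem_gaussRing (π := inertiaRes A) q hqN
    (mem_field_uElt (L := inertiaField A) H hN)
  have hvb : (uBar H hN A hA hqN : LaurentSeries (ResidueField A)) = varRed (inertiaRes A) _ hv :=
    ((congrArg (gaussRed _ _ N) (Subtype.ext (coe_uElt _ H hN))).trans hr).symm
  refine etaleAway_of_key hA hqN _ hv ((injective_iff_map_eq_zero _).mpr fun p hp => ?_) _ hvb
    fun a ha Q => ord_uBar_sub_le_one' hA hqN H hN hR hR0 hH ha Q
  rw [evalRed, coe_eval₂RingHom, ← hvb, coe_uBar, eval₂_C_eq_aeval] at hp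
  exact eq_zero_of_aeval_uSeries H _ hp

include hA hqN hR hR0 hH in
/-- The chart at infinity is étale over `1/u` away from the cusps. -/
theorem etaleAway_uInv [IsDiscreteValuationRing (inertiaRing A)] :
    EtaleAway q (uElt (inertiaField A) H hN)⁻¹ (inertiaChartInv H hN hR hR0 hA).cusps := by
  classical
  have := Fact.mk (inertiaRes_surjective hq.out hA)
  have := Igusa.Down.charP_residueField hq.out hA
  have := Igusa.Down.isAlgClosed_residueField A
  have := Igusa.Down.isFunctionField1_fibre' N hq.out hqN hA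
  have hcoe : (((uElt (inertiaField A) H hN)⁻¹ : LevelField (inertiaField A) N) :
      LaurentSeries (inertiaField A)) =
        coeffMap (Int.castRingHom (inertiaField A)) (uInvSeries H) := by
    rw [IntermediateField.coe_inv, coe_uElt, inv_uSeries]
  have hv : IsChartVar (inertiaRing A) (inertiaRes A) N
      (((uElt (inertiaField A) H hN)⁻¹ : LevelField (inertiaField A) N) :
        LaurentSeries (inertiaField A)) := by
    rw [hcoe]; exact isChartVar_uInvSeries H q hqN hN hR
  obtain ⟨hm, hr⟩ := intSeries_mem_gaussRing (π := inertiaRes A) q hqN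
    (mem_field_uInv (L := inertiaField A) H hN)
  have hvb : (((uBar H hN A hA hqN)⁻¹ : modularFunctionFieldFullC (ResidueField A) N) :
      LaurentSeries (ResidueField A)) = varRed (inertiaRes A) _ hv := by
    rw [IntermediateField.coe_inv, coe_uBar, inv_uSeries]
    exact ((congrArg (gaussRed _ _ N) (Subtype.ext hcoe)).trans hr).symm
  refine etaleAway_of_key hA hqN _ hv ((injective_iff_map_eq_zero _).mpr fun p hp => ?_) _ hvb ?_
  · rw [evalRed, coe_eval₂RingHom, ← hvb, IntermediateField.coe_inv, coe_uBar,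
      eval₂_C_eq_aeval] at hp
    by_contra hp0
    obtain ⟨r, hr0, hr'⟩ := IsAlgebraic.inv_iff.mp (⟨p, hp0, hp⟩ : IsAlgebraic _ _)
    exact hr0 (eq_zero_of_aeval_uSeries H _ hr')
  intro a ha Q
  let P := inertiaChart H hN hR hR0 hA
  have hcusps : (inertiaChartInv H hN hR hR0 hA).cusps =
      (cuspSet R (inertiaRing A)).image Ring.inverse := by
    rw [inertiaChartInv, invPolyChart_cusps]
  rw [hcusps] at ha
  have hinv : ∀ b ∈ cuspSet R (inertiaRing A),
      inertiaRes A (Ring.inverse b) = (inertiaRes A b)⁻¹ := fun b hb => by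
    rw [← residueEquiv_residue hq.out hA, P.residue_inverse hb, map_inv₀, residueEquiv_residue]
  have ha0 : a ≠ 0 := fun h => ha 0 (Finset.mem_image.mpr ⟨0,
    (mem_cuspSet_iff H hR).mpr (by rw [eval₂_at_zero, hR0, map_zero]), Ring.inverse_zero _⟩)
    (by rw [h]; exact map_zero _)
  by_contra! hgt
  have hub0 : (uBar H hN A hA hqN) ≠ 0 := fun h => by
    have := transcendental_uBar H hN A hA hqN
    rw [h] at this
    exact this isAlgebraic_zero
  set c := algebraMap (ResidueField A) (modularFunctionFieldFullC (ResidueField A) N) a with hc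
  have hc0 : c ≠ 0 := (_root_.map_ne_zero _).mpr ha0
  have hval : Q.ord (uBar H hN A hA hqN) = 0 := by
    have hmem : (uBar H hN A hA hqN)⁻¹ ∈ Q.toValuationSubring := by
      simpa [hc] using add_mem ((Curve.mem_iff_ord_nonneg Q).mpr (Or.inr (by omega : 0 ≤ Q.ord ((uBar H hN A hA hqN)⁻¹ - c))))
        (Q.algebraMap_mem' a)
    have hv' := valueAt_eq_of Q (f := (uBar H hN A hA hqN)⁻¹) (a := a)
      (Or.inr (show 0 < Q.ord ((uBar H hN A hA hqN)⁻¹ - c) by omega))
    have h0 := ord_nonneg_of_mem' Q hmem
    by_contra hne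
    refine ha0 (hv'.symm.trans ((valueAt_eq_zero_iff Q hmem).mpr (Or.inr ?_)))
    rw [Q.ord_inv] at h0 ⊢
    omega
  have h := ord_uBar_sub_le_one' hA hqN H hN hR hR0 hH (a := a⁻¹) (fun b hb hba => by
    refine ha (Ring.inverse b) (Finset.mem_image_of_mem _ hb) ?_
    rw [hinv b hb, hba, inv_inv]) Q
  have e : (uBar H hN A hA hqN)⁻¹ - c = -((uBar H hN A hA hqN)⁻¹ * c) * ((uBar H hN A hA hqN) - algebraMap (ResidueField A) _ a⁻¹) := by
    rw [map_inv₀, ← hc]
    field_simp
    ring
  have hne : (uBar H hN A hA hqN) - algebraMap (ResidueField A) _ a⁻¹ ≠ 0 := fun h0 => by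
    rw [e, h0, mul_zero, Place.ord_zero] at hgt
    omega
  rw [e, Q.ord_mul (neg_ne_zero.mpr (mul_ne_zero (inv_ne_zero hub0) hc0)) hne, Curve.ord_neg,
    Q.ord_mul (inv_ne_zero hub0) hc0, Q.ord_inv, hval, Curve.ord_algebraMap_const] at hgt
  omega

end FermatAgent.BadRed.Carayol.Instance
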