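import Fermat.Agent.BadRed.Carayol.Instance.Basics
import Fermat.Agent.ModCurve.Points.GenusBar

/-!
# In characteristic zero `u` is unramified away from the cusps
-/

set_option autoImplicit false
set_option linter.unusedSectionVars false
set_option linter.style.haveILetI false
set_option synthInstance.maxHeartbeats 200000

noncomputable section

open UpperHalfPlane hiding I
open Polynomial AlgebraicCurve Filter Topology
open scoped MatrixGroups
open FermatAgent.ModFun FermatAgent.ModCurve.Points FermatAgent.Curve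
open ModularCurve (coeffMap modularFunctionFieldFull laurentBaseChange modularFunctionFieldBar)

namespace FermatAgent.BadRed.Carayol.Instance

variable {q : ℕ} [hq : Fact q.Prime] [NeZero q] (H : Hauptmodul q) {R : ℤ[X]}
variable {N : ℕ} [NeZero N] (hN : H.L ∣ N)

section Rel

variable (K : Type*) [Field K] [Algebra ℚ K]

theorem coe_aeval_uElt (P : ℤ[X]) :
    ((aeval (uElt K H hN) P : LevelField K N) : LaurentSeries K) =
      coeffMap (Int.castRingHom K) (aeval (uSeries H) P) := by
  show (LevelField K N).val.toRingHom (aeval (uElt K H hN) P) = _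
  rw [aeval_def, aeval_def, hom_eval₂, hom_eval₂]
  exact eval₂_congr (RingHom.ext_int _ _) (coe_uElt K H hN) rfl

/-- `P(u) = j · R(u) ^ L` in the function field. -/
theorem aeval_uElt_rel {P : ℤ[X]}
    (hP : aeval (uSeries H) P = ModularCurve.jqModC ℤ * aeval (uSeries H) R ^ H.L) :
    aeval (uElt K H hN) P = jBar K N * aeval (uElt K H hN) R ^ H.L := by
  refine Subtype.ext ?_
  rw [MulMemClass.coe_mul, SubmonoidClass.coe_pow, coe_aeval_uElt, coe_aeval_uElt, hP, map_mul,
    map_pow, coe_jBar, ModularCurve.coeffMap_jqModC]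

end Rel

theorem valueAt_aeval_int {K F : Type*} [Field K] [Field F] [Algebra K F] [IsAlgClosed K]
    [IsFunctionField1 K F] (P : Place K F) {x : F} {a : K} (hP : 0 < P.ord (x - algebraMap K F a))
    (S : ℤ[X]) : aeval x S ∈ P.toValuationSubring ∧
      valueAt P (aeval x S) = S.eval₂ (Int.castRingHom K) a := by
  have hx : x ∈ P.toValuationSubring := by
    simpa using add_mem ((Curve.mem_iff_ord_nonneg P).mpr (Or.inr hP.le)) (P.algebraMap_mem' a)
  rw [← aeval_map_algebraMap K]
  refine ⟨Curve.Diff.aeval_mem P hx _, ?_⟩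
  rw [valueAt_aeval P hx, valueAt_eq_of P (Or.inr hP), eval_map]
  exact eval₂_congr (RingHom.ext_int _ _) rfl rfl

/-- Over `ℂ` the values of `u` away from the cusps are taken simply. -/
theorem ord_uElt_sub_le_one_C (hco : H.IsCoord) (hR : IsCuspPoly H R) {a : ℂ}
    (ha : R.eval₂ (Int.castRingHom ℂ) a ≠ 0) (P : Place ℂ (FieldC N)) :
    P.ord (uElt ℂ H hN - algebraMap ℂ (FieldC N) a) ≤ 1 := by
  by_contra! hgt
  set x : FieldC N := uElt ℂ H hN
  rcases exists_point_or_cusp N P with ⟨z, rfl⟩ | ⟨h, rfl⟩
  · obtain ⟨a', b', hb, hx⟩ := ModCurve.Points.exists_div N x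
    set uc : cuspRing := ⟨H.u, levelRing_le_cuspRing _ H.mem⟩
    have hfun : (a' : cuspRing) = (b' : cuspRing) * uc := by
      refine qLaurentHom_injective ?_
      have h1 := (eq_div_iff ((map_ne_zero_iff _ (toField_injective N)).mpr hb)).mp hx
      have h2 := congrArg (fun y : FieldC N => (y : LaurentSeries ℂ)) h1
      simp only [MulMemClass.coe_mul, coe_toField] at h2
      rw [map_mul, show qLaurentHom uc = (x : LaurentSeries ℂ) by
        rw [qLaurentHom_apply, coe_uElt]; exact qLaurent_u_eq H, ← h2, mul_comm]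
    set f : ℂ → ℂ := H.u ∘ ofComplex with hf
    have hfd : DifferentiableOn ℂ f upperHalfPlaneSet :=
      UpperHalfPlane.mdifferentiable_iff.mp (levelRing_le_cuspRing _ H.mem).1
    have hfa : AnalyticAt ℂ f z := hfd.analyticAt (isOpen_upperHalfPlaneSet.mem_nhds z.im_pos)
    have hga : AnalyticAt ℂ (fun w => f w - a) z := hfa.sub analyticAt_const
    set g := MeroGerm.mk (fun w => f w - a) hga.meromorphicAt
    have hmul : pointHom N z 1 (toField N b') * g =
        pointHom N z 1 (toField N (a' - algebraMap ℂ _ a * b')) := by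
      rw [pointHom_toField, pointHom_toField, germHom_apply, germHom_apply, MeroGerm.mk_mul,
        MeroGerm.mk_eq_mk]
      refine Eventually.of_forall fun w => ?_
      have hv := congrFun (congrArg Subtype.val hfun) ((1 : SL(2, ℤ)) • ofComplex w)
      show evalH b' ((1 : SL(2, ℤ)) • ofComplex w) * (H.u (ofComplex w) - a) =
        evalH a' ((1 : SL(2, ℤ)) • ofComplex w) - a * evalH b' ((1 : SL(2, ℤ)) • ofComplex w)
      rw [show evalH a' ((1 : SL(2, ℤ)) • ofComplex w) = evalH b' ((1 : SL(2, ℤ)) • ofComplex w) *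
        H.u ((1 : SL(2, ℤ)) • ofComplex w) from hv, one_smul]
      ring
    have hb0 : pointHom N z 1 (toField N b') ≠ 0 :=
      (_root_.map_ne_zero _).mpr ((map_ne_zero_iff _ (toField_injective N)).mpr hb)
    have hxa : toField N (a' - algebraMap ℂ _ a * b') = (x - algebraMap ℂ _ a) * toField N b' := by
      erw [map_sub (toField N)]
      rw [map_mul, AlgHom.commutes, sub_mul, hx,
        div_mul_cancel₀ _ ((map_ne_zero_iff _ (toField_injective N)).mpr hb)]
    rw [hxa, map_mul, mul_comm _ g] at hmul
    have hgx := mul_right_cancel₀ hb0 hmul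
    have hord := ordAt_eq N z (x - algebraMap ℂ (FieldC N) a)
    have hval : ordAt N z (x - algebraMap ℂ (FieldC N) a) =
        (meromorphicOrderAt (fun w => f w - a) (z : ℂ)).untopD 0 := by
      rw [ordAt, ← hgx, ValTarget.ordZ,
        show (MeroGerm.valTarget (z : ℂ)).v = MeroGerm.ord from rfl, MeroGerm.ord_mk]
    have hle : (meromorphicOrderAt (fun w => f w - a) (z : ℂ)).untopD 0 ≤ 1 := by
      rw [hga.meromorphicOrderAt_eq]
      by_cases hz : f z = a
      · have h1 := hfa.analyticOrderAt_sub_eq_one_of_deriv_ne_zero (hco.deriv_ne z)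
        rw [hz] at h1
        rw [h1]
        exact le_rfl
      · rw [show analyticOrderAt (fun w => f w - a) (z : ℂ) = 0 from
          analyticOrderAt_eq_zero.mpr (Or.inr (sub_ne_zero.mpr hz))]
        exact zero_le_one
    have hidx := ellIndex_pos N z
    rw [hval] at hord
    nlinarith
  · set P := cuspPlace N h
    have hjneg : P.ord (jBar ℂ N) < 0 := by
      rw [ord_jBar_cuspPlace]
      have := cuspWidth_pos N h
      omega
    obtain ⟨S, hS⟩ := exists_j_eq_eval H hR
    have hrel := aeval_uElt_rel H hN ℂ hS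
    obtain ⟨hRm, hRv⟩ := valueAt_aeval_int P (a := a) (by omega : 0 < P.ord (x - algebraMap ℂ _ a)) R
    obtain ⟨hSm, -⟩ := valueAt_aeval_int P (a := a) (by omega : 0 < P.ord (x - algebraMap ℂ _ a)) S
    have hR0 : aeval x R ≠ 0 := fun h0 => ha (by
      rw [← hRv, h0, ← map_zero (algebraMap ℂ (FieldC N)), valueAt_algebraMap])
    have hRo : P.ord (aeval x R) = 0 := by
      refine le_antisymm ?_ (ord_nonneg_of_mem' P hRm)
      by_contra hlt
      exact ha (hRv ▸ (valueAt_eq_zero_iff P hRm).mpr (Or.inr (by omega)))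
    have h1 := ord_nonneg_of_mem' P hSm
    rw [hrel, P.ord_mul (fun h0 => by rw [h0, Place.ord_zero] at hjneg; omega) (pow_ne_zero _ hR0),
      Curve.ord_pow' P, hRo] at h1
    omega

/-- Over `ℚbar` the values of `u` away from the cusps are taken simply. -/
theorem ord_uElt_sub_le_one_bar (hco : H.IsCoord) (hR : IsCuspPoly H R)
    [IsFunctionField1 (AlgebraicClosure ℚ) (modularFunctionFieldBar N)]
    {a : AlgebraicClosure ℚ} (ha : R.eval₂ (Int.castRingHom (AlgebraicClosure ℚ)) a ≠ 0)
    (P : Place (AlgebraicClosure ℚ) (modularFunctionFieldBar N)) :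
    P.ord (uElt (AlgebraicClosure ℚ) H hN -
      algebraMap (AlgebraicClosure ℚ) (modularFunctionFieldBar N) a) ≤ 1 := by
  let K := AlgebraicClosure ℚ
  let φ : K →+* ℂ := (qbarToC : AlgebraicClosure ℚ →+* ℂ)
  let F := laurentBaseChange K (modularFunctionFieldFull N)
  let ψ : F →+* FieldC N := extendConstants (modularFunctionFieldFull N) φ
  letI : Algebra K ℂ := φ.toAlgebra
  letI : Algebra F (FieldC N) := ψ.toAlgebra
  letI : Algebra K (FieldC N) := ((algebraMap ℂ (FieldC N)).comp φ).toAlgebra
  haveI : IsScalarTower K ℂ (FieldC N) := IsScalarTower.of_algebraMap_eq fun _ => rfl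
  haveI : IsScalarTower K F (FieldC N) :=
    IsScalarTower.of_algebraMap_eq fun c =>
      (extendConstants_algebraMap (F₀ := modularFunctionFieldFull N) φ c).symm
  have hj : algebraMap F (FieldC N) (jBar K N) = jBar ℂ N := by
    refine Subtype.ext ?_
    show coeffMap φ (ModularCurve.jqModC K) = ModularCurve.jqModC ℂ
    exact ModularCurve.coeffMap_jqModC φ
  have hjN : algebraMap F (FieldC N) (jNBar K N) = jNBar ℂ N := by
    refine Subtype.ext ?_
    show coeffMap φ (ModularCurve.jqNModC K N) = ModularCurve.jqNModC ℂ N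
    exact ModularCurve.coeffMap_jqNModC φ N
  haveI : Curve.Descent.IsConstantExtension K ℂ F (FieldC N) := by
    refine ⟨top_le_iff.1 ?_, ⟨jBar K N, ?_⟩⟩
    · rw [← adjoin_jBar_jNBar ℂ N, IntermediateField.adjoin_le_iff]
      rintro x (rfl | rfl)
      · exact IntermediateField.subset_adjoin _ _ ⟨_, hj⟩
      · exact IntermediateField.subset_adjoin _ _ ⟨_, hjN⟩
    · rw [hj]; exact transcendental_jBar ℂ N
  have hu : algebraMap F (FieldC N) (uElt K H hN - algebraMap K F a) =
      uElt ℂ H hN - algebraMap ℂ (FieldC N) (φ a) := by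
    rw [map_sub]
    refine congrArg₂ (· - ·) (Subtype.ext ?_) (extendConstants_algebraMap φ a)
    show coeffMap φ (uElt K H hN : LaurentSeries K) = _
    rw [coe_uElt, coe_uElt, ModularCurve.coeffMap_coeffMap]
    exact ModularCurve.coeffMap_congr (RingHom.ext_int _ _) _
  have h := ord_uElt_sub_le_one_C H hN hco hR (a := φ a) (fun h0 => ha (φ.injective (by
    rw [map_zero, ← h0, hom_eval₂]
    exact eval₂_congr (RingHom.ext_int _ _) rfl rfl))) (Curve.Descent.extPlace ℂ (FieldC N) P)
  rw [← hu, Curve.Descent.ord_extPlace] at h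
  exact h

end FermatAgent.BadRed.Carayol.Instance
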