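import Fermat.Agent.BadRed.Carayol.Instance.RamBound
import Fermat.Agent.JacCharts.Basic
import Fermat.Agent.Curve.Descent.RiemannRoch
import Fermat.Agent.Curve.RR.Setup
import Mathlib.RingTheory.Coprime.Lemmas

/-!
# Counting ramification above a finite set of values, degree of a rational function
-/

set_option autoImplicit false
set_option linter.unusedSectionVars false

noncomputable section

open AlgebraicCurve IntermediateField Polynomial FermatAgent.Curve.RR FermatAgent.Curve.Diff

namespace FermatAgent.BadRed.Carayol.Instance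

open FermatAgent.Curve

variable {K F : Type*} [Field K] [Field F] [Algebra K F] [IsAlgClosed K] [IsFunctionField1 K F]

open scoped Classical in
/-- The places where `x` has a pole or a value in `C`. -/
def specialPlaces (x : F) (C : Finset K) : Finset (Place K F) :=
  C.biUnion (fun c => zerosFinset (x - algebraMap K F c)) ∪ zerosFinset x⁻¹

theorem mem_specialPlaces {x : F} {C : Finset K} {Q : Place K F} :
    Q ∈ specialPlaces x C ↔
      (∃ c ∈ C, 0 < Q.ord (x - algebraMap K F c)) ∨ Q.ord x < 0 := by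
  classical
  simp [specialPlaces, mem_zerosFinset, Q.ord_inv]

section Line

variable {L : Type*} [Field L] [Algebra K L] [Algebra L F] [IsScalarTower K L F] {u : L}
variable [FiniteDimensional L F] [Algebra.IsSeparable L F]

theorem sum_ramDivisor_zerosAt (hu : IsGen K u) (c : K) :
    ∑ Q ∈ zerosAt (F := F) u c, ramDivisor hu Q =
      (Module.finrank L F : ℤ) - (zerosAt (F := F) u c).card := by
  rw [← sum_eAt (F := F) hu c, Nat.cast_sum, Finset.card_eq_sum_ones, Nat.cast_sum,
    ← Finset.sum_sub_distrib]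
  exact Finset.sum_congr rfl fun Q hQ => by
    rw [ramDivisor_apply, ramIdx_of_mem_zerosAt hQ, Nat.cast_one]

theorem sum_ramDivisor_poles (hu : IsGen K u) :
    ∑ Q ∈ zerosAt (F := F) u⁻¹ (0 : K), ramDivisor hu Q =
      (Module.finrank L F : ℤ) - (zerosAt (F := F) u⁻¹ (0 : K)).card := by
  rw [← sum_eAt (F := F) hu.inv (0 : K), Nat.cast_sum, Finset.card_eq_sum_ones, Nat.cast_sum,
    ← Finset.sum_sub_distrib]
  exact Finset.sum_congr rfl fun Q hQ => by
    rw [ramDivisor_apply, ramIdx_of_mem_zerosAt_inv hu hQ, Nat.cast_one]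

theorem specialPlaces_eq (C : Finset K) :
    specialPlaces (algebraMap L F u) C =
      (by classical exact C.biUnion (zerosAt (F := F) u) ∪ zerosAt (F := F) u⁻¹ (0 : K)) := by
  classical
  ext Q
  simp [specialPlaces, zerosAt, map_inv₀]

theorem sum_ramDivisor_special (hu : IsGen K u) (C : Finset K) :
    ∑ Q ∈ specialPlaces (algebraMap L F u) C, ramDivisor hu Q =
      ((C.card : ℤ) + 1) * Module.finrank L F - (specialPlaces (algebraMap L F u) C).card := by
  classical
  have hd : (C : Set K).PairwiseDisjoint (zerosAt (F := F) u) := fun c _ c' _ hne =>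
    Finset.disjoint_left.mpr fun Q h h' =>
      hne ((mem_and_valueAt_eq h).2.symm.trans (mem_and_valueAt_eq h').2)
  have hd' : Disjoint (C.biUnion (zerosAt (F := F) u)) (zerosAt (F := F) u⁻¹ (0 : K)) :=
    Finset.disjoint_left.mpr fun Q h h' => by
      obtain ⟨c, -, hc⟩ := Finset.mem_biUnion.mp h
      exact (mem_zerosAt_inv_iff hu).mp h' (finAt_of_mem_zerosAt hc)
  rw [specialPlaces_eq, Finset.sum_union hd', Finset.sum_biUnion hd, Finset.card_union_of_disjoint hd',
    Finset.card_biUnion hd, Finset.sum_congr rfl fun c _ => sum_ramDivisor_zerosAt hu c,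
    Finset.sum_sub_distrib, sum_ramDivisor_poles hu]
  simp only [Finset.sum_const, nsmul_eq_mul, Nat.cast_add, Nat.cast_sum]
  ring

variable [RRSetting K F]

theorem ord_sub_le_of_gen (hu : IsGen K u) {C : Finset K} {c₀ : K} (hc₀ : c₀ ∉ C)
    {Q₀ : Place K F} (hQ₀ : 0 < Q₀.ord (algebraMap L F u - algebraMap K F c₀)) :
    ((C.card : ℤ) + 1) * Module.finrank L F - (specialPlaces (algebraMap L F u) C).card
      + (Q₀.ord (algebraMap L F u - algebraMap K F c₀) - 1)
      ≤ 2 * (genusFF K F : ℤ) - 2 + 2 * Module.finrank L F := by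
  classical
  have hQz : Q₀ ∈ zerosAt u c₀ := mem_zerosFinset.mpr hQ₀
  have hnot : Q₀ ∉ specialPlaces (algebraMap L F u) C := fun h => by
    rw [specialPlaces_eq, Finset.mem_union] at h
    rcases h with h | h
    · obtain ⟨c, hc, hQc⟩ := Finset.mem_biUnion.mp h
      exact hc₀ ((mem_and_valueAt_eq hQz).2.symm.trans (mem_and_valueAt_eq hQc).2 ▸ hc)
    · exact (mem_zerosAt_inv_iff hu).mp h (finAt_of_mem_zerosAt hQz)
  refine le_trans ?_ (degree_ramDivisor_le (F := F) hu)
  set D := ramDivisor (F := F) hu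
  set T := insert Q₀ (specialPlaces (algebraMap L F u) C)
  have h1 : ∑ Q ∈ T, D Q ≤ Divisor.degree D := by
    rw [FermatAgent.Curve.degree_eq_sum, Finsupp.sum]
    calc ∑ Q ∈ T, D Q ≤ ∑ Q ∈ T ∪ D.support, D Q := by
          refine Finset.sum_le_sum_of_subset_of_nonneg Finset.subset_union_left fun Q _ _ => ?_
          rw [ramDivisor_apply]
          have := ramIdx_pos (F := F) hu Q
          omega
      _ = ∑ Q ∈ D.support, D Q :=
          (Finset.sum_subset Finset.subset_union_right fun Q _ hQ =>
            Finsupp.notMem_support_iff.mp hQ).symm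
  refine le_trans (le_of_eq ?_) h1
  rw [Finset.sum_insert hnot, sum_ramDivisor_special hu, ramDivisor_apply,
    ramIdx_of_mem_zerosAt hQz, cast_eAt hQz]
  ring

theorem card_special_of_gen [CharZero K] (hu : IsGen K u) {C : Finset K}
    (hunram : ∀ c ∉ C, ∀ Q : Place K F, Q.ord (algebraMap L F u - algebraMap K F c) ≤ 1) :
    ((C.card : ℤ) + 1) * Module.finrank L F - (specialPlaces (algebraMap L F u) C).card
      = 2 * (genusFF K F : ℤ) - 2 + 2 * Module.finrank L F := by
  classical
  rw [← degree_ramDivisor (F := F) hu (isTame_of_charZero hu), ← sum_ramDivisor_special hu,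
    FermatAgent.Curve.degree_eq_sum, Finsupp.sum]
  refine (Finset.sum_subset (fun Q hQ => ?_) fun Q _ hQ => Finsupp.notMem_support_iff.mp hQ).symm
  by_contra h
  rw [specialPlaces_eq, Finset.mem_union, not_or, mem_zerosAt_inv_iff hu, not_not] at h
  have hz := h.2.mem_zerosAt hu
  have hc : valueAt Q (algebraMap L F u) ∉ C := fun hc => h.1 (Finset.mem_biUnion.mpr ⟨_, hc, hz⟩)
  refine Finsupp.mem_support_iff.mp hQ ?_
  rw [ramDivisor_apply, ramIdx_of_mem_zerosAt hz, cast_eAt hz]
  have h1 := hunram _ hc Q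
  have h2 := mem_zerosFinset.mp hz
  omega

end Line

variable [RRSetting K F]

theorem isGen_adjoin {x : F} (hx : Transcendental K x) :
    IsGen K (⟨x, mem_adjoin_simple_self K x⟩ : K⟮x⟯) :=
  ⟨fun h => hx (h.algebraMap (A := F)), Descent.adjoinSimple_gen_eq_top x⟩

/-- The bound from Riemann–Hurwitz on an index outside `C`. -/
theorem ord_sub_le_of_special {x : F} (hx : Transcendental K x) [Algebra.IsSeparable K⟮x⟯ F]
    {C : Finset K} {c₀ : K} (hc₀ : c₀ ∉ C) {Q₀ : Place K F}
    (hQ₀ : 0 < Q₀.ord (x - algebraMap K F c₀)) :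
    ((C.card : ℤ) + 1) * Module.finrank K⟮x⟯ F - (specialPlaces x C).card
      + (Q₀.ord (x - algebraMap K F c₀) - 1)
      ≤ 2 * (genusFF K F : ℤ) - 2 + 2 * Module.finrank K⟮x⟯ F :=
  have := finiteDimensional_adjoin_of_transcendental hx
  ord_sub_le_of_gen (L := K⟮x⟯) (isGen_adjoin hx) hc₀ hQ₀

/-- Riemann–Hurwitz when the ramification lies over `C`. -/
theorem card_specialPlaces [CharZero K] {x : F} (hx : Transcendental K x)
    {C : Finset K} (hunram : ∀ c ∉ C, ∀ Q : Place K F, Q.ord (x - algebraMap K F c) ≤ 1) :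
    ((C.card : ℤ) + 1) * Module.finrank K⟮x⟯ F - (specialPlaces x C).card
      = 2 * (genusFF K F : ℤ) - 2 + 2 * Module.finrank K⟮x⟯ F :=
  have := finiteDimensional_adjoin_of_transcendental hx
  card_special_of_gen (L := K⟮x⟯) (isGen_adjoin hx) hunram

/-! ### The degree of `P(x)/Q(x)` -/

theorem ord_aeval_of_neg {x : F} (hx : Transcendental K x) {v : Place K F} (hv : v.ord x < 0)
    {p : K[X]} (hp : p ≠ 0) : v.ord (aeval x p) = (p.natDegree : ℤ) * v.ord x := by
  have := finiteDimensional_adjoin_of_transcendental hx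
  have hu := isGen_adjoin (F := F) hx
  set g : K⟮x⟯ := ⟨x, mem_adjoin_simple_self K x⟩ with hg
  have hQ : v ∈ zerosAt g⁻¹ (0 : K) := by
    rw [mem_zerosAt_inv_iff hu]
    intro h
    have h' : OrdGE v 0 x := h
    have := h'.le_ord (fun h0 => by simp [h0] at hv)
    omega
  have h := ord_aeval_inf hu hQ hp
  rw [← aeval_algebraMap_apply, cast_eAt_inv hu hQ] at h
  change v.ord (aeval x p) = -((p.natDegree : ℤ) * -v.ord x) at h
  linarith

theorem aeval_ne_zero_of_transcendental {x : F} (hx : Transcendental K x) {p : K[X]} (hp : p ≠ 0) :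
    aeval x p ≠ 0 := fun h => hx ⟨p, hp, h⟩

/-- The divisor bounding the poles of `P(x)/Q(x)`. -/
def ratPoles (x : F) (P Q : K[X]) : Divisor K F :=
  (P.natDegree - Q.natDegree) • polePart (K := K) x + polePart (K := K) (aeval x Q)⁻¹

theorem degree_ratPoles {x : F} (hx : Transcendental K x) {P Q : K[X]} (hQ : Q ≠ 0) :
    Divisor.degree (ratPoles x P Q) =
      (max P.natDegree Q.natDegree : ℕ) * (Module.finrank K⟮x⟯ F : ℤ) := by
  have hQx := aeval_ne_zero_of_transcendental hx hQ
  have e : polePart (K := K) (aeval x Q)⁻¹ =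
      polePart (K := K) (aeval x Q) + divisorOf (K := K) (aeval x Q) := by
    ext v
    rw [Finsupp.add_apply, polePart_apply, polePart_apply, divisorOf_apply, v.ord_inv]
    omega
  have e' : polePart (K := K) (aeval x Q) = Q.natDegree • polePart (K := K) x := by
    ext v
    rw [Finsupp.smul_apply, polePart_apply, polePart_apply, nsmul_eq_mul]
    rcases le_or_gt 0 (v.ord x) with h | h
    · have hmem := Curve.Diff.aeval_mem v ((Curve.mem_iff_ord_nonneg v).mpr (Or.inr h)) Q
      have := ord_nonneg_of_mem' v hmem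
      rw [max_eq_left (by omega), max_eq_left (by omega), mul_zero]
    · rw [ord_aeval_of_neg hx h hQ, max_eq_right (by omega : (0 : ℤ) ≤ -v.ord x),
        max_eq_right (by nlinarith)]
      ring
  rw [ratPoles, e, e', map_add, map_add, JacCharts.degree_of_principal (divisorOf_mem_principal hQx),
    map_nsmul, map_nsmul, degree_polePart_eq hx, nsmul_eq_mul, nsmul_eq_mul, add_zero, ← add_mul]
  congr 1
  rw [← Nat.cast_add]
  exact congrArg _ (by omega)

theorem polePart_le_ratPoles {x y : F} (hx : Transcendental K x) {P Q : K[X]} (hQ : Q ≠ 0)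
    (h : aeval x P = y * aeval x Q) :
    polePart (K := K) y ≤ ratPoles x P Q ∧
      (IsCoprime P Q → polePart (K := K) y = ratPoles x P Q) := by
  have hQx := aeval_ne_zero_of_transcendental hx hQ
  rcases eq_or_ne y 0 with rfl | hy
  · rw [zero_mul] at h
    have hP : P = 0 := by_contra fun hP => aeval_ne_zero_of_transcendental hx hP h
    refine ⟨le_trans (le_of_eq ?_) (add_nonneg (nsmul_nonneg (polePart_nonneg _) _)
      (polePart_nonneg _)), fun hc => ?_⟩
    · ext v; simp [polePart_apply]
    · rw [hP, isCoprime_zero_left] at hc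
      obtain ⟨c, hc0, rfl⟩ := Polynomial.isUnit_iff.mp hc
      ext v
      simp [ratPoles, hP, polePart_apply, ord_algebraMap_const, v.ord_inv]
  have hP : P ≠ 0 := fun hP => by
    rw [hP, map_zero, eq_comm] at h
    exact mul_ne_zero hy hQx h
  have hPx := aeval_ne_zero_of_transcendental hx hP
  have key : ∀ v : Place K F, max 0 (-v.ord y) ≤ ratPoles x P Q v ∧
      (IsCoprime P Q → max 0 (-v.ord y) = ratPoles x P Q v) := fun v => by
    have ho : v.ord (aeval x P) = v.ord y + v.ord (aeval x Q) := by rw [h, v.ord_mul hy hQx]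
    rw [ratPoles, Finsupp.add_apply, Finsupp.smul_apply, polePart_apply, polePart_apply, v.ord_inv,
      neg_neg, nsmul_eq_mul]
    rcases le_or_gt 0 (v.ord x) with hv | hv
    · have hmem : x ∈ v.toValuationSubring := (Curve.mem_iff_ord_nonneg v).mpr (Or.inr hv)
      have hP0 := ord_nonneg_of_mem' v (Curve.Diff.aeval_mem v hmem P)
      have hQ0 := ord_nonneg_of_mem' v (Curve.Diff.aeval_mem v hmem Q)
      rw [max_eq_left (show -v.ord x ≤ 0 by omega), mul_zero, zero_add]
      refine ⟨by omega, fun hc => ?_⟩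
      obtain ⟨a, b, hab⟩ := hc
      by_contra hne
      have hP1 : 1 ≤ v.ord (aeval x P) := by omega
      have hQ1 : 1 ≤ v.ord (aeval x Q) := by omega
      have h1 := congrArg (aeval x) hab
      rw [map_add, map_mul, map_mul, map_one] at h1
      have ha := (ordGE_zero_iff_mem.mpr (Curve.Diff.aeval_mem v hmem a)).mul
        (show OrdGE v 1 (aeval x P) from Or.inr hP1)
      have hb := (ordGE_zero_iff_mem.mpr (Curve.Diff.aeval_mem v hmem b)).mul
        (show OrdGE v 1 (aeval x Q) from Or.inr hQ1)
      rw [zero_add] at ha hb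
      have h2 : OrdGE v 1 (1 : F) := h1 ▸ ha.add hb
      have := h2.le_ord one_ne_zero
      rw [v.ord_one] at this
      omega
    · rw [ord_aeval_of_neg hx hv hP, ord_aeval_of_neg hx hv hQ] at ho
      rw [ord_aeval_of_neg hx hv hQ, max_eq_right (show (0 : ℤ) ≤ -v.ord x by omega),
        max_eq_left (show (Q.natDegree : ℤ) * v.ord x ≤ 0 by nlinarith), add_zero]
      rcases le_total Q.natDegree P.natDegree with hd | hd
      · have e : max 0 (-v.ord y) = ((P.natDegree - Q.natDegree : ℕ) : ℤ) * -v.ord x := by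
          rw [max_eq_right] <;> push_cast [hd] <;> nlinarith
        exact ⟨e.le, fun _ => e⟩
      · rw [Nat.sub_eq_zero_of_le hd, Nat.cast_zero, zero_mul,
          max_eq_left (by nlinarith)]
        exact ⟨le_rfl, fun _ => rfl⟩
  exact ⟨Finsupp.le_def.mpr fun v => by rw [polePart_apply]; exact (key v).1,
    fun hc => Finsupp.ext fun v => by rw [polePart_apply]; exact (key v).2 hc⟩

/-- The degree of `F` over `K(y)` for `y = P(x)/Q(x)`. -/
theorem finrank_adjoin_rat_le {x y : F} (hx : Transcendental K x) (hy : Transcendental K y)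
    {P Q : K[X]} (hQ : Q ≠ 0) (h : aeval x P = y * aeval x Q) :
    Module.finrank K⟮y⟯ F ≤ max P.natDegree Q.natDegree * Module.finrank K⟮x⟯ F ∧
      (IsCoprime P Q →
        Module.finrank K⟮y⟯ F = max P.natDegree Q.natDegree * Module.finrank K⟮x⟯ F) := by
  obtain ⟨h1, h2⟩ := polePart_le_ratPoles hx hQ h
  refine ⟨?_, fun hc => ?_⟩
  · have h3 := JacCharts.degree_nonneg (sub_nonneg.mpr h1)
    rw [map_sub, degree_ratPoles hx hQ, degree_polePart_eq hy, sub_nonneg] at h3
    exact_mod_cast h3
  · have h3 := congrArg Divisor.degree (h2 hc)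
    rw [degree_ratPoles hx hQ, degree_polePart_eq hy] at h3
    exact_mod_cast h3

/-! ### Local generators -/

/-- A function regular outside the poles of `x`, a unit at `P`, whose product with `f` is also
regular there. -/
theorem exists_unit_mul_regular {x : F} (hx : Transcendental K x) {a : K} {P : Place K F}
    (hP : 0 < P.ord (x - algebraMap K F a)) {f : F} (hf : f = 0 ∨ 0 ≤ P.ord f) :
    ∃ r : F, r ≠ 0 ∧ P.ord r = 0 ∧ IsIntegral (Algebra.adjoin K {x}) r ∧
      IsIntegral (Algebra.adjoin K {x}) (r * f) := by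
  classical
  have := finiteDimensional_adjoin_of_transcendental hx
  have hu := isGen_adjoin (F := F) hx
  set g : K⟮x⟯ := ⟨x, mem_adjoin_simple_self K x⟩
  have hPz : P ∈ zerosAt g a := mem_zerosFinset.mpr hP
  obtain ⟨h, hh0, hh⟩ := exists_forall_ord_eq (zerosAt (F := F) g a)
    (fun v => if v = P then 0 else max 0 (-v.ord f))
  have hreg : RegAt g a h := fun v hv => Or.inr (by rw [hh v hv]; split_ifs <;> omega)
  have hreg' : RegAt g a (h * f) := fun v hv => by
    rcases eq_or_ne f 0 with rfl | hf0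
    · exact Or.inl (mul_zero h)
    refine Or.inr ?_
    rw [v.ord_mul hh0 hf0, hh v hv]
    split_ifs with hvP
    · subst hvP
      have := hf.resolve_left hf0
      omega
    · omega
  obtain ⟨s, hs, hsr, hsc⟩ := exists_multiplier hu h
  obtain ⟨s', hs', hsr', hsc'⟩ := exists_multiplier hu (h * f)
  have hint : ∀ y : F, FinReg K g y → IsIntegral (Algebra.adjoin K {x}) y := fun y hy => by
    rw [isIntegral_adjoin_iff]
    exact fun v hv => ordGE_zero_iff_mem.mp (hy v (ordGE_zero_iff_mem.mpr (hv x rfl)))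
  set t := algebraMap K⟮x⟯ F (aeval g (s * s')) with ht
  have ht0 : t ≠ 0 := (_root_.map_ne_zero _).mpr fun h' =>
    hu.transcendental ⟨_, mul_ne_zero hs hs', h'⟩
  refine ⟨t * h, mul_ne_zero ht0 hh0, ?_, hint _ ?_, hint _ ?_⟩
  · rw [P.ord_mul ht0 hh0, hh P hPz, if_pos rfl, (ord_aeval_eq_zero hPz (p := s * s') ?_).1]
    · omega
    · rw [eval_mul]; exact mul_ne_zero (hsc a hreg) (hsc' a hreg')
  · have := (finReg_aeval (K := K) (F := F) (u := g) s').mul hsr
    rwa [show t * h = algebraMap K⟮x⟯ F (aeval g s') * (algebraMap K⟮x⟯ F (aeval g s) * h) by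
      rw [ht, map_mul, map_mul]; ring]
  · have := (finReg_aeval (K := K) (F := F) (u := g) s).mul hsr'
    rwa [show t * h * f = algebraMap K⟮x⟯ F (aeval g s) * (algebraMap K⟮x⟯ F (aeval g s') * (h * f)) by
      rw [ht, map_mul, map_mul]; ring]

end FermatAgent.BadRed.Carayol.Instance
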