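import Fermat.Agent.Curve.Basics.Defs
import Mathlib.FieldTheory.SeparablyGenerated
import Mathlib.FieldTheory.KummerExtension
import Mathlib.FieldTheory.PurelyInseparable.PerfectClosure
import Mathlib.FieldTheory.PurelyInseparable.Exponent
import Mathlib.FieldTheory.IsAlgClosed.Basic

/-!
# Separating elements in characteristic `p`
-/

set_option autoImplicit false

noncomputable section

open IntermediateField Polynomial

namespace FermatAgent.BadRed.Carayol.Instance

open FermatAgent.Curve

variable {k F : Type*} [Field k] [Field F] [Algebra k F] [PerfectField k] [IsFunctionField1 k F]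
variable (p : ℕ) [Fact p.Prime] [CharP k p] [CharP F p]

/-- The `p`-th powers, as an intermediate field. -/
def powField : IntermediateField k F :=
  (frobenius F p).fieldRange.toIntermediateField fun c => by
    have : ExpChar k p := .prime Fact.out
    refine ⟨algebraMap k F ((frobeniusEquiv k p).symm c), ?_⟩
    rw [frobenius_def, ← map_pow, ← frobenius_def, frobenius_apply_frobeniusEquiv_symm]

/-- `F = Fᵖ(x)` for every `x` which is not a `p`-th power. -/
theorem powField_adjoin_eq_top {x : F} (hxT : Transcendental k x) (hx : ∀ z : F, z ^ p ≠ x) :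
    IntermediateField.adjoin (powField (k := k) (F := F) p) {x} = ⊤ := by
  classical
  have hp : p.Prime := Fact.out
  have := finiteDimensional_adjoin_of_transcendental hxT
  have := essFiniteType_of_isFunctionField1 (K := k) (F := F)
  obtain ⟨s, hs, hsep⟩ := exists_isTranscendenceBasis_and_isSeparable_of_perfectField (k := k) (K := F)
  set P := powField (k := k) (F := F) p
  -- a single separating element
  obtain ⟨t, rfl⟩ : ∃ t, s = {t} := by
    rw [← Finset.card_eq_one]
    have hind : AlgebraicIndependent k (fun _ : Unit => x) :=
      algebraicIndependent_unique_type_iff.mpr hxT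
    have halg : Algebra.IsAlgebraic (IntermediateField.adjoin k (Set.range fun _ : Unit => x)) F := by
      rw [Set.range_const]; exact Algebra.IsAlgebraic.of_finite _ _
    have hb : IsTranscendenceBasis k (fun _ : Unit => x) :=
      hind.isTranscendenceBasis_iff_isAlgebraic.mpr
        (isAlgebraic_adjoin_iff_top.mp halg)
    have h := hs.lift_cardinalMk_eq hb
    simpa using h
  rw [Finset.coe_singleton] at hsep
  -- `F = Fᵖ(t)`
  have htop : IntermediateField.adjoin P {t} = ⊤ := by
    rw [eq_top_iff]
    intro y _
    have hy : y ∈ (IntermediateField.adjoin k⟮t⟯ (Set.univ : Set F)).restrictScalars k :=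
      IntermediateField.subset_adjoin k⟮t⟯ _ trivial
    have : ExpChar k⟮t⟯ p := by
      have : CharP k⟮t⟯ p := charP_of_injective_algebraMap (algebraMap k k⟮t⟯).injective p
      exact .prime hp
    rw [adjoin_eq_adjoin_pow_expChar_of_isSeparable' (F := k⟮t⟯) (E := F) Set.univ p,
      IntermediateField.adjoin_adjoin_left] at hy
    refine (IntermediateField.adjoin_le_iff
      (T := (IntermediateField.adjoin P {t}).restrictScalars k)).mpr ?_ hy
    rintro z (rfl | ⟨w, -, rfl⟩)
    · exact IntermediateField.mem_adjoin_simple_self P z
    · exact (IntermediateField.adjoin P {t}).algebraMap_mem ⟨w ^ p, w, rfl⟩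
  have htint : IsIntegral P t :=
    IsIntegral.of_pow hp.pos (isIntegral_algebraMap (x := (⟨t ^ p, t, rfl⟩ : P)))
  have hdeg : Module.finrank P F ≤ p := by
    rw [← IntermediateField.finrank_top', ← htop, IntermediateField.adjoin.finrank htint]
    refine (natDegree_le_of_dvd (minpoly.dvd P t (p := X ^ p - C (⟨t ^ p, t, rfl⟩ : P)) ?_)
      (X_pow_sub_C_ne_zero hp.pos _)).trans (natDegree_X_pow_sub_C (n := p)).le
    simp
  have hirr : Irreducible (X ^ p - C (⟨x ^ p, x, rfl⟩ : P)) :=
    X_pow_sub_C_irreducible_of_prime hp fun b hb => by
      have h : ((b : F)) ^ p = x ^ p := congrArg Subtype.val hb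
      obtain ⟨z, hz⟩ := b.2
      exact hx z (hz.trans (frobenius_inj F p h))
  have hxint : IsIntegral P x :=
    IsIntegral.of_pow hp.pos (isIntegral_algebraMap (x := (⟨x ^ p, x, rfl⟩ : P)))
  have hxdeg : Module.finrank P (IntermediateField.adjoin P {x}) = p := by
    rw [IntermediateField.adjoin.finrank hxint, ← minpoly.eq_of_irreducible_of_monic hirr (by simp)
      (monic_X_pow_sub_C _ hp.ne_zero), natDegree_X_pow_sub_C]
  have : FiniteDimensional P F := by
    have := IntermediateField.adjoin.finiteDimensional htint
    rw [htop] at this
    exact (IntermediateField.topEquiv (F := P) (E := F)).toLinearEquiv.finiteDimensional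
  refine IntermediateField.eq_of_le_of_finrank_le le_top ?_
  rw [IntermediateField.finrank_top', hxdeg]
  exact hdeg

/-- An element which is not a `p`-th power is separating. -/
theorem isSeparable_adjoin_of_ne_pow {x : F} (hxT : Transcendental k x) (hx : ∀ z : F, z ^ p ≠ x) :
    Algebra.IsSeparable k⟮x⟯ F := by
  classical
  have hp : p.Prime := Fact.out
  have := finiteDimensional_adjoin_of_transcendental hxT
  set L := k⟮x⟯
  have : CharP L p := charP_of_injective_algebraMap (algebraMap k L).injective p
  have : ExpChar L p := .prime hp
  have hxL : x ∈ L := IntermediateField.mem_adjoin_simple_self k x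
  -- `F = L(F^(pⁿ))`
  have step : ∀ n : ℕ, ∀ y : F,
      y ∈ IntermediateField.adjoin L (Set.range fun z : F => z ^ p ^ n) := by
    intro n
    induction n with
    | zero => exact fun y => IntermediateField.subset_adjoin _ _ ⟨y, by simp⟩
    | succ n ih =>
      intro y
      set T := IntermediateField.adjoin L (Set.range fun z : F => z ^ p ^ (n + 1))
      have hpow : ∀ z : F, z ^ p ∈ T := fun z => by
        have hz := ih z
        induction hz using IntermediateField.adjoin_induction with
        | mem w hw =>
          obtain ⟨v, rfl⟩ := hw
          exact IntermediateField.subset_adjoin _ _ ⟨v, by simp [← pow_mul, pow_succ]⟩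
        | algebraMap c => exact (map_pow (algebraMap L F) c p) ▸ T.algebraMap_mem _
        | add a b _ _ ha hb => rw [add_pow_char]; exact add_mem ha hb
        | inv a _ ha => rw [inv_pow]; exact inv_mem ha
        | mul a b _ _ ha hb => rw [mul_pow]; exact mul_mem ha hb
      have hy : y ∈ (IntermediateField.adjoin (powField (k := k) (F := F) p) {x}).restrictScalars k :=
        (powField_adjoin_eq_top p hxT hx).symm ▸ IntermediateField.mem_top
      refine (IntermediateField.adjoin_le_iff (T := T.restrictScalars k)).mpr ?_
        (show y ∈ IntermediateField.adjoin k ((powField (k := k) (F := F) p : Set F) ∪ {x}) by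
          rwa [IntermediateField.restrictScalars_adjoin] at hy)
      rintro z (⟨w, rfl⟩ | rfl)
      · exact hpow w
      · exact T.algebraMap_mem ⟨z, hxL⟩
  rw [← separableClosure.eq_top_iff, eq_top_iff]
  intro y _
  refine (IntermediateField.adjoin_le_iff.mpr ?_)
    (step (IsPurelyInseparable.exponent (separableClosure L F) F) y)
  rintro z ⟨w, rfl⟩
  obtain ⟨c, hc⟩ := IsPurelyInseparable.exponent_def' (separableClosure L F) p w
  simp only [SetLike.mem_coe]
  rw [← hc]
  exact c.2

end FermatAgent.BadRed.Carayol.Instance
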