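import Fermat.Agent.BadRed.Carayol.Instance.EtaleC
import Fermat.Agent.BadRed.Carayol.Instance.EtaleCount
import Fermat.Agent.BadRed.Carayol.Instance.Separating
import Fermat.Agent.BadRed.Carayol.Instance.Lift
import Fermat.Agent.BadRed.Carayol.Instance.ChartVar

/-!
# The fibre of `u` is unramified away from the cusps

Riemann–Hurwitz in characteristic zero, where all ramification lies over the cusps, and its
inequality on the special fibre leave no room for further ramification.
-/

set_option autoImplicit false
set_option linter.unusedSectionVars false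

noncomputable section

open Function Polynomial AlgebraicCurve IsLocalRing IntermediateField
open FermatAgent.Igusa FermatAgent.ModFun FermatAgent.Curve FermatAgent.JacCharts
open FermatAgent.Curve.RR (RRSetting)
open ModularCurve (coeffMap jqModC modularFunctionFieldC modularFunctionFieldBar
  modularFunctionFieldFullC)

namespace FermatAgent.BadRed.Carayol.Instance

section Datum

variable {K : Type*} [Field K] {A : ValuationSubring K} {k : Type*} [Field k] {π : A →+* k}
variable {F : Type*} [Field F] [Algebra K F] {Fb : Type*} [Field Fb] [Algebra k Fb]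
variable {d : GoodReductionDatum A π F Fb}

theorem redsTo_aeval {x : F} {xb : Fb} (hx : d.RedsTo x xb) (P : A[X]) :
    d.RedsTo (aeval x (P.map A.subtype)) (aeval xb (P.map π)) := by
  induction P using Polynomial.induction_on' with
  | add a b ha hb => simpa only [Polynomial.map_add, map_add] using ha.add hb
  | monomial n a =>
    rw [map_monomial, map_monomial, aeval_monomial, aeval_monomial]
    refine (GoodReductionDatum.redsTo_algebraMap a).mul ?_
    induction n with
    | zero => simpa using GoodReductionDatum.redsTo_one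
    | succ n ih => simpa only [pow_succ] using ih.mul hx

variable [RRSetting K F] [RRSetting k Fb]

theorem exists_place_eq {f : F} {fb : Fb} (h : d.RedsTo f fb) (h0 : fb ≠ 0) (Q : Place k Fb) :
    (0 < Q.ord fb → ∃ P, d.place P = Q ∧ 0 < P.ord f) ∧
      (Q.ord fb < 0 → ∃ P, d.place P = Q ∧ P.ord f < 0) := by
  classical
  have e := DFunLike.congr_fun (h.redDiv_divOf h0) Q
  rw [divOf_apply h0, Finsupp.mapDomain.addMonoidHom_apply, Finsupp.mapDomain, Finsupp.sum_apply,
    Finsupp.sum] at e
  constructor <;> intro hQ <;> by_contra! hne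
  · have : ∑ P ∈ (divOf (K := K) f).support, Finsupp.single (d.place P) (divOf (K := K) f P) Q ≤ 0 :=
      Finset.sum_nonpos fun P _ => by
        rw [Finsupp.single_apply]
        split_ifs with hP
        · rw [divOf_apply (h.ne_zero h0)]; exact hne P hP
        · exact le_rfl
    omega
  · have : 0 ≤ ∑ P ∈ (divOf (K := K) f).support, Finsupp.single (d.place P) (divOf (K := K) f P) Q :=
      Finset.sum_nonneg fun P _ => by
        rw [Finsupp.single_apply]
        split_ifs with hP
        · rw [divOf_apply (h.ne_zero h0)]; exact hne P hP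
        · exact le_rfl
    omega

end Datum

section Special

variable {K : Type*} [Field K] [IsAlgClosed K] {A : ValuationSubring K}
variable {k : Type*} [Field k] [IsAlgClosed k] {π : A →+* k}
variable {F : Type*} [Field F] [Algebra K F] [IsFunctionField1 K F]
variable {Fb : Type*} [Field Fb] [Algebra k Fb] [IsFunctionField1 k Fb]
variable {d : GoodReductionDatum A π F Fb}

/-- Reduction maps onto the places over the reduced values. -/
theorem card_specialPlaces_le {x : F} {xb : Fb} (hx : d.RedsTo x xb) (hxb : Transcendental k xb)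
    [DecidableEq K] [DecidableEq k] (C : Finset A) :
    (specialPlaces xb (C.image π)).card ≤ (specialPlaces x (C.image fun c : A => (c : K))).card := by
  classical
  refine le_trans (Finset.card_le_card
    (t := (specialPlaces x (C.image fun c : A => (c : K))).image d.place) fun Q hQ => ?_)
    Finset.card_image_le
  rw [Finset.mem_image]
  rw [mem_specialPlaces] at hQ
  rcases hQ with ⟨b, hb, hQ⟩ | hQ
  · obtain ⟨c, hc, rfl⟩ := Finset.mem_image.mp hb
    obtain ⟨P, rfl, hP⟩ := (exists_place_eq (hx.sub (GoodReductionDatum.redsTo_algebraMap c))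
      (fun h0 => by rw [h0, Place.ord_zero] at hQ; omega) Q).1 hQ
    exact ⟨P, mem_specialPlaces.mpr (Or.inl ⟨_, Finset.mem_image_of_mem _ hc, hP⟩), rfl⟩
  · obtain ⟨P, rfl, hP⟩ := (exists_place_eq hx (fun h0 => hxb (h0 ▸ isAlgebraic_zero)) Q).2 hQ
    exact ⟨P, mem_specialPlaces.mpr (Or.inr hP), rfl⟩

/-- A monic denominator may be taken prime to the numerator. -/
theorem exists_coprime_rat {x y : F} (hx : Transcendental K x) (Q : A[X]) (hQ : Q.Monic)
    (P : A[X]) (h : aeval x (P.map A.subtype) = y * aeval x (Q.map A.subtype)) :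
    ∃ P' Q' : A[X], Q'.Monic ∧ IsCoprime (P'.map A.subtype) (Q'.map A.subtype) ∧
      aeval x (P'.map A.subtype) = y * aeval x (Q'.map A.subtype) := by
  classical
  suffices ∀ (n : ℕ) (Q P : A[X]), Q.natDegree = n → Q.Monic →
      aeval x (P.map A.subtype) = y * aeval x (Q.map A.subtype) →
      ∃ P' Q' : A[X], Q'.Monic ∧ IsCoprime (P'.map A.subtype) (Q'.map A.subtype) ∧
        aeval x (P'.map A.subtype) = y * aeval x (Q'.map A.subtype) from this _ Q P rfl hQ h
  clear! P Q
  intro n
  induction n using Nat.strong_induction_on with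
  | _ n ih =>
  intro Q P hn hQ h
  by_cases hc : IsCoprime (P.map A.subtype) (Q.map A.subtype)
  · exact ⟨P, Q, hQ, hc, h⟩
  rw [← EuclideanDomain.gcd_isUnit_iff] at hc
  set g := EuclideanDomain.gcd (P.map A.subtype) (Q.map A.subtype)
  have hg0 : g ≠ 0 := fun e => (hQ.map A.subtype).ne_zero (EuclideanDomain.gcd_eq_zero_iff.mp e).2
  obtain ⟨c, hc0⟩ := IsAlgClosed.exists_root g
    (fun e => hc (Polynomial.isUnit_iff_degree_eq_zero.mpr e))
  have hcP : (P.map A.subtype).IsRoot c := hc0.dvd (EuclideanDomain.gcd_dvd_left _ _)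
  have hcQ : (Q.map A.subtype).IsRoot c := hc0.dvd (EuclideanDomain.gcd_dvd_right _ _)
  set c' : A := ⟨c, Igusa.Down.mem_of_eval_monic A hQ (by rwa [IsRoot.def, eval_map] at hcQ)⟩
  have hroot : ∀ S : A[X], (S.map A.subtype).IsRoot c → (X - C c') ∣ S := by
    intro S hS
    rw [dvd_iff_isRoot]
    refine A.subtype_injective ?_
    rw [map_zero, ← eval₂_at_apply]
    rwa [IsRoot.def, eval_map] at hS
  obtain ⟨P₁, hP₁⟩ := hroot P hcP
  obtain ⟨Q₁, hQ₁'⟩ := hroot Q hcQ
  have hQ₁ : Q₁.Monic := (monic_X_sub_C c').of_mul_monic_left (hQ₁' ▸ hQ)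
  have hne : aeval x ((X - C c' : A[X]).map A.subtype) ≠ 0 := fun h0 =>
    hx ⟨_, ((monic_X_sub_C c').map _).ne_zero, h0⟩
  refine ih Q₁.natDegree ?_ Q₁ P₁ rfl hQ₁ ?_
  · rw [← hn, hQ₁', (monic_X_sub_C c').natDegree_mul hQ₁, natDegree_X_sub_C]
    omega
  · rw [hP₁, hQ₁', Polynomial.map_mul, Polynomial.map_mul, map_mul, map_mul, mul_left_comm y] at h
    exact mul_left_cancel₀ hne h

end Special

variable {q : ℕ} [hq : Fact q.Prime] [NeZero q] (H : Hauptmodul q) {R : ℤ[X]}
variable {N : ℕ} [NeZero N] (hN : H.L ∣ N)

local notation "Qb" => AlgebraicClosure ℚ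

variable (A : ValuationSubring Qb) (hA : A.LiesOverPrime q) (hqN : ¬ q ∣ N)

include hA hqN hN in
theorem uSeries_mem_fullC :
    coeffMap (Int.castRingHom (ResidueField A)) (uSeries H) ∈
      modularFunctionFieldFullC (ResidueField A) N := by
  have := Igusa.Down.charP_residueField hq.out hA
  have : Fact (Surjective (residue A)) := ⟨IsLocalRing.residue_surjective⟩
  obtain ⟨h, hr⟩ := intSeries_mem_gaussRing (A := A) (π := residue A) q hqN
    (mem_field_uElt H (L := Qb) hN)
  rw [← hr]
  exact Igusa.Down.gaussRed_mem_fullC A N hqN ⟨_, h⟩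

/-- The reduction of `u`. -/
def uBar : modularFunctionFieldFullC (ResidueField A) N := ⟨_, uSeries_mem_fullC H hN A hA hqN⟩

theorem coe_uBar : (uBar H hN A hA hqN : LaurentSeries (ResidueField A)) =
    coeffMap (Int.castRingHom (ResidueField A)) (uSeries H) := rfl

theorem redsTo_uElt :
    (Igusa.Down.datum N hq.out hqN hA).RedsTo (uElt Qb H hN) (uBar H hN A hA hqN) := by
  have := Igusa.Down.charP_residueField hq.out hA
  have : Fact (Surjective (residue A)) := ⟨IsLocalRing.residue_surjective⟩
  obtain ⟨h, hr⟩ := intSeries_mem_gaussRing (A := A) (π := residue A) q hqN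
    (mem_field_uElt H (L := Qb) hN)
  have hm : (uElt Qb H hN : LaurentSeries Qb) ∈ gaussRing A (residue A) N := by
    rw [coe_uElt]; exact h
  refine ⟨mem_datum_integers hq.out hA hqN hm, Subtype.ext ?_⟩
  rw [coe_datum_red hq.out hA hqN _ hm, coe_uBar, ← hr]
  exact congrArg _ (Subtype.ext (coe_uElt Qb H hN))

theorem transcendental_uBar : Transcendental (ResidueField A) (uBar H hN A hA hqN) :=
  transcendental_of_injective _ (coe_uBar H hN A hA hqN)
    ((injective_iff_map_eq_zero _).mpr fun P hP =>
      eq_zero_of_aeval_uSeries H (ResidueField A) (by rwa [← eval₂_C_eq_aeval]))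

theorem isSeparable_adjoin_uBar [IsAlgClosed (ResidueField A)]
    [IsFunctionField1 (ResidueField A) (modularFunctionFieldFullC (ResidueField A) N)] :
    Algebra.IsSeparable (ResidueField A)⟮uBar H hN A hA hqN⟯
      (modularFunctionFieldFullC (ResidueField A) N) := by
  have := Igusa.Down.charP_residueField hq.out hA
  have : CharP (modularFunctionFieldFullC (ResidueField A) N) q :=
    charP_of_injective_algebraMap (algebraMap (ResidueField A) _).injective q
  refine isSeparable_adjoin_of_ne_pow q (transcendental_uBar H hN A hA hqN) fun z hz => ?_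
  have h : ((z : LaurentSeries (ResidueField A))) ^ q = (uBar H hN A hA hqN : LaurentSeries _) := by
    rw [← SubmonoidClass.coe_pow, hz]
  rw [coe_uBar] at h
  have hc : (coeffMap (Int.castRingHom (ResidueField A)) (uSeries H)).coeff (-1) = 1 := by
    simp [coeff_uSeries_top]
  have ho : (coeffMap (Int.castRingHom (ResidueField A)) (uSeries H)).order = -1 := by
    refine le_antisymm (HahnSeries.order_le_of_coeff_ne_zero (by rw [hc]; exact one_ne_zero)) ?_
    by_contra hlt
    have h0 : coeffMap (Int.castRingHom (ResidueField A)) (uSeries H) ≠ 0 := fun h0 => by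
      rw [h0] at hc; simp at hc
    refine HahnSeries.coeff_order_eq_zero.not.mpr h0 ?_
    exact (poleLE_uSeries H).coeffMap _ _ (by push_cast; omega)
  rw [← h, HahnSeries.order_pow, nsmul_eq_mul] at ho
  rcases Int.mul_eq_neg_one_iff_eq_one_or_neg_one.mp ho with ⟨h1, -⟩ | ⟨h1, -⟩
  · have := hq.out.one_lt; omega
  · omega

variable (hR : IsCuspPoly H R)

include hR in
theorem finrank_le_finrank_uBar [IsAlgClosed (ResidueField A)]
    [IsFunctionField1 Qb (modularFunctionFieldBar N)]
    [IsFunctionField1 (ResidueField A) (modularFunctionFieldFullC (ResidueField A) N)] :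
    Module.finrank Qb⟮uElt Qb H hN⟯ (modularFunctionFieldBar N) ≤
      Module.finrank (ResidueField A)⟮uBar H hN A hA hqN⟯
        (modularFunctionFieldFullC (ResidueField A) N) := by
  have := Igusa.Down.charP_residueField hq.out hA
  obtain ⟨P, hP⟩ := exists_j_eq_eval H hR
  set d := Igusa.Down.datum N hq.out hqN hA
  have hu := transcendental_uElt H Qb hN
  have hj : Transcendental Qb (jBar Qb N) := transcendental_jBar Qb N
  set u : modularFunctionFieldBar N := uElt Qb H hN
  have hmap : ∀ S : ℤ[X],
      aeval u ((S.map (Int.castRingHom A)).map A.subtype) = aeval u S := fun S => by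
    rw [Polynomial.map_map, RingHom.ext_int (A.subtype.comp (Int.castRingHom A)) (algebraMap ℤ Qb),
      aeval_map_algebraMap]
  obtain ⟨P', Q', hQ', hcop, hrel⟩ := exists_coprime_rat (A := A) (y := jBar Qb N) hu
    ((R.map (Int.castRingHom A)) ^ H.L) ((hR.monic.map _).pow _) (P.map (Int.castRingHom A)) (by
      rw [Polynomial.map_pow, map_pow, hmap, hmap]
      exact aeval_uElt_rel H hN Qb hP)
  set jb := Igusa.Down.redBar A N hqN (Igusa.Down.tBar A N)
  have hjb : d.RedsTo (jBar Qb N) jb :=
    ⟨(Igusa.Down.tBar A N).2, rfl⟩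
  have hub := redsTo_uElt H hN A hA hqN
  have hrelb := (redsTo_aeval hub P').unique (hrel ▸ hjb.mul (redsTo_aeval hub Q'))
  have hjbT : Transcendental (ResidueField A) jb :=
    Igusa.Down.transcendental_jqModC_coe (ResidueField A) _ (Igusa.Down.coe_redBar_tBar A N hqN)
  have h1 := (finrank_adjoin_rat_le hu hj ((hQ'.map _).ne_zero) hrel).2 hcop
  have h2 := (finrank_adjoin_rat_le (transcendental_uBar H hN A hA hqN) hjbT
    ((hQ'.map _).ne_zero) hrelb).1
  rw [finrank_adjoin_jBar] at h1
  rw [Igusa.Down.finrank_fibre A N hqN hA, h1] at h2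
  have hd : max (P'.map (residue A)).natDegree (Q'.map (residue A)).natDegree ≤
      max (P'.map A.subtype).natDegree (Q'.map A.subtype).natDegree := by
    rw [natDegree_map_eq_of_injective A.subtype_injective, natDegree_map_eq_of_injective A.subtype_injective]
    exact max_le_max natDegree_map_le natDegree_map_le
  have hpos : 0 < max (P'.map A.subtype).natDegree (Q'.map A.subtype).natDegree :=
    Nat.pos_of_ne_zero fun h0 => by
      rw [h0, zero_mul] at h1
      exact (index_pos N).ne' h1
  exact Nat.le_of_mul_le_mul_left (h2.trans (Nat.mul_le_mul_right _ hd)) hpos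

include hR in
/-- The fibre of `u` is unramified away from the reductions of the cusps. -/
theorem ord_uBar_sub_le_one (hco : H.IsCoord)
    [IsAlgClosed (ResidueField A)] [IsFunctionField1 Qb (modularFunctionFieldBar N)]
    [IsFunctionField1 (ResidueField A) (modularFunctionFieldFullC (ResidueField A) N)]
    (C : Finset A) (hC : C.Nonempty) (hinj : Set.InjOn (residue A) (C : Set A))
    (hroots : ∀ c : Qb, R.eval₂ (Int.castRingHom Qb) c = 0 → ∃ b ∈ C, (b : Qb) = c)
    {a : ResidueField A} (ha : ∀ c ∈ C, residue A c ≠ a)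
    (Q : Place (ResidueField A) (modularFunctionFieldFullC (ResidueField A) N)) :
    Q.ord (uBar H hN A hA hqN - algebraMap (ResidueField A) _ a) ≤ 1 := by
  classical
  by_contra! hgt
  set d := Igusa.Down.datum N hq.out hqN hA
  have hub := transcendental_uBar H hN A hA hqN
  have := isSeparable_adjoin_uBar H hN A hA hqN
  have h1 := card_specialPlaces (transcendental_uElt H Qb hN)
    (C := C.image fun c : A => (c : Qb)) (fun c hc P => by
      refine ord_uElt_sub_le_one_bar H hN hco hR (fun h0 => hc ?_) P
      obtain ⟨b, hb, rfl⟩ := hroots c h0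
      exact Finset.mem_image_of_mem _ hb)
  have h2 := ord_sub_le_of_special hub (C := C.image (residue A)) (c₀ := a)
    (fun h => by obtain ⟨c, hc, e⟩ := Finset.mem_image.mp h; exact ha c hc e) (Q₀ := Q) (by omega)
  have h3 := card_specialPlaces_le (redsTo_uElt H hN A hA hqN) hub C
  have h4 := finrank_le_finrank_uBar H hN A hA hqN hR
  rw [Finset.card_image_of_injective _ Subtype.val_injective] at h1
  rw [Finset.card_image_of_injOn hinj, d.genus_eq] at h2
  set nb := Module.finrank (ResidueField A)⟮uBar H hN A hA hqN⟯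
    (modularFunctionFieldFullC (ResidueField A) N)
  set n := Module.finrank Qb⟮uElt Qb H hN⟯ (modularFunctionFieldBar N)
  have hs : (1 : ℤ) ≤ C.card := by exact_mod_cast hC.card_pos
  have hmul : 0 ≤ ((C.card : ℤ) - 1) * ((nb : ℤ) - n) :=
    mul_nonneg (by omega) (by omega)
  have h3' : ((specialPlaces (uBar H hN A hA hqN) (C.image (residue A))).card : ℤ) ≤
      (specialPlaces (uElt Qb H hN) (C.image fun c : A => (c : Qb))).card := by exact_mod_cast h3
  nlinarith

end FermatAgent.BadRed.Carayol.Instance
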