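import Mathlib.NumberTheory.ModularForms.CongruenceSubgroups
import Mathlib.Tactic.Group

/-!
# Generators of `Γ₀(4)` and `Γ₀(9)`
-/

set_option autoImplicit false

noncomputable section

open CongruenceSubgroup
open scoped MatrixGroups

namespace FermatAgent.BadRed.Carayol.Instance

/-- `!![1, 0; c, 1]`. -/
def lowerMat (c : ℤ) : SL(2, ℤ) := ⟨!![1, 0; c, 1], by simp⟩

theorem lowerMat_eq_conj (c : ℤ) :
    lowerMat c = ModularGroup.S * ModularGroup.T ^ (-c) * ModularGroup.S⁻¹ := by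
  rw [eq_mul_inv_iff_mul_eq]
  ext i j
  fin_cases i <;> fin_cases j <;>
    simp [lowerMat, ModularGroup.coe_S, ModularGroup.coe_T_zpow, Matrix.mul_apply,
      Fin.sum_univ_two]

theorem lowerMat_zpow (c k : ℤ) : lowerMat c ^ k = lowerMat (c * k) := by
  rw [lowerMat_eq_conj, conj_zpow, lowerMat_eq_conj, ← zpow_mul]
  congr 3
  ring

theorem exists_two_mul_abs_le (a c : ℤ) (hc : c ≠ 0) : ∃ k : ℤ, 2 * |a + k * c| ≤ |c| := by
  have h0 := Int.emod_nonneg a hc
  have h1 : a % c < |c| := Int.emod_lt_abs a hc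
  have h2 := Int.emod_add_mul_ediv a c
  by_cases h : 2 * (a % c) ≤ |c|
  · refine ⟨-(a / c), ?_⟩
    rw [show a + -(a / c) * c = a % c by linear_combination -h2, abs_of_nonneg h0]
    exact h
  · rcases lt_or_gt_of_ne hc with hc' | hc'
    · refine ⟨-(a / c) + 1, ?_⟩
      rw [show a + (-(a / c) + 1) * c = a % c + c by linear_combination -h2]
      rw [abs_of_neg hc'] at h1 h ⊢
      rw [abs_of_neg (by omega)]
      omega
    · refine ⟨-(a / c) - 1, ?_⟩
      rw [show a + (-(a / c) - 1) * c = a % c - c by linear_combination -h2]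
      rw [abs_of_pos hc'] at h1 h ⊢
      rw [abs_of_neg (by omega)]
      omega

theorem mul_apply_two (x y : SL(2, ℤ)) (i j : Fin 2) :
    (x * y) i j = x i 0 * y 0 j + x i 1 * y 1 j := by
  simp [Matrix.mul_apply, Fin.sum_univ_two]

/-- `Γ₀(n)` is generated by `-1`, `T` and `!![1, 0; n, 1]` for `n = 3, 4`. -/
theorem Gamma0_le_of_three_or_four {n : ℕ} (hn : n = 3 ∨ n = 4) {H : Subgroup SL(2, ℤ)}
    (hneg : -1 ∈ H) (hT : ModularGroup.T ∈ H) (hA : lowerMat n ∈ H) : Gamma0 n ≤ H := by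
  suffices ∀ (m : ℕ) (γ : SL(2, ℤ)), (γ 1 0).natAbs = m → (n : ℤ) ∣ γ 1 0 → γ ∈ H from fun γ hγ =>
    this _ γ rfl ((ZMod.intCast_zmod_eq_zero_iff_dvd _ _).mp (Gamma0_mem.mp hγ))
  intro m
  induction m using Nat.strong_induction_on with
  | _ m ih =>
  intro γ hm hdvd
  have hdet : γ 0 0 * γ 1 1 - γ 0 1 * γ 1 0 = 1 := by
    have := γ.det_coe
    rwa [Matrix.det_fin_two] at this
  by_cases hc : γ 1 0 = 0
  · rw [hc, mul_zero, sub_zero] at hdet
    rcases Int.eq_one_or_neg_one_of_mul_eq_one' hdet with ⟨ha, hd⟩ | ⟨ha, hd⟩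
    · have : γ = ModularGroup.T ^ γ 0 1 := by
        ext i j
        fin_cases i <;> fin_cases j <;> simp [ModularGroup.coe_T_zpow, ha, hd, hc]
      rw [this]; exact zpow_mem hT _
    · have : γ = -1 * ModularGroup.T ^ (-γ 0 1) := by
        rw [neg_one_mul]
        ext i j
        fin_cases i <;> fin_cases j <;>
          simp [ModularGroup.coe_T_zpow, Matrix.SpecialLinearGroup.coe_neg, ha, hd, hc]
      rw [this]; exact mul_mem hneg (zpow_mem hT _)
  -- reduce the upper left entry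
  obtain ⟨k, hk⟩ := exists_two_mul_abs_le (γ 0 0) (γ 1 0) hc
  set δ := ModularGroup.T ^ k * γ with hδ
  have hδ00 : δ 0 0 = γ 0 0 + k * γ 1 0 := by
    simp [hδ, ModularGroup.coe_T_zpow, mul_apply_two]
  have hδ10 : δ 1 0 = γ 1 0 := by simp [hδ, ModularGroup.coe_T_zpow, mul_apply_two]
  have hcop : IsCoprime (δ 0 0) (δ 1 0) := by
    refine ⟨δ 1 1, -δ 0 1, ?_⟩
    have := δ.det_coe
    rw [Matrix.det_fin_two] at this
    linear_combination this
  have hlt : 2 * |δ 0 0| < |δ 1 0| := by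
    rw [hδ00, hδ10]
    refine lt_of_le_of_ne hk fun heq => ?_
    rw [hδ00, hδ10] at hcop
    have h2 : γ 1 0 ∣ 2 * (γ 0 0 + k * γ 1 0) := by
      rw [← abs_dvd, ← heq, ← abs_of_pos (zero_lt_two' ℤ), ← abs_mul, abs_dvd,
        abs_of_pos (zero_lt_two' ℤ)]
    have h3 : γ 1 0 ∣ 2 := hcop.symm.dvd_of_dvd_mul_right h2
    have h4 := Int.le_of_dvd two_pos (hdvd.trans h3)
    omega
  have hne : δ 0 0 ≠ 0 := by
    intro h0
    rw [h0, isCoprime_zero_left, Int.isUnit_iff, hδ10] at hcop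
    have h4 : (n : ℤ) ∣ 1 := by rcases hcop with h | h <;> simpa [h] using hdvd
    have := Int.le_of_dvd one_pos h4
    omega
  -- reduce the lower left entry
  obtain ⟨l, hl⟩ := exists_two_mul_abs_le (δ 1 0) ((n : ℤ) * δ 0 0)
    (mul_ne_zero (by omega) hne)
  set ε := lowerMat n ^ l * δ with hε
  have hε10 : ε 1 0 = δ 1 0 + l * ((n : ℤ) * δ 0 0) := by
    rw [hε, lowerMat_zpow, mul_apply_two]
    simp [lowerMat]
    ring
  have hεlt : (ε 1 0).natAbs < m := by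
    have h4 : 2 * |ε 1 0| ≤ (n : ℤ) * |δ 0 0| := by
      rw [hε10]
      simpa [abs_mul] using hl
    rw [hδ10] at hlt
    have habs : (n : ℤ) * |δ 0 0| ≤ 4 * |δ 0 0| :=
      mul_le_mul_of_nonneg_right (by omega) (abs_nonneg _)
    rw [Int.abs_eq_natAbs, Int.abs_eq_natAbs] at h4 hlt
    rw [Int.abs_eq_natAbs] at habs
    omega
  have hεH : ε ∈ H := ih _ hεlt ε rfl (by
    rw [hε10, hδ10]
    exact dvd_add hdvd (dvd_mul_of_dvd_right (dvd_mul_right _ _) _))
  have : δ ∈ H := (Subgroup.mul_mem_cancel_left H (zpow_mem hA l)).mp hεH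
  exact (Subgroup.mul_mem_cancel_left H (zpow_mem hT k)).mp this

theorem neg_one_comm (x : SL(2, ℤ)) : -1 * x = x * -1 := by simp

/-- `Γ₀(9)` is generated by `-1`, `T`, `A T A⁻¹`, `A² T A⁻²`, `A³` where `A = !![1, 0; 3, 1]`. -/
theorem Gamma0_nine_le {H : Subgroup SL(2, ℤ)} (hneg : -1 ∈ H) (hT : ModularGroup.T ∈ H)
    (h1 : lowerMat 3 * ModularGroup.T * (lowerMat 3)⁻¹ ∈ H)
    (h2 : lowerMat 6 * ModularGroup.T * (lowerMat 6)⁻¹ ∈ H) (h3 : lowerMat 9 ∈ H) :
    Gamma0 9 ≤ H := by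
  have hH9 : ∀ k : ℤ, lowerMat (9 * k) ∈ H := fun k => by
    rw [← lowerMat_zpow]; exact zpow_mem h3 k
  have hmem : ∀ k : ℤ, lowerMat (3 * k) ∈ Gamma0 9 ↔ 3 ∣ k := fun k => by
    rw [Gamma0_mem, ZMod.intCast_zmod_eq_zero_iff_dvd]
    simp [lowerMat]
    omega
  let H' : Subgroup SL(2, ℤ) := H ⊓ Gamma0 9
  let K : Subgroup SL(2, ℤ) :=
    { carrier := {γ | ∃ s : ℤ, ∀ i : ℤ, lowerMat 3 ^ (-(i + s)) * γ * lowerMat 3 ^ i ∈ H'}
      mul_mem' := by
        rintro x y ⟨s, hs⟩ ⟨t, ht⟩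
        refine ⟨t + s, fun i => ?_⟩
        have := mul_mem (hs (i + t)) (ht i)
        rw [show i + (t + s) = i + t + s by ring]
        convert this using 1
        group
      one_mem' := ⟨0, fun i => by
        convert one_mem H' using 1
        group⟩
      inv_mem' := by
        rintro x ⟨s, hs⟩
        refine ⟨-s, fun i => ?_⟩
        have := inv_mem (hs (i - s))
        convert this using 1
        group }
  have hT9 : ModularGroup.T ∈ Gamma0 9 := by
    rw [Gamma0_mem, ModularGroup.coe_T]; simp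
  have hTK : ModularGroup.T ∈ K := by
    refine ⟨0, fun i => ?_⟩
    rw [add_zero]
    obtain ⟨k, r, hr, hir⟩ : ∃ k r : ℤ, (r = 0 ∨ r = 1 ∨ r = 2) ∧ i = 3 * k - r :=
      ⟨(i + 2) / 3, 2 - (i + 2) % 3, by omega, by omega⟩
    have hkey : lowerMat 3 ^ (-i) * ModularGroup.T * lowerMat 3 ^ i
        = (lowerMat (9 * k))⁻¹ * (lowerMat (3 * r) * ModularGroup.T * (lowerMat (3 * r))⁻¹)
          * lowerMat (9 * k) := by
      rw [show lowerMat (9 * k) = lowerMat 3 ^ (3 * k) by rw [lowerMat_zpow]; congr 1; ring,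
        ← lowerMat_zpow, hir]
      group
    rw [hkey]
    have hk9 : lowerMat (9 * k) ∈ H' := Subgroup.mem_inf.mpr
      ⟨hH9 k, by rw [show (9 : ℤ) * k = 3 * (3 * k) by ring]; exact (hmem _).mpr (dvd_mul_right _ _)⟩
    refine mul_mem (mul_mem (inv_mem hk9) ?_) hk9
    have hconj : ∀ m : ℤ, (3 : ℤ) ∣ m →
        lowerMat m * ModularGroup.T * (lowerMat m)⁻¹ ∈ Gamma0 9 := by
      rintro m ⟨m', rfl⟩
      rw [Gamma0_mem, ZMod.intCast_zmod_eq_zero_iff_dvd]
      simp [mul_apply_two, lowerMat, ModularGroup.coe_T, Matrix.SpecialLinearGroup.SL2_inv_expl]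
      exact ⟨-(m' * m'), by ring⟩
    refine Subgroup.mem_inf.mpr ⟨?_, hconj _ (dvd_mul_right _ _)⟩
    rcases hr with rfl | rfl | rfl
    · convert hT using 1
      simp [show lowerMat 0 = 1 by ext i j; fin_cases i <;> fin_cases j <;> simp [lowerMat]]
    · simpa using h1
    · simpa using h2
  have hnegK : -1 ∈ K := ⟨0, fun i => by
    rw [mul_assoc, neg_one_comm, ← mul_assoc, add_zero, ← zpow_add, neg_add_cancel, zpow_zero,
      one_mul]
    refine Subgroup.mem_inf.mpr ⟨hneg, ?_⟩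
    rw [Gamma0_mem]; simp [Matrix.SpecialLinearGroup.coe_neg]⟩
  have hAK : lowerMat ((3 : ℕ) : ℤ) ∈ K := ⟨1, fun i => by
    convert one_mem H' using 1
    rw [Nat.cast_ofNat]
    group⟩
  have h39 : Gamma0 9 ≤ Gamma0 3 := fun γ hγ => by
    rw [Gamma0_mem, ZMod.intCast_zmod_eq_zero_iff_dvd] at hγ ⊢
    exact dvd_trans ⟨3, by norm_num⟩ hγ
  intro γ hγ
  obtain ⟨s, hs⟩ := Gamma0_le_of_three_or_four (Or.inl rfl) hnegK hTK hAK (h39 hγ)
  have h := hs 0
  rw [zero_add, zpow_zero, mul_one, lowerMat_zpow] at h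
  obtain ⟨hH, h9⟩ := Subgroup.mem_inf.mp h
  have h9' := (Subgroup.mul_mem_cancel_right _ hγ).mp h9
  rw [show (3 : ℤ) * -s = 3 * (-s) by ring, hmem] at h9'
  obtain ⟨s', hs'⟩ := h9'
  rw [hs', ← mul_assoc] at hH
  exact (Subgroup.mul_mem_cancel_left H (hH9 s')).mp hH

end FermatAgent.BadRed.Carayol.Instance
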