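import Fermat.Agent.BadRed.Carayol.Instance.LogDeriv
import Fermat.Agent.BadRed.Carayol.Instance.Generators

/-!
# Coordinates on `X₀(L)` without elliptic points

`Hauptmodul q` records what is needed about a coordinate `u` on `X₀(L)` relative to a prime `q`
not dividing `L`.
-/

set_option autoImplicit false

noncomputable section

open UpperHalfPlane hiding I
open Complex Filter Function Asymptotics CongruenceSubgroup
open scoped Real Topology MatrixGroups Manifold ModularForm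
open FermatAgent.ModFun

namespace FermatAgent.BadRed.Carayol.Instance

local notation "Δ" => ModularForm.discriminant

/-- A coordinate on `X₀(L)`, with its values at the cusps other than `∞`. -/
structure Hauptmodul (q : ℕ) where
  /-- the level -/
  L : ℕ
  [neL : NeZero L]
  coprime : q.Coprime L
  /-- the function -/
  u : ℍ → ℂ
  /-- its expansion times `q` -/
  series : PowerSeries ℤ
  constantCoeff_series : PowerSeries.constantCoeff series = 1
  mem : u ∈ levelRing L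
  qLaurent_u : qLaurent u =
    HahnSeries.single (-1 : ℤ) 1 * toLS (series.map (Int.castRingHom ℂ))
  /-- the values at the cusps other than `∞` -/
  cusps : Finset ℂ
  /-- the value at the cusp `γ ∞` -/
  val : SL(2, ℤ) → ℂ
  val_mem : ∀ γ, γ ∉ Gamma0 L → val γ ∈ cusps
  tendsto_val : ∀ γ, γ ∉ Gamma0 L → Tendsto (fun τ => u (γ • τ)) atImInfty (𝓝 (val γ))
  cusps_val : ∀ a ∈ cusps, ∃ γ, γ ∉ Gamma0 L ∧ val γ = a
  val_scale : ∀ γ δ : SL(2, ℤ), γ ∉ Gamma0 L → ∀ g b : ℤ,
    (g * δ 1 0 = γ 1 0 ∧ g * δ 0 0 = q * γ 0 0) ∨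
      (g * δ 1 0 = q * γ 1 0 ∧ g * δ 0 0 = γ 0 0 + b * γ 1 0) →
    δ ∉ Gamma0 L ∧ val δ = (starRingEnd ℂ) (val γ)

attribute [instance] Hauptmodul.neL

/-- `u` has no zeros and no critical points on the upper half plane. -/
structure Hauptmodul.IsCoord {q : ℕ} (H : Hauptmodul q) : Prop where
  ne_zero : ∀ τ, H.u τ ≠ 0
  deriv_ne : ∀ τ, dH H.u τ ≠ 0

theorem periodic_smul_of_dvd {L : ℕ} {f : ℍ → ℂ} (hf : f ∈ levelRing L) (γ : SL(2, ℤ)) {h : ℕ}
    (hd : (L : ℤ) ∣ (h : ℤ) * γ 1 0 ^ 2) (τ : ℍ) :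
    f (γ • ((h : ℝ) +ᵥ τ)) = f (γ • τ) := by
  have h1 : γ * ModularGroup.T ^ (h : ℤ) * γ⁻¹ ∈ Gamma0 L := by
    rw [Gamma0_mem, ZMod.intCast_zmod_eq_zero_iff_dvd]
    have : (γ * ModularGroup.T ^ (h : ℤ) * γ⁻¹) 1 0 = -((h : ℤ) * γ 1 0 ^ 2) := by
      have hT : ∀ i j, (ModularGroup.T ^ (h : ℤ)) i j = (!![1, (h : ℤ); 0, 1]) i j := fun i j => by
        rw [ModularGroup.coe_T_zpow]
      rw [mul_apply_two, mul_apply_two, mul_apply_two]
      simp only [hT]
      simp [Matrix.SpecialLinearGroup.SL2_inv_expl]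
      ring
    rw [this]
    exact hd.neg_right
  have h2 := hf.2.1 _ h1 (γ • τ)
  rw [smul_smul, inv_mul_cancel_right, mul_smul, modular_T_zpow_smul, Int.cast_natCast] at h2
  exact h2

theorem discriminant_dil_smul_of_dvd (d : ℕ) [NeZero d] {γ : SL(2, ℤ)} (h : (d : ℤ) ∣ γ 1 0)
    (τ : ℍ) : Δ (dil d (γ • τ)) = ((γ 1 0 : ℂ) * τ + γ 1 1) ^ 12 * Δ (dil d τ) := by
  have e1 : ∀ w : ℍ, Δ (dil d w) = Igusa.deltaRatio d w * Δ w := fun w => by
    simp [Igusa.deltaRatio, Igusa.invDelta, ModularForm.discriminant_ne_zero w]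
  rw [e1, e1 τ, (Igusa.deltaRatio_smul_of_dvd d h τ).1, Igusa.discriminant_smul_eq]
  ring

theorem mdiff_discriminant_dil (d : ℕ) [NeZero d] : MDiff fun τ : ℍ => Δ (dil d τ) :=
  (mem_cuspRing_comp_dil discriminant_mem_cuspRing d).1

/-- A function with a pole at `∞` has nonzero derivative somewhere. -/
theorem exists_dH_ne_zero {u : ℍ → ℂ} (hu : u ∈ cuspRing) {n : ℤ} (hn : n < 0)
    (hc : (qLaurent u).coeff n ≠ 0) : ∃ τ, dH u τ ≠ 0 := by
  by_contra! hall
  have hd : DifferentiableOn ℂ (u ∘ ofComplex) upperHalfPlaneSet :=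
    UpperHalfPlane.mdifferentiable_iff.mp hu.1
  have hconst : ∀ τ, u τ = u UpperHalfPlane.I := fun τ => by
    have h := isOpen_upperHalfPlaneSet.is_const_of_deriv_eq_zero
      (convex_halfSpace_im_gt 0).isPreconnected hd (fun z hz => by
        simpa [dH, ofComplex_apply_of_im_pos hz] using hall ⟨z, hz⟩) τ.im_pos
      UpperHalfPlane.I.im_pos
    simpa only [comp_apply, ofComplex_apply] using h
  apply hc
  rw [show u = algebraMap ℂ (ℍ → ℂ) (u UpperHalfPlane.I) from funext hconst, qLaurent_algebraMap,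
    ModularCurve.algebraMap_laurentSeries_eq_single, HahnSeries.coeff_single_of_ne hn.ne]

theorem coeff_single_mul_toLS (k : ℕ) (U : PowerSeries ℂ) (i : ℕ) :
    (HahnSeries.single (-(k : ℤ)) (1 : ℂ) * toLS U).coeff ((i : ℤ) - k) = U.coeff i := by
  rw [HahnSeries.coeff_single_mul, one_mul, toLS, show (i : ℤ) - k - -k = (i : ℕ) by ring,
    HahnSeries.ofPowerSeries_apply_coeff]

theorem coeff_single_mul_toLS_of_lt (k : ℕ) (U : PowerSeries ℂ) {m : ℤ} (hm : m < -k) :
    (HahnSeries.single (-(k : ℤ)) (1 : ℂ) * toLS U).coeff m = 0 := by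
  rw [HahnSeries.coeff_single_mul, one_mul, toLS]
  exact ModularCurve.ofPowerSeries_coeff_of_neg _ (by omega)

theorem constantCoeff_map_etaSeries (d₁ d₂ e : ℕ) [NeZero d₁] [NeZero d₂] {R : Type*} [CommRing R]
    (f : ℤ →+* R) : PowerSeries.constantCoeff ((etaSeries d₁ d₂ e).map f) = 1 := by
  rw [← PowerSeries.coeff_zero_eq_constantCoeff_apply, PowerSeries.coeff_map,
    PowerSeries.coeff_zero_eq_constantCoeff_apply, constantCoeff_etaSeries, map_one]

theorem coeff_one_expand {d : ℕ} [NeZero d] (hd : 1 < d) (f : PowerSeries ℤ) :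
    (f.expand d (NeZero.ne d)).coeff 1 = 0 :=
  PowerSeries.coeff_expand_of_not_dvd _ _ _ fun h => by
    have := Nat.le_of_dvd one_pos h
    omega

end FermatAgent.BadRed.Carayol.Instance
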