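import Fermat.Agent.BadRed.Carayol.Instance.Coeff
import Mathlib.Algebra.Polynomial.Bivariate

/-!
# Minimality, symmetry and the Kronecker congruence of the modular equation
-/

set_option autoImplicit false

noncomputable section

open UpperHalfPlane hiding I
open Complex Filter Function CongruenceSubgroup Polynomial
open scoped Real Topology MatrixGroups Manifold ModularForm
open FermatAgent.ModFun

namespace FermatAgent.BadRed.Carayol.Instance

variable {q : ℕ} [NeZero q] [Fact q.Prime] (H : Hauptmodul q)

omit [NeZero q] in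
theorem not_q_dvd_one : ¬ (q : ℤ) ∣ -1 := fun h => by
  have := Int.le_of_dvd one_pos (by simpa using h)
  have := (Fact.out : q.Prime).two_le
  omega

omit [Fact (Nat.Prime q)] [NeZero q] in
theorem coeff_qExpand_uSeries (d : ℕ) [NeZero d] :
    (ModularCurve.qExpand ℤ d (uSeries H)).coeff (-(d : ℤ)) = 1 := by
  rw [show -(d : ℤ) = (d : ℤ) * -1 by ring, ModularCurve.qExpand_coeff_mul, coeff_uSeries_top]

theorem rootSeries_injective : Injective (rootSeries H (rootC q)) := by
  have hq2 := (Fact.out : q.Prime).two_le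
  have hcoef : ∀ i : Option (ZMod q), (rootSeries H (rootC q) i).coeff (-1) =
      i.elim 0 fun x => (((rootC q : ℂˣ) : ℂ) ^ x.val)⁻¹ := fun i => by
    cases i with
    | none =>
      refine ModularCurve.qExpand_coeff_of_not_dvd _ _ fun h => ?_
      have := Int.le_of_dvd one_pos (by simpa using h)
      nlinarith
    | some x => simp [rootSeries, coeff_uSeries_top]
  intro i j h
  have h' := congrArg (fun s : LaurentSeries ℂ => s.coeff (-1)) h
  simp only [hcoef] at h'
  have hne : ∀ n : ℕ, (((rootC q : ℂˣ) : ℂ) ^ n)⁻¹ ≠ 0 := fun n =>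
    inv_ne_zero (pow_ne_zero _ (Units.ne_zero _))
  cases i <;> cases j
  · rfl
  · exact absurd h'.symm (hne _)
  · exact absurd h' (hne _)
  · refine congrArg some (ZMod.val_injective q ?_)
    exact (isPrimitiveRoot_rootC (q := q)).pow_inj (ZMod.val_lt _) (ZMod.val_lt _) (inv_injective h')

theorem rootFun_injective : Injective (rootFun H) := fun i j h =>
  rootSeries_injective H (by rw [← qLaurent_rootFun, ← qLaurent_rootFun, h])

omit [Fact (Nat.Prime q)] [NeZero q] in
/-- `u` satisfies no polynomial equation. -/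
theorem eq_zero_of_eval_u {p : ℂ[X]} (h : ∀ τ, p.eval (H.u τ) = 0) : p = 0 := by
  set uc : cuspRing := ⟨H.u, levelRing_le_cuspRing _ H.mem⟩ with huc
  have h0 : Polynomial.aeval uc p = 0 := by
    apply Subtype.ext
    funext τ
    rw [← evalC_apply τ]
    change evalC τ (Polynomial.aeval uc p) = 0
    rw [aeval_def, hom_eval₂, ← h τ, Polynomial.eval]
    exact eval₂_congr (RingHom.ext fun c => rfl) rfl rfl
  have h1 := congrArg qLaurentHom h0
  rw [← aeval_algHom_apply, map_zero, qLaurentHom_apply, huc, qLaurent_u_eq] at h1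
  refine eq_zero_of_aeval_pole one_pos ((poleLE_uSeries H).coeffMap _) ?_ h1
  simp [coeff_uSeries_top]

omit [Fact (Nat.Prime q)] [NeZero q] in
theorem eq_zero_of_eval_u_int {p : ℤ[X]} (h : ∀ τ, evalInt (H.u τ) p = 0) : p = 0 :=
  map_injective (Int.castRingHom ℂ) Int.cast_injective
    (by rw [Polynomial.map_zero]; exact eq_zero_of_eval_u H fun τ => by rw [eval_map]; exact h τ)

/-- No relation between `u(qτ)` and `u(τ)` has degree below `q + 1`. -/
theorem eq_zero_of_eval_dil {G : ℂ[X][X]} (hdeg : G.natDegree < q + 1)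
    (h : ∀ τ, (G.map (evalRingHom (H.u τ))).eval (H.u (dil q τ)) = 0) : G = 0 := by
  set uT : tameRing := ⟨H.u, H.mem.1, by simpa using H.mem.2.2 1⟩ with huT
  let r : Option (ZMod q) → tameRing := fun i =>
    ⟨rootFun H i, by simpa using rootFun_smul_mem H i 1⟩
  have hr : Injective r := fun i j h => rootFun_injective H (congrArg Subtype.val h)
  have hev : ∀ τ, (evalT τ).comp (Polynomial.aeval uT : ℂ[X] →ₐ[ℂ] tameRing).toRingHom
      = evalRingHom (H.u τ) := fun τ => by
    refine Polynomial.ringHom_ext (fun a => ?_) ?_ <;> simp [huT]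
  have key : G.map (Polynomial.aeval uT : ℂ[X] →ₐ[ℂ] tameRing).toRingHom = 0 := by
    refine eq_zero_of_natDegree_lt_card_of_eval_eq_zero _ hr (fun i => ?_) ?_
    · obtain ⟨γ, hγ, hi⟩ := exists_smul_none H i
      refine Subtype.ext (funext fun τ => ?_)
      change evalT τ _ = _
      rw [← eval₂_at_apply, ← eval_map, Polynomial.map_map, hev, evalT_apply]
      show (G.map (evalRingHom (H.u τ))).eval (rootFun H i τ) = 0
      rw [← hi, ← H.mem.2.1 γ hγ τ, rootFun_none]
      exact h _
    · refine natDegree_map_le.trans_lt ?_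
      simpa [Fintype.card_option, ZMod.card] using hdeg
  ext1 k
  rw [coeff_zero]
  refine eq_zero_of_eval_u H fun τ => ?_
  have := congrArg (fun P => evalT τ (P.coeff k)) key
  simp only [coeff_map, coeff_zero, map_zero] at this
  rw [← coe_evalRingHom, ← hev τ]
  exact this

theorem eq_zero_of_eval_dil_int {G : ℤ[X][X]} (hdeg : G.natDegree < q + 1)
    (h : ∀ τ, (G.map (evalInt (H.u τ))).eval (H.u (dil q τ)) = 0) : G = 0 := by
  have hinj : Injective (mapRingHom (Int.castRingHom ℂ)) :=
    map_injective _ Int.cast_injective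
  refine map_injective _ hinj ?_
  rw [Polynomial.map_zero]
  refine eq_zero_of_eval_dil H (natDegree_map_le.trans_lt hdeg) fun τ => ?_
  rw [Polynomial.map_map, show (evalRingHom (H.u τ)).comp (mapRingHom (Int.castRingHom ℂ))
      = evalInt (H.u τ) from Polynomial.ringHom_ext (fun c => by simp) (by simp)]
  exact h τ

theorem modPoly_root (τ : ℍ) :
    ((modPoly H).map (evalInt (H.u τ))).eval (H.u (dil q τ)) = 0 := by
  rw [map_modPoly, rootProd, eval_prod]
  exact Finset.prod_eq_zero (Finset.mem_univ none) (by simp [rootFun_none])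

theorem modPoly_root' (τ : ℍ) :
    ((modPoly H).map (evalInt (H.u (dil q τ)))).eval (H.u τ) = 0 := by
  rw [map_modPoly, rootProd, eval_prod]
  refine Finset.prod_eq_zero (Finset.mem_univ (some 0)) ?_
  simp [rootFun, qMove_dil_some]

omit [NeZero q] [Fact q.Prime] in
theorem eval_map_swap (P : ℤ[X][X]) (a b : ℂ) :
    ((Bivariate.swap P).map (evalInt a)).eval b = (P.map (evalInt b)).eval a := by
  induction P using Polynomial.induction_on' with
  | add P Q hP hQ => simp [Polynomial.map_add, hP, hQ]
  | monomial n f =>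
    induction f using Polynomial.induction_on' with
    | add f g hf hg => simp only [map_add, Polynomial.map_add, eval_add, hf, hg]
    | monomial m c =>
      rw [Bivariate.swap_monomial_monomial]
      simp [Polynomial.map_monomial, eval_monomial, eval₂_monomial]
      ring

omit [NeZero q] [Fact q.Prime] in
theorem coeff_swap {R : Type*} [CommRing R] (P : R[X][X]) (i j : ℕ) :
    ((Bivariate.swap P).coeff i).coeff j = (P.coeff j).coeff i := by
  induction P using Polynomial.induction_on' with
  | add P Q hP hQ => simp [map_add, hP, hQ]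
  | monomial n f =>
    induction f using Polynomial.induction_on' with
    | add f g hf hg => simp only [map_add, coeff_add, hf, hg]
    | monomial m c =>
      rw [Bivariate.swap_monomial_monomial]
      simp only [coeff_monomial]
      split_ifs <;> simp_all [coeff_monomial]

theorem u_dil_ne : ¬ ∀ τ, H.u (dil q τ) = H.u τ := by
  intro h
  have hu := levelRing_le_cuspRing _ H.mem
  have h2 := qLaurent_comp_dil hu q
  rw [show H.u ∘ dil q = H.u from funext h, qLaurent_u_eq] at h2
  have h3 := congrArg (fun s : LaurentSeries ℂ => s.coeff (-1)) h2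
  simp [ModularCurve.qExpand_coeff_of_not_dvd q _ not_q_dvd_one, coeff_uSeries_top] at h3

theorem modPoly_swap : Bivariate.swap (modPoly H) = modPoly H := by
  set Φ := modPoly H with hΦ
  set Ψ := Bivariate.swap Φ with hΨ
  have hΨroot : ∀ τ, (Ψ.map (evalInt (H.u τ))).eval (H.u (dil q τ)) = 0 := fun τ => by
    rw [hΨ, eval_map_swap]; exact modPoly_root' H τ
  have hΨhigh : ∀ i, q + 1 < i → Ψ.coeff i = 0 := fun i hi => by
    ext j
    rw [hΨ, coeff_swap, coeff_zero, coeff_eq_zero_of_natDegree_lt]
    exact lt_of_le_of_lt (natDegree_coeff_modPoly H j) hi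
  set c := Ψ.coeff (q + 1) with hc
  have hdiff : Ψ - C c * Φ = 0 := by
    refine eq_zero_of_eval_dil_int H ?_ fun τ => ?_
    · refine Nat.lt_succ_of_le (natDegree_le_iff_coeff_eq_zero.mpr fun i hi => ?_)
      rw [coeff_sub, coeff_C_mul]
      rcases eq_or_lt_of_le (Nat.succ_le_of_lt hi) with h | h
      · rw [← h, ← hc, hΦ, coeff_modPoly]; simp
      · rw [hΨhigh i h, hΦ, coeff_eq_zero_of_natDegree_lt (p := modPoly H) (n := i)
          (by rw [natDegree_modPoly]; exact h)]
        simp
    · rw [Polynomial.map_sub, Polynomial.map_mul, eval_sub, eval_mul, hΨroot, hΦ, modPoly_root]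
      simp
  have hΨe : Ψ = C c * Φ := sub_eq_zero.mp hdiff
  have hinv : Φ = Bivariate.swap (C c) * C c * Φ := by
    conv_lhs => rw [← Bivariate.swap_swap_apply Φ, ← hΨ, hΨe, map_mul, ← hΨ, hΨe]
    ring
  have hone : Bivariate.swap (C c) * C c = 1 :=
    (mul_eq_right₀ (modPoly_monic H).ne_zero).mp hinv.symm
  obtain ⟨e, he, hec⟩ := Polynomial.isUnit_iff.mp
    (isUnit_C.mp (IsUnit.of_mul_eq_one_right _ hone))
  rcases Int.isUnit_iff.mp he with rfl | rfl
  · rw [hΨe, ← hec]; simp
  · exfalso
    have hneg : Ψ = -Φ := by rw [hΨe, ← hec, C_neg, C_neg, map_one, map_one]; ring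
    have hdiag : Φ.eval X = 0 := by
      refine eq_zero_of_eval_u_int H fun τ => ?_
      have h := eval_map_swap Φ (H.u τ) (H.u τ)
      rw [← hΨ, hneg, Polynomial.map_neg, eval_neg, neg_eq_iff_add_eq_zero, add_self_eq_zero,
        eval_map] at h
      rwa [← eval₂_at_apply, show evalInt (H.u τ) X = H.u τ by simp]
    obtain ⟨G, hG⟩ := dvd_iff_isRoot.mpr (show Φ.IsRoot X from hdiag)
    have hGne : G ≠ 0 := fun h => (modPoly_monic H).ne_zero (by rw [← hΦ, hG, h, mul_zero])
    have hGdeg : G.natDegree < q + 1 := by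
      have := congrArg natDegree hG
      rw [natDegree_mul (X_sub_C_ne_zero _) hGne, natDegree_X_sub_C, hΦ, natDegree_modPoly] at this
      omega
    set uc : cuspRing := ⟨H.u, levelRing_le_cuspRing _ H.mem⟩
    set uq : cuspRing := ⟨_, mem_cuspRing_comp_dil (levelRing_le_cuspRing _ H.mem) q⟩
    set g : cuspRing := G.eval₂ (eval₂RingHom (Int.castRingHom cuspRing) uc) uq with hg
    have hgv : ∀ τ, evalC τ g = (G.map (evalInt (H.u τ))).eval (H.u (dil q τ)) := fun τ => by
      rw [hg, hom_eval₂, eval_map]
      congr 1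
      exact Polynomial.ringHom_ext (fun c => by simp) (by simp [uc])
    have hprod : (uq - uc) * g = 0 := by
      refine Subtype.ext (funext fun τ => ?_)
      change evalC τ ((uq - uc) * g) = 0
      have h := modPoly_root H τ
      rw [← hΦ, hG, Polynomial.map_mul, eval_mul, ← hgv] at h
      rw [map_mul, ← h]
      simp [uc, uq]
    rcases mul_eq_zero.mp hprod with h | h
    · exact u_dil_ne H fun τ => by
        simpa [uc, uq, sub_eq_zero] using congrArg (fun f : cuspRing => (f : ℍ → ℂ) τ) h
    · exact hGne (eq_zero_of_eval_dil_int H hGdeg fun τ => by rw [← hgv, h, map_zero])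

/-- Symmetry. -/
theorem modPoly_symm (i j : ℕ) :
    ((modPoly H).coeff i).coeff j = ((modPoly H).coeff j).coeff i := by
  conv_lhs => rw [← modPoly_swap H, coeff_swap]

/-- Evaluation of a polynomial at the expansion of `u(qτ)`. -/
def evalSeries (R : Type*) [CommRing R] : ℤ[X] →+* LaurentSeries R :=
  eval₂RingHom (Int.castRingHom _)
    (ModularCurve.coeffMap (Int.castRingHom R) (ModularCurve.qExpand ℤ q (uSeries H)))

omit [Fact (Nat.Prime q)] in
theorem coeffMap_evalSeries {R S : Type*} [CommRing R] [CommRing S] (f : R →+* S) :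
    (ModularCurve.coeffMap f).comp (evalSeries H R) = evalSeries H S := by
  refine Polynomial.ringHom_ext (fun c => by simp [evalSeries]) ?_
  simp [evalSeries, ModularCurve.coeffMap_coeffMap,
    RingHom.ext_int (f.comp (Int.castRingHom R)) (Int.castRingHom S)]

theorem map_modPoly_series :
    (modPoly H).map (evalSeries H ℂ) = rootPoly H (rootC q) := by
  set uq : cuspRing := ⟨_, mem_cuspRing_comp_dil (levelRing_le_cuspRing _ H.mem) q⟩ with huq
  have h : (modPoly H).map (eval₂RingHom (Int.castRingHom cuspRing) uq) = rootProdQ H := by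
    ext k τ
    rw [← evalC_apply τ, ← evalC_apply τ, ← coeff_map (f := evalC τ), ← coeff_map (f := evalC τ),
      Polynomial.map_map, map_rootProdQ, ← map_modPoly,
      show (evalC τ).comp (eval₂RingHom (Int.castRingHom cuspRing) uq) = evalInt (H.u (dil q τ))
        from Polynomial.ringHom_ext (fun c => by simp) (by simp [huq])]
  rw [← map_qLaurentHom_rootProdQ, ← h, Polynomial.map_map]
  congr 1
  refine Polynomial.ringHom_ext (fun c => by simp [evalSeries]) ?_
  simp [evalSeries, huq, qLaurentHom_apply, qLaurent_comp_dil (levelRing_le_cuspRing _ H.mem),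
    qLaurent_u_eq, coeffMap_comm_qExpand]

/-- The expansions over a ring of algebraic integers. -/
theorem exists_residue :
    ∃ (k : Type) (_ : Field k) (_ : CharP k q),
      (modPoly H).map (evalSeries H k) = rootPoly H (1 : kˣ) := by
  have hq := (Fact.out : q.Prime)
  set O := integralClosure ℤ ℂ with hO
  have hzi : IsIntegral ℤ ((rootC q : ℂˣ) : ℂ) :=
    (isPrimitiveRoot_rootC (q := q)).isIntegral (NeZero.pos q)
  set z : Oˣ := Units.ofPowEqOne ⟨_, hzi⟩ q
    (Subtype.ext (by simpa using (isPrimitiveRoot_rootC (q := q)).pow_eq_one)) (NeZero.ne q)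
    with hz
  have hzC : Units.map (O.val.toRingHom).toMonoidHom z = rootC q := by
    ext1; simp [hz]
  have hOmap : (modPoly H).map (evalSeries H O) = rootPoly H z := by
    refine map_injective (ModularCurve.coeffMap O.val.toRingHom) (fun x y h => ?_) ?_
    · ext n
      have := congrArg (fun s : LaurentSeries ℂ => s.coeff n) h
      simpa using this
    · rw [Polynomial.map_map, coeffMap_evalSeries, map_rootPoly, hzC, map_modPoly_series]
  have hunit : ¬ IsUnit ((q : ℕ) : O) := by
    rintro ⟨v, hv⟩
    have h1 : IsIntegral ℤ (algebraMap ℚ ℂ (q : ℚ)⁻¹) := by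
      rw [map_inv₀, map_natCast]
      have h2 : ((v : O) : ℂ) * ((v⁻¹ : Oˣ) : O) = 1 := by
        exact_mod_cast congrArg (fun x : O => (x : ℂ)) (Units.mul_inv v)
      rw [hv] at h2
      rw [inv_eq_of_mul_eq_one_right (by simpa using h2)]
      exact ((v⁻¹ : Oˣ) : O).2
    rw [isIntegral_algebraMap_iff (algebraMap ℚ ℂ).injective] at h1
    obtain ⟨c, hc⟩ := IsIntegrallyClosed.isIntegral_iff.mp h1
    simp only [algebraMap_int_eq, eq_intCast] at hc
    have h3 : (c : ℚ) * q = 1 := by rw [hc, inv_mul_cancel₀ (by exact_mod_cast hq.ne_zero)]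
    have h4 : c * (q : ℤ) = 1 := by exact_mod_cast h3
    exact not_q_dvd_one (q := q) ⟨-c, by linear_combination h4⟩
  obtain ⟨P, hP, hPle⟩ := Ideal.exists_le_maximal (Ideal.span {((q : ℕ) : O)})
    (fun h => hunit (Ideal.span_singleton_eq_top.mp h))
  let : Field (O ⧸ P) := Ideal.Quotient.field P
  have hq0 : ((q : ℕ) : O ⧸ P) = 0 := by
    rw [← map_natCast (Ideal.Quotient.mk P), Ideal.Quotient.eq_zero_iff_mem]
    exact hPle (Ideal.mem_span_singleton_self _)
  have : CharP (O ⧸ P) q := (CharP.charP_iff_prime_eq_zero hq).mpr hq0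
  refine ⟨O ⧸ P, inferInstance, this, ?_⟩
  have hz1 : Units.map (Ideal.Quotient.mk P).toMonoidHom z = 1 := by
    ext1
    refine sub_eq_zero.mp (eq_zero_of_pow_eq_zero (n := q) ?_)
    rw [sub_pow_char, Units.val_one, one_pow, ← Units.val_pow_eq_pow_val, ← map_pow, hz,
      Units.pow_ofPowEqOne, map_one, Units.val_one, sub_self]
  rw [← hz1, ← map_rootPoly, ← hOmap, Polynomial.map_map, coeffMap_evalSeries]

/-- Kronecker's congruence. -/
theorem modPoly_kronecker :
    (modPoly H).map (mapRingHom (Int.castRingHom (ZMod q))) =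
      (X - C (X ^ q)) * (X ^ q - C X) := by
  obtain ⟨k, _, _, hk⟩ := exists_residue H
  have : CharP (LaurentSeries k) q :=
    charP_of_injective_ringHom (algebraMap k (LaurentSeries k)).injective q
  set K₀ : ℤ[X][X] := (X - C (X ^ q)) * (X ^ q - C X) with hK
  suffices (modPoly H - K₀).map (mapRingHom (Int.castRingHom (ZMod q))) = 0 by
    rw [Polynomial.map_sub, sub_eq_zero] at this
    rw [this, hK]
    simp
  set W := ModularCurve.coeffMap (Int.castRingHom k) (ModularCurve.qExpand ℤ q (uSeries H)) with hW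
  have hroot : rootPoly H (1 : kˣ) = (X - C (W ^ q)) * (X ^ q - C W) := by
    simp only [rootPoly, Fintype.prod_option, rootSeries, one_pow, twist_one, Finset.prod_const,
      Finset.card_univ, ZMod.card]
    congr 1
    · rw [hW, pow_eq_qExpand, coeffMap_comm_qExpand (d := q), ModularCurve.qExpand_qExpand]
    · rw [sub_pow_char, ← C_pow, pow_eq_qExpand, hW, coeffMap_comm_qExpand]
  have hmap : (modPoly H - K₀).map (evalSeries H k) = 0 := by
    rw [Polynomial.map_sub, hk, hroot, hK, sub_eq_zero]
    simp [evalSeries, ← hW]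
  have hinj : Injective (ZMod.castHom dvd_rfl k) := RingHom.injective _
  ext i : 1
  rw [coeff_map, coeff_zero, coe_mapRingHom]
  refine map_injective _ hinj ?_
  rw [Polynomial.map_map, Polynomial.map_zero,
    RingHom.ext_int ((ZMod.castHom dvd_rfl k).comp (Int.castRingHom (ZMod q))) (Int.castRingHom k)]
  refine eq_zero_of_aeval_pole (NeZero.pos q) (x := W) ?_ ?_ ?_
  · simpa using ((poleLE_uSeries H).qExpand q).coeffMap (Int.castRingHom k)
  · rw [hW, ModularCurve.coeffMap_coeff, coeff_qExpand_uSeries, map_one]; exact one_ne_zero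
  · rw [aeval_def, eval₂_map,
      RingHom.ext_int ((algebraMap k (LaurentSeries k)).comp (Int.castRingHom k))
        (Int.castRingHom (LaurentSeries k))]
    have := congrArg (fun p => p.coeff i) hmap
    simpa [evalSeries, ← hW] using this

/-- The equation between the expansions of `u(qτ)` and `u(τ)`. -/
theorem modPoly_root_series :
    ((modPoly H).map (eval₂RingHom (Int.castRingHom _) (uSeries H))).eval
      (ModularCurve.qExpand ℤ q (uSeries H)) = 0 := by
  set uc : cuspRing := ⟨H.u, levelRing_le_cuspRing _ H.mem⟩ with huc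
  set uq : cuspRing := ⟨_, mem_cuspRing_comp_dil (levelRing_le_cuspRing _ H.mem) q⟩ with huq
  have h : (modPoly H).eval₂ (eval₂RingHom (Int.castRingHom cuspRing) uc) uq = 0 := by
    refine Subtype.ext (funext fun τ => ?_)
    change evalC τ _ = 0
    rw [hom_eval₂, ← modPoly_root H τ, eval_map]
    congr 1
    exact Polynomial.ringHom_ext (fun c => by simp) (by simp [uc])
  have hinj : Injective (ModularCurve.coeffMap (Int.castRingHom ℂ)) := fun x y h => by
    ext n
    have := congrArg (fun s : LaurentSeries ℂ => s.coeff n) h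
    simpa using this
  refine hinj ?_
  rw [map_zero, eval_map, hom_eval₂]
  have h' := congrArg qLaurentHom.toRingHom h
  rw [hom_eval₂, map_zero] at h'
  refine Eq.trans ?_ h'
  refine eval₂_congr (Polynomial.ringHom_ext (fun c => by simp) ?_) ?_ rfl
  · simp [huc, qLaurentHom_apply, qLaurent_u_eq]
  · simp [huq, qLaurentHom_apply, qLaurent_comp_dil (levelRing_le_cuspRing _ H.mem),
      qLaurent_u_eq, coeffMap_comm_qExpand]

end FermatAgent.BadRed.Carayol.Instance
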