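import Fermat.Agent.BadRed.Carayol.Instance.Hauptmodul
import Fermat.Agent.BadRed.Carayol.Instance.Laurent
import Fermat.Agent.Periods.HeckeHom

/-!
# The conjugates of `u(qτ)` over `u(τ)`
-/

set_option autoImplicit false

noncomputable section

open UpperHalfPlane hiding I
open Complex Filter Function Asymptotics CongruenceSubgroup
open scoped Real Topology MatrixGroups Manifold ModularForm
open FermatAgent.ModFun

namespace FermatAgent.BadRed.Carayol.Instance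

theorem aff_smul_eq {a e a' e' : ℕ} [NeZero a] [NeZero e] [NeZero a'] [NeZero e'] {b b' : ℤ}
    {γ δ : SL(2, ℤ)}
    (h00 : (a : ℤ) * γ 0 0 + b * γ 1 0 = δ 0 0 * a')
    (h01 : (a : ℤ) * γ 0 1 + b * γ 1 1 = δ 0 0 * b' + δ 0 1 * e')
    (h10 : (e : ℤ) * γ 1 0 = δ 1 0 * a')
    (h11 : (e : ℤ) * γ 1 1 = δ 1 0 * b' + δ 1 1 * e') (τ : ℍ) :
    aff a e b (γ • τ) = δ • aff a' e' b' τ := by
  have he : (e : ℂ) ≠ 0 := by exact_mod_cast NeZero.ne e
  have he' : (e' : ℂ) ≠ 0 := by exact_mod_cast NeZero.ne e'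
  have hden := Igusa.sl_denom_ne_zero γ τ
  have hden' := Igusa.sl_denom_ne_zero δ (aff a' e' b' τ)
  rw [coe_aff] at hden'
  have c00 : (a : ℂ) * γ 0 0 + b * γ 1 0 = δ 0 0 * a' := by exact_mod_cast h00
  have c01 : (a : ℂ) * γ 0 1 + b * γ 1 1 = δ 0 0 * b' + δ 0 1 * e' := by exact_mod_cast h01
  have c10 : (e : ℂ) * γ 1 0 = δ 1 0 * a' := by exact_mod_cast h10
  have c11 : (e : ℂ) * γ 1 1 = δ 1 0 * b' + δ 1 1 * e' := by exact_mod_cast h11
  ext1
  rw [coe_aff, coe_specialLinearGroup_apply, coe_specialLinearGroup_apply, coe_aff]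
  simp only [algebraMap_int_eq, eq_intCast, Complex.ofReal_intCast]
  have num : (a : ℂ) * ((γ 0 0 : ℂ) * τ + γ 0 1) + b * ((γ 1 0 : ℂ) * τ + γ 1 1)
      = δ 0 0 * ((a' : ℂ) * τ + b') + δ 0 1 * e' := by linear_combination (τ : ℂ) * c00 + c01
  have den : (e : ℂ) * ((γ 1 0 : ℂ) * τ + γ 1 1)
      = δ 1 0 * ((a' : ℂ) * τ + b') + δ 1 1 * e' := by linear_combination (τ : ℂ) * c10 + c11
  have hl : ((a : ℂ) * (((γ 0 0 : ℂ) * τ + γ 0 1) / ((γ 1 0 : ℂ) * τ + γ 1 1)) + b) / e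
      = ((a : ℂ) * ((γ 0 0 : ℂ) * τ + γ 0 1) + b * ((γ 1 0 : ℂ) * τ + γ 1 1))
        / (e * ((γ 1 0 : ℂ) * τ + γ 1 1)) := by
    rw [mul_comm (e : ℂ), ← div_div]
    congr 1
    rw [eq_div_iff hden, add_mul, mul_assoc, div_mul_cancel₀ _ hden]
  rw [hl, num, den]
  field_simp

/-- Triangular form of `(a b; 0 e) γ`. -/
theorem exists_aff_smul (a e : ℕ) [NeZero a] [NeZero e] (b : ℤ) (γ : SL(2, ℤ)) :
    ∃ (δ : SL(2, ℤ)) (a' e' : ℕ) (b' : ℤ) (_ : NeZero a') (_ : NeZero e'),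
      (∀ τ : ℍ, aff a e b (γ • τ) = δ • aff a' e' b' τ) ∧
      (a' : ℤ) * δ 1 0 = e * γ 1 0 ∧ (a' : ℤ) * δ 0 0 = a * γ 0 0 + b * γ 1 0 := by
  have hdet : γ 0 0 * γ 1 1 - γ 0 1 * γ 1 0 = 1 := by
    have h := γ.2
    rwa [Matrix.det_fin_two] at h
  set p₁ : ℤ := a * γ 0 0 + b * γ 1 0 with hp1
  set p₂ : ℤ := e * γ 1 0 with hp2
  set r₁ : ℤ := a * γ 0 1 + b * γ 1 1 with hr1
  set r₂ : ℤ := e * γ 1 1 with hr2
  have hae : p₁ * r₂ - r₁ * p₂ = a * e := by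
    rw [hp1, hp2, hr1, hr2]; linear_combination ((a : ℤ) * e) * hdet
  have hpos : (0 : ℤ) < (a : ℤ) * e :=
    mul_pos (Int.natCast_pos.mpr (NeZero.pos a)) (Int.natCast_pos.mpr (NeZero.pos e))
  have hne : Int.gcd p₁ p₂ ≠ 0 := fun h => by
    rw [Int.gcd_eq_zero_iff] at h
    rw [h.1, h.2] at hae
    linarith
  set g := Int.gcd p₁ p₂ with hg
  obtain ⟨x, hx⟩ : (g : ℤ) ∣ p₁ := Int.gcd_dvd_left _ _
  obtain ⟨y, hy⟩ : (g : ℤ) ∣ p₂ := Int.gcd_dvd_right _ _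
  obtain ⟨s, t, hst⟩ : ∃ s t : ℤ, s * x + t * y = 1 := by
    refine ⟨Int.gcdA p₁ p₂, Int.gcdB p₁ p₂, mul_left_cancel₀ (Int.natCast_ne_zero.mpr hne) ?_⟩
    have h := Int.gcd_eq_gcd_ab p₁ p₂
    rw [← hg] at h
    linear_combination -h - Int.gcdA p₁ p₂ * hx - Int.gcdB p₁ p₂ * hy
  have hge : (g : ℤ) * (x * r₂ - r₁ * y) = a * e := by
    linear_combination hae - r₂ * hx + r₁ * hy
  have hepos : 0 < x * r₂ - r₁ * y := by
    refine pos_of_mul_pos_right (a := (g : ℤ)) ?_ (Int.natCast_nonneg g)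
    rw [hge]; exact hpos
  obtain ⟨e', he'⟩ : ∃ e' : ℕ, (e' : ℤ) = x * r₂ - r₁ * y :=
    ⟨_, Int.toNat_of_nonneg hepos.le⟩
  have : NeZero g := ⟨hne⟩
  have : NeZero e' := ⟨by omega⟩
  let δ : SL(2, ℤ) := ⟨!![x, -t; y, s], by rw [Matrix.det_fin_two_of]; linear_combination hst⟩
  refine ⟨δ, g, e', s * r₁ + t * r₂, inferInstance, inferInstance,
    aff_smul_eq ?_ ?_ ?_ ?_, hy.symm, hx.symm⟩
  · show p₁ = x * g; linear_combination hx
  · show r₁ = x * (s * r₁ + t * r₂) + -t * e'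
    linear_combination t * he' - r₁ * hst
  · show p₂ = y * g; linear_combination hy
  · show r₂ = y * (s * r₁ + t * r₂) + s * e'
    linear_combination -s * he' - r₂ * hst

theorem tendsto_aff_atImInfty (a e : ℕ) [NeZero a] [NeZero e] (b : ℤ) :
    Tendsto (aff a e b) atImInfty atImInfty := by
  have hr : (0 : ℝ) < (a : ℝ) / e :=
    div_pos (Nat.cast_pos.mpr (NeZero.pos a)) (Nat.cast_pos.mpr (NeZero.pos e))
  rw [atImInfty, tendsto_comap_iff]
  exact (tendsto_comap.const_mul_atTop hr).congr fun τ => (aff_im a e b τ).symm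

theorem mdiff_aff_comp {f : ℍ → ℂ} (hf : MDiff f) (a e : ℕ) [NeZero a] [NeZero e] (b : ℤ) :
    MDiff fun τ => f (aff a e b τ) := by
  refine mdiff_comp (g := aff a e b) hf ?_
  simp only [coe_aff]
  exact ((mdifferentiable_const.mul mdifferentiable_coe).add mdifferentiable_const).mul
    mdifferentiable_const

variable {q : ℕ} [NeZero q]

/-- `τ ↦ qτ` and `τ ↦ (τ + b)/q`. -/
def qMove (q : ℕ) [NeZero q] : Option (ZMod q) → ℍ → ℍ
  | none => aff q 1 0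
  | some x => aff 1 q (x.val : ℤ)

theorem qMove_none (τ : ℍ) : qMove q none τ = dil q τ := by
  ext1; simp [qMove, coe_aff, coe_dil]

/-- The conjugates of `u(qτ)`. -/
def rootFun (H : Hauptmodul q) (i : Option (ZMod q)) (τ : ℍ) : ℂ := H.u (qMove q i τ)

theorem rootFun_none (H : Hauptmodul q) (τ : ℍ) : rootFun H none τ = H.u (dil q τ) := by
  rw [rootFun, qMove_none]

theorem rootFun_smul_eq (H : Hauptmodul q) (i : Option (ZMod q)) (γ : SL(2, ℤ)) :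
    ∃ (δ : SL(2, ℤ)) (a e : ℕ) (b : ℤ) (_ : NeZero a) (_ : NeZero e),
      (∀ τ, rootFun H i (γ • τ) = H.u (δ • aff a e b τ)) ∧
      (γ ∉ Gamma0 H.L → δ ∉ Gamma0 H.L ∧ H.val δ = (starRingEnd ℂ) (H.val γ)) := by
  cases i with
  | none =>
    obtain ⟨δ, a, e, b, ha, he, h, h10, h00⟩ := exists_aff_smul q 1 0 γ
    refine ⟨δ, a, e, b, ha, he, fun τ => congrArg H.u (h τ), fun hγ => ?_⟩
    exact H.val_scale γ δ hγ a 0 (Or.inl ⟨by simpa using h10, by simpa using h00⟩)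
  | some x =>
    obtain ⟨δ, a, e, b, ha, he, h, h10, h00⟩ := exists_aff_smul 1 q (x.val : ℤ) γ
    refine ⟨δ, a, e, b, ha, he, fun τ => congrArg H.u (h τ), fun hγ => ?_⟩
    exact H.val_scale γ δ hγ a (x.val : ℤ)
      (Or.inr ⟨by simpa using h10, by simpa using h00⟩)

theorem rootFun_smul_mem (H : Hauptmodul q) (i : Option (ZMod q)) (γ : SL(2, ℤ)) :
    (fun τ => rootFun H i (γ • τ)) ∈ tameRing := by
  obtain ⟨δ, a, e, b, _, _, h, -⟩ := rootFun_smul_eq H i γ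
  rw [funext h]
  exact ⟨mdiff_aff_comp (mdiff_comp_smul H.mem.1 δ) a e b,
    (H.mem.2.2 δ).comp (g := aff a e b) (div_pos (Nat.cast_pos.mpr (NeZero.pos a))
      (Nat.cast_pos.mpr (NeZero.pos e))) (aff_im a e b)⟩

/-- Limits at the cusps other than `∞`. -/
theorem tendsto_rootFun (H : Hauptmodul q) (i : Option (ZMod q)) {γ : SL(2, ℤ)}
    (hγ : γ ∉ Gamma0 H.L) :
    Tendsto (fun τ => rootFun H i (γ • τ)) atImInfty (𝓝 ((starRingEnd ℂ) (H.val γ))) := by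
  obtain ⟨δ, a, e, b, _, _, h, hv⟩ := rootFun_smul_eq H i γ
  rw [funext h, ← (hv hγ).2]
  exact (H.tendsto_val δ (hv hγ).1).comp (tendsto_aff_atImInfty a e b)

theorem qMove_move {L : ℕ} [Fact q.Prime] (hq : ¬ q ∣ L) (γ : Gamma0 L) (i : Option (ZMod q))
    (τ : ℍ) :
    qMove q i ((γ : SL(2, ℤ)) • τ) =
      (((Periods.tCorr L (Fact.out) hq).move γ i : Gamma0 L) : SL(2, ℤ)) •
        qMove q ((Periods.tCorr L (Fact.out) hq).target γ i) τ := by
  have h := (Periods.tCorr L (Fact.out) hq).move_spec γ i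
  simp only [Periods.tCorr_rep] at h
  generalize (Periods.tCorr L (Fact.out) hq).target γ i = j at h ⊢
  set δ : SL(2, ℤ) := (((Periods.tCorr L (Fact.out) hq).move γ i : Gamma0 L) : SL(2, ℤ))
  have e00 := congrFun (congrFun h 0) 0
  have e01 := congrFun (congrFun h 0) 1
  have e10 := congrFun (congrFun h 1) 0
  have e11 := congrFun (congrFun h 1) 1
  cases i <;> cases j <;>
    simp [Periods.tRep, Periods.diagRep, Periods.upperRep, Matrix.mul_apply, Fin.sum_univ_two,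
      -ZMod.natCast_val] at e00 e01 e10 e11 <;>
    exact aff_smul_eq (by simpa [-ZMod.natCast_val] using e00)
      (by simpa [-ZMod.natCast_val] using e01) (by simpa [-ZMod.natCast_val] using e10)
      (by simpa [-ZMod.natCast_val] using e11) τ

/-- The action of `Γ₀(L)` permutes the conjugates. -/
theorem exists_perm [Fact q.Prime] (H : Hauptmodul q) {γ : SL(2, ℤ)} (hγ : γ ∈ Gamma0 H.L) :
    ∃ σ : Equiv.Perm (Option (ZMod q)), ∀ i τ, rootFun H i (γ • τ) = rootFun H (σ i) τ := by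
  have hq : ¬ q ∣ H.L := ((Fact.out : q.Prime).coprime_iff_not_dvd).mp H.coprime
  refine ⟨(Periods.tCorr H.L (Fact.out) hq).targetEquiv ⟨γ, hγ⟩, fun i τ => ?_⟩
  rw [rootFun, qMove_move hq ⟨γ, hγ⟩ i τ, H.mem.2.1 _ (SetLike.coe_mem _)]
  rfl

/-- The conjugates form a single orbit. -/
theorem exists_smul_none [Fact q.Prime] (H : Hauptmodul q) (i : Option (ZMod q)) :
    ∃ γ ∈ Gamma0 H.L, ∀ τ, rootFun H none (γ • τ) = rootFun H i τ := by
  cases i with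
  | none => exact ⟨1, one_mem _, fun τ => by rw [one_smul]⟩
  | some x =>
    have hcop : Nat.Coprime q H.L := H.coprime
    have hq0 : (q : ℤ) ≠ 0 := by exact_mod_cast NeZero.ne q
    obtain ⟨s, t, hst⟩ : ∃ s t : ℤ, s * q + t * H.L = 1 :=
      Int.isCoprime_iff_gcd_eq_one.mpr (by simpa [Int.gcd_natCast_natCast] using hcop)
    -- `d ≡ 1 mod L` and `d ≡ L b mod q`
    set b : ℤ := (x.val : ℤ) with hb
    set d : ℤ := s * q + t * H.L * (H.L * b) with hd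
    obtain ⟨A, B, hAB⟩ : IsCoprime d (H.L : ℤ) :=
      ⟨1, t - t * (H.L * b), by rw [hd]; linear_combination hst⟩
    obtain ⟨w, hw⟩ : (q : ℤ) ∣ d - H.L * b :=
      ⟨s - s * (H.L * b), by rw [hd]; linear_combination ((H.L : ℤ) * b) * hst⟩
    let γ : SL(2, ℤ) := ⟨!![A, -B; (H.L : ℤ), d],
      by rw [Matrix.det_fin_two_of]; linear_combination hAB⟩
    let δ : SL(2, ℤ) := ⟨!![(q : ℤ) * A, -A * b - B; (H.L : ℤ), w],
      by rw [Matrix.det_fin_two_of]; linear_combination hAB - A * hw⟩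
    have hγ : γ ∈ Gamma0 H.L := by
      rw [Gamma0_mem]; simp [γ]
    have hδ : δ ∈ Gamma0 H.L := by
      rw [Gamma0_mem]; simp [δ]
    refine ⟨γ, hγ, fun τ => ?_⟩
    have := aff_smul_eq (a := q) (e := 1) (a' := 1) (e' := q) (b := 0) (b' := b) (γ := γ) (δ := δ)
      (by simp [γ, δ]) (by simp [γ, δ]; ring) (by simp [γ, δ])
      (by simp [γ, δ]; linear_combination hw) τ
    simp only [rootFun, qMove, ← hb, this, H.mem.2.1 δ hδ]

end FermatAgent.BadRed.Carayol.Instance
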