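import Fermat.Agent.BadRed.Carayol.Defs
import Mathlib.Algebra.Polynomial.Reverse
import Mathlib.Algebra.Polynomial.Roots

/-!
# The algebraic part of a chart and its inverse chart
-/

set_option autoImplicit false
set_option linter.unusedSectionVars false

noncomputable section

open Polynomial IsLocalRing
open scoped Ring

namespace FermatAgent.BadRed.Carayol.Instance

section RevTwo

variable {R : Type*} [CommRing R]

/-- Reverse both variables of a polynomial of bidegree at most `(n, n)`. -/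
def revTwo (n : ℕ) (Φ : R[X][X]) : R[X][X] :=
  reflect n (∑ i ∈ Finset.range (n + 1), monomial i (reflect n (Φ.coeff i)))

theorem coeff_revTwo {n : ℕ} {Φ : R[X][X]} (hΦ : Φ.natDegree ≤ n) (i j : ℕ) :
    ((revTwo n Φ).coeff i).coeff j = (Φ.coeff (revAt n i)).coeff (revAt n j) := by
  rw [revTwo, coeff_reflect, finsetSum_coeff]
  simp only [coeff_monomial, Finset.sum_ite_eq', Finset.mem_range]
  split_ifs with h
  · rw [coeff_reflect]
  · rw [coeff_eq_zero_of_natDegree_lt (p := Φ) (n := revAt n i) (by omega)]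
    simp

theorem natDegree_revTwo_le {n : ℕ} {Φ : R[X][X]} (hΦ : Φ.natDegree ≤ n) :
    (revTwo n Φ).natDegree ≤ n := by
  refine natDegree_le_iff_coeff_eq_zero.mpr fun i hi => ?_
  ext j
  rw [coeff_revTwo hΦ, show revAt n i = i from if_neg (by omega),
    coeff_eq_zero_of_natDegree_lt (p := Φ) (n := i) (by omega)]
  simp

theorem natDegree_coeff_le_of_symm {n : ℕ} {Φ : R[X][X]} (hΦ : Φ.natDegree ≤ n)
    (hs : ∀ i j, (Φ.coeff i).coeff j = (Φ.coeff j).coeff i) (i : ℕ) :
    (Φ.coeff i).natDegree ≤ n := by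
  refine natDegree_le_iff_coeff_eq_zero.mpr fun j hj => ?_
  rw [hs, coeff_eq_zero_of_natDegree_lt (p := Φ) (n := j) (by omega), coeff_zero]

theorem revTwo_map {S : Type*} [CommRing S] (f : R →+* S) {n : ℕ} {Φ : R[X][X]}
    (hΦ : Φ.natDegree ≤ n) :
    (revTwo n Φ).map (mapRingHom f) = revTwo n (Φ.map (mapRingHom f)) := by
  ext i j
  simp [coeff_revTwo hΦ, coeff_revTwo (natDegree_map_le.trans hΦ)]

theorem evalTwo_eq_sum {W L : Type*} [CommRing W] [CommRing L] [Algebra W L] (Φ : W[X][X]) {n m : ℕ}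
    (hΦ : Φ.natDegree ≤ n) (hc : ∀ i, (Φ.coeff i).natDegree ≤ m) (x z : L) :
    evalTwo Φ x z = ∑ i ∈ Finset.range (n + 1), ∑ j ∈ Finset.range (m + 1),
      algebraMap W L ((Φ.coeff i).coeff j) * z ^ j * x ^ i := by
  rw [evalTwo, eval₂_eq_sum_range' _ (Nat.lt_succ_of_le hΦ)]
  refine Finset.sum_congr rfl fun i _ => ?_
  rw [← Finset.sum_mul]
  congr 1
  show aeval z (Φ.coeff i) = _
  rw [aeval_def, eval₂_eq_sum_range' _ (Nat.lt_succ_of_le (hc i))]

theorem evalTwo_comm {W L : Type*} [CommRing W] [CommRing L] [Algebra W L] {Φ : W[X][X]} {n : ℕ}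
    (hΦ : Φ.natDegree ≤ n) (hs : ∀ i j, (Φ.coeff i).coeff j = (Φ.coeff j).coeff i) (x z : L) :
    evalTwo Φ x z = evalTwo Φ z x := by
  rw [evalTwo_eq_sum Φ hΦ (natDegree_coeff_le_of_symm hΦ hs),
    evalTwo_eq_sum Φ hΦ (natDegree_coeff_le_of_symm hΦ hs), Finset.sum_comm]
  refine Finset.sum_congr rfl fun i _ => Finset.sum_congr rfl fun j _ => ?_
  rw [hs j i]
  ring

theorem evalTwo_revTwo_mul {W L : Type*} [CommRing W] [Field L] [Algebra W L] {Φ : W[X][X]} {n : ℕ}
    (hΦ : Φ.natDegree ≤ n) (hs : ∀ i j, (Φ.coeff i).coeff j = (Φ.coeff j).coeff i)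
    {x z : L} (hx : x ≠ 0) (hz : z ≠ 0) :
    evalTwo (revTwo n Φ) x⁻¹ z⁻¹ * (x ^ n * z ^ n) = evalTwo Φ x z := by
  have hc := natDegree_coeff_le_of_symm hΦ hs
  have hs' : ∀ i j, ((revTwo n Φ).coeff i).coeff j = ((revTwo n Φ).coeff j).coeff i := fun i j => by
    rw [coeff_revTwo hΦ, coeff_revTwo hΦ, hs]
  rw [evalTwo_eq_sum _ (natDegree_revTwo_le hΦ)
    (natDegree_coeff_le_of_symm (natDegree_revTwo_le hΦ) hs'), evalTwo_eq_sum Φ hΦ hc,
    Finset.sum_mul, ← Finset.sum_range_reflect _ (n + 1)]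
  refine Finset.sum_congr rfl fun i hi => ?_
  rw [Finset.sum_mul, ← Finset.sum_range_reflect _ (n + 1)]
  refine Finset.sum_congr rfl fun j hj => ?_
  rw [Finset.mem_range] at hi hj
  rw [coeff_revTwo hΦ, revAt_le (by omega), revAt_le (by omega),
    show n - (n + 1 - 1 - i) = i by omega, show n - (n + 1 - 1 - j) = j by omega, inv_pow, inv_pow,
    show n + 1 - 1 - i = n - i by omega, show n + 1 - 1 - j = n - j by omega]
  have e1 : x ^ n = x ^ (n - i) * x ^ i := by rw [← pow_add]; congr 1; omega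
  have e2 : z ^ n = z ^ (n - j) * z ^ j := by rw [← pow_add]; congr 1; omega
  rw [e1, e2]
  field_simp

theorem kronecker_coeff (m : ℕ) :
    ((X - C (X ^ m)) * (X ^ m - C X) : R[X][X]) =
      monomial (m + 1) (monomial 0 1) - monomial 1 (monomial 1 1)
        - monomial m (monomial m 1) + monomial 0 (monomial (m + 1) 1) := by
  simp only [← C_mul_X_pow_eq_monomial, C_1, map_mul, map_pow]
  ring

theorem revAt_eq_self {N i : ℕ} (h : N < i) : revAt N i = i := by
  rw [← revAtFun_eq, revAtFun, if_neg (by omega)]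

theorem coeff_monomial_monomial (a b i j : ℕ) (r : R) :
    ((monomial a (monomial b r)).coeff i).coeff j = if a = i ∧ b = j then r else 0 := by
  by_cases h : a = i <;> simp [coeff_monomial, h]

theorem revTwo_kronecker (m : ℕ) (hm : 1 ≤ m)
    (hd : ((X - C (X ^ m)) * (X ^ m - C X) : R[X][X]).natDegree ≤ m + 1) :
    revTwo (m + 1) ((X - C (X ^ m)) * (X ^ m - C X) : R[X][X]) =
      (X - C (X ^ m)) * (X ^ m - C X) := by
  ext i j
  rw [coeff_revTwo hd, kronecker_coeff]
  have e : ∀ a b : ℕ, revAt (m + 1) a = b ↔ a = revAt (m + 1) b := fun a b =>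
    ⟨fun h => by rw [← h, revAt_invol], fun h => by rw [h, revAt_invol]⟩
  have r0 : revAt (m + 1) 0 = m + 1 := revAt_zero _
  have r1 : revAt (m + 1) 1 = m := by rw [revAt_le (by omega)]; omega
  have rm : revAt (m + 1) m = 1 := by rw [revAt_le (by omega)]; omega
  have rn : revAt (m + 1) (m + 1) = 0 := by rw [revAt_le le_rfl]; omega
  have e' : ∀ a b : ℕ, a = revAt (m + 1) b ↔ revAt (m + 1) a = b := fun a b => (e a b).symm
  simp only [coeff_add, coeff_sub, coeff_monomial_monomial, e', r0, r1, rm, rn]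
  ring

theorem reflect_X_sub_C_pow (c : R) (n : ℕ) : reflect n ((X - C c) ^ n) = (1 - C c * X) ^ n := by
  induction n with
  | zero => simp
  | succ n ih =>
    have h1 : reflect 1 (X - C c) = 1 - C c * X := by
      ext i
      rcases i with _ | _ | i
      · rw [coeff_reflect, revAt_zero]; simp [coeff_one]
      · rw [coeff_reflect, revAt_le le_rfl]; simp [coeff_one]
      · rw [coeff_reflect, revAt_eq_self (i := i + 2) (by omega)]
        simp [coeff_one, coeff_X]
    rw [pow_succ, pow_succ, reflect_mul _ _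
      (natDegree_pow_le.trans (by simpa using Nat.mul_le_mul_left n (natDegree_X_sub_C_le c)))
      (natDegree_X_sub_C_le c), ih, h1]

theorem map_eval_revTwo {n : ℕ} {Φ : R[X][X]} (hΦ : Φ.natDegree ≤ n)
    (hs : ∀ i j, (Φ.coeff i).coeff j = (Φ.coeff j).coeff i) {a b : R} (hab : a * b = 1) :
    (revTwo n Φ).map (evalRingHom b) = C (b ^ n) * reflect n (Φ.map (evalRingHom a)) := by
  have hs' : ∀ i j, ((revTwo n Φ).coeff i).coeff j = ((revTwo n Φ).coeff j).coeff i := fun i j => by
    rw [coeff_revTwo hΦ, coeff_revTwo hΦ, hs]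
  ext i
  rw [coeff_map, coeff_C_mul, coeff_reflect, coeff_map, coe_evalRingHom, coe_evalRingHom,
    eval_eq_sum_range' (Nat.lt_succ_of_le
      (natDegree_coeff_le_of_symm (natDegree_revTwo_le hΦ) hs' i)),
    eval_eq_sum_range' (Nat.lt_succ_of_le (natDegree_coeff_le_of_symm hΦ hs _)),
    ← Finset.sum_range_reflect _ (n + 1), Finset.mul_sum]
  refine Finset.sum_congr rfl fun j hj => ?_
  rw [Finset.mem_range] at hj
  rw [coeff_revTwo hΦ, revAt_le (i := n + 1 - 1 - j) (by omega),
    show n - (n + 1 - 1 - j) = j by omega, show n + 1 - 1 - j = n - j by omega]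
  have e : b ^ n * a ^ j = b ^ (n - j) := by
    rw [show n = n - j + j by omega, pow_add, mul_assoc, ← mul_pow, mul_comm b, hab, one_pow,
      mul_one, show n - j + j - j = n - j by omega]
  rw [← e]
  ring

end RevTwo

/-- The modular equation between `x` and `z` and its behaviour at the cusps. -/
structure PolyChart (q : ℕ) (W : Type*) [CommRing W] [IsLocalRing W] {L : Type*} [Field L]
    [Algebra W L] (x z : L) where
  /-- the values at the cusps -/
  cusps : Finset W
  zero_mem : (0 : W) ∈ cusps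
  cusps_residue_injective : Set.InjOn (residue W) (cusps : Set W)
  /-- the action of `q` on the cusps -/
  conj : W → W
  conj_mem : ∀ a ∈ cusps, conj a ∈ cusps
  conj_conj : ∀ a ∈ cusps, conj (conj a) = a
  /-- the modular equation -/
  Φ : Polynomial (Polynomial W)
  monic : Φ.Monic
  natDegree_eq : Φ.natDegree = q + 1
  symm : ∀ i j : ℕ, (Φ.coeff i).coeff j = (Φ.coeff j).coeff i
  kronecker : Φ.map (mapRingHom (residue W)) = (X - C (X ^ q)) * (X ^ q - C X)
  root : evalTwo Φ x z = 0
  cusp_fibre : ∀ a ∈ cusps, Φ.map (evalRingHom a) = (X - C (conj a)) ^ (q + 1)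

namespace PolyChart

variable {q : ℕ} {W : Type*} [CommRing W] [IsDomain W] [IsLocalRing W] {L : Type*} [Field L]
  [Algebra W L] {x z : L} (P : PolyChart q W x z)

theorem conj_residue {a : W} (ha : a ∈ P.cusps) :
    residue W (P.conj a) = residue W a ^ q := by
  have h := congrArg (Polynomial.map (residue W)) (P.cusp_fibre a ha)
  rw [map_map] at h
  have e : (residue W).comp (evalRingHom a) = (evalRingHom (residue W a)).comp
      (mapRingHom (residue W)) :=
    ringHom_ext (fun c => by simp) (by simp)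
  rw [e, ← map_map, P.kronecker] at h
  have h' := congrArg (eval (residue W a ^ q)) h
  simp only [Polynomial.map_mul, Polynomial.map_sub, map_X, map_C, Polynomial.map_pow, coe_evalRingHom,
    eval_pow, eval_X, eval_mul, eval_sub, eval_C, sub_self, zero_mul] at h'
  exact (sub_eq_zero.mp (eq_zero_of_pow_eq_zero h'.symm)).symm

theorem conj_zero (hq : 0 < q) : P.conj 0 = 0 :=
  P.cusps_residue_injective (P.conj_mem _ P.zero_mem) P.zero_mem
    (by rw [P.conj_residue P.zero_mem, map_zero, zero_pow hq.ne'])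

theorem isUnit_of_mem {a : W} (ha : a ∈ P.cusps) (h0 : a ≠ 0) : IsUnit a := by
  rw [← residue_ne_zero_iff_isUnit]
  exact fun h => h0 (P.cusps_residue_injective ha P.zero_mem (by rw [h, map_zero]))

theorem inverse_inverse {a : W} (ha : a ∈ P.cusps) : (a⁻¹ʳ)⁻¹ʳ = a := by
  rcases eq_or_ne a 0 with rfl | h0
  · simp
  · obtain ⟨u, rfl⟩ := P.isUnit_of_mem ha h0
    simp

theorem residue_inverse {a : W} (ha : a ∈ P.cusps) :
    residue W a⁻¹ʳ = (residue W a)⁻¹ := by
  rcases eq_or_ne a 0 with rfl | h0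
  · simp
  · obtain ⟨u, rfl⟩ := P.isUnit_of_mem ha h0
    rw [Ring.inverse_unit]
    exact map_units_inv (residue W) u

/-- The chart at infinity. -/
def inv (hq : 0 < q) (hx : x ≠ 0) (hz : z ≠ 0) : PolyChart q W x⁻¹ z⁻¹ where
  cusps := by classical exact P.cusps.image Ring.inverse
  zero_mem := by
    classical
    exact Finset.mem_image.mpr ⟨0, P.zero_mem, Ring.inverse_zero W⟩
  cusps_residue_injective := by
    classical
    intro a ha b hb h
    obtain ⟨a', ha', rfl⟩ := Finset.mem_image.mp ha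
    obtain ⟨b', hb', rfl⟩ := Finset.mem_image.mp hb
    rw [P.residue_inverse ha', P.residue_inverse hb', inv_inj] at h
    rw [P.cusps_residue_injective ha' hb' h]
  conj := fun a => (P.conj a⁻¹ʳ)⁻¹ʳ
  conj_mem := by
    classical
    intro a ha
    obtain ⟨a', ha', rfl⟩ := Finset.mem_image.mp ha
    rw [P.inverse_inverse ha']
    exact Finset.mem_image_of_mem _ (P.conj_mem a' ha')
  conj_conj := by
    classical
    intro a ha
    obtain ⟨a', ha', rfl⟩ := Finset.mem_image.mp ha
    rw [P.inverse_inverse ha', P.inverse_inverse (P.conj_mem a' ha'), P.conj_conj a' ha']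
  Φ := revTwo (q + 1) P.Φ
  monic := by
    refine monic_of_natDegree_le_of_coeff_eq_one (q + 1) (natDegree_revTwo_le P.natDegree_eq.le) ?_
    ext j
    have h := congrArg (fun p => coeff p (revAt (q + 1) j)) (P.cusp_fibre 0 P.zero_mem)
    simp only [coeff_map, coe_evalRingHom, ← coeff_zero_eq_eval_zero, P.conj_zero hq, C_0, sub_zero,
      coeff_X_pow] at h
    rw [coeff_revTwo P.natDegree_eq.le, revAt_le le_rfl, Nat.sub_self, P.symm, h, coeff_one]
    refine if_congr ⟨fun e => ?_, fun e => e ▸ revAt_zero _⟩ rfl rfl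
    rw [← revAt_invol (N := q + 1) (i := j), e, revAt_le le_rfl, Nat.sub_self]
  natDegree_eq := by
    refine natDegree_eq_of_le_of_coeff_ne_zero (natDegree_revTwo_le P.natDegree_eq.le) fun h => ?_
    have h' := congrArg (fun p : W[X] => p.coeff 0) h
    simp only [coeff_revTwo P.natDegree_eq.le, revAt_le (le_refl (q + 1)), Nat.sub_self, revAt_zero,
      coeff_zero] at h'
    rw [P.symm, ← P.natDegree_eq, coeff_natDegree, P.monic.leadingCoeff, coeff_one_zero] at h'
    exact one_ne_zero h'
  symm i j := by rw [coeff_revTwo P.natDegree_eq.le, coeff_revTwo P.natDegree_eq.le, P.symm]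
  kronecker := by
    rw [revTwo_map _ P.natDegree_eq.le, P.kronecker, revTwo_kronecker q hq
      (P.kronecker ▸ natDegree_map_le.trans P.natDegree_eq.le)]
  root := by
    have h := evalTwo_revTwo_mul P.natDegree_eq.le P.symm hx hz
    rw [P.root] at h
    exact (mul_eq_zero.mp h).resolve_right (mul_ne_zero (pow_ne_zero _ hx) (pow_ne_zero _ hz))
  cusp_fibre := by
    classical
    intro b hb
    obtain ⟨a, ha, rfl⟩ := Finset.mem_image.mp hb
    rw [P.inverse_inverse ha]
    rcases eq_or_ne a 0 with rfl | h0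
    · rw [Ring.inverse_zero, P.conj_zero hq, Ring.inverse_zero, C_0, sub_zero]
      ext i
      rw [coeff_map, coe_evalRingHom, ← coeff_zero_eq_eval_zero, coeff_revTwo P.natDegree_eq.le,
        revAt_zero, P.symm, ← P.natDegree_eq, coeff_natDegree, P.monic.leadingCoeff, coeff_one,
        coeff_X_pow, P.natDegree_eq]
      refine if_congr ⟨fun e => ?_, fun e => ?_⟩ rfl rfl
      · rw [← revAt_invol (N := q + 1) (i := i), e, revAt_zero]
      · rw [e, revAt_le le_rfl, Nat.sub_self]
    · have hu := P.isUnit_of_mem ha h0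
      have hc : IsUnit (P.conj a) := P.isUnit_of_mem (P.conj_mem a ha) fun e => h0 <| by
        rw [← P.conj_conj a ha, e, P.conj_zero hq]
      have e : (revTwo (q + 1) P.Φ).map (evalRingHom a⁻¹ʳ) =
          C ((-(a⁻¹ʳ * P.conj a)) ^ (q + 1)) * (X - C (P.conj a)⁻¹ʳ) ^ (q + 1) := by
        rw [map_eval_revTwo P.natDegree_eq.le P.symm (Ring.mul_inverse_cancel _ hu),
          P.cusp_fibre a ha, reflect_X_sub_C_pow, map_pow, map_pow, ← mul_pow, ← mul_pow]
        congr 1
        have h1 : C (P.conj a) * C (P.conj a)⁻¹ʳ = (1 : W[X]) := by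
          rw [← C_mul, Ring.mul_inverse_cancel _ hc, C_1]
        rw [map_neg, C_mul]
        linear_combination (-C (a⁻¹ʳ)) * h1
      have hl : coeff ((revTwo (q + 1) P.Φ).map (evalRingHom a⁻¹ʳ)) (q + 1) = 1 := by
        rw [coeff_map]
        have : (revTwo (q + 1) P.Φ).coeff (q + 1) = 1 := by
          ext j
          have h := congrArg (fun p => coeff p (revAt (q + 1) j)) (P.cusp_fibre 0 P.zero_mem)
          simp only [coeff_map, coe_evalRingHom, ← coeff_zero_eq_eval_zero, P.conj_zero hq, C_0,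
            sub_zero, coeff_X_pow] at h
          rw [coeff_revTwo P.natDegree_eq.le, revAt_le le_rfl, Nat.sub_self, P.symm, h, coeff_one]
          refine if_congr ⟨fun e => ?_, fun e => e ▸ revAt_zero _⟩ rfl rfl
          rw [← revAt_invol (N := q + 1) (i := j), e, revAt_le le_rfl, Nat.sub_self]
        rw [this, map_one]
      have hm : ((X - C (P.conj a)⁻¹ʳ : W[X]) ^ (q + 1)).coeff (q + 1) = 1 := by
        have := ((monic_X_sub_C (P.conj a)⁻¹ʳ).pow (q + 1)).coeff_natDegree
        rwa [natDegree_pow, natDegree_X_sub_C, mul_one] at this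
      rw [e, coeff_C_mul, hm, mul_one] at hl
      rw [e, hl, C_1, one_mul]

end PolyChart

end FermatAgent.BadRed.Carayol.Instance
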