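import Fermat.Prelude.Def_ModularCurve_X0
import Mathlib.Data.Nat.Squarefree

/-!
# `ψ (M q)` for a prime `q`
-/

set_option autoImplicit false

open ModularCurve

namespace FermatAgent.BadRed.Carayol.Instance

theorem dedekindPsi_mul_dvd {M q : ℕ} (hq : q.Prime) (hM : M ≠ 0) (h : q ∣ M) :
    dedekindPsi (M * q) = q * dedekindPsi M := by
  have hset : (M * q).divisors.filter Squarefree = M.divisors.filter Squarefree := by
    ext d
    simp only [Finset.mem_filter, Nat.mem_divisors, ne_eq, mul_eq_zero, hq.ne_zero, hM, or_self,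
      not_false_eq_true, and_true]
    refine ⟨fun ⟨hd, hs⟩ => ⟨?_, hs⟩, fun ⟨hd, hs⟩ => ⟨hd.mul_right q, hs⟩⟩
    by_cases hqd : q ∣ d
    · obtain ⟨e, rfl⟩ := hqd
      have hcop : q.Coprime e := Nat.coprime_of_squarefree_mul hs
      refine hcop.mul_dvd_of_dvd_of_dvd h ?_
      exact hcop.symm.dvd_of_dvd_mul_right (dvd_trans (dvd_mul_left e q) hd)
    · exact ((hq.coprime_iff_not_dvd.mpr hqd).symm).dvd_of_dvd_mul_right hd
  rw [dedekindPsi, hset, dedekindPsi, Finset.mul_sum]
  refine Finset.sum_congr rfl fun d hd => ?_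
  simp only [Finset.mem_filter, Nat.mem_divisors] at hd
  rw [mul_comm M q, Nat.mul_div_assoc q hd.1.1]

theorem dedekindPsi_mul_prime {M q : ℕ} (hq : q.Prime) (hM : M ≠ 0) (h : ¬ q ∣ M) :
    dedekindPsi (M * q) = (q + 1) * dedekindPsi M := by
  classical
  set S := M.divisors.filter Squarefree with hS
  have hcop : ∀ d, d ∣ M → d.Coprime q := fun d hd =>
    ((hq.coprime_iff_not_dvd.mpr fun hqd => h (hqd.trans hd))).symm
  have hset : (M * q).divisors.filter Squarefree = S ∪ S.image (· * q) := by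
    ext d
    simp only [hS, Finset.mem_filter, Nat.mem_divisors, Finset.mem_union, Finset.mem_image, ne_eq,
      mul_eq_zero, hq.ne_zero, hM, or_self, not_false_eq_true, and_true]
    constructor
    · rintro ⟨hd, hs⟩
      by_cases hqd : q ∣ d
      · obtain ⟨e, rfl⟩ := hqd
        refine Or.inr ⟨e, ⟨?_, Squarefree.squarefree_of_dvd (dvd_mul_left e q) hs⟩, mul_comm _ _⟩
        rw [mul_comm M q] at hd
        exact Nat.dvd_of_mul_dvd_mul_left hq.pos hd
      · exact Or.inl ⟨((hq.coprime_iff_not_dvd.mpr hqd).symm).dvd_of_dvd_mul_right hd, hs⟩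
    · rintro (⟨hd, hs⟩ | ⟨e, ⟨he, hs⟩, rfl⟩)
      · exact ⟨hd.mul_right q, hs⟩
      · exact ⟨mul_dvd_mul_right he q, (Nat.squarefree_mul (hcop e he)).mpr ⟨hs, hq.squarefree⟩⟩
  have hdisj : Disjoint S (S.image (· * q)) := by
    rw [Finset.disjoint_left]
    intro d hd hd'
    simp only [hS, Finset.mem_filter, Nat.mem_divisors] at hd
    obtain ⟨e, -, rfl⟩ := Finset.mem_image.mp hd'
    exact h ((dvd_mul_left q e).trans hd.1.1)
  rw [dedekindPsi, hset, Finset.sum_union hdisj,
    Finset.sum_image fun a _ b _ hab => Nat.eq_of_mul_eq_mul_right hq.pos hab, dedekindPsi, ← hS,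
    Finset.mul_sum, ← Finset.sum_add_distrib]
  refine Finset.sum_congr rfl fun d hd => ?_
  simp only [hS, Finset.mem_filter, Nat.mem_divisors] at hd
  rw [Nat.mul_div_mul_right _ _ hq.pos, mul_comm M q, Nat.mul_div_assoc q hd.1.1]
  ring

end FermatAgent.BadRed.Carayol.Instance
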