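import Fermat.Agent.Curve.Diff.Hurwitz

/-!
# An upper bound for the ramification divisor in any characteristic
-/

set_option autoImplicit false

noncomputable section

open AlgebraicCurve IntermediateField Polynomial FermatAgent.Curve.RR FermatAgent.Curve.Diff

namespace FermatAgent.BadRed.Carayol.Instance

open FermatAgent.Curve

variable {K F : Type*} [Field K] [Field F] [Algebra K F] [IsAlgClosed K] [IsFunctionField1 K F]
variable {L : Type*} [Field L] [Algebra K L] [Algebra L F] [IsScalarTower K L F]
variable [FiniteDimensional L F] [Algebra.IsSeparable L F] [RRSetting K F] {u : L}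

omit [RRSetting K F] in
/-- Coordinates in the trace dual basis of a space bounded by `Ram + m·D∞`. -/
theorem ell_ram_le {n : ℕ} {b : Module.Basis (Fin n) L F} {r : Fin n → ℕ}
    (h : IsLatticeBasis K u b r) (hu : IsGen K u) (m : ℤ) :
    ell (ramDivisor hu + m • poleDivisor (F := F) K u) ≤ ∑ i, (m + r i + 1).toNat := by
  classical
  let φ : ((i : Fin n) → degreeLT K (m + r i + 1).toNat) →ₗ[K] F :=
    { toFun := fun p => ∑ i, Polynomial.aeval u (p i : K[X]) • b.traceDual i
      map_add' := fun p q => by simp [add_smul, Finset.sum_add_distrib]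
      map_smul' := fun a p => by simp [Finset.smul_sum, smul_assoc] }
  have hle : riemannRochSpace (ramDivisor hu + m • poleDivisor (F := F) K u) ≤ φ.range := by
    intro f hf
    obtain ⟨hfin, hinf⟩ := (mem_riemannRochSpace_ram_iff hu f m).mp hf
    choose p hp using fun i => h.exists_trace_eq_aeval hu hfin i
    have hd : ∀ i, p i ∈ degreeLT K (m + r i + 1).toNat := fun i =>
      (mem_degreeLT_toNat_iff (p i) _).mpr (h.natDegree_trace_le hu hinf i (hp i))
    refine ⟨fun i => ⟨p i, hd i⟩, b.traceDual.ext_elem fun i => ?_⟩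
    show b.traceDual.repr (∑ i, Polynomial.aeval u (p i) • b.traceDual i) i = _
    rw [b.traceDual.repr_sum_self, Module.Basis.traceDual_repr_apply, Algebra.traceForm_apply,
      hp i]
  have : Module.Finite K ((i : Fin n) → degreeLT K (m + r i + 1).toNat) := by
    have : ∀ i : Fin n, Module.Finite K (degreeLT K (m + r i + 1).toNat) := fun i =>
      Module.Finite.equiv (degreeLTEquiv K _).symm
    infer_instance
  refine (Submodule.finrank_mono hle).trans ((LinearMap.finrank_range_le φ).trans ?_)
  have : ∀ i : Fin n, Module.Free K (degreeLT K (m + r i + 1).toNat) := fun i =>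
    Module.Free.of_equiv (degreeLTEquiv K _).symm
  have : ∀ i : Fin n, Module.Finite K (degreeLT K (m + r i + 1).toNat) := fun i =>
    Module.Finite.equiv (degreeLTEquiv K _).symm
  rw [Module.finrank_pi_fintype]
  exact le_of_eq (Finset.sum_congr rfl fun i _ => by
    rw [(degreeLTEquiv K _).finrank_eq, Module.finrank_fin_fun])

/-- `deg Ram ≤ 2g - 2 + 2n`. -/
theorem degree_ramDivisor_le (hu : IsGen K u) :
    Divisor.degree (ramDivisor (F := F) hu)
      ≤ 2 * (genusFF K F : ℤ) - 2 + 2 * Module.finrank L F := by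
  obtain ⟨b, r, h⟩ := exists_latticeBasis (F := F) hu
  have hdeg : Divisor.degree (poleDivisor (F := F) K u) = (Module.finrank L F) := degree_poleDivisor hu
  have hpos : 0 < (Module.finrank L F) := Module.finrank_pos
  set g := genusFF K F
  set M : ℕ := 2 * g + ∑ i, r i
  have hr : ∀ i, r i ≤ M := fun i =>
    (Finset.single_le_sum (fun j _ => Nat.zero_le (r j)) (Finset.mem_univ i)).trans (by omega)
  have hMn : (2 * g : ℤ) ≤ (M : ℤ) * (Module.finrank L F) := by
    have : 2 * g ≤ M * (Module.finrank L F) := le_trans (by omega) (Nat.le_mul_of_pos_right M hpos)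
    exact_mod_cast this
  have hramnn : 0 ≤ Divisor.degree (ramDivisor (F := F) hu) :=
    FermatAgent.Curve.RR.degree_nonneg (Finsupp.le_def.mpr fun Q => by
      rw [ramDivisor_apply]
      have := ramIdx_pos (F := F) hu Q
      simp only [Finsupp.coe_zero, Pi.zero_apply]
      omega)
  have h1 := ell_eq_of_degree_ge (D := (M : ℤ) • poleDivisor (F := F) K u) (by
    rw [map_zsmul, hdeg, smul_eq_mul]; omega)
  have h2 := ell_eq_of_degree_ge (D := ramDivisor hu + (M : ℤ) • poleDivisor (F := F) K u) (by
    rw [map_add, map_zsmul, hdeg, smul_eq_mul]; omega)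
  have h3 : (ell (ramDivisor hu + (M : ℤ) • poleDivisor (F := F) K u) : ℤ) ≤
      ((∑ i, ((M : ℤ) + r i + 1).toNat : ℕ) : ℤ) := by exact_mod_cast ell_ram_le h hu (M : ℤ)
  rw [map_zsmul, hdeg, smul_eq_mul, h.ell_smul_poleDivisor hu, Nat.cast_sum,
    Finset.sum_congr rfl (fun i _ => Int.toNat_of_nonneg (by have := hr i; omega)),
    Finset.sum_add_distrib, Finset.sum_sub_distrib] at h1
  rw [map_add, map_zsmul, hdeg, smul_eq_mul] at h2
  rw [h2, Nat.cast_sum, Finset.sum_congr rfl (fun i _ => Int.toNat_of_nonneg (by omega)),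
    Finset.sum_add_distrib, Finset.sum_add_distrib] at h3
  simp only [Finset.sum_const, Finset.card_univ, Fintype.card_fin, nsmul_eq_mul, mul_one] at h1 h3
  linarith [mul_comm ((Module.finrank L F) : ℤ) (M : ℤ)]

end FermatAgent.BadRed.Carayol.Instance
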