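import Fermat.Agent.BadRed.Carayol.Instance.Orbit
import Mathlib.NumberTheory.NumberField.Cyclotomic.Basic
import Mathlib.NumberTheory.NumberField.InfinitePlace.Embeddings

/-!
# Expansions of the conjugates of `u(qτ)`
-/

set_option autoImplicit false

noncomputable section

open UpperHalfPlane hiding I
open Complex Filter Function CongruenceSubgroup Polynomial
open scoped Real Topology MatrixGroups Manifold ModularForm
open FermatAgent.ModFun
open scoped NumberField

namespace FermatAgent.BadRed.Carayol.Instance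

variable {q : ℕ} [NeZero q] (H : Hauptmodul q)

/-- The expansion of `u`, over `ℤ`. -/
def uSeries : LaurentSeries ℤ :=
  HahnSeries.single (-1 : ℤ) 1 * HahnSeries.ofPowerSeries ℤ ℤ H.series

omit [NeZero q] in
theorem qLaurent_u_eq : qLaurent H.u = ModularCurve.coeffMap (Int.castRingHom ℂ) (uSeries H) := by
  rw [H.qLaurent_u, uSeries, map_mul, ModularCurve.coeffMap_single,
    FermatAgent.ES.coeffMap_ofPowerSeries']
  simp

omit [NeZero q] in
theorem poleLE_uSeries : PoleLE 1 (uSeries H) := by
  simpa [uSeries] using poleLE_single_mul 1 H.series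

omit [NeZero q] in
theorem coeff_uSeries_top : (uSeries H).coeff (-1) = 1 := by
  rw [uSeries, HahnSeries.coeff_single_mul, one_mul, show (-1 : ℤ) - -1 = ((0 : ℕ) : ℤ) by simp,
    HahnSeries.ofPowerSeries_apply_coeff, PowerSeries.coeff_zero_eq_constantCoeff,
    H.constantCoeff_series]

variable {R S : Type*} [CommRing R] [CommRing S]

/-- Expansion in `q` of the conjugate `i`, after `τ ↦ qτ`, for a `q`-th root of unity `z`. -/
def rootSeries (z : Rˣ) : Option (ZMod q) → LaurentSeries R
  | none => ModularCurve.qExpand R (q * q) (ModularCurve.coeffMap (Int.castRingHom R) (uSeries H))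
  | some x => twist (z ^ x.val) (ModularCurve.coeffMap (Int.castRingHom R) (uSeries H))

/-- The polynomial with these roots. -/
def rootPoly (z : Rˣ) : Polynomial (LaurentSeries R) :=
  ∏ i : Option (ZMod q), (X - C (rootSeries H z i))

theorem coeffMap_rootSeries (f : R →+* S) (z : Rˣ) (i : Option (ZMod q)) :
    ModularCurve.coeffMap f (rootSeries H z i) = rootSeries H (Units.map f.toMonoidHom z) i := by
  cases i <;> simp only [rootSeries, coeffMap_comm_qExpand, coeffMap_twist,
    ModularCurve.coeffMap_coeffMap, RingHom.ext_int (f.comp (Int.castRingHom R)) (Int.castRingHom S),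
    map_pow]

theorem map_rootPoly (f : R →+* S) (z : Rˣ) :
    (rootPoly H z).map (ModularCurve.coeffMap f) = rootPoly H (Units.map f.toMonoidHom z) := by
  simp [rootPoly, Polynomial.map_prod, coeffMap_rootSeries]

theorem poleLE_rootPoly (z : Rˣ) (k : ℕ) : PoleLE (q * q + q) ((rootPoly H z).coeff k) := by
  have := poleLE_coeff_prod Finset.univ (rootSeries H z)
    (fun i => i.elim (q * q) fun _ => 1) (fun i _ => ?_) k
  · simpa [rootPoly, Fintype.sum_option, Fintype.prod_option, ZMod.card] using this
  · cases i with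
    | none =>
      simpa [rootSeries] using ((poleLE_uSeries H).coeffMap (Int.castRingHom R)).qExpand (q * q)
    | some x => exact ((poleLE_uSeries H).coeffMap _).twist _

omit [NeZero q] in
theorem pow_mod_eq {M : Type*} [Monoid M] {z : M} (hz : z ^ q = 1) (n : ℕ) :
    z ^ (n % q) = z ^ n := by
  conv_rhs => rw [← Nat.div_add_mod n q, pow_add, pow_mul, hz, one_pow, one_mul]

theorem rootPoly_pow (z : Rˣ) (hz : z ^ q = 1) {j : ℕ} (hj : j.Coprime q) :
    rootPoly H (z ^ j) = rootPoly H z := by
  refine Fintype.prod_equiv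
    (Equiv.optionCongr (Units.mulLeft (ZMod.unitOfCoprime j hj))) _ _ fun i => ?_
  cases i with
  | none => rfl
  | some x =>
    simp only [Equiv.optionCongr_apply, Option.map_some, rootSeries, Units.mulLeft_apply,
      ZMod.coe_unitOfCoprime]
    rw [ZMod.val_mul, ZMod.val_natCast, Nat.mod_mul_mod, pow_mod_eq hz, pow_mul]

theorem qMove_dil_none (τ : ℍ) : qMove q none (dil q τ) = dil (q * q) τ := by
  rw [qMove_none, dil_dil]

theorem qMove_dil_some (x : ZMod q) (τ : ℍ) :
    qMove q (some x) (dil q τ) = ((x.val : ℝ) / q) +ᵥ τ := by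
  have : (q : ℂ) ≠ 0 := by exact_mod_cast NeZero.ne q
  ext1
  simp [qMove, coe_aff, coe_dil, -ZMod.natCast_val]
  field_simp
  ring

/-- A primitive `q`-th root of unity in `ℂ`. -/
def rootC (q : ℕ) : ℂˣ := expUnit (1 / q)

theorem isPrimitiveRoot_rootC : IsPrimitiveRoot ((rootC q : ℂˣ) : ℂ) q := by
  convert Complex.isPrimitiveRoot_exp q (NeZero.ne q) using 1
  simp [rootC, expUnit]
  ring_nf

theorem rootFun_dil_mem (i : Option (ZMod q)) : (fun τ => rootFun H i (dil q τ)) ∈ cuspRing := by
  have hu := levelRing_le_cuspRing H.L H.mem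
  cases i with
  | none => simp only [rootFun, qMove_dil_none]; exact mem_cuspRing_comp_dil hu (q * q)
  | some x => simp only [rootFun, qMove_dil_some]; exact mem_cuspRing_comp_vadd hu _

theorem qLaurent_rootFun (i : Option (ZMod q)) :
    qLaurent (fun τ => rootFun H i (dil q τ)) = rootSeries H (rootC q) i := by
  have hu := levelRing_le_cuspRing H.L H.mem
  cases i with
  | none =>
    simp only [rootFun, qMove_dil_none, rootSeries, ← qLaurent_u_eq]
    exact qLaurent_comp_dil hu (q * q)
  | some x =>
    simp only [rootFun, qMove_dil_some, rootSeries, ← qLaurent_u_eq]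
    rw [qLaurent_comp_vadd hu]
    congr 2
    ext1
    simp only [rootC, expUnit, Units.val_mk0, Units.val_pow_eq_pow_val, ← Complex.exp_nat_mul]
    congr 1
    push_cast
    ring

set_option backward.isDefEq.respectTransparency false in
/-- Symmetric functions of the expansions have integral coefficients. -/
theorem exists_int_series [Fact q.Prime] (k : ℕ) :
    ∃ s : LaurentSeries ℤ,
      (rootPoly H (rootC q)).coeff k = ModularCurve.coeffMap (Int.castRingHom ℂ) s := by
  have : NumberField (CyclotomicField q ℚ) := IsCyclotomicExtension.numberField {q} ℚ _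
  have : IsGalois ℚ (CyclotomicField q ℚ) := IsCyclotomicExtension.isGalois {q} ℚ _
  set ι : CyclotomicField q ℚ →+* ℂ :=
    Classical.arbitrary (CyclotomicField q ℚ →+* ℂ) with hι
  have hζ := IsCyclotomicExtension.zeta_spec q ℚ (CyclotomicField q ℚ)
  obtain ⟨m, -, hm⟩ := (hζ.map_of_injective ι.injective).eq_pow_of_pow_eq_one
    (isPrimitiveRoot_rootC (q := q)).pow_eq_one
  set z : CyclotomicField q ℚ := IsCyclotomicExtension.zeta q ℚ (CyclotomicField q ℚ) ^ m with hz
  have hιz : ι z = rootC q := by rw [hz, map_pow, hm]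
  have hzp : IsPrimitiveRoot z q :=
    IsPrimitiveRoot.of_map_of_injective (f := ι) (hιz ▸ isPrimitiveRoot_rootC) ι.injective
  have hzint : IsIntegral ℤ z := hzp.isIntegral (NeZero.pos q)
  set z₀ : (𝓞 (CyclotomicField q ℚ))ˣ := Units.ofPowEqOne ⟨z, hzint⟩ q
    (NumberField.RingOfIntegers.ext (by simpa using hzp.pow_eq_one)) (NeZero.ne q) with hz₀
  set a : (𝓞 (CyclotomicField q ℚ)) →+* CyclotomicField q ℚ := algebraMap _ _ with ha
  set zK : (CyclotomicField q ℚ)ˣ := Units.map a.toMonoidHom z₀ with hzK
  have hzKv : (zK : CyclotomicField q ℚ) = z := by simp [hzK, hz₀, ha]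
  have hC : Units.map ι.toMonoidHom zK = rootC q := by
    ext1; simp [hzKv, hιz]
  set s : LaurentSeries (𝓞 (CyclotomicField q ℚ)) := (rootPoly H z₀).coeff k with hs
  have hsK : (rootPoly H zK).coeff k = ModularCurve.coeffMap a s := by
    rw [hs, ← Polynomial.coeff_map, map_rootPoly]
  have hsC : (rootPoly H (rootC q)).coeff k
      = ModularCurve.coeffMap (ι.comp a) s := by
    rw [← ModularCurve.coeffMap_coeffMap, ← hsK, ← Polynomial.coeff_map, map_rootPoly, hC]
  have hrat : ∀ n : ℤ, ∃ c : ℤ, (a (s.coeff n)) = c := fun n => by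
    have hfix : ∀ σ : CyclotomicField q ℚ ≃ₐ[ℚ] CyclotomicField q ℚ,
        σ (a (s.coeff n)) = a (s.coeff n) := fun σ => by
      obtain ⟨j, hjlt, hj⟩ := hzp.eq_pow_of_pow_eq_one (ξ := σ z)
        (by rw [← map_pow, hzp.pow_eq_one, map_one])
      have hjc : j.Coprime q :=
        (hzp.pow_iff_coprime (NeZero.pos q) j).mp
          (hj ▸ hzp.map_of_injective (f := σ.toAlgHom.toRingHom) σ.injective)
      have hunit : Units.map (σ.toAlgHom.toRingHom).toMonoidHom zK = zK ^ j := by
        ext1; simp [hzKv, hj]
      have h1 : ModularCurve.coeffMap σ.toAlgHom.toRingHom ((rootPoly H zK).coeff k)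
          = (rootPoly H zK).coeff k := by
        rw [← Polynomial.coeff_map, map_rootPoly, hunit, rootPoly_pow H zK ?_ hjc]
        ext1; simp [hzKv, hzp.pow_eq_one]
      have h2 := congrArg (fun t : LaurentSeries (CyclotomicField q ℚ) => t.coeff n) h1
      simp only [hsK, ModularCurve.coeffMap_coeff] at h2
      exact h2
    obtain ⟨r, hr⟩ := (IsGalois.mem_range_algebraMap_iff_fixed (a (s.coeff n))).mpr hfix
    have hri : IsIntegral ℤ r := by
      rw [← isIntegral_algebraMap_iff (algebraMap ℚ (CyclotomicField q ℚ)).injective, hr]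
      exact NumberField.RingOfIntegers.isIntegral_coe _
    obtain ⟨c, hc⟩ := IsIntegrallyClosed.isIntegral_iff.mp hri
    exact ⟨c, by rw [← hr, ← hc]; simp⟩
  choose c hc using hrat
  have hsupp : Function.support c ⊆ Function.support s.coeff := fun n hn h => hn (by
    have := hc n
    rw [h, map_zero] at this
    exact_mod_cast this.symm)
  refine ⟨⟨c, s.isPWO_support'.mono hsupp⟩, ?_⟩
  rw [hsC]
  ext n
  simp [hc]

end FermatAgent.BadRed.Carayol.Instance
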